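/-
GATE-P (S56) / [P-GW] / E3a (helper86): the `⋆`-action.

`G` a group, `H₀ ≤ H ≤ G` subgroups with `H₀` normalised by `H`, `Y : Rep k H`.  On the big
coinduced module `W_Y := Coind_{H₀}^G (Res_{H₀} Y)` (functions `f : G → Y` with
`f (s * g) = s • f g` for `s ∈ H₀`, `G` acting by right translation) the group `H` acts by
`G`-equivariant automorphisms
  `(n ⋆ f) g = n • f (n⁻¹ * g)`,
trivially on `H₀`; the invariants of this action are exactly `Coind_H^G Y`.  When the index
`[H : H₀]` is finite and invertible in `k`, the averaging operator is a `G`-equivariant idempotent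
of `W_Y` with image `Coind_H^G Y`: `Coind_H^G Y` is a RETRACT of `W_Y`.
Mathlib only.
-/
import Mathlib

set_option autoImplicit false

open CategoryTheory

noncomputable section

namespace Fermat.Agent.GP.GW.E3

universe u

variable {k G : Type u} [CommRing k] [Group G]

/-- The data: `H₀ ≤ H ≤ G`, `H₀` normalised by `H`. -/
structure NormPair (G : Type u) [Group G] where
  /-- the big subgroup -/
  H : Subgroup G
  /-- the small subgroup -/
  H₀ : Subgroup G
  le : H₀ ≤ H
  conj_mem : ∀ n ∈ H, ∀ s ∈ H₀, n * s * n⁻¹ ∈ H₀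

namespace NormPair

variable (P : NormPair G)

lemma conj_mem' {n : G} (hn : n ∈ P.H) {s : G} (hs : s ∈ P.H₀) : n⁻¹ * s * n ∈ P.H₀ := by
  have := P.conj_mem n⁻¹ (P.H.inv_mem hn) s hs
  simpa using this

/-- the inclusion `H₀ → H` -/
abbrev incl : P.H₀ →* P.H := Subgroup.inclusion P.le

/-- `Res_{H₀} Y` -/
abbrev res₀ (Y : Rep.{u} k P.H) : Rep.{u} k P.H₀ := Rep.res P.incl Y

/-- the big module `W_Y = Coind_{H₀}^G Res_{H₀} Y` -/
abbrev big (Y : Rep.{u} k P.H) : Rep.{u} k G := Rep.coind P.H₀.subtype (P.res₀ Y)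

/-- the small module `Coind_H^G Y` -/
abbrev small (Y : Rep.{u} k P.H) : Rep.{u} k G := Rep.coind P.H.subtype Y

variable {P}

lemma big_prop (Y : Rep.{u} k P.H) (f : P.big Y) (s : P.H₀) (g : G) :
    f.1 ((s : G) * g) = Y.ρ (P.incl s) (f.1 g) := f.2 s g

lemma small_prop (Y : Rep.{u} k P.H) (f : P.small Y) (h : P.H) (g : G) :
    f.1 ((h : G) * g) = Y.ρ h (f.1 g) := f.2 h g

lemma big_ρ_apply (Y : Rep.{u} k P.H) (f : P.big Y) (x g : G) :
    ((P.big Y).ρ x f).1 g = f.1 (g * x) := rfl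

lemma small_ρ_apply (Y : Rep.{u} k P.H) (f : P.small Y) (x g : G) :
    ((P.small Y).ρ x f).1 g = f.1 (g * x) := rfl

/-! ### The `⋆`-action -/

/-- the function `g ↦ n • f (n⁻¹ g)` -/
def starFun (Y : Rep.{u} k P.H) (n : P.H) (f : P.big Y) (g : G) : Y :=
  Y.ρ n (f.1 ((n : G)⁻¹ * g))

lemma starFun_mem (Y : Rep.{u} k P.H) (n : P.H) (f : P.big Y) :
    starFun Y n f ∈ Representation.coindV P.H₀.subtype (P.res₀ Y).ρ := by
  intro s g
  show Y.ρ n (f.1 ((n : G)⁻¹ * ((s : G) * g))) = Y.ρ (P.incl s) (Y.ρ n (f.1 ((n : G)⁻¹ * g)))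
  have hmem : (n : G)⁻¹ * (s : G) * (n : G) ∈ P.H₀ := P.conj_mem' n.2 s.2
  have h1 : (n : G)⁻¹ * ((s : G) * g) =
      ((⟨(n : G)⁻¹ * (s : G) * (n : G), hmem⟩ : P.H₀) : G) * ((n : G)⁻¹ * g) := by
    simp only [mul_assoc, mul_inv_cancel_left]
  rw [h1, big_prop]
  have h2 : n * P.incl ⟨(n : G)⁻¹ * (s : G) * (n : G), hmem⟩ = P.incl s * n := by
    apply Subtype.ext
    simp [mul_assoc]
  rw [← Module.End.mul_apply, ← map_mul, h2, map_mul, Module.End.mul_apply]

/-- `n ⋆ -` as a linear endomorphism of `W_Y`. -/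
def starLin (Y : Rep.{u} k P.H) (n : P.H) : P.big Y →ₗ[k] P.big Y where
  toFun f := ⟨starFun Y n f, starFun_mem Y n f⟩
  map_add' f f' := by
    apply Subtype.ext
    funext g
    show Y.ρ n ((f + f').1 _) = Y.ρ n (f.1 _) + Y.ρ n (f'.1 _)
    rw [← map_add]
    rfl
  map_smul' c f := by
    apply Subtype.ext
    funext g
    show Y.ρ n ((c • f).1 _) = c • Y.ρ n (f.1 _)
    rw [← map_smul]
    rfl

@[simp] lemma starLin_apply (Y : Rep.{u} k P.H) (n : P.H) (f : P.big Y) (g : G) :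
    (starLin Y n f).1 g = Y.ρ n (f.1 ((n : G)⁻¹ * g)) := rfl

/-- **`n ⋆ -` as a `G`-equivariant endomorphism of `W_Y`.** -/
def star (Y : Rep.{u} k P.H) (n : P.H) : P.big Y ⟶ P.big Y :=
  Rep.ofHom ⟨starLin Y n, fun x => by
    ext f g
    show Y.ρ n (((P.big Y).ρ x f).1 ((n : G)⁻¹ * g)) = ((P.big Y).ρ x (starLin Y n f)).1 g
    rw [big_ρ_apply, big_ρ_apply, starLin_apply, mul_assoc]⟩

@[simp] lemma star_hom_apply (Y : Rep.{u} k P.H) (n : P.H) (f : P.big Y) (g : G) :
    ((star Y n).hom f).1 g = Y.ρ n (f.1 ((n : G)⁻¹ * g)) := rfl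

lemma star_one (Y : Rep.{u} k P.H) : star Y (1 : P.H) = 𝟙 (P.big Y) := by
  ext f g
  show ((star Y 1).hom f).1 g = f.1 g
  rw [star_hom_apply, map_one]
  simp

lemma star_mul (Y : Rep.{u} k P.H) (m n : P.H) : star Y (m * n) = star Y n ≫ star Y m := by
  ext f g
  show ((star Y (m * n)).hom f).1 g = ((star Y m).hom ((star Y n).hom f)).1 g
  rw [star_hom_apply, star_hom_apply, star_hom_apply, map_mul, Module.End.mul_apply]
  simp [mul_assoc]

/-- `⋆` is trivial on `H₀`. -/
lemma star_of_mem (Y : Rep.{u} k P.H) (n : P.H) (hn : (n : G) ∈ P.H₀) :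
    star Y n = 𝟙 (P.big Y) := by
  ext f g
  show ((star Y n).hom f).1 g = f.1 g
  rw [star_hom_apply]
  have h1 := big_prop Y f ⟨(n : G)⁻¹, P.H₀.inv_mem hn⟩ g
  have h1' : f.1 ((n : G)⁻¹ * g) = Y.ρ (P.incl ⟨(n : G)⁻¹, P.H₀.inv_mem hn⟩) (f.1 g) := h1
  rw [h1', ← Module.End.mul_apply, ← map_mul]
  have : n * P.incl ⟨(n : G)⁻¹, P.H₀.inv_mem hn⟩ = 1 := by
    apply Subtype.ext
    simp
  rw [this, map_one]
  rfl

/-! ### Naturality in `Y` -/

/-- the map `W_Y ⟶ W_{Y'}` induced by `φ : Y ⟶ Y'` -/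
def bigMap {Y Y' : Rep.{u} k P.H} (φ : Y ⟶ Y') : P.big Y ⟶ P.big Y' :=
  Rep.coindMap P.H₀.subtype ((Rep.resFunctor P.incl).map φ)

/-- the map `Coind_H Y ⟶ Coind_H Y'` induced by `φ : Y ⟶ Y'` -/
def smallMap {Y Y' : Rep.{u} k P.H} (φ : Y ⟶ Y') : P.small Y ⟶ P.small Y' :=
  Rep.coindMap P.H.subtype φ

@[simp] lemma bigMap_hom_apply {Y Y' : Rep.{u} k P.H} (φ : Y ⟶ Y') (f : P.big Y) (g : G) :
    ((bigMap φ).hom f).1 g = φ.hom (f.1 g) := rfl

@[simp] lemma smallMap_hom_apply {Y Y' : Rep.{u} k P.H} (φ : Y ⟶ Y') (f : P.small Y) (g : G) :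
    ((smallMap φ).hom f).1 g = φ.hom (f.1 g) := rfl

/-- `⋆` commutes with the maps induced on coefficients. -/
lemma star_naturality {Y Y' : Rep.{u} k P.H} (φ : Y ⟶ Y') (n : P.H) :
    star Y n ≫ bigMap φ = bigMap φ ≫ star Y' n := by
  ext f g
  show ((bigMap φ).hom ((star Y n).hom f)).1 g = ((star Y' n).hom ((bigMap φ).hom f)).1 g
  rw [bigMap_hom_apply, star_hom_apply, star_hom_apply, bigMap_hom_apply]
  exact Rep.hom_comm_apply φ n _

/-! ### `Coind_H Y` inside `W_Y` -/

/-- the inclusion `Coind_H^G Y ⟶ W_Y` -/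
def coindIncl (Y : Rep.{u} k P.H) : P.small Y ⟶ P.big Y :=
  Rep.ofHom ⟨{ toFun := fun f => ⟨f.1, fun s g => small_prop Y f (P.incl s) g⟩
               map_add' := fun _ _ => rfl
               map_smul' := fun _ _ => rfl }, fun _ => rfl⟩

@[simp] lemma coindIncl_hom_apply (Y : Rep.{u} k P.H) (f : P.small Y) (g : G) :
    ((coindIncl Y).hom f).1 g = f.1 g := rfl

lemma coindIncl_injective (Y : Rep.{u} k P.H) : Function.Injective (coindIncl Y).hom := by
  intro f f' h
  apply Subtype.ext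
  funext g
  have := congrArg (fun x : P.big Y => x.1 g) h
  exact this

lemma coindIncl_naturality {Y Y' : Rep.{u} k P.H} (φ : Y ⟶ Y') :
    coindIncl Y ≫ bigMap φ = smallMap φ ≫ coindIncl Y' := rfl

/-- elements of `Coind_H Y` are `⋆`-invariant -/
lemma star_coindIncl (Y : Rep.{u} k P.H) (n : P.H) : coindIncl Y ≫ star Y n = coindIncl Y := by
  ext f g
  show ((star Y n).hom ((coindIncl Y).hom f)).1 g = ((coindIncl Y).hom f).1 g
  rw [star_hom_apply, coindIncl_hom_apply, coindIncl_hom_apply]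
  have h := small_prop Y f n⁻¹ g
  have h' : f.1 ((n : G)⁻¹ * g) = Y.ρ n⁻¹ (f.1 g) := by simpa using h
  rw [h', ← Module.End.mul_apply, ← map_mul, mul_inv_cancel, map_one]
  rfl

/-- **the `⋆`-invariants of `W_Y` are exactly `Coind_H^G Y`** -/
theorem mem_range_coindIncl_iff (Y : Rep.{u} k P.H) (f : P.big Y) :
    f ∈ Set.range (coindIncl Y).hom ↔ ∀ n : P.H, (star Y n).hom f = f := by
  constructor
  · rintro ⟨f', rfl⟩ n
    exact congr($(star_coindIncl Y n) f')
  · intro h
    refine ⟨⟨f.1, fun n g => ?_⟩, Subtype.ext rfl⟩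
    have h1 := congrArg (fun x : P.big Y => x.1 g) (h n⁻¹)
    have h2 : Y.ρ n⁻¹ (f.1 (((n⁻¹ : P.H) : G)⁻¹ * g)) = f.1 g := h1
    have h3 : (((n⁻¹ : P.H) : G))⁻¹ = (n : G) := by simp
    rw [h3] at h2
    show f.1 ((n : G) * g) = Y.ρ n (f.1 g)
    rw [← h2, ← Module.End.mul_apply, ← map_mul, mul_inv_cancel, map_one]
    rfl

/-! ### The quotient group `C = H ⧸ H₀` and its action -/

variable (P) in
/-- `H₀` as a subgroup of `H` -/
def sub₀ : Subgroup P.H := P.H₀.subgroupOf P.H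

lemma mem_sub₀ {n : P.H} : n ∈ P.sub₀ ↔ (n : G) ∈ P.H₀ := Subgroup.mem_subgroupOf

instance normal_sub₀ : (P.sub₀).Normal :=
  ⟨fun s hs n => mem_sub₀.2 (by
    have := P.conj_mem n n.2 s (mem_sub₀.1 hs)
    simpa using this)⟩

variable (P) in
/-- the quotient group `C = H ⧸ H₀` -/
abbrev C : Type u := P.H ⧸ P.sub₀

/-- `⋆` as a monoid homomorphism `H →* End W_Y`. -/
def starHom (Y : Rep.{u} k P.H) : P.H →* End (P.big Y) where
  toFun n := star Y n
  map_one' := star_one Y
  map_mul' m n := by rw [End.mul_def]; exact star_mul Y m n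

@[simp] lemma starHom_apply (Y : Rep.{u} k P.H) (n : P.H) : starHom Y n = star Y n := rfl

/-- **the action of `C = H ⧸ H₀` on `W_Y` by `G`-equivariant endomorphisms** -/
def starC (Y : Rep.{u} k P.H) : P.C →* End (P.big Y) :=
  QuotientGroup.lift P.sub₀ (starHom Y) (fun n hn => star_of_mem Y n (mem_sub₀.1 hn))

@[simp] lemma starC_mk (Y : Rep.{u} k P.H) (n : P.H) :
    starC Y (QuotientGroup.mk n : P.C) = star Y n := rfl

lemma starC_naturality {Y Y' : Rep.{u} k P.H} (φ : Y ⟶ Y') (c : P.C) :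
    (starC Y c : P.big Y ⟶ P.big Y) ≫ bigMap φ = bigMap φ ≫ (starC Y' c : P.big Y' ⟶ P.big Y') := by
  induction c using QuotientGroup.induction_on with
  | H n => exact star_naturality φ n

lemma coindIncl_starC (Y : Rep.{u} k P.H) (c : P.C) :
    coindIncl Y ≫ (starC Y c : P.big Y ⟶ P.big Y) = coindIncl Y := by
  induction c using QuotientGroup.induction_on with
  | H n => exact star_coindIncl Y n

theorem mem_range_coindIncl_iff_C (Y : Rep.{u} k P.H) (f : P.big Y) :
    f ∈ Set.range (coindIncl Y).hom ↔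
      ∀ c : P.C, (starC Y c : P.big Y ⟶ P.big Y).hom f = f := by
  rw [mem_range_coindIncl_iff]
  constructor
  · intro h c
    induction c using QuotientGroup.induction_on with
    | H n => exact h n
  · intro h n
    exact h (QuotientGroup.mk n)

/-- a `⋆`-invariant element of `W_Y`, as an element of `Coind_H^G Y` -/
def ofInvariant (Y : Rep.{u} k P.H) (f : P.big Y) (h : ∀ n : P.H, (star Y n).hom f = f) :
    P.small Y :=
  ⟨f.1, fun n g => by
    have h1 := congrArg (fun x : P.big Y => x.1 g) (h n⁻¹)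
    have h2 : Y.ρ n⁻¹ (f.1 (((n⁻¹ : P.H) : G)⁻¹ * g)) = f.1 g := h1
    have h3 : (((n⁻¹ : P.H) : G))⁻¹ = (n : G) := by simp
    rw [h3] at h2
    show f.1 ((n : G) * g) = Y.ρ n (f.1 g)
    rw [← h2, ← Module.End.mul_apply, ← map_mul, mul_inv_cancel, map_one]
    rfl⟩

@[simp] lemma ofInvariant_apply (Y : Rep.{u} k P.H) (f : P.big Y)
    (h : ∀ n : P.H, (star Y n).hom f = f) (g : G) : (ofInvariant Y f h).1 g = f.1 g := rfl

/-! ### The trace and the retraction -/

section Trace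

variable [Finite P.C]

attribute [local instance] Fintype.ofFinite

/-- the trace `∑_{c ∈ C} c⋆` as an endomorphism of `W_Y` -/
def starTrace (Y : Rep.{u} k P.H) : End (P.big Y) := ∑ c : P.C, starC Y c

lemma starC_mul_starTrace (Y : Rep.{u} k P.H) (c : P.C) :
    starC Y c * starTrace Y = starTrace Y := by
  unfold starTrace
  rw [Finset.mul_sum]
  simp_rw [← map_mul]
  exact Fintype.sum_equiv (Equiv.mulLeft c) _ _ (fun _ => rfl)

/-- evaluation at an element, as an additive map on `End W_Y` -/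
def evalEnd (Y : Rep.{u} k P.H) (f : P.big Y) : End (P.big Y) →+ P.big Y where
  toFun e := (e : P.big Y ⟶ P.big Y).hom f
  map_zero' := rfl
  map_add' _ _ := rfl

lemma starTrace_hom_apply (Y : Rep.{u} k P.H) (f : P.big Y) :
    (starTrace Y : P.big Y ⟶ P.big Y).hom f =
      ∑ c : P.C, (starC Y c : P.big Y ⟶ P.big Y).hom f :=
  map_sum (evalEnd Y f) _ _

/-- the image of the trace consists of `⋆`-invariants -/
lemma starTrace_mem_range (Y : Rep.{u} k P.H) (f : P.big Y) :
    (starTrace Y : P.big Y ⟶ P.big Y).hom f ∈ Set.range (coindIncl Y).hom := by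
  rw [mem_range_coindIncl_iff_C]
  intro c
  have := congrArg (fun e : End (P.big Y) => (e : P.big Y ⟶ P.big Y).hom f)
    (starC_mul_starTrace Y c)
  exact this

lemma star_starTrace_apply (Y : Rep.{u} k P.H) (f : P.big Y) (n : P.H) :
    (star Y n).hom ((starTrace Y : P.big Y ⟶ P.big Y).hom f) =
      (starTrace Y : P.big Y ⟶ P.big Y).hom f := by
  have := congrArg (fun e : End (P.big Y) => (e : P.big Y ⟶ P.big Y).hom f)
    (starC_mul_starTrace Y (QuotientGroup.mk n))
  exact this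

/-- the trace, with values in `Coind_H^G Y` -/
def starTraceS (Y : Rep.{u} k P.H) : P.big Y ⟶ P.small Y :=
  Rep.ofHom ⟨{ toFun := fun f => ofInvariant Y ((starTrace Y : P.big Y ⟶ P.big Y).hom f)
                  (star_starTrace_apply Y f)
               map_add' := fun f f' => by
                  apply Subtype.ext
                  funext g
                  show ((starTrace Y : P.big Y ⟶ P.big Y).hom (f + f')).1 g = _
                  rw [map_add]
                  rfl
               map_smul' := fun c f => by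
                  apply Subtype.ext
                  funext g
                  show ((starTrace Y : P.big Y ⟶ P.big Y).hom (c • f)).1 g = _
                  rw [map_smul]
                  rfl }, fun x => by
    ext f g
    show ((starTrace Y : P.big Y ⟶ P.big Y).hom ((P.big Y).ρ x f)).1 g =
      ((starTrace Y : P.big Y ⟶ P.big Y).hom f).1 (g * x)
    rw [Rep.hom_comm_apply]
    rfl⟩

lemma starTraceS_hom_apply (Y : Rep.{u} k P.H) (f : P.big Y) (g : G) :
    ((starTraceS Y).hom f).1 g = ((starTrace Y : P.big Y ⟶ P.big Y).hom f).1 g := rfl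

lemma starTraceS_comp_coindIncl (Y : Rep.{u} k P.H) :
    starTraceS Y ≫ coindIncl Y = (starTrace Y : P.big Y ⟶ P.big Y) := by
  ext f g
  rfl

/-- **`incl ≫ trace = |C|`** -/
lemma coindIncl_comp_starTraceS (Y : Rep.{u} k P.H) :
    coindIncl Y ≫ starTraceS Y = (Nat.card P.C) • 𝟙 (P.small Y) := by
  ext f g
  show ((starTrace Y : P.big Y ⟶ P.big Y).hom ((coindIncl Y).hom f)).1 g =
    ((Nat.card P.C) • f).1 g
  rw [starTrace_hom_apply]
  have h : ∀ c : P.C, (starC Y c : P.big Y ⟶ P.big Y).hom ((coindIncl Y).hom f) =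
      (coindIncl Y).hom f := fun c => congr($(coindIncl_starC Y c) f)
  rw [Finset.sum_congr rfl (fun c _ => h c), Finset.sum_const, Finset.card_univ,
    Nat.card_eq_fintype_card]
  rfl

/-- naturality of the trace in `Y` -/
lemma starTrace_naturality {Y Y' : Rep.{u} k P.H} (φ : Y ⟶ Y') :
    (starTrace Y : P.big Y ⟶ P.big Y) ≫ bigMap φ =
      bigMap φ ≫ (starTrace Y' : P.big Y' ⟶ P.big Y') := by
  ext f g
  show ((bigMap φ).hom ((starTrace Y : P.big Y ⟶ P.big Y).hom f)).1 g =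
    ((starTrace Y' : P.big Y' ⟶ P.big Y').hom ((bigMap φ).hom f)).1 g
  rw [starTrace_hom_apply, starTrace_hom_apply, map_sum]
  refine congrArg (fun x : P.big Y' => x.1 g) (Finset.sum_congr rfl fun c _ => ?_)
  exact congr($(starC_naturality φ c) f)

lemma starTraceS_naturality {Y Y' : Rep.{u} k P.H} (φ : Y ⟶ Y') :
    starTraceS Y ≫ smallMap φ = bigMap φ ≫ starTraceS Y' := by
  ext f g
  exact congrArg (fun x : P.big Y' => x.1 g) (congr($(starTrace_naturality φ) f))

/-! ### The retraction when `|C|` is invertible -/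

/-- the retraction `W_Y ⟶ Coind_H^G Y` (average over `C`) -/
def retr (Y : Rep.{u} k P.H) (d' : k) : P.big Y ⟶ P.small Y := d' • starTraceS Y

/-- **`Coind_H^G Y` is a retract of `W_Y`** when `|C|` is invertible in `k`. -/
theorem coindIncl_comp_retr (Y : Rep.{u} k P.H) (d' : k) (hd : d' * (Nat.card P.C : k) = 1) :
    coindIncl Y ≫ retr Y d' = 𝟙 (P.small Y) := by
  unfold retr
  rw [Linear.comp_smul, coindIncl_comp_starTraceS, ← Nat.cast_smul_eq_nsmul k, smul_smul, hd,
    one_smul]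

end Trace

end NormPair

end Fermat.Agent.GP.GW.E3
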