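/-
GATE-P (S56 long shot) / node [P-GW], E3 binder (K2) (helper71): `Ш²(T'') = 0` in the spellings of
the E3 assembly.

`ShaVanish`/`SKillTopSha` give `Ш²(G_{ℚ,T}, coind_{G_F}^{G_ℚ} ℤ/p) = 0` for the TRIVIAL coefficient
`KBInst.TpK p F` and the instance of `Places.locResW`.  The E3 assembly (helper78 `Base.lean`,
helper86 `StarAct`, helper12 `StarRes`/`H0Chi`) works with `T'' = Coind_{U} Res_U A` for a rank-one
`A` whose restriction to `U = G_F` is trivial (`A = k(χ)`, `χ|_U = 1`).  This file transports the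
vanishing:

* `injective_locRes_of_iso`, `ker_locRes_eq_bot_of_iso` : `ker locⁿ` is iso-invariant (generic);
* `trivIso` : a rank-one representation with trivial action is `≅ Rep.trivial k U k`;
* `ker_locRes_two_coind_eq_bot` : `ker loc²(Coind_{G_F} B) = ⊥` for rank-one trivial-action `B`;
* `ker_locRes_two_big_eq_bot` : the same for `P.big A` (`P : NormPair G_ℚ`, `P.H₀ = G_F`);
* `ker_locRes_two_phi_chiRep_eq_bot` : the same for `Φ_{G_F}(k(χ_cyc))`.
-/
import Mathlib
import Fermat.Agent.GP.GW.SKillTopSha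
import Fermat.Agent.GP.GW.E3.StarAct
import Fermat.Agent.GP.GW.Euler.StarRes
import Fermat.Agent.GC.Prof.ConeLCNat
import Fermat.Agent.GC.Prof.CoindDualCup

set_option autoImplicit false

open CategoryTheory

noncomputable section

namespace Fermat.Agent.GP.GW.E3.K2Big

open Fermat.Agent.GC.Prof Fermat.Agent.GC.Prof.Cone Fermat.Agent.GC.C0 Fermat.Agent.GC.Places
  Fermat.Agent.GC.KumH Fermat.Agent.GC.KBInst Fermat.Agent.GC.PT.LocDataQ ExtCitation

local notation "Qb" => AlgebraicClosure ℚ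
local notation "GQ" => (AlgebraicClosure ℚ ≃ₐ[ℚ] AlgebraicClosure ℚ)

section Generic

universe u

variable {k G : Type u} [CommRing k] [Group G] {𝒰 : LevelSystem G} (L : LocalData 𝒰)
  {M M₁ : Rep.{u} k G} [IsDiscrete 𝒰 M] [IsDiscrete 𝒰 M₁]

/-- `locⁿ` injective is invariant under isomorphism of the coefficients. -/
theorem injective_locRes_of_iso (e : M ≅ M₁) (n : ℕ)
    (h : Function.Injective (locRes L M₁ n)) : Function.Injective (locRes L M n) := by
  rw [← LinearMap.ker_eq_bot, Submodule.eq_bot_iff]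
  intro x hx
  rw [LinearMap.mem_ker] at hx
  have h1 : locRes L M₁ n (HlcMap 𝒰 e.hom n x) = 0 := by
    funext v
    rw [locRes_HlcMap L e.hom n x v, hx]
    exact map_zero _
  have h2 : (HlcMap 𝒰 e.hom n).hom x = 0 := h (h1.trans (map_zero _).symm)
  have h3 : (HlcMap 𝒰 e.inv n).hom ((HlcMap 𝒰 e.hom n).hom x) = x := by
    have h := congr($(HlcMap_comp 𝒰 e.hom e.inv n) x)
    rw [e.hom_inv_id, HlcMap_id] at h
    simpa using h.symm
  rw [← h3, h2, map_zero]

/-- `ker locⁿ = ⊥` is invariant under isomorphism of the coefficients. -/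
theorem ker_locRes_eq_bot_of_iso (e : M ≅ M₁) (n : ℕ)
    (h : LinearMap.ker (locRes L M₁ n) = ⊥) : LinearMap.ker (locRes L M n) = ⊥ :=
  LinearMap.ker_eq_bot.2 (injective_locRes_of_iso L e n (LinearMap.ker_eq_bot.1 h))

end Generic

section Triv

variable {k : Type} [CommRing k] {U : Type} [Group U]

/-- A representation on a rank-one module with trivial action is the trivial representation. -/
def trivIso (B : Rep k U) (e : B ≃ₗ[k] k) (hB : ∀ u : U, B.ρ u = 1) : B ≅ Rep.trivial k U k :=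
  Rep.mkIso (ρ := B.ρ) (σ := (Rep.trivial k U k).ρ) (Representation.Equiv.mk e fun g => by
    apply LinearMap.ext
    intro x
    change e (B.ρ g x) = e x
    rw [hB g, Module.End.one_apply])

end Triv

section Main

variable {p : ℕ} [Fact p.Prime]

/-- **(K2), generic form.**  `Ш²(G_{ℚ,T}, Coind_{G_F} B) = 0` for every rank-one `B` with trivial
`G_F`-action, when `X(T,F) = 0` (`p` odd, `p ∈ T`, `χ_cyc|_{G_F} = 1`, `F` unramified outside
`T`). -/
theorem ker_locRes_two_coind_eq_bot (hp2 : p ≠ 2) (T : Finset Nat.Primes)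
    (hpT : pPrime p ∈ T) (F : IntermediateField ℚ Qb) [FiniteDimensional ℚ F]
    (hFT : F.IsUnramifiedOutside T) (hχ : ∀ g ∈ F.fixingSubgroup, cycloChar p g = 1)
    [Subsingleton (Hlc (levelK T F) (sUnitsK T F) 1)]
    (B : Rep (ZMod p) F.fixingSubgroup) (e : B ≃ₗ[ZMod p] ZMod p)
    (hB : ∀ u : F.fixingSubgroup, B.ρ u = 1)
    [IsDiscrete (levelS T) (Rep.coind F.fixingSubgroup.subtype B)] :
    LinearMap.ker (locRes (locDataQ T) (Rep.coind F.fixingSubgroup.subtype B) 2) = ⊥ := by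
  have h := SKillTop.injective_locRes_two_of_subsingleton hp2 T hpT F hFT hχ
  have : IsDiscrete (levelS T) (Rep.coind F.fixingSubgroup.subtype (TpK p F)) :=
    isDiscrete_coind_levelS T F (TpK p F) hFT
  have e' : Rep.coind F.fixingSubgroup.subtype B ≅
      Rep.coind F.fixingSubgroup.subtype (TpK p F) :=
    (Rep.coindFunctor (ZMod p) F.fixingSubgroup.subtype).mapIso (trivIso B e hB)
  exact ker_locRes_eq_bot_of_iso (locDataQ T) e' 2 (LinearMap.ker_eq_bot.2 h)

/-- **(K2) for an arbitrary subgroup `U = G_F`** (so that `U` may be a structure projection). -/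
theorem ker_locRes_two_coind_eq_bot' (hp2 : p ≠ 2) (T : Finset Nat.Primes)
    (hpT : pPrime p ∈ T) (F : IntermediateField ℚ Qb) [FiniteDimensional ℚ F]
    (hFT : F.IsUnramifiedOutside T) (hχ : ∀ g ∈ F.fixingSubgroup, cycloChar p g = 1)
    [Subsingleton (Hlc (levelK T F) (sUnitsK T F) 1)]
    (U : Subgroup GQ) (hU : U = F.fixingSubgroup)
    (B : Rep (ZMod p) U) (e : B ≃ₗ[ZMod p] ZMod p) (hB : ∀ u : U, B.ρ u = 1)
    [IsDiscrete (levelS T) (Rep.coind U.subtype B)] :
    LinearMap.ker (locRes (locDataQ T) (Rep.coind U.subtype B) 2) = ⊥ := by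
  subst hU
  exact ker_locRes_two_coind_eq_bot hp2 T hpT F hFT hχ B e hB

/-- **(K2) in helper78's `Base.lean` spelling**: `T'' = P.big A = Coind_{H₀} Res_{H₀} A` for a
`NormPair` `P` of `G_ℚ` with `P.H₀ = G_F` and `A` of rank one, trivial on `H₀`. -/
theorem ker_locRes_two_big_eq_bot (hp2 : p ≠ 2) (T : Finset Nat.Primes)
    (hpT : pPrime p ∈ T) (F : IntermediateField ℚ Qb) [FiniteDimensional ℚ F]
    (hFT : F.IsUnramifiedOutside T) (hχ : ∀ g ∈ F.fixingSubgroup, cycloChar p g = 1)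
    [Subsingleton (Hlc (levelK T F) (sUnitsK T F) 1)]
    (P : NormPair GQ) (hP : P.H₀ = F.fixingSubgroup)
    (A : Rep (ZMod p) P.H) (e : A ≃ₗ[ZMod p] ZMod p)
    (hA : ∀ s : P.H₀, A.ρ (P.incl s) = 1)
    [IsDiscrete (levelS T) (P.big A)] :
    LinearMap.ker (locRes (locDataQ T) (P.big A) 2) = ⊥ :=
  ker_locRes_two_coind_eq_bot' hp2 T hpT F hFT hχ P.H₀ hP (P.res₀ A) e hA

/-- **(K2) in helper12's spelling**: `T'' = Φ_{G_F}(k(χ_cyc))`. -/
theorem ker_locRes_two_phi_chiRep_eq_bot (hp2 : p ≠ 2) (T : Finset Nat.Primes)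
    (hpT : pPrime p ∈ T) (F : IntermediateField ℚ Qb) [FiniteDimensional ℚ F]
    (hFT : F.IsUnramifiedOutside T) (hχ : ∀ g ∈ F.fixingSubgroup, cycloChar p g = 1)
    [Subsingleton (Hlc (levelK T F) (sUnitsK T F) 1)]
    [IsDiscrete (levelS T)
      (Fermat.Agent.GP.GW.Euler.StarRes.Phi F.fixingSubgroup (chiRep (k := ZMod p) (cycloChar p)))] :
    LinearMap.ker (locRes (locDataQ T)
      (Fermat.Agent.GP.GW.Euler.StarRes.Phi F.fixingSubgroup
        (chiRep (k := ZMod p) (cycloChar p))) 2) = ⊥ :=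
  ker_locRes_two_coind_eq_bot hp2 T hpT F hFT hχ
    (Rep.res F.fixingSubgroup.subtype (chiRep (k := ZMod p) (cycloChar p)))
    (LinearEquiv.refl (ZMod p) (ZMod p))
    (fun u => by
      apply LinearMap.ext
      intro x
      change ((cycloChar p (u : GQ) : (ZMod p)ˣ) : ZMod p) * x = x
      rw [hχ u u.2, Units.val_one, one_mul])

end Main

end Fermat.Agent.GP.GW.E3.K2Big
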