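/-
GATE-P (S56) / [P-GW] / E3a (helper86): the big coinduced module is an EXACT functor of the
coefficients, and `⋆` acts on the resulting short exact sequences.

For a short complex `X` of `Rep k H`, `bigSC X` is the short complex `W_{X₁} → W_{X₂} → W_{X₃}` of
`Rep k G`; it is short exact if `X` is; `starSC X n` is the endomorphism `n ⋆ -` of it.
Mathlib only (+ the concrete short-exactness criterion of `GC/Tate/Defs`).
-/
import Fermat.Agent.GP.GW.E3.StarAct
import Fermat.Agent.GC.Tate.Defs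

set_option autoImplicit false

open CategoryTheory

noncomputable section

namespace Fermat.Agent.GP.GW.E3

universe u

variable {k G : Type u} [CommRing k] [Group G] {P : NormPair G}

namespace NormPair

lemma bigMap_id (Y : Rep.{u} k P.H) : bigMap (𝟙 Y) = 𝟙 (P.big Y) := rfl

lemma bigMap_comp {Y Y' Y'' : Rep.{u} k P.H} (φ : Y ⟶ Y') (ψ : Y' ⟶ Y'') :
    bigMap (φ ≫ ψ) = (bigMap φ : P.big Y ⟶ P.big Y') ≫ bigMap ψ := rfl

lemma bigMap_zero (Y Y' : Rep.{u} k P.H) : bigMap (0 : Y ⟶ Y') = (0 : P.big Y ⟶ P.big Y') := by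
  ext f g
  show (0 : Y ⟶ Y').hom (f.1 g) = 0
  rfl

lemma bigMap_add {Y Y' : Rep.{u} k P.H} (φ ψ : Y ⟶ Y') :
    bigMap (φ + ψ) = (bigMap φ : P.big Y ⟶ P.big Y') + bigMap ψ := by
  ext f g
  rfl

lemma bigMap_smul {Y Y' : Rep.{u} k P.H} (c : k) (φ : Y ⟶ Y') :
    bigMap (c • φ) = c • (bigMap φ : P.big Y ⟶ P.big Y') := by
  ext f g
  rfl

/-- the short complex `W_{X₁} → W_{X₂} → W_{X₃}` -/
def bigSC (X : ShortComplex (Rep.{u} k P.H)) : ShortComplex (Rep.{u} k G) :=
  ShortComplex.mk (bigMap X.f : P.big X.X₁ ⟶ P.big X.X₂) (bigMap X.g) (by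
    rw [← bigMap_comp, X.zero, bigMap_zero])

section Exact

variable {X : ShortComplex (Rep.{u} k P.H)} (hX : X.ShortExact)

include hX

lemma bigMap_f_injective : Function.Injective (bigMap X.f : P.big X.X₁ ⟶ P.big X.X₂).hom := by
  have hinj : Function.Injective X.f.hom := (Rep.mono_iff_injective X.f).1 hX.mono_f
  intro F F' h
  apply Subtype.ext
  funext g
  exact hinj (congrArg (fun x : P.big X.X₂ => x.1 g) h)

lemma bigMap_g_surjective : Function.Surjective (bigMap X.g : P.big X.X₂ ⟶ P.big X.X₃).hom := by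
  have hsurj : Function.Surjective X.g.hom := (Rep.epi_iff_surjective X.g).1 hX.epi_g
  have h1 : Epi ((Rep.resFunctor P.incl).map X.g) :=
    (Rep.epi_iff_surjective _).2 hsurj
  have h2 : Epi ((Rep.coindFunctor k P.H₀.subtype).map ((Rep.resFunctor P.incl).map X.g)) :=
    inferInstance
  exact (Rep.epi_iff_surjective _).1 h2

lemma bigSC_exact (F : P.big X.X₂) (hF : (bigMap X.g).hom F = 0) :
    ∃ F' : P.big X.X₁, (bigMap X.f).hom F' = F := by
  have hinj : Function.Injective X.f.hom := (Rep.mono_iff_injective X.f).1 hX.mono_f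
  have hex : ∀ y : X.X₂, X.g.hom y = 0 → ∃ x : X.X₁, X.f.hom x = y := by
    intro y hy
    have := (hX.exact.map (forget₂ (Rep k P.H) (ModuleCat k))).moduleCat_range_eq_ker
    have hy' : y ∈ LinearMap.ker (ModuleCat.Hom.hom
        (X.map (forget₂ (Rep.{u} k P.H) (ModuleCat k))).g) := hy
    rw [← this] at hy'
    exact hy'
  have hF' : ∀ g, X.g.hom (F.1 g) = 0 := fun g =>
    congrArg (fun x : P.big X.X₃ => x.1 g) hF
  choose F' hF'' using fun g => hex _ (hF' g)
  refine ⟨⟨F', fun s g => hinj ?_⟩, Subtype.ext (funext hF'')⟩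
  show X.f.hom (F' ((s : G) * g)) = X.f.hom (X.X₁.ρ (P.incl s) (F' g))
  rw [hF'', Rep.hom_comm_apply, hF'']
  exact big_prop X.X₂ F s g

/-- **`Y ↦ W_Y` is exact.** -/
theorem bigSC_shortExact : (bigSC X : ShortComplex (Rep.{u} k G)).ShortExact :=
  Fermat.Agent.GC.Tate.shortExact_of_concrete _ (bigMap_f_injective hX) (bigMap_g_surjective hX)
    (bigSC_exact hX)

end Exact

/-- `n ⋆ -` as an endomorphism of the short complex `bigSC X` -/
def starSC (X : ShortComplex (Rep.{u} k P.H)) (n : P.H) : bigSC X ⟶ bigSC X where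
  τ₁ := star X.X₁ n
  τ₂ := star X.X₂ n
  τ₃ := star X.X₃ n
  comm₁₂ := star_naturality X.f n
  comm₂₃ := star_naturality X.g n

/-- `c ⋆ -` (`c ∈ C = H ⧸ H₀`) as an endomorphism of the short complex `bigSC X` -/
def starCSC (X : ShortComplex (Rep.{u} k P.H)) (c : P.C) : bigSC X ⟶ bigSC X where
  τ₁ := (starC X.X₁ c : P.big X.X₁ ⟶ P.big X.X₁)
  τ₂ := (starC X.X₂ c : P.big X.X₂ ⟶ P.big X.X₂)
  τ₃ := (starC X.X₃ c : P.big X.X₃ ⟶ P.big X.X₃)
  comm₁₂ := starC_naturality X.f c
  comm₂₃ := starC_naturality X.g c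

end NormPair

end Fermat.Agent.GP.GW.E3
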