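/-
GATE-P (S56) / [P-GW] / E3a (helper86): matrix twists.

For `A : Rep k Γ`, a finite index type `J` and a matrix representation `a : Γ →* Matrix J J k`,
`twistRep A a` is the representation on `J → A` given by
  `(γ • v) i = ∑ j, a γ i j • γ • v j`
(this is `A ⊗ k^J`, with `Γ` acting on `k^J` through `a`, written in coordinates: no tensor products).
For `J = Unit` and `a = θ` a character this is the twist `A(θ)`.

On the big coinduced module of `StarAct.lean`: if `a` is trivial on `H₀` then
`W_{A ⊗ a} ≅ (W_A)^J` as `G`-representations (coordinate maps `π j`, `σ j`), and the `⋆`-action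
becomes the twisted action: `(n ⋆ f) i = ∑ j, a n i j • n ⋆ f j`.
Mathlib only.
-/
import Fermat.Agent.GP.GW.E3.StarAct

set_option autoImplicit false

open CategoryTheory

noncomputable section

namespace Fermat.Agent.GP.GW.E3

universe u

variable {k Γ : Type u} [CommRing k] [Group Γ] {J : Type} [Fintype J] [DecidableEq J]

/-! ### The twisted representation -/

/-- the linear map `v ↦ (i ↦ ∑ j, a γ i j • γ • v j)` -/
def twistLin (A : Rep.{u} k Γ) (a : Γ →* Matrix J J k) (γ : Γ) : (J → A) →ₗ[k] (J → A) where
  toFun v i := ∑ j, a γ i j • A.ρ γ (v j)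
  map_add' v w := by
    funext i
    simp only [Pi.add_apply, map_add, smul_add, Finset.sum_add_distrib]
  map_smul' c v := by
    funext i
    simp only [Pi.smul_apply, map_smul, RingHom.id_apply, Finset.smul_sum, smul_comm c]

@[simp] lemma twistLin_apply (A : Rep.{u} k Γ) (a : Γ →* Matrix J J k) (γ : Γ) (v : J → A)
    (i : J) : twistLin A a γ v i = ∑ j, a γ i j • A.ρ γ (v j) := rfl

/-- the twisted representation on `J → A` -/
def twistRepresentation (A : Rep.{u} k Γ) (a : Γ →* Matrix J J k) :
    Representation k Γ (J → A) where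
  toFun γ := twistLin A a γ
  map_one' := by
    refine LinearMap.ext fun v => funext fun i => ?_
    simp only [twistLin_apply, map_one, Matrix.one_apply, Module.End.one_apply]
    rw [Finset.sum_eq_single i]
    · simp
    · intro j _ hj
      simp [Ne.symm hj]
    · intro h
      exact absurd (Finset.mem_univ i) h
  map_mul' γ γ' := by
    refine LinearMap.ext fun v => funext fun i => ?_
    simp only [twistLin_apply, Module.End.mul_apply, map_mul, Matrix.mul_apply]
    simp only [map_sum, map_smul, Finset.smul_sum, Finset.sum_smul, smul_smul]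
    rw [Finset.sum_comm]

/-- **the twist `A ⊗ a`** -/
def twistRep (A : Rep.{u} k Γ) (a : Γ →* Matrix J J k) : Rep.{u} k Γ :=
  Rep.of (twistRepresentation A a)

/-- the underlying function of an element of the twist (the identity, as a linear equiv) -/
def twistEquiv (A : Rep.{u} k Γ) (a : Γ →* Matrix J J k) : twistRep A a ≃ₗ[k] (J → A) :=
  LinearEquiv.refl k (J → A)

lemma twistRep_ρ_apply (A : Rep.{u} k Γ) (a : Γ →* Matrix J J k) (γ : Γ) (v : twistRep A a)
    (i : J) : twistEquiv A a ((twistRep A a).ρ γ v) i =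
      ∑ j, a γ i j • A.ρ γ (twistEquiv A a v j) := rfl

lemma twistEquiv_injective (A : Rep.{u} k Γ) (a : Γ →* Matrix J J k) :
    Function.Injective (twistEquiv A a) := (twistEquiv A a).injective

lemma twist_ext {A : Rep.{u} k Γ} {a : Γ →* Matrix J J k} {v w : twistRep A a}
    (h : ∀ i, twistEquiv A a v i = twistEquiv A a w i) : v = w :=
  twistEquiv_injective A a (funext h)

/-- the underlying linear map of `twistMap` -/
def twistMapLin {A A' : Rep.{u} k Γ} (φ : A ⟶ A') : (J → A) →ₗ[k] (J → A') :=
  LinearMap.pi fun i => φ.hom.toLinearMap ∘ₗ LinearMap.proj i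

lemma twistMapLin_apply {A A' : Rep.{u} k Γ} (φ : A ⟶ A') (v : J → A) (i : J) :
    twistMapLin φ v i = φ.hom (v i) := rfl

/-- functoriality of the twist in `A` -/
def twistMap {A A' : Rep.{u} k Γ} (φ : A ⟶ A') (a : Γ →* Matrix J J k) :
    twistRep A a ⟶ twistRep A' a :=
  Rep.ofHom (ρ := twistRepresentation A a) (σ := twistRepresentation A' a)
    ⟨twistMapLin φ, fun γ => by
    refine LinearMap.ext fun v => funext fun i => ?_
    show φ.hom (∑ j, a γ i j • A.ρ γ (v j)) = ∑ j, a γ i j • A'.ρ γ (φ.hom (v j))
    rw [map_sum]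
    refine Finset.sum_congr rfl fun j _ => ?_
    rw [map_smul, Rep.hom_comm_apply]⟩

lemma twistMap_hom_apply {A A' : Rep.{u} k Γ} (φ : A ⟶ A') (a : Γ →* Matrix J J k)
    (v : twistRep A a) (i : J) :
    twistEquiv A' a ((twistMap φ a).hom v) i = φ.hom (twistEquiv A a v i) := rfl

/-! ### Coordinates on the big coinduced module -/

namespace NormPair

variable {G : Type u} [Group G] {P : NormPair G} (A : Rep.{u} k P.H)
  (a : P.H →* Matrix J J k) (ha : ∀ s : P.H, (s : G) ∈ P.H₀ → a s = 1)

include ha in
lemma twist_res₀_apply (s : P.H₀) (v : twistRep A a) (i : J) :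
    twistEquiv A a ((P.res₀ (twistRep A a)).ρ s v) i = (P.res₀ A).ρ s (twistEquiv A a v i) := by
  show ∑ j, a (P.incl s) i j • A.ρ (P.incl s) (twistEquiv A a v j) =
    A.ρ (P.incl s) (twistEquiv A a v i)
  rw [ha (P.incl s) s.2]
  rw [Finset.sum_eq_single i]
  · simp
  · intro j _ hj
    simp [Ne.symm hj]
  · intro h
    exact absurd (Finset.mem_univ i) h

/-- the `j`-th coordinate `W_{A ⊗ a} ⟶ W_A` -/
def bigπ (j : J) : P.big (twistRep A a) ⟶ P.big A :=
  Rep.ofHom ⟨{ toFun := fun f => ⟨fun g => twistEquiv A a (f.1 g) j, fun s g => by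
                  show twistEquiv A a (f.1 ((s : G) * g)) j =
                    (P.res₀ A).ρ s (twistEquiv A a (f.1 g) j)
                  rw [big_prop (twistRep A a) f s g]
                  exact twist_res₀_apply A a ha s (f.1 g) j⟩
               map_add' := fun _ _ => rfl
               map_smul' := fun _ _ => rfl }, fun _ => rfl⟩

@[simp] lemma bigπ_hom_apply (j : J) (f : P.big (twistRep A a)) (g : G) :
    ((bigπ A a ha j).hom f).1 g = twistEquiv A a (f.1 g) j := rfl

/-- the `j`-th inclusion `W_A ⟶ W_{A ⊗ a}` -/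
def bigσ (j : J) : P.big A ⟶ P.big (twistRep A a) :=
  Rep.ofHom ⟨{ toFun := fun f => ⟨fun g => (twistEquiv A a).symm (Pi.single j (f.1 g)),
                fun s g => by
                  refine twist_ext (A := A) (a := a) fun i => ?_
                  show (Pi.single j (f.1 ((s : G) * g)) : J → A) i =
                    twistEquiv A a ((P.res₀ (twistRep A a)).ρ s
                      ((twistEquiv A a).symm (Pi.single j (f.1 g)))) i
                  rw [twist_res₀_apply A a ha s _ i, big_prop A f s g]
                  show _ = (P.res₀ A).ρ s ((Pi.single j (f.1 g) : J → A) i)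
                  by_cases h : i = j
                  · subst h
                    simp
                  · simp [Pi.single_eq_of_ne h]⟩
               map_add' := fun f f' => by
                  apply Subtype.ext
                  funext g
                  refine twist_ext (A := A) (a := a) fun i => ?_
                  exact congrFun (Pi.single_add (f := fun _ : J => (A : Type u)) j
                    (f.1 g) (f'.1 g)) i
               map_smul' := fun c f => by
                  apply Subtype.ext
                  funext g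
                  refine twist_ext (A := A) (a := a) fun i => ?_
                  exact congrFun (Pi.single_smul (f := fun _ : J => (A : Type u)) j c
                    (f.1 g)) i }, fun _ => rfl⟩

@[simp] lemma bigσ_hom_apply (j : J) (f : P.big A) (g : G) :
    twistEquiv A a (((bigσ A a ha j).hom f).1 g) = Pi.single j (f.1 g) := rfl

lemma bigσ_bigπ_self (j : J) : bigσ A a ha j ≫ bigπ A a ha j = 𝟙 (P.big A) := by
  ext f g
  show (Pi.single j (f.1 g) : J → A) j = f.1 g
  simp

lemma bigσ_bigπ_of_ne {i j : J} (h : i ≠ j) : bigσ A a ha i ≫ bigπ A a ha j = 0 := by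
  ext f g
  show (Pi.single i (f.1 g) : J → A) j = 0
  simp [Pi.single_eq_of_ne (Ne.symm h)]

lemma sum_hom_apply' {X X' : Rep.{u} k G} {ι : Type} (s : Finset ι) (φ : ι → (X ⟶ X'))
    (x : X) : (∑ i ∈ s, φ i).hom x = ∑ i ∈ s, (φ i).hom x := by
  rw [Rep.sum_hom, Representation.IntertwiningMap.sum_apply]

lemma big_sum_apply (Y : Rep.{u} k P.H) {ι : Type} (s : Finset ι) (F : ι → P.big Y) (g : G) :
    (∑ i ∈ s, F i).1 g = ∑ i ∈ s, (F i).1 g := by
  classical
  induction s using Finset.induction_on with
  | empty => rfl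
  | insert b s hb ih =>
    rw [Finset.sum_insert hb, Finset.sum_insert hb, ← ih]
    rfl

lemma sum_bigπ_bigσ : ∑ j, bigπ A a ha j ≫ bigσ A a ha j = 𝟙 (P.big (twistRep A a)) := by
  ext f g
  show ((∑ j, bigπ A a ha j ≫ bigσ A a ha j : P.big (twistRep A a) ⟶ _).hom f).1 g = f.1 g
  rw [sum_hom_apply', big_sum_apply]
  refine twist_ext (A := A) (a := a) fun i => ?_
  rw [map_sum, Finset.sum_apply]
  have h3 : ∀ j, twistEquiv A a (((bigπ A a ha j ≫ bigσ A a ha j).hom f).1 g) i =
      (Pi.single j (twistEquiv A a (f.1 g) j) : J → A) i := fun j => rfl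
  rw [Finset.sum_congr rfl (fun j _ => h3 j), Finset.sum_eq_single i]
  · simp
  · intro j _ hj
    simp [Pi.single_eq_of_ne (Ne.symm hj)]
  · intro h
    exact absurd (Finset.mem_univ i) h

/-- **the `⋆`-action in coordinates**: `(n ⋆ f) i = ∑ j, a n i j • n ⋆ f j` -/
lemma star_bigπ (n : P.H) (i : J) :
    star (twistRep A a) n ≫ bigπ A a ha i = ∑ j, a n i j • (bigπ A a ha j ≫ star A n) := by
  ext f g
  show twistEquiv A a ((twistRep A a).ρ n (f.1 ((n : G)⁻¹ * g))) i =
    ((∑ j, a n i j • (bigπ A a ha j ≫ star A n) : P.big (twistRep A a) ⟶ P.big A).hom f).1 g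
  rw [sum_hom_apply', big_sum_apply, twistRep_ρ_apply]
  rfl

/-- naturality of the coordinates in `A` -/
lemma bigMap_twistMap_bigπ {A' : Rep.{u} k P.H} (φ : A ⟶ A') (j : J) :
    bigMap (twistMap φ a) ≫ bigπ A' a ha j = bigπ A a ha j ≫ bigMap φ := rfl

lemma bigσ_bigMap_twistMap {A' : Rep.{u} k P.H} (φ : A ⟶ A') (j : J) :
    bigσ A a ha j ≫ bigMap (twistMap φ a) = bigMap φ ≫ bigσ A' a ha j := by
  ext f g
  refine twist_ext (A := A') (a := a) fun i => ?_
  show φ.hom ((Pi.single j (f.1 g) : J → A) i) = (Pi.single j (φ.hom (f.1 g)) : J → A') i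
  by_cases h : i = j
  · subst h
    simp
  · simp [Pi.single_eq_of_ne h]

end NormPair

end Fermat.Agent.GP.GW.E3
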