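/-
GATE-P (S56) / [P-GW] / E3a (helper86): the `⋆`-action on level-constant cohomology.

`𝒰` a level system on `G`, `P = (H₀ ≤ H)` a `NormPair`, `Y : Rep k H` with `W_Y = P.big Y` discrete.
* `hlcStarRep 𝒰 Y i : Rep k P.C` — the `k[C]`-module `Hlcⁱ(G, W_Y)` (`C = H ⧸ H₀` acting through
  `HlcMap` of the `⋆`-automorphisms of the coefficients);
* `hlcStarMap`: functoriality in `Y`; `Hlcδ_star`: the connecting homomorphisms of `⋆`-stable short
  exact sequences are `C`-equivariant;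
* `Hlc_small_equiv_invariants`: for `|C| ∈ kˣ`, `Hlcⁱ(G, Coind_H Y) ≃ Hlcⁱ(G, W_Y)^C`;
* `hlcStar_twist`: `Hlcⁱ(G, W_{A ⊗ a}) ≃ (Hlcⁱ(G, W_A))^J` with the twisted `C`-action.
-/
import Fermat.Agent.GP.GW.E3.Twist
import Fermat.Agent.GP.GW.E3.BigSC
import Fermat.Agent.GC.Prof.Prod

set_option autoImplicit false

open CategoryTheory

noncomputable section

namespace Fermat.Agent.GP.GW.E3

open Fermat.Agent.GC.Prof

universe u

variable {k G : Type u} [CommRing k] [Group G] (𝒰 : LevelSystem G) {P : NormPair G}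

namespace NormPair

section Rep

variable (Y : Rep.{u} k P.H) [IsDiscrete 𝒰 (P.big Y)]

/-- `c ⋆ -` on `Hlcⁱ(G, W_Y)` -/
def hlcStar (i : ℕ) (c : P.C) : Hlc 𝒰 (P.big Y) i ⟶ Hlc 𝒰 (P.big Y) i :=
  HlcMap 𝒰 (starC Y c : P.big Y ⟶ P.big Y) i

lemma hlcStar_one (i : ℕ) : hlcStar 𝒰 Y i 1 = 𝟙 _ := by
  unfold hlcStar
  rw [map_one]
  exact HlcMap_id 𝒰 i

lemma hlcStar_mul (i : ℕ) (c c' : P.C) :
    hlcStar 𝒰 Y i (c * c') = hlcStar 𝒰 Y i c' ≫ hlcStar 𝒰 Y i c := by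
  unfold hlcStar
  rw [map_mul, End.mul_def]
  exact HlcMap_comp 𝒰 _ _ i

/-- the representation of `C` on `Hlcⁱ(G, W_Y)` -/
def hlcStarRepresentation (i : ℕ) : Representation k P.C (Hlc 𝒰 (P.big Y) i) where
  toFun c := (hlcStar 𝒰 Y i c).hom
  map_one' := by rw [hlcStar_one]; rfl
  map_mul' c c' := by rw [hlcStar_mul]; rfl

/-- **`Hlcⁱ(G, W_Y)` as a `k[C]`-module** -/
def hlcStarRep (i : ℕ) : Rep.{u} k P.C := Rep.of (hlcStarRepresentation 𝒰 Y i)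

lemma hlcStarRep_ρ_apply (i : ℕ) (c : P.C) (x : Hlc 𝒰 (P.big Y) i) :
    (hlcStarRep 𝒰 Y i).ρ c x = hlcStar 𝒰 Y i c x := rfl

end Rep

/-! ### Functoriality in the coefficients -/

section Funct

variable {Y Y' : Rep.{u} k P.H} [IsDiscrete 𝒰 (P.big Y)] [IsDiscrete 𝒰 (P.big Y')]

/-- `HlcMap` of a map induced on coefficients commutes with `⋆`. -/
lemma hlcStar_naturality (φ : Y ⟶ Y') (i : ℕ) (c : P.C) :
    hlcStar 𝒰 Y i c ≫ HlcMap 𝒰 (bigMap φ) i = HlcMap 𝒰 (bigMap φ) i ≫ hlcStar 𝒰 Y' i c := by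
  unfold hlcStar
  rw [← HlcMap_comp, ← HlcMap_comp, starC_naturality]

/-- the `C`-equivariant map `Hlcⁱ(G, W_Y) ⟶ Hlcⁱ(G, W_{Y'})` induced by `φ : Y ⟶ Y'` -/
def hlcStarMap (φ : Y ⟶ Y') (i : ℕ) : hlcStarRep 𝒰 Y i ⟶ hlcStarRep 𝒰 Y' i :=
  Rep.ofHom (ρ := hlcStarRepresentation 𝒰 Y i) (σ := hlcStarRepresentation 𝒰 Y' i)
    ⟨(HlcMap 𝒰 (bigMap φ) i).hom, fun c => by
      refine LinearMap.ext fun x => ?_
      exact congr($(hlcStar_naturality 𝒰 φ i c) x)⟩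

lemma hlcStarMap_hom_apply (φ : Y ⟶ Y') (i : ℕ) (x : Hlc 𝒰 (P.big Y) i) :
    (hlcStarMap 𝒰 φ i).hom x = HlcMap 𝒰 (bigMap φ) i x := rfl

end Funct

/-! ### Connecting homomorphisms -/

section Delta

variable {X : ShortComplex (Rep.{u} k P.H)} (hX : X.ShortExact)
  [IsDiscrete 𝒰 (P.big X.X₁)] [IsDiscrete 𝒰 (P.big X.X₂)] [IsDiscrete 𝒰 (P.big X.X₃)]

instance : IsDiscrete 𝒰 (bigSC X : ShortComplex (Rep.{u} k G)).X₁ := ‹IsDiscrete 𝒰 (P.big X.X₁)›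
instance : IsDiscrete 𝒰 (bigSC X : ShortComplex (Rep.{u} k G)).X₂ := ‹IsDiscrete 𝒰 (P.big X.X₂)›
instance : IsDiscrete 𝒰 (bigSC X : ShortComplex (Rep.{u} k G)).X₃ := ‹IsDiscrete 𝒰 (P.big X.X₃)›

/-- **the connecting homomorphisms of `0 → W_{X₁} → W_{X₂} → W_{X₃} → 0` commute with `⋆`** -/
theorem Hlcδ_hlcStar (i j : ℕ) (hij : i + 1 = j) (c : P.C) :
    Hlcδ 𝒰 (bigSC_shortExact hX) i j hij ≫ hlcStar 𝒰 X.X₁ j c =
      hlcStar 𝒰 X.X₃ i c ≫ Hlcδ 𝒰 (bigSC_shortExact hX) i j hij :=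
  Hlcδ_naturality 𝒰 (bigSC_shortExact hX) (bigSC_shortExact hX) (starCSC X c) i j hij

/-- the connecting homomorphism as a `C`-equivariant map -/
def hlcStarδ (i j : ℕ) (hij : i + 1 = j) : hlcStarRep 𝒰 X.X₃ i ⟶ hlcStarRep 𝒰 X.X₁ j :=
  Rep.ofHom (ρ := hlcStarRepresentation 𝒰 X.X₃ i) (σ := hlcStarRepresentation 𝒰 X.X₁ j)
    ⟨(Hlcδ 𝒰 (bigSC_shortExact hX) i j hij).hom, fun c => by
      refine LinearMap.ext fun x => ?_
      exact (congr($(Hlcδ_hlcStar 𝒰 hX i j hij c) x)).symm⟩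

lemma hlcStarδ_hom_apply (i j : ℕ) (hij : i + 1 = j) (x : Hlc 𝒰 (P.big X.X₃) i) :
    (hlcStarδ 𝒰 hX i j hij).hom x = Hlcδ 𝒰 (bigSC_shortExact hX) i j hij x := rfl

end Delta

/-! ### `Hlcⁱ(G, Coind_H Y)` = the `C`-invariants of `Hlcⁱ(G, W_Y)` -/

section Invariants

variable (Y : Rep.{u} k P.H) [IsDiscrete 𝒰 (P.big Y)] [IsDiscrete 𝒰 (P.small Y)]

/-- classes coming from `Coind_H Y` are `C`-invariant -/
lemma hlcStar_HlcMap_coindIncl (i : ℕ) (c : P.C) (x : Hlc 𝒰 (P.small Y) i) :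
    hlcStar 𝒰 Y i c (HlcMap 𝒰 (coindIncl Y) i x) = HlcMap 𝒰 (coindIncl Y) i x := by
  unfold hlcStar
  rw [← HlcMap_comp_apply, coindIncl_starC]

variable [Finite P.C] (d' : k) (hd : d' * (Nat.card P.C : k) = 1)

attribute [local instance] Fintype.ofFinite

lemma retr_comp_coindIncl :
    retr Y d' ≫ coindIncl Y = d' • ∑ c : P.C, (starC Y c : P.big Y ⟶ P.big Y) := by
  unfold retr
  rw [Linear.smul_comp, starTraceS_comp_coindIncl]
  rfl

include hd in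
/-- a `C`-invariant class comes from `Coind_H Y` -/
lemma HlcMap_coindIncl_retr_of_invariant (i : ℕ) (y : Hlc 𝒰 (P.big Y) i)
    (hy : ∀ c : P.C, hlcStar 𝒰 Y i c y = y) :
    HlcMap 𝒰 (coindIncl Y) i (HlcMap 𝒰 (retr Y d') i y) = y := by
  rw [← HlcMap_comp_apply, retr_comp_coindIncl, HlcMap_smul_apply, HlcMap_sum_apply]
  have : ∀ c ∈ (Finset.univ : Finset P.C),
      HlcMap 𝒰 (starC Y c : P.big Y ⟶ P.big Y) i y = y := fun c _ => hy c
  rw [Finset.sum_congr rfl this, Finset.sum_const, Finset.card_univ, ← Nat.card_eq_fintype_card,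
    ← Nat.cast_smul_eq_nsmul k, smul_smul, hd, one_smul]

include hd in
lemma HlcMap_coindIncl_injective (i : ℕ) : Function.Injective (HlcMap 𝒰 (coindIncl Y) i) :=
  HlcMap_injective_of_retract 𝒰 (coindIncl Y) (retr Y d') (coindIncl_comp_retr Y d' hd) i

include hd in
/-- **`Hlcⁱ(G, Coind_H^G Y) ≃ Hlcⁱ(G, W_Y)^C`** (`|C|` invertible in `k`). -/
def HlcSmallEquivInvariants (i : ℕ) :
    Hlc 𝒰 (P.small Y) i ≃ₗ[k] (hlcStarRepresentation 𝒰 Y i).invariants :=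
  LinearEquiv.ofBijective
    ((HlcMap 𝒰 (coindIncl Y) i).hom.codRestrict (hlcStarRepresentation 𝒰 Y i).invariants
      (fun x => (Representation.mem_invariants _ _).2 fun c =>
        hlcStar_HlcMap_coindIncl 𝒰 Y i c x))
    ⟨fun x x' h => HlcMap_coindIncl_injective 𝒰 Y d' hd i
        (congrArg (fun z : (hlcStarRepresentation 𝒰 Y i).invariants =>
          (z : Hlc 𝒰 (P.big Y) i)) h),
      fun y => ⟨HlcMap 𝒰 (retr Y d') i y.1, Subtype.ext
        (HlcMap_coindIncl_retr_of_invariant 𝒰 Y d' hd i y.1 y.2)⟩⟩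

lemma HlcSmallEquivInvariants_apply (i : ℕ) (x : Hlc 𝒰 (P.small Y) i) :
    ((HlcSmallEquivInvariants 𝒰 Y d' hd i x : (hlcStarRepresentation 𝒰 Y i).invariants) :
      Hlc 𝒰 (P.big Y) i) = HlcMap 𝒰 (coindIncl Y) i x := rfl

include hd in
theorem finrank_Hlc_small (i : ℕ) :
    Module.finrank k (Hlc 𝒰 (P.small Y) i) =
      Module.finrank k (hlcStarRepresentation 𝒰 Y i).invariants :=
  (HlcSmallEquivInvariants 𝒰 Y d' hd i).finrank_eq

end Invariants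

/-! ### Twists -/

section TwistH

variable {J : Type} [Fintype J] [DecidableEq J] (A : Rep.{u} k P.H)
  (a : P.H →* Matrix J J k) (ha : ∀ s : P.H, (s : G) ∈ P.H₀ → a s = 1)

/-- the matrix representation of `C = H ⧸ H₀` induced by `a` -/
def descend : P.C →* Matrix J J k :=
  QuotientGroup.lift P.sub₀ a (fun n hn => ha n (mem_sub₀.1 hn))

@[simp] lemma descend_mk (n : P.H) : descend a ha (QuotientGroup.mk n : P.C) = a n := rfl

variable [IsDiscrete 𝒰 (P.big A)]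

include ha in
lemma isDiscrete_big_twist : IsDiscrete 𝒰 (P.big (twistRep A a)) :=
  IsDiscrete.of_decomp (M := fun _ : J => P.big A) (bigπ A a ha) (bigσ A a ha)
    (sum_bigπ_bigσ A a ha)

variable [IsDiscrete 𝒰 (P.big (twistRep A a))]

/-- `Hlcⁱ(G, W_{A ⊗ a}) ≃ (Hlcⁱ(G, W_A))^J` -/
def HlcTwistEquiv (i : ℕ) : Hlc 𝒰 (P.big (twistRep A a)) i ≃ₗ[k] (J → Hlc 𝒰 (P.big A) i) :=
  HlcDecomp 𝒰 (M := fun _ : J => P.big A) (bigπ A a ha) (bigσ A a ha) (sum_bigπ_bigσ A a ha)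
    (bigσ_bigπ_self A a ha) (fun _ _ h => bigσ_bigπ_of_ne A a ha h) i

lemma HlcTwistEquiv_apply (i : ℕ) (x : Hlc 𝒰 (P.big (twistRep A a)) i) (j : J) :
    HlcTwistEquiv 𝒰 A a ha i x j = HlcMap 𝒰 (bigπ A a ha j) i x := rfl

/-- **the `⋆`-action on `Hlcⁱ(G, W_{A ⊗ a})` in coordinates** -/
theorem HlcTwistEquiv_hlcStar (i : ℕ) (c : P.C) (x : Hlc 𝒰 (P.big (twistRep A a)) i) (j₀ : J) :
    HlcTwistEquiv 𝒰 A a ha i (hlcStar 𝒰 (twistRep A a) i c x) j₀ =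
      ∑ j, descend a ha c j₀ j • hlcStar 𝒰 A i c (HlcTwistEquiv 𝒰 A a ha i x j) := by
  induction c using QuotientGroup.induction_on with
  | H n =>
    rw [HlcTwistEquiv_apply, descend_mk]
    unfold hlcStar
    rw [starC_mk, ← HlcMap_comp_apply, star_bigπ, HlcMap_sum_apply]
    refine Finset.sum_congr rfl fun j _ => ?_
    rw [HlcMap_smul_apply, HlcMap_comp_apply]
    rfl

/-- `Hlcⁱ(G, W_{A ⊗ a})` is the twist of the `k[C]`-module `Hlcⁱ(G, W_A)` by `a`. -/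
theorem HlcTwistEquiv_equivariant (i : ℕ) (c : P.C) (x : Hlc 𝒰 (P.big (twistRep A a)) i) :
    HlcTwistEquiv 𝒰 A a ha i ((hlcStarRepresentation 𝒰 (twistRep A a) i) c x) =
      twistRepresentation (hlcStarRep 𝒰 A i) (descend a ha) c (HlcTwistEquiv 𝒰 A a ha i x) := by
  funext j₀
  exact HlcTwistEquiv_hlcStar 𝒰 A a ha i c x j₀

end TwistH

end NormPair

/-! ### Invariants along an equivariant linear equivalence -/

/-- An equivariant linear equivalence induces a linear equivalence of invariants. -/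
def invariantsEquivOfEquivariant {Γ : Type*} [Group Γ] {V V' : Type*} [AddCommGroup V]
    [Module k V] [AddCommGroup V'] [Module k V'] (ρ : Representation k Γ V)
    (ρ' : Representation k Γ V') (e : V ≃ₗ[k] V') (he : ∀ γ v, e (ρ γ v) = ρ' γ (e v)) :
    ρ.invariants ≃ₗ[k] ρ'.invariants where
  toFun v := ⟨e v.1, fun γ => by rw [← he, v.2 γ]⟩
  map_add' v w := Subtype.ext (map_add e v.1 w.1)
  map_smul' c v := Subtype.ext (map_smul e c v.1)
  invFun w := ⟨e.symm w.1, fun γ => by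
    apply e.injective
    rw [he, e.apply_symm_apply, w.2 γ]⟩
  left_inv v := Subtype.ext (e.symm_apply_apply v.1)
  right_inv w := Subtype.ext (e.apply_symm_apply w.1)

namespace NormPair

section Final

variable {J : Type} [Fintype J] [DecidableEq J] (A : Rep.{u} k P.H)
  (a : P.H →* Matrix J J k) (ha : ∀ s : P.H, (s : G) ∈ P.H₀ → a s = 1)
  [IsDiscrete 𝒰 (P.big A)] [IsDiscrete 𝒰 (P.big (twistRep A a))]
  [IsDiscrete 𝒰 (P.small (twistRep A a))]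
  [Finite P.C] (d' : k) (hd : d' * (Nat.card P.C : k) = 1)

include hd in
/-- **`Hlcⁱ(G, Coind_H (A ⊗ a)) ≃ (Hlcⁱ(G, W_A) ⊗ a)^C`** -/
def HlcSmallTwistEquiv (i : ℕ) :
    Hlc 𝒰 (P.small (twistRep A a)) i ≃ₗ[k]
      (twistRepresentation (hlcStarRep 𝒰 A i) (descend a ha)).invariants :=
  (HlcSmallEquivInvariants 𝒰 (twistRep A a) d' hd i).trans
    (invariantsEquivOfEquivariant _ _ (HlcTwistEquiv 𝒰 A a ha i)
      (fun c x => HlcTwistEquiv_equivariant 𝒰 A a ha i c x))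

include hd in
theorem finrank_Hlc_small_twist (i : ℕ) :
    Module.finrank k (Hlc 𝒰 (P.small (twistRep A a)) i) =
      Module.finrank k (twistRepresentation (hlcStarRep 𝒰 A i) (descend a ha)).invariants :=
  (HlcSmallTwistEquiv 𝒰 A a ha d' hd i).finrank_eq

end Final

end NormPair

end Fermat.Agent.GP.GW.E3
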