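/-
GATE-P (S56) / [P-GW] / E3g (helper78): ASSEMBLY of the base case of Tate's global Euler
characteristic formula — abstract form.

Setting (helper86's `StarAct`/`Twist`/`HlcStar`): `P = (H₀ ≤ H)` a `NormPair` of `G`, `C = H ⧸ H₀`,
`A : Rep k H`, `a : H →* Matrix J J k` trivial on `H₀`, `W_A = Coind_{H₀}^G Res A` with its
`⋆`-action of `C`.  For `X : Rep k C` put `twInv X b := dim (X ⊗ b)^C`.

* `finrank_fixSub_small_twist` : `dim (Coind_H (A ⊗ a))^{x = 1} = twInv (W_A^{x = 1}) ā`  (`x : G`);
* `finrank_small_twist`        : `dim Coind_H (A ⊗ a) = twInv W_A ā`;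
* `chi_small_twist`            : `χ(Coind_H (A ⊗ a)) = ∑ (-1)ⁱ twInv (Hlcⁱ(G, W_A)) ā`;
* `tateDefect_small_twist`     : the Tate defect
  `χ(N) − dim N^{x=1} + dim N` of `N = Coind_H (A ⊗ a)` VANISHES as soon as
  `twInv H⁰ + twInv H² + twInv W_A = twInv H¹ + twInv W_A^{x=1}` (the KEY identity in `K₀(k[C])`).
-/
import Fermat.Agent.GP.GW.E3.HlcStar
import Fermat.Agent.GP.GW.ChiAdd

set_option autoImplicit false

open CategoryTheory Module

noncomputable section

namespace Fermat.Agent.GP.GW.E3

open Fermat.Agent.GC.Prof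

universe u

variable {k G : Type u} [Field k] [Group G] {P : NormPair G}

/-- `twInv X b = dim (X ⊗ b)^Γ` : the dimension of the invariants of the matrix twist. -/
def twInv {Γ : Type u} [Group Γ] {J : Type} [Fintype J] [DecidableEq J] (X : Rep.{u} k Γ)
    (b : Γ →* Matrix J J k) : ℕ :=
  finrank k (twistRepresentation X b).invariants

/-- the fixed space of `x ∈ G` on a representation -/
def fixSub (N : Rep.{u} k G) (x : G) : Submodule k N := LinearMap.ker (N.ρ x - 1)

lemma mem_fixSub {N : Rep.{u} k G} {x : G} {v : N} : v ∈ fixSub N x ↔ N.ρ x v = v := by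
  unfold fixSub
  rw [LinearMap.mem_ker, LinearMap.sub_apply, Module.End.one_apply, sub_eq_zero]

lemma map_mem_fixSub {N N' : Rep.{u} k G} (φ : N ⟶ N') {x : G} {v : N} (hv : v ∈ fixSub N x) :
    φ.hom v ∈ fixSub N' x := by
  rw [mem_fixSub] at hv ⊢
  rw [← Rep.hom_comm_apply, hv]

lemma fixSub_one (N : Rep.{u} k G) : fixSub N (1 : G) = ⊤ := by
  ext v
  rw [mem_fixSub, map_one]
  simp

namespace NormPair

/-! ### `W_A` and its fixed spaces as `k[C]`-modules -/

/-- `C` acts on `W_A` through `⋆` -/
def bigStarRepresentation (A : Rep.{u} k P.H) : Representation k P.C (P.big A) where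
  toFun c := (starC A c : P.big A ⟶ P.big A).hom.toLinearMap
  map_one' := by rw [map_one]; rfl
  map_mul' c c' := by rw [map_mul]; rfl

/-- **`W_A` as a `k[C]`-module** -/
def bigStarRep (A : Rep.{u} k P.H) : Rep.{u} k P.C := Rep.of (bigStarRepresentation A)

lemma bigStarRepresentation_apply (A : Rep.{u} k P.H) (c : P.C) (f : P.big A) :
    bigStarRepresentation A c f = (starC A c : P.big A ⟶ P.big A).hom f := rfl

/-- `C` acts on the fixed space `W_A^{x = 1}` of `x ∈ G` -/
def bigFixRepresentation (A : Rep.{u} k P.H) (x : G) :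
    Representation k P.C (fixSub (P.big A) x) where
  toFun c := (bigStarRepresentation A c).restrict
    (fun _ hv => map_mem_fixSub (starC A c : P.big A ⟶ P.big A) hv)
  map_one' := by
    refine LinearMap.ext fun v => Subtype.ext ?_
    show bigStarRepresentation A 1 v.1 = v.1
    rw [map_one]; rfl
  map_mul' c c' := by
    refine LinearMap.ext fun v => Subtype.ext ?_
    show bigStarRepresentation A (c * c') v.1 = bigStarRepresentation A c (bigStarRepresentation A c' v.1)
    rw [map_mul]; rfl

/-- **`W_A^{x = 1}` as a `k[C]`-module** -/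
def bigFixRep (A : Rep.{u} k P.H) (x : G) : Rep.{u} k P.C := Rep.of (bigFixRepresentation A x)

lemma bigFixRepresentation_coe (A : Rep.{u} k P.H) (x : G) (c : P.C) (v : fixSub (P.big A) x) :
    ((bigFixRepresentation A x c v : fixSub (P.big A) x) : P.big A) =
      (starC A c : P.big A ⟶ P.big A).hom v.1 := rfl

/-! ### Coordinates on `W_{A ⊗ a}` -/

section Coord

variable {J : Type} [Fintype J] [DecidableEq J] (A : Rep.{u} k P.H)
  (a : P.H →* Matrix J J k) (ha : ∀ s : P.H, (s : G) ∈ P.H₀ → a s = 1)

/-- the coordinates of an element of `W_{A ⊗ a}` -/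
def coord : P.big (twistRep A a) →ₗ[k] (J → P.big A) :=
  LinearMap.pi fun j => (bigπ A a ha j).hom.toLinearMap

@[simp] lemma coord_apply (f : P.big (twistRep A a)) (j : J) :
    coord A a ha f j = (bigπ A a ha j).hom f := rfl

/-- the element of `W_{A ⊗ a}` with given coordinates -/
def unCoord : (J → P.big A) →ₗ[k] P.big (twistRep A a) :=
  ∑ j, (bigσ A a ha j).hom.toLinearMap ∘ₗ LinearMap.proj j

lemma unCoord_apply (v : J → P.big A) :
    unCoord A a ha v = ∑ j, (bigσ A a ha j).hom (v j) := by
  unfold unCoord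
  rw [LinearMap.sum_apply]
  rfl

lemma coord_unCoord (v : J → P.big A) : coord A a ha (unCoord A a ha v) = v := by
  funext i
  rw [coord_apply, unCoord_apply, map_sum, Finset.sum_eq_single i]
  · exact congr($(bigσ_bigπ_self A a ha i) (v i))
  · intro j _ hj
    have := congr($(bigσ_bigπ_of_ne A a ha hj) (v j))
    exact this
  · intro h
    exact absurd (Finset.mem_univ i) h

lemma unCoord_coord (f : P.big (twistRep A a)) : unCoord A a ha (coord A a ha f) = f := by
  rw [unCoord_apply]
  have := congr($(sum_bigπ_bigσ A a ha) f)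
  rw [sum_hom_apply'] at this
  exact this

lemma coord_injective : Function.Injective (coord A a ha) := fun f f' h => by
  rw [← unCoord_coord A a ha f, ← unCoord_coord A a ha f', h]

/-- coordinates commute with the `G`-action -/
lemma coord_ρ (x : G) (f : P.big (twistRep A a)) (j : J) :
    coord A a ha ((P.big (twistRep A a)).ρ x f) j = (P.big A).ρ x (coord A a ha f j) :=
  Rep.hom_comm_apply (bigπ A a ha j) x f

/-- **the `⋆`-action in coordinates** -/
lemma coord_starC (c : P.C) (f : P.big (twistRep A a)) (i : J) :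
    coord A a ha ((starC (twistRep A a) c : P.big (twistRep A a) ⟶ _).hom f) i =
      ∑ j, descend a ha c i j • (starC A c : P.big A ⟶ P.big A).hom (coord A a ha f j) := by
  induction c using QuotientGroup.induction_on with
  | H n =>
    rw [descend_mk, starC_mk, starC_mk, coord_apply]
    have := congr($(star_bigπ A a ha n i) f)
    rw [sum_hom_apply'] at this
    exact this

end Coord

/-! ### `(Coind_H (A ⊗ a))^{x = 1} ≃ (W_A^{x = 1} ⊗ ā)^C` -/

section FixVal

variable (A : Rep.{u} k P.H) (x : G)

/-- the underlying element of `W_A` of an element of `W_A^{x = 1}` -/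
def bigFixVal : bigFixRep A x →ₗ[k] P.big A := (fixSub (P.big A) x).subtype

lemma bigFixVal_injective : Function.Injective (bigFixVal A x) :=
  (fixSub (P.big A) x).injective_subtype

lemma bigFixVal_mem (v : bigFixRep A x) : bigFixVal A x v ∈ fixSub (P.big A) x :=
  Subtype.property (p := fun w => w ∈ fixSub (P.big A) x) v

/-- an `x`-fixed element of `W_A` as an element of the `k[C]`-module `W_A^{x = 1}` -/
def bigFixMk (w : P.big A) (hw : w ∈ fixSub (P.big A) x) : bigFixRep A x :=
  (⟨w, hw⟩ : fixSub (P.big A) x)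

@[simp] lemma bigFixVal_mk (w : P.big A) (hw : w ∈ fixSub (P.big A) x) :
    bigFixVal A x (bigFixMk A x w hw) = w := rfl

lemma bigFixVal_ρ (c : P.C) (v : bigFixRep A x) :
    bigFixVal A x ((bigFixRep A x).ρ c v) =
      (starC A c : P.big A ⟶ P.big A).hom (bigFixVal A x v) := rfl

end FixVal

section FixEquiv

variable {J : Type} [Fintype J] [DecidableEq J] (A : Rep.{u} k P.H)
  (a : P.H →* Matrix J J k) (ha : ∀ s : P.H, (s : G) ∈ P.H₀ → a s = 1) (x : G)

/-- the twisted action of `C` on `J → W_A^{x = 1}`, read in `W_A` -/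
lemma bigFixVal_twist (c : P.C) (v : J → bigFixRep A x) (i : J) :
    bigFixVal A x (twistRepresentation (bigFixRep A x) (descend a ha) c v i) =
      ∑ j, descend a ha c i j •
        (starC A c : P.big A ⟶ P.big A).hom (bigFixVal A x (v j)) := by
  show bigFixVal A x (∑ j, descend a ha c i j • (bigFixRep A x).ρ c (v j)) = _
  rw [map_sum]
  refine Finset.sum_congr rfl fun j _ => ?_
  rw [map_smul, bigFixVal_ρ]

/-- the coordinates of an `x`-fixed element of `Coind_H (A ⊗ a)`, as a `C`-invariant vector of
`W_A^{x = 1} ⊗ ā` -/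
def fixCoord : fixSub (P.small (twistRep A a)) x →ₗ[k]
    (twistRepresentation (bigFixRep A x) (descend a ha)).invariants where
  toFun f := ⟨fun j => bigFixMk A x (coord A a ha ((coindIncl (twistRep A a)).hom f.1) j)
      (map_mem_fixSub (bigπ A a ha j) (map_mem_fixSub (coindIncl (twistRep A a)) f.2)), by
    intro c
    funext i
    apply bigFixVal_injective A x
    rw [bigFixVal_twist]
    have h2 : (starC (twistRep A a) c : P.big (twistRep A a) ⟶ _).hom
        ((coindIncl (twistRep A a)).hom f.1) = (coindIncl (twistRep A a)).hom f.1 :=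
      congr($(coindIncl_starC (twistRep A a) c) f.1)
    have h1 := coord_starC A a ha c ((coindIncl (twistRep A a)).hom f.1) i
    rw [h2] at h1
    exact h1.symm⟩
  map_add' f f' := by
    apply Subtype.ext
    funext j
    apply bigFixVal_injective A x
    show coord A a ha ((coindIncl (twistRep A a)).hom (f.1 + f'.1)) j = _
    rw [map_add, map_add]
    rfl
  map_smul' r f := by
    apply Subtype.ext
    funext j
    apply bigFixVal_injective A x
    show coord A a ha ((coindIncl (twistRep A a)).hom (r • f.1)) j = _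
    rw [map_smul, map_smul]
    rfl

lemma fixCoord_val (f : fixSub (P.small (twistRep A a)) x) (j : J) :
    bigFixVal A x ((fixCoord A a ha x f).1 j) =
      coord A a ha ((coindIncl (twistRep A a)).hom f.1) j := rfl

lemma fixCoord_injective : Function.Injective (fixCoord A a ha x) := by
  intro f f' h
  apply Subtype.ext
  apply coindIncl_injective (twistRep A a)
  apply coord_injective A a ha
  funext j
  rw [← fixCoord_val A a ha x f j, ← fixCoord_val A a ha x f' j, h]

lemma fixCoord_surjective : Function.Surjective (fixCoord A a ha x) := by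
  intro v
  -- the element of `W_{A ⊗ a}` with coordinates `v`
  set w : P.big (twistRep A a) := unCoord A a ha (fun j => bigFixVal A x (v.1 j)) with hw
  have hcw : ∀ j, coord A a ha w j = bigFixVal A x (v.1 j) := fun j =>
    congrFun (coord_unCoord A a ha _) j
  -- `w` is `C`-invariant
  have hinv : ∀ c : P.C, (starC (twistRep A a) c : P.big (twistRep A a) ⟶ _).hom w = w := by
    intro c
    apply coord_injective A a ha
    funext i
    rw [coord_starC, hcw i]
    have hv : twistRepresentation (bigFixRep A x) (descend a ha) c v.1 = v.1 := v.2 c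
    have hv' := congrArg (bigFixVal A x) (congrFun hv i)
    rw [bigFixVal_twist] at hv'
    rw [← hv']
    refine Finset.sum_congr rfl fun j _ => ?_
    rw [hcw j]
  obtain ⟨f, hf⟩ := (mem_range_coindIncl_iff_C (twistRep A a) w).2 hinv
  -- `f` is `x`-fixed
  have hfx : f ∈ fixSub (P.small (twistRep A a)) x := by
    rw [mem_fixSub]
    apply coindIncl_injective (twistRep A a)
    rw [Rep.hom_comm_apply, hf]
    apply coord_injective A a ha
    funext j
    rw [coord_ρ, hcw j]
    exact mem_fixSub.1 (bigFixVal_mem A x (v.1 j))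
  refine ⟨⟨f, hfx⟩, ?_⟩
  apply Subtype.ext
  funext j
  apply bigFixVal_injective A x
  rw [fixCoord_val]
  show coord A a ha ((coindIncl (twistRep A a)).hom f) j = _
  rw [hf, hcw j]

/-- **`(Coind_H (A ⊗ a))^{x = 1} ≃ (W_A^{x = 1} ⊗ ā)^C`** -/
def fixEquiv : fixSub (P.small (twistRep A a)) x ≃ₗ[k]
    (twistRepresentation (bigFixRep A x) (descend a ha)).invariants :=
  LinearEquiv.ofBijective (fixCoord A a ha x)
    ⟨fixCoord_injective A a ha x, fixCoord_surjective A a ha x⟩

theorem finrank_fixSub_small_twist :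
    finrank k (fixSub (P.small (twistRep A a)) x) = twInv (bigFixRep A x) (descend a ha) :=
  (fixEquiv A a ha x).finrank_eq

end FixEquiv

/-! ### `dim Coind_H (A ⊗ a) = dim (W_A ⊗ ā)^C` -/

section Whole

variable {J : Type} [Fintype J] [DecidableEq J] (A : Rep.{u} k P.H)
  (a : P.H →* Matrix J J k) (ha : ∀ s : P.H, (s : G) ∈ P.H₀ → a s = 1)

/-- `J → W_A^{1 = 1} ≃ J → W_A` -/
def fixOneEquiv : (J → bigFixRep A (1 : G)) ≃ₗ[k] (J → bigStarRep A) :=
  LinearEquiv.piCongrRight fun _ => LinearEquiv.ofTop (fixSub (P.big A) (1 : G)) (fixSub_one _)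

omit [Fintype J] [DecidableEq J] in
lemma fixOneEquiv_apply (v : J → bigFixRep A (1 : G)) (j : J) :
    fixOneEquiv A v j = bigFixVal A 1 (v j) := rfl

lemma fixOneEquiv_equivariant (c : P.C) (v : J → bigFixRep A (1 : G)) :
    fixOneEquiv A (twistRepresentation (bigFixRep A (1 : G)) (descend a ha) c v) =
      twistRepresentation (bigStarRep A) (descend a ha) c (fixOneEquiv A v) := by
  funext i
  rw [fixOneEquiv_apply, bigFixVal_twist]
  rfl

theorem twInv_bigFixRep_one :
    twInv (bigFixRep A (1 : G)) (descend a ha) = twInv (bigStarRep A) (descend a ha) :=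
  (invariantsEquivOfEquivariant _ _ (fixOneEquiv A)
    (fun c v => fixOneEquiv_equivariant A a ha c v)).finrank_eq

/-- **`dim Coind_H (A ⊗ a) = dim (W_A ⊗ ā)^C`** -/
theorem finrank_small_twist :
    finrank k (P.small (twistRep A a)) = twInv (bigStarRep A) (descend a ha) := by
  rw [← twInv_bigFixRep_one A a ha, ← finrank_fixSub_small_twist A a ha 1, fixSub_one,
    finrank_top]

end Whole

/-! ### The Euler characteristic and the Tate defect of `Coind_H (A ⊗ a)` -/

section Chi

variable (𝒰 : LevelSystem G) {J : Type} [Fintype J] [DecidableEq J] (A : Rep.{u} k P.H)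
  (a : P.H →* Matrix J J k) (ha : ∀ s : P.H, (s : G) ∈ P.H₀ → a s = 1)
  [IsDiscrete 𝒰 (P.big A)] [IsDiscrete 𝒰 (P.big (twistRep A a))]
  [IsDiscrete 𝒰 (P.small (twistRep A a))]
  [Finite P.C] (d' : k) (hd : d' * (Nat.card P.C : k) = 1)

include hd in
/-- **`χ(Coind_H (A ⊗ a)) = ∑ (-1)ⁱ dim (Hlcⁱ(G, W_A) ⊗ ā)^C`** -/
theorem chi_small_twist :
    ChiAdd.chi 𝒰 (P.small (twistRep A a)) =
      (twInv (hlcStarRep 𝒰 A 0) (descend a ha) : ℤ) - twInv (hlcStarRep 𝒰 A 1) (descend a ha) +
        twInv (hlcStarRep 𝒰 A 2) (descend a ha) := by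
  unfold ChiAdd.chi twInv
  rw [finrank_Hlc_small_twist 𝒰 A a ha d' hd 0, finrank_Hlc_small_twist 𝒰 A a ha d' hd 1,
    finrank_Hlc_small_twist 𝒰 A a ha d' hd 2]

include hd in
/-- **The Tate defect of `N = Coind_H (A ⊗ a)` at `x ∈ G`** (for `G = G_ℚ`, `x` = complex
conjugation): `χ(N) − dim N^{x = 1} + dim N = 0` follows from the KEY identity
`[H⁰] + [H²] + [W_A] = [H¹] + [W_A^{x = 1}]` paired against `ā`. -/
theorem tateDefect_small_twist (x : G)
    (hkey : twInv (hlcStarRep 𝒰 A 0) (descend a ha) + twInv (hlcStarRep 𝒰 A 2) (descend a ha) +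
        twInv (bigStarRep A) (descend a ha) =
      twInv (hlcStarRep 𝒰 A 1) (descend a ha) + twInv (bigFixRep A x) (descend a ha)) :
    ChiAdd.chi 𝒰 (P.small (twistRep A a)) -
        finrank k (LinearMap.ker ((P.small (twistRep A a)).ρ x - 1)) +
        finrank k (P.small (twistRep A a)) = 0 := by
  have h1 : finrank k (LinearMap.ker ((P.small (twistRep A a)).ρ x - 1)) =
      twInv (bigFixRep A x) (descend a ha) := finrank_fixSub_small_twist A a ha x
  rw [chi_small_twist 𝒰 A a ha d' hd, h1, finrank_small_twist A a ha]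
  omega

end Chi

end NormPair

end Fermat.Agent.GP.GW.E3
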