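/-
GATE-P (S56) / [P-GW] / E3g (ARCH) (helper78): the archimedean leaf of the KEY identity.

`P = (H₀ ≤ H)` a `NormPair` of `G`, `χ : G →* kˣ`, `A : Rep k H` of rank one on which `H` acts
through `χ`, `x : G` an involution with `χ x = -1` (complex conjugation and the mod `p` cyclotomic
character), `2 ∈ kˣ`.  Multiplication by the function `χ` is a `⋆`-equivariant isomorphism
  `mulChi : W_k ≃ W_A`        (`W_k = Coind_{H₀}^G k`, untwisted `⋆`-action)
which exchanges the `x`-fixed vectors of `W_k` with the `x`-ANTI-fixed vectors of `W_A`.  Hence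
  `charpoly (γ | W_A) = charpoly (γ | W_A^{x = 1}) * charpoly (γ | W_k^{x = 1})`      (ARCH)
for `γ = c ⋆ -`, every `c ∈ C`; the last factor is the permutation polynomial of `c` on
`H₀ \ G / ⟨x⟩` (the infinite places of the field cut out by `H₀`).
-/
import Fermat.Agent.GP.GW.E3.Base
import Fermat.Agent.GP.GW.Euler.CharpolyCalc

set_option autoImplicit false

open CategoryTheory Module

noncomputable section

namespace Fermat.Agent.GP.GW.E3

universe u

variable {k G : Type u} [Field k] [Group G] {P : NormPair G}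

namespace NormPair

variable (P) in
/-- the trivial coefficient module `k` of `H` -/
abbrev triv₀ : Rep.{u} k P.H := Rep.trivial k P.H k

lemma big_triv₀_prop (f : P.big (P.triv₀ (k := k))) (s : P.H₀) (g : G) :
    f.1 ((s : G) * g) = f.1 g := big_prop (P.triv₀ (k := k)) f s g

section MulChi

variable (χ : G →* kˣ) (A : Rep.{u} k P.H) (e : A ≃ₗ[k] k)
  (hA : ∀ (h : P.H) (y : A), A.ρ h y = ((χ (h : G) : kˣ) : k) • y)

include hA in
lemma mulChi_mem (f : P.big (P.triv₀ (k := k))) :
    (fun g : G => (((χ g : kˣ) : k) * (f.1 g : k)) • e.symm 1) ∈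
      Representation.coindV P.H₀.subtype (P.res₀ A).ρ := by
  intro s g
  show (((χ ((s : G) * g) : kˣ) : k) * (f.1 ((s : G) * g) : k)) • e.symm 1 =
    A.ρ (P.incl s) ((((χ g : kˣ) : k) * (f.1 g : k)) • e.symm 1)
  rw [hA, big_triv₀_prop, map_mul, Units.val_mul, smul_smul, mul_assoc]
  rfl

/-- **multiplication by `χ`**: `W_k → W_A` -/
def mulChi : P.big (P.triv₀ (k := k)) →ₗ[k] P.big A where
  toFun f := ⟨fun g => (((χ g : kˣ) : k) * (f.1 g : k)) • e.symm 1, mulChi_mem χ A e hA f⟩
  map_add' f f' := by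
    apply Subtype.ext
    funext g
    show (((χ g : kˣ) : k) * ((f.1 g : k) + (f'.1 g : k))) • e.symm 1 =
      (((χ g : kˣ) : k) * (f.1 g : k)) • e.symm 1 + (((χ g : kˣ) : k) * (f'.1 g : k)) • e.symm 1
    rw [mul_add, add_smul]
  map_smul' r f := by
    apply Subtype.ext
    funext g
    show (((χ g : kˣ) : k) * (r * (f.1 g : k))) • e.symm 1 =
      r • ((((χ g : kˣ) : k) * (f.1 g : k)) • e.symm 1)
    rw [smul_smul]
    congr 1
    ring

lemma mulChi_apply (f : P.big (P.triv₀ (k := k))) (g : G) :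
    (mulChi χ A e hA f).1 g = (((χ g : kˣ) : k) * (f.1 g : k)) • e.symm 1 := rfl

lemma e_mulChi_apply (f : P.big (P.triv₀ (k := k))) (g : G) :
    e ((mulChi χ A e hA f).1 g) = ((χ g : kˣ) : k) * (f.1 g : k) := by
  rw [mulChi_apply, map_smul, e.apply_symm_apply, smul_eq_mul, mul_one]

lemma big_ext_e {w w' : P.big A} (h : ∀ g, e (w.1 g) = e (w'.1 g)) : w = w' := by
  apply Subtype.ext
  funext g
  exact e.injective (h g)

lemma mulChi_injective : Function.Injective (mulChi χ A e hA) := by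
  intro f f' h
  apply Subtype.ext
  funext g
  have h1 := e_mulChi_apply χ A e hA f g
  rw [h, e_mulChi_apply] at h1
  exact mul_left_cancel₀ (Units.ne_zero (χ g)) h1.symm

include hA in
lemma divChi_mem (w : P.big A) :
    (fun g : G => (((χ g)⁻¹ : kˣ) : k) * e (w.1 g)) ∈
      Representation.coindV P.H₀.subtype (P.res₀ (P.triv₀ (k := k))).ρ := by
  intro s g
  show (((χ ((s : G) * g))⁻¹ : kˣ) : k) * e (w.1 ((s : G) * g)) =
    (((χ g)⁻¹ : kˣ) : k) * e (w.1 g)
  have hs : ((P.incl s : P.H) : G) = (s : G) := rfl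
  rw [big_prop A w s g, hA, hs, map_smul, smul_eq_mul, map_mul, mul_inv_rev, Units.val_mul, mul_assoc,
    ← mul_assoc (((χ (s : G))⁻¹ : kˣ) : k), ← Units.val_mul, inv_mul_cancel, Units.val_one, one_mul]

lemma mulChi_surjective : Function.Surjective (mulChi χ A e hA) := by
  intro w
  refine ⟨⟨fun g => (((χ g)⁻¹ : kˣ) : k) * e (w.1 g), divChi_mem χ A e hA w⟩, ?_⟩
  apply big_ext_e A e
  intro g
  rw [e_mulChi_apply]
  show ((χ g : kˣ) : k) * ((((χ g)⁻¹ : kˣ) : k) * e (w.1 g)) = e (w.1 g)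
  rw [← mul_assoc, ← Units.val_mul, mul_inv_cancel, Units.val_one, one_mul]

/-- `mulChi` intertwines the `⋆`-actions -/
lemma mulChi_star (n : P.H) (f : P.big (P.triv₀ (k := k))) :
    mulChi χ A e hA ((star (P.triv₀ (k := k)) n).hom f) = (star A n).hom (mulChi χ A e hA f) := by
  apply big_ext_e A e
  intro g
  rw [e_mulChi_apply, star_hom_apply, star_hom_apply, hA, map_smul, e_mulChi_apply, smul_eq_mul,
    ← mul_assoc, ← Units.val_mul, ← map_mul, mul_inv_cancel_left]
  rfl

lemma mulChi_starC (c : P.C) (f : P.big (P.triv₀ (k := k))) :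
    mulChi χ A e hA ((starC (P.triv₀ (k := k)) c : P.big (P.triv₀ (k := k)) ⟶ _).hom f) =
      (starC A c : P.big A ⟶ P.big A).hom (mulChi χ A e hA f) := by
  induction c using QuotientGroup.induction_on with
  | H n => exact mulChi_star χ A e hA n f

/-- `mulChi` anti-commutes with an element `x` with `χ x = -1` -/
lemma mulChi_ρ (x : G) (hx : ((χ x : kˣ) : k) = -1) (f : P.big (P.triv₀ (k := k))) :
    mulChi χ A e hA ((P.big (P.triv₀ (k := k))).ρ x f) = -((P.big A).ρ x (mulChi χ A e hA f)) := by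
  apply big_ext_e A e
  intro g
  rw [e_mulChi_apply, big_ρ_apply]
  show _ = e (-((P.big A).ρ x (mulChi χ A e hA f)).1 g)
  rw [map_neg, big_ρ_apply, e_mulChi_apply, map_mul, Units.val_mul, hx]
  ring

end MulChi

section Split

variable (χ : G →* kˣ) (A : Rep.{u} k P.H) (e : A ≃ₗ[k] k)
  (hA : ∀ (h : P.H) (y : A), A.ρ h y = ((χ (h : G) : kˣ) : k) • y)

/-- `mulChi` as a linear equivalence `W_k ≃ W_A` -/
def mulChiEquiv : P.big (P.triv₀ (k := k)) ≃ₗ[k] P.big A :=
  LinearEquiv.ofBijective (mulChi χ A e hA) ⟨mulChi_injective χ A e hA, mulChi_surjective χ A e hA⟩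

lemma mulChiEquiv_apply (f : P.big (P.triv₀ (k := k))) :
    mulChiEquiv χ A e hA f = mulChi χ A e hA f := rfl

include e hA in
lemma finiteDimensional_big_triv₀ [FiniteDimensional k (P.big A)] :
    FiniteDimensional k (P.big (P.triv₀ (k := k))) :=
  Module.Finite.equiv (mulChiEquiv χ A e hA).symm

variable (x : G) (hx2 : x * x = 1) (hx : ((χ x : kˣ) : k) = -1)

include hx2 in
lemma ρ_ρ_of_sq (N : Rep.{u} k G) (v : N) : N.ρ x (N.ρ x v) = v := by
  rw [← Module.End.mul_apply, ← map_mul, hx2, map_one, Module.End.one_apply]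

include hx2 hx in
/-- the anti-fixed part `w - x w`, divided by `χ`, is `x`-fixed in `W_k` -/
lemma symm_sub_mem_fixSub (w : P.big A) :
    (mulChiEquiv χ A e hA).symm (w - (P.big A).ρ x w) ∈ fixSub (P.big (P.triv₀ (k := k))) x := by
  rw [mem_fixSub]
  apply (mulChiEquiv χ A e hA).injective
  rw [mulChiEquiv_apply, mulChi_ρ χ A e hA x hx, ← mulChiEquiv_apply, LinearEquiv.apply_symm_apply,
    map_sub, ρ_ρ_of_sq x hx2]
  abel

/-- the map `W_A → W_k^{x = 1}`, `w ↦ χ⁻¹ (w - x w)` -/
def antiPart : P.big A →ₗ[k] fixSub (P.big (P.triv₀ (k := k))) x where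
  toFun w := ⟨(mulChiEquiv χ A e hA).symm (w - (P.big A).ρ x w),
    symm_sub_mem_fixSub χ A e hA x hx2 hx w⟩
  map_add' w w' := by
    apply Subtype.ext
    show (mulChiEquiv χ A e hA).symm (w + w' - (P.big A).ρ x (w + w')) =
      (mulChiEquiv χ A e hA).symm (w - (P.big A).ρ x w) +
        (mulChiEquiv χ A e hA).symm (w' - (P.big A).ρ x w')
    rw [← map_add, map_add ((P.big A).ρ x)]
    congr 1
    abel
  map_smul' r w := by
    apply Subtype.ext
    show (mulChiEquiv χ A e hA).symm (r • w - (P.big A).ρ x (r • w)) =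
      r • (mulChiEquiv χ A e hA).symm (w - (P.big A).ρ x w)
    rw [← map_smul, map_smul ((P.big A).ρ x), smul_sub]

lemma antiPart_coe (w : P.big A) :
    ((antiPart χ A e hA x hx2 hx w : fixSub (P.big (P.triv₀ (k := k))) x) :
      P.big (P.triv₀ (k := k))) = (mulChiEquiv χ A e hA).symm (w - (P.big A).ρ x w) := rfl

lemma ker_antiPart : LinearMap.ker (antiPart χ A e hA x hx2 hx) = fixSub (P.big A) x := by
  ext w
  rw [LinearMap.mem_ker, mem_fixSub, ← Subtype.coe_inj, antiPart_coe]
  show (mulChiEquiv χ A e hA).symm (w - (P.big A).ρ x w) = 0 ↔ _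
  rw [LinearEquiv.map_eq_zero_iff, sub_eq_zero]
  exact eq_comm

include hx2 hx in
lemma antiPart_surjective (h2 : (2 : k) ≠ 0) :
    Function.Surjective (antiPart χ A e hA x hx2 hx) := by
  intro f
  have hf : (P.big (P.triv₀ (k := k))).ρ x f.1 = f.1 := mem_fixSub.1 f.2
  have h1 : (P.big A).ρ x (mulChi χ A e hA f.1) = -mulChi χ A e hA f.1 := by
    have := mulChi_ρ χ A e hA x hx f.1
    rw [hf] at this
    rw [eq_neg_iff_add_eq_zero, add_comm]
    exact eq_neg_iff_add_eq_zero.1 this
  refine ⟨(2 : k)⁻¹ • mulChi χ A e hA f.1, ?_⟩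
  apply Subtype.ext
  rw [antiPart_coe, map_smul, h1, smul_neg, sub_neg_eq_add, ← add_smul]
  have : ((2 : k)⁻¹ + (2 : k)⁻¹) = 1 := by
    field_simp
    norm_num
  rw [this, one_smul, ← mulChiEquiv_apply, LinearEquiv.symm_apply_apply]

/-- `antiPart` intertwines the `⋆`-actions -/
lemma antiPart_starC (c : P.C) (w : P.big A) :
    antiPart χ A e hA x hx2 hx (bigStarRepresentation A c w) =
      bigFixRepresentation (P.triv₀ (k := k)) x c (antiPart χ A e hA x hx2 hx w) := by
  apply Subtype.ext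
  rw [antiPart_coe]
  show _ = (starC (P.triv₀ (k := k)) c : P.big (P.triv₀ (k := k)) ⟶ _).hom
    ((mulChiEquiv χ A e hA).symm (w - (P.big A).ρ x w))
  apply (mulChiEquiv χ A e hA).injective
  rw [LinearEquiv.apply_symm_apply, mulChiEquiv_apply, mulChi_starC, ← mulChiEquiv_apply,
    LinearEquiv.apply_symm_apply, bigStarRepresentation_apply, map_sub, Rep.hom_comm_apply]

variable [FiniteDimensional k (P.big A)]

include e hA hx2 hx in
/-- **(ARCH)**, linear-map form -/
theorem charpoly_bigStar_eq (h2 : (2 : k) ≠ 0) (c : P.C) :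
    haveI := finiteDimensional_big_triv₀ χ A e hA
    (bigStarRepresentation A c).charpoly =
      (bigFixRepresentation A x c).charpoly *
        (bigFixRepresentation (P.triv₀ (k := k)) x c).charpoly := by
  have := finiteDimensional_big_triv₀ χ A e hA
  refine CharpolyCalc.charpoly_of_exact (fixSub (P.big A) x).subtype
    (antiPart χ A e hA x hx2 hx) (Submodule.injective_subtype _)
    (antiPart_surjective χ A e hA x hx2 hx h2) ?_ _ _ _ (fun v => rfl)
    (fun w => antiPart_starC χ A e hA x hx2 hx c w)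
  rw [ker_antiPart, Submodule.range_subtype]

instance finiteDimensional_bigStarRep (A : Rep.{u} k P.H) [FiniteDimensional k (P.big A)] :
    FiniteDimensional k (bigStarRep A) :=
  inferInstanceAs (FiniteDimensional k (P.big A))

instance finiteDimensional_bigFixRep (A : Rep.{u} k P.H) (x : G) [FiniteDimensional k (P.big A)] :
    FiniteDimensional k (bigFixRep A x) :=
  inferInstanceAs (FiniteDimensional k (fixSub (P.big A) x))

include e hA hx2 hx in
/-- **(ARCH)** in the spelling of (KEY-CP): for `γ = c ⋆ -`,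
`charpoly (γ | W_A) = charpoly (γ | W_A^{x = 1}) * charpoly (γ | W_k^{x = 1})`. -/
theorem arch_charpoly (h2 : (2 : k) ≠ 0) (c : P.C)
    [FiniteDimensional k (P.big (P.triv₀ (k := k)))] :
    ((bigStarRep A).ρ c).charpoly =
      ((bigFixRep A x).ρ c).charpoly * ((bigFixRep (P.triv₀ (k := k)) x).ρ c).charpoly :=
  charpoly_bigStar_eq χ A e hA x hx2 hx h2 c

end Split

end NormPair

end Fermat.Agent.GP.GW.E3
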