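/-
GATE-P (S56) / [P-GW] / E3g part 2 (helper78): from characteristic polynomials to the KEY identity
of `Base.lean`.

* `twInv_key_of_charpoly` : if `X ↦ twInv X b` factors additively through the characteristic
  polynomial of a generator `g` (leaf G1, helper51), then a product identity of characteristic
  polynomials gives the corresponding identity of `twInv`'s;
* `keyCP_of_leaves` : the product identity (KEY-CP) from the five arithmetic leaves
  (K0) (K1) (UNIT) (H2) (ARCH), each a polynomial identity;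
* `NormPair.tateDefect_small_twist_of_charpoly` : the Tate defect of `Coind_H (A ⊗ a)` vanishes,
  from (KEY-CP).
-/
import Fermat.Agent.GP.GW.E3.Base

set_option autoImplicit false

open CategoryTheory Module Polynomial

noncomputable section

namespace Fermat.Agent.GP.GW.E3

open Fermat.Agent.GC.Prof

universe u

variable {k G : Type u} [Field k] [Group G] {P : NormPair G}

/-- the property of `b` delivered by leaf G1: `X ↦ twInv X b` is an additive function of the
characteristic polynomial of `g`. -/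
def TwInvFactors {Γ : Type u} [Group Γ] (g : Γ) {J : Type} [Fintype J] [DecidableEq J]
    (b : Γ →* Matrix J J k) : Prop :=
  ∃ F : k[X] → ℤ, (∀ P Q : k[X], P ≠ 0 → Q ≠ 0 → F (P * Q) = F P + F Q) ∧
    ∀ (X : Rep.{u} k Γ) [FiniteDimensional k X], (twInv X b : ℤ) = F (X.ρ g).charpoly

/-- **KEY from (KEY-CP).** -/
theorem twInv_key_of_charpoly {Γ : Type u} [Group Γ] (g : Γ) {J : Type} [Fintype J]
    [DecidableEq J] (b : Γ →* Matrix J J k) (hb : TwInvFactors g b)
    (X0 X1 X2 XW Xc : Rep.{u} k Γ) [FiniteDimensional k X0] [FiniteDimensional k X1]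
    [FiniteDimensional k X2] [FiniteDimensional k XW] [FiniteDimensional k Xc]
    (hcp : (X0.ρ g).charpoly * (X2.ρ g).charpoly * (XW.ρ g).charpoly =
      (X1.ρ g).charpoly * (Xc.ρ g).charpoly) :
    twInv X0 b + twInv X2 b + twInv XW b = twInv X1 b + twInv Xc b := by
  obtain ⟨F, hFmul, hF⟩ := hb
  have n0 := (X0.ρ g).charpoly_monic.ne_zero
  have n1 := (X1.ρ g).charpoly_monic.ne_zero
  have n2 := (X2.ρ g).charpoly_monic.ne_zero
  have nW := (XW.ρ g).charpoly_monic.ne_zero
  have nc := (Xc.ρ g).charpoly_monic.ne_zero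
  have h := congrArg F hcp
  rw [hFmul _ _ (mul_ne_zero n0 n2) nW, hFmul _ _ n0 n2, hFmul _ _ n1 nc,
    ← hF X0, ← hF X1, ← hF X2, ← hF XW, ← hF Xc] at h
  exact_mod_cast h

/-- **(KEY-CP) from the five leaves.**  `PU` = charpoly of `g` on `U_S(F)/p`, `PS` = product of the
permutation polynomials of the finite places, `Pinf` = permutation polynomial of the infinite
places, `ψ = χ(g)`. -/
theorem keyCP_of_leaves {P0 P1 P2 PW Pc PU PS Pinf : k[X]} (ψ : k)
    (hK0 : P0 = X - C ψ) (hK1 : P1 = PU)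
    (hUNIT : PU * (X - 1) = (X - C ψ) * PS * Pinf)
    (hH2 : P2 * (X - 1) = PS) (hARCH : PW = Pc * Pinf) :
    P0 * P2 * PW = P1 * Pc := by
  subst hK0 hK1 hARCH
  rw [← hH2] at hUNIT
  have hne : (X - 1 : k[X]) ≠ 0 := by
    have := X_sub_C_ne_zero (1 : k)
    rwa [C_1] at this
  apply mul_right_cancel₀ hne
  linear_combination (-Pc) * hUNIT

namespace NormPair

variable (𝒰 : LevelSystem G) {J : Type} [Fintype J] [DecidableEq J] (A : Rep.{u} k P.H)
  (a : P.H →* Matrix J J k) (ha : ∀ s : P.H, (s : G) ∈ P.H₀ → a s = 1)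
  [IsDiscrete 𝒰 (P.big A)] [IsDiscrete 𝒰 (P.big (twistRep A a))]
  [IsDiscrete 𝒰 (P.small (twistRep A a))]
  [Finite P.C] (d' : k) (hd : d' * (Nat.card P.C : k) = 1)

include hd in
/-- **The Tate defect of `Coind_H (A ⊗ a)` vanishes, from (KEY-CP).** -/
theorem tateDefect_small_twist_of_charpoly (x : G) (g : P.C)
    (hb : TwInvFactors g (descend a ha))
    [FiniteDimensional k (hlcStarRep 𝒰 A 0)] [FiniteDimensional k (hlcStarRep 𝒰 A 1)]
    [FiniteDimensional k (hlcStarRep 𝒰 A 2)] [FiniteDimensional k (bigStarRep A)]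
    [FiniteDimensional k (bigFixRep A x)]
    (hcp : ((hlcStarRep 𝒰 A 0).ρ g).charpoly * ((hlcStarRep 𝒰 A 2).ρ g).charpoly *
        ((bigStarRep A).ρ g).charpoly =
      ((hlcStarRep 𝒰 A 1).ρ g).charpoly * ((bigFixRep A x).ρ g).charpoly) :
    ChiAdd.chi 𝒰 (P.small (twistRep A a)) -
        finrank k (LinearMap.ker ((P.small (twistRep A a)).ρ x - 1)) +
        finrank k (P.small (twistRep A a)) = 0 :=
  tateDefect_small_twist 𝒰 A a ha d' hd x
    (twInv_key_of_charpoly g (descend a ha) hb _ _ _ _ _ hcp)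

end NormPair

end Fermat.Agent.GP.GW.E3
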