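/-
GATE-P (S56) / [P-GW] / E3g part 3 (helper78): the base case for ALL coefficient modules.

`P = (H₀ ≤ H)` a `NormPair` of `G` with `H₀ ∈ 𝒰`, `χ : G →* kˣ` trivial on `H₀`,
`A = k(χ)|_H`.  From (KEY-CP) for `T'' = W_A` and leaf G1 (`TwInvFactors`):
  `χ(Coind_H Y) − dim (Coind_H Y)^{x = 1} + dim Coind_H Y = 0`
for EVERY finite-dimensional `Y : Rep k H` trivial on `H₀` (`tateDefect_small_of_keyCP`).
-/
import Fermat.Agent.GP.GW.E3.BaseKey
import Fermat.Agent.GP.GW.E3.TwistIso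
import Fermat.Agent.GC.PT.RepDevissage
import Fermat.Agent.GC.Prof.CoindDualCup

set_option autoImplicit false

open CategoryTheory Module Polynomial

noncomputable section

namespace Fermat.Agent.GP.GW.E3

open Fermat.Agent.GC.Prof

universe u

variable {k G : Type u} [Field k] [Group G]

/-! ### Isomorphic representations -/

/-- the linear equivalence underlying an isomorphism of representations -/
def repIsoLin {M N : Rep.{u} k G} (e : M ≅ N) : M ≃ₗ[k] N where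
  toFun := e.hom.hom
  map_add' := map_add _
  map_smul' := map_smul _
  invFun := e.inv.hom
  left_inv v := congr($(e.hom_inv_id) v)
  right_inv v := congr($(e.inv_hom_id) v)

lemma finrank_eq_of_repIso {M N : Rep.{u} k G} (e : M ≅ N) : finrank k M = finrank k N :=
  (repIsoLin e).finrank_eq

lemma finrank_fixSub_eq_of_repIso {M N : Rep.{u} k G} (e : M ≅ N) (x : G) :
    finrank k (fixSub M x) = finrank k (fixSub N x) := by
  have hmap : (fixSub M x).map (repIsoLin e).toLinearMap = fixSub N x := by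
    ext y
    constructor
    · rintro ⟨v, hv, rfl⟩
      exact map_mem_fixSub e.hom hv
    · intro hy
      refine ⟨e.inv.hom y, map_mem_fixSub e.inv hy, ?_⟩
      exact (repIsoLin e).apply_symm_apply y
  rw [← hmap]
  exact (LinearEquiv.finrank_map_eq (repIsoLin e) (fixSub M x)).symm

namespace NormPair

variable (𝒰 : LevelSystem G) {P : NormPair G}

/-! ### Discreteness -/

theorem isDiscrete_big_of_trivial (hH₀ : P.H₀ ∈ 𝒰.sets) (Y : Rep.{u} k P.H)
    (hY : ∀ s : P.H, (s : G) ∈ P.H₀ → Y.ρ s = 1) : IsDiscrete 𝒰 (P.big Y) :=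
  Fermat.Agent.GC.PT.RepDevissage.isDiscrete_coind 𝒰 P.H₀ (P.res₀ Y)
    ⟨P.H₀, hH₀, le_rfl, fun v hv => hY (P.incl v) hv⟩

theorem isDiscrete_small_of_trivial (hH₀ : P.H₀ ∈ 𝒰.sets) (Y : Rep.{u} k P.H)
    (hY : ∀ s : P.H, (s : G) ∈ P.H₀ → Y.ρ s = 1) : IsDiscrete 𝒰 (P.small Y) :=
  Fermat.Agent.GC.PT.RepDevissage.isDiscrete_coind 𝒰 P.H Y
    ⟨P.H₀, hH₀, P.le, fun v hv => hY v hv⟩

lemma twistRep_ρ_of_mem {J : Type} [Fintype J] [DecidableEq J] (A : Rep.{u} k P.H)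
    (a : P.H →* Matrix J J k) (ha : ∀ s : P.H, (s : G) ∈ P.H₀ → a s = 1)
    (hA₀ : ∀ s : P.H, (s : G) ∈ P.H₀ → A.ρ s = 1) (s : P.H) (hs : (s : G) ∈ P.H₀) :
    (twistRep A a).ρ s = 1 := by
  refine LinearMap.ext fun v => ?_
  refine twist_ext (A := A) (a := a) fun i => ?_
  rw [twistRep_ρ_apply, ha s hs, hA₀ s hs]
  rw [Finset.sum_eq_single i]
  · simp
  · intro j _ hj
    simp [Ne.symm hj]
  · intro h
    exact absurd (Finset.mem_univ i) h

/-! ### The rank one module `k(χ)|_H` -/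

variable (P) in
/-- `A = k(χ)|_H` -/
abbrev chiRes (χ : G →* kˣ) : Rep.{u} k P.H := Rep.res P.H.subtype (chiRep χ)

lemma chiRes_ρ_apply (χ : G →* kˣ) (h : P.H) (y : P.chiRes χ) :
    (P.chiRes χ).ρ h y = ((χ (h : G) : kˣ) : k) • y := rfl

/-- the coordinate of `k(χ)|_H` -/
def chiResEquiv (χ : G →* kˣ) : P.chiRes χ ≃ₗ[k] k := LinearEquiv.refl k k

lemma chiRes_ρ_of_mem (χ : G →* kˣ) (hχ₀ : ∀ s ∈ P.H₀, χ s = 1) (s : P.H)
    (hs : (s : G) ∈ P.H₀) : (P.chiRes χ).ρ s = 1 := by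
  refine LinearMap.ext fun y => ?_
  rw [chiRes_ρ_apply, hχ₀ _ hs, Units.val_one, one_smul]
  rfl

/-! ### The base case for all `Y` -/

section Main

variable (hH₀ : P.H₀ ∈ 𝒰.sets) (χ : G →* kˣ) (hχ₀ : ∀ s ∈ P.H₀, χ s = 1)
  [Finite P.C] (d' : k) (hd : d' * (Nat.card P.C : k) = 1) (x : G) (g : P.C)
  (hb : ∀ (n : ℕ) (b : P.C →* Matrix (Fin n) (Fin n) k), TwInvFactors g b)
  [IsDiscrete 𝒰 (P.big (P.chiRes χ))]
  [FiniteDimensional k (hlcStarRep 𝒰 (P.chiRes χ) 0)]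
  [FiniteDimensional k (hlcStarRep 𝒰 (P.chiRes χ) 1)]
  [FiniteDimensional k (hlcStarRep 𝒰 (P.chiRes χ) 2)]
  [FiniteDimensional k (bigStarRep (P.chiRes χ))]
  [FiniteDimensional k (bigFixRep (P.chiRes χ) x)]
  (hcp : ((hlcStarRep 𝒰 (P.chiRes χ) 0).ρ g).charpoly *
      ((hlcStarRep 𝒰 (P.chiRes χ) 2).ρ g).charpoly * ((bigStarRep (P.chiRes χ)).ρ g).charpoly =
    ((hlcStarRep 𝒰 (P.chiRes χ) 1).ρ g).charpoly * ((bigFixRep (P.chiRes χ) x).ρ g).charpoly)

include hH₀ hχ₀ hd hb hcp in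
/-- **E3 BASE, abstract form**: Tate's defect of `Coind_H Y` vanishes for every
finite-dimensional `Y` trivial on `H₀`. -/
theorem tateDefect_small_of_keyCP (Y : Rep.{u} k P.H) [FiniteDimensional k Y]
    (hY : ∀ s : P.H, (s : G) ∈ P.H₀ → Y.ρ s = 1) [IsDiscrete 𝒰 (P.small Y)] :
    ChiAdd.chi 𝒰 (P.small Y) - finrank k (LinearMap.ker ((P.small Y).ρ x - 1)) +
      finrank k (P.small Y) = 0 := by
  obtain ⟨a, ha, -, ⟨φ⟩⟩ := exists_small_twist_iso (P.chiRes χ) (chiResEquiv χ)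
    (χ.comp P.H.subtype) (fun h y => chiRes_ρ_apply χ h y) Y hY (fun s hs => hχ₀ _ hs)
  have htriv := twistRep_ρ_of_mem (P.chiRes χ) a ha (chiRes_ρ_of_mem χ hχ₀)
  have := isDiscrete_big_of_trivial 𝒰 hH₀ (twistRep (P.chiRes χ) a) htriv
  have := isDiscrete_small_of_trivial 𝒰 hH₀ (twistRep (P.chiRes χ) a) htriv
  have key := tateDefect_small_twist_of_charpoly 𝒰 (P.chiRes χ) a ha d' hd x g (hb _ _) hcp
  rw [ChiAdd.chi_congr 𝒰 φ, finrank_eq_of_repIso φ]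
  have h3 : finrank k (LinearMap.ker ((P.small Y).ρ x - 1)) =
      finrank k (LinearMap.ker ((P.small (twistRep (P.chiRes χ) a)).ρ x - 1)) :=
    finrank_fixSub_eq_of_repIso φ x
  rw [h3]
  exact key

end Main

end NormPair

end Fermat.Agent.GP.GW.E3
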