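/-
GATE-P (S56) / [P-GW] / E3g part 4 (helper78): the Q-INSTANCE — `Euler.BaseCase S U` (the E3
interface of helper59's `Glue.lean`) from the KEY charpoly identity for `T'' = Coind_U k(χ_cyc)`.

* `normPairQ U H hUH` : the `NormPair` `(U ≤ H)` of `G_ℚ` (`U` normal);
* `KeyCPQ S U` : the binder — for every `H ⊇ U` with `H/U` cyclic of order prime to `p` some
  generator `g` of `H/U` satisfies (KEY-CP);
* `baseCase_of_keyCPQ` : `KeyCPQ S U` + leaf G1 (`TwInvFactors`) + `HlcFinite S` ⟹ `BaseCase S U`.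
-/
import Fermat.Agent.GP.GW.E3.BaseAll
import Fermat.Agent.GP.GW.E3.ArchSplit
import Fermat.Agent.GP.GW.Euler.Glue

set_option autoImplicit false

open CategoryTheory Module Polynomial

noncomputable section

namespace Fermat.Agent.GP.GW.E3

open Fermat.Agent.GC.Prof Fermat.Agent.GC.C0 ExtCitation Fermat.Agent.GP.GW.Euler

variable {p : ℕ} [Fact p.Prime] (S : Finset Nat.Primes) (U : Subgroup GQ) [U.Normal]

/-- the pair `(U ≤ H)` over `G_ℚ` -/
def normPairQ (H : Subgroup GQ) (hUH : U ≤ H) : NormPair GQ where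
  H := H
  H₀ := U
  le := hUH
  conj_mem n _ s hs := Subgroup.Normal.conj_mem ‹U.Normal› s hs n

/-- `C = H ⧸ U` is the image of `H` in `G_ℚ ⧸ U`. -/
def normPairQ_CEquiv (H : Subgroup GQ) (hUH : U ≤ H) :
    (normPairQ U H hUH).C ≃* H.map (QuotientGroup.mk' U) := by
  let φ : (normPairQ U H hUH).H →* GQ ⧸ U :=
    (QuotientGroup.mk' U).comp (normPairQ U H hUH).H.subtype
  have hker : (normPairQ U H hUH).sub₀ = φ.ker := by
    ext h
    rw [NormPair.mem_sub₀, MonoidHom.mem_ker]
    show (h : GQ) ∈ U ↔ QuotientGroup.mk' U (h : GQ) = 1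
    exact ((QuotientGroup.eq_one_iff (h : GQ)).symm)
  have hrange : φ.range = H.map (QuotientGroup.mk' U) := by
    show ((QuotientGroup.mk' U).comp H.subtype).range = _
    rw [MonoidHom.range_comp, Subgroup.range_subtype]
  exact ((QuotientGroup.quotientMulEquivOfEq hker).trans
    (QuotientGroup.quotientKerEquivRange φ)).trans (MulEquiv.subgroupCongr hrange)

/-- **the (KEY-CP) binder over `G_ℚ`** for `T'' = Coind_U k(χ_cyc)` (one `U` for all cyclic
`H/U`), `γ = g ⋆ -`, `x` = complex conjugation. -/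
def KeyCPQ : Prop :=
  ∀ (H : Subgroup GQ) (hUH : U ≤ H), IsCyclic (normPairQ U H hUH).C →
    ¬ p ∣ Nat.card (normPairQ U H hUH).C →
    ∀ [IsDiscrete (levelS S) ((normPairQ U H hUH).big ((normPairQ U H hUH).chiRes (cycloChar p)))]
      [FiniteDimensional (ZMod p)
        (NormPair.hlcStarRep (levelS S) ((normPairQ U H hUH).chiRes (cycloChar p)) 0)]
      [FiniteDimensional (ZMod p)
        (NormPair.hlcStarRep (levelS S) ((normPairQ U H hUH).chiRes (cycloChar p)) 1)]
      [FiniteDimensional (ZMod p)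
        (NormPair.hlcStarRep (levelS S) ((normPairQ U H hUH).chiRes (cycloChar p)) 2)]
      [FiniteDimensional (ZMod p)
        (NormPair.bigStarRep ((normPairQ U H hUH).chiRes (cycloChar p)))]
      [FiniteDimensional (ZMod p)
        (NormPair.bigFixRep ((normPairQ U H hUH).chiRes (cycloChar p)) complexConjugation)],
      ∃ g : (normPairQ U H hUH).C, (∀ c, c ∈ Subgroup.zpowers g) ∧
        ((NormPair.hlcStarRep (levelS S) ((normPairQ U H hUH).chiRes (cycloChar p)) 0).ρ g).charpoly *
          ((NormPair.hlcStarRep (levelS S)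
            ((normPairQ U H hUH).chiRes (cycloChar p)) 2).ρ g).charpoly *
          ((NormPair.bigStarRep ((normPairQ U H hUH).chiRes (cycloChar p))).ρ g).charpoly =
        ((NormPair.hlcStarRep (levelS S)
            ((normPairQ U H hUH).chiRes (cycloChar p)) 1).ρ g).charpoly *
          ((NormPair.bigFixRep ((normPairQ U H hUH).chiRes (cycloChar p))
            complexConjugation).ρ g).charpoly

/-- **leaf G1 over `G_ℚ`** (helper51): `twInv · b` factors additively through the characteristic
polynomial of a generator of a cyclic group of order prime to `p`. -/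
def TwInvQ : Prop :=
  ∀ (H : Subgroup GQ) (hUH : U ≤ H) (g : (normPairQ U H hUH).C),
    (∀ c, c ∈ Subgroup.zpowers g) → ¬ p ∣ Nat.card (normPairQ U H hUH).C →
    ∀ (n : ℕ) (b : (normPairQ U H hUH).C →* Matrix (Fin n) (Fin n) (ZMod p)), TwInvFactors g b

variable {S U}

/-- **E3 BASE over `G_ℚ`.** -/
theorem baseCase_of_keyCPQ (hU : U ∈ (levelS S).sets) (hχU : ∀ u ∈ U, cycloChar p u = 1)
    (hfin : HlcFinite (p := p) S) (hG1 : TwInvQ (p := p) U) (hKEY : KeyCPQ (p := p) S U) :
    BaseCase (p := p) S U := by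
  intro H hUH hcyc hpH Y _ hY hYd
  set P := normPairQ U H hUH with hP
  have e := normPairQ_CEquiv U H hUH
  have hfinU : U.FiniteIndex := (levelS S).finiteIndex_of_mem hU
  have hfinH₀ : P.H₀.FiniteIndex := hfinU
  have hfinsub : P.sub₀.FiniteIndex := by
    show (U.subgroupOf H).FiniteIndex
    infer_instance
  have hfinC : Finite P.C := Subgroup.finite_quotient_of_finiteIndex
  have hcycC : IsCyclic P.C := by
    have := hcyc
    exact isCyclic_of_surjective e.symm.toMonoidHom e.symm.surjective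
  have hcard : Nat.card P.C = Nat.card (H.map (QuotientGroup.mk' U)) := Nat.card_congr e.toEquiv
  have hpC : ¬ p ∣ Nat.card P.C := by rw [hcard]; exact hpH
  have hne : (Nat.card P.C : ZMod p) ≠ 0 := by
    rw [Ne, ZMod.natCast_eq_zero_iff]
    exact hpC
  -- the rank one module and its instances
  have hA₀ := NormPair.chiRes_ρ_of_mem (P := P) (cycloChar p) hχU
  have hdisc : IsDiscrete (levelS S) (P.big (P.chiRes (cycloChar p))) :=
    NormPair.isDiscrete_big_of_trivial (levelS S) hU _ hA₀
  have hfdA : FiniteDimensional (ZMod p) (P.res₀ (P.chiRes (cycloChar p))) :=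
    inferInstanceAs (FiniteDimensional (ZMod p) (ZMod p))
  have hfdW : FiniteDimensional (ZMod p) (P.big (P.chiRes (cycloChar p))) :=
    Fermat.Agent.GC.PT.RepDevissage.finiteDimensional_coind P.H₀ _
  obtain ⟨hfd, -⟩ := hfin (P.big (P.chiRes (cycloChar p)))
  have h0 : FiniteDimensional (ZMod p) (NormPair.hlcStarRep (levelS S) (P.chiRes (cycloChar p)) 0) :=
    hfd 0 (by omega)
  have h1 : FiniteDimensional (ZMod p) (NormPair.hlcStarRep (levelS S) (P.chiRes (cycloChar p)) 1) :=
    hfd 1 (by omega)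
  have h2 : FiniteDimensional (ZMod p) (NormPair.hlcStarRep (levelS S) (P.chiRes (cycloChar p)) 2) :=
    hfd 2 (by omega)
  obtain ⟨g, hg, hcp⟩ := hKEY H hUH hcycC hpC
  have hYd' : IsDiscrete (levelS S) (P.small Y) := hYd
  exact NormPair.tateDefect_small_of_keyCP (levelS S) hU (cycloChar p) hχU
    ((Nat.card P.C : ZMod p)⁻¹) (inv_mul_cancel₀ hne) complexConjugation g
    (fun n b => hG1 H hUH g hg hpC n b) hcp Y hY

end Fermat.Agent.GP.GW.E3
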