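/-
GATE-P (S56) / [P-GW] / E3G (helper66, re-aim of helper78 4433): **`KeyCPQ S U` from the leaves.**

`KeyCPQ S U` (helper78 `BaseQ.lean`) is the (KEY-CP) binder of `baseCase_of_keyCPQ`; `TwInvQ U` is
its leaf-G1 binder.  Here:

* `twInvQ`            : `TwInvQ U` UNCONDITIONALLY (helper51 `TwInvAddFun.exists_twInv_additive`);
* `charpoly_of_scalar_rankOne` : a scalar on a line has characteristic polynomial `X - C ψ`;
* `charpoly_hlcStar_zero`  : **(K0)** `cp(g | Hlc⁰(W_A)) = X - C χ̄(g)` (helper12 `StarBridge`);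
* `arch_charpoly_cyclo`    : **(ARCH)** for `χ = χ_cyc`, `x` = complex conjugation, `p` odd
  (helper78 `ArchSplit.arch_charpoly` + helper7 `FormulaAbs.cycloChar_complexConjugation`);
* `KeyLeavesQ S U` : the two remaining leaves (H2q), (UNITq), for ONE lift `n ∈ H` of a generator
  of `C = H ⧸ U`, with a COMMON polynomial `PS`:
    (H2q)   `cp([n] | Hlc²(W_A)) * (X - 1) = PS`
    (UNITq) `cp([n] | Hlc¹(W_A)) * (X - 1) = (X - C χ_cyc(n)) * PS * cp([n] | W_k^{c = 1})`;
* `keyCPQ_of_leaves` : `p ≠ 2`, `χ_cyc|_U = 1`, `KeyLeavesQ S U` ⟹ `KeyCPQ S U`;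
* `baseCase_of_leaves` : … ⟹ `Euler.BaseCase S U` (with `U ∈ levelS S`, `HlcFinite S`).
-/
import Fermat.Agent.GP.GW.E3.BaseQ
import Fermat.Agent.GP.GW.Euler.StarBridge
import Fermat.Agent.GP.GW.Euler.TwInvAddFun
import Fermat.Agent.GP.GW.FormulaAbs

set_option autoImplicit false

open CategoryTheory Module Polynomial

noncomputable section

namespace Fermat.Agent.GP.GW.E3.KeyCPQLeaves

open Fermat.Agent.GC.Prof Fermat.Agent.GC.C0 ExtCitation Fermat.Agent.GP.GW.Euler
  Fermat.Agent.GP.GW.E3 Fermat.Agent.GP.GW.E3.NormPair Fermat.Agent.GP.GW.Euler.StarBridge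

/-! ### Linear algebra: a scalar on a line -/

/-- a scalar endomorphism of a line has characteristic polynomial `X - C ψ` -/
theorem charpoly_of_scalar_rankOne {k V : Type*} [Field k] [AddCommGroup V] [Module k V]
    [Module.Finite k V] (e : V ≃ₗ[k] k) (f : Module.End k V) (ψ : k) (hf : ∀ v, f v = ψ • v) :
    f.charpoly = X - C ψ := by
  let b : Basis Unit k V := Basis.ofEquivFun (e.trans (LinearEquiv.funUnique Unit k k).symm)
  rw [← LinearMap.charpoly_toMatrix f b]
  have hM : LinearMap.toMatrix b b f = Matrix.diagonal fun _ : Unit => ψ := by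
    ext i j
    rw [LinearMap.toMatrix_apply, hf, LinearEquiv.map_smul, Finsupp.smul_apply, Basis.repr_self,
      Matrix.diagonal_apply]
    simp
  rw [hM, Matrix.charpoly_diagonal]
  simp

/-! ### (K0) : `C` acts on the line `Hlc⁰(G, W_{k(χ)})` through `χ̄` -/

section K0

universe u

variable {k G : Type u} [Field k] [Group G] (P : NormPair G) (χ : G →* kˣ)
  (hχ : ∀ s ∈ P.H₀, χ s = 1) (𝒰 : LevelSystem G) [IsDiscrete 𝒰 (P.big (P.chiRes χ))]
  [FiniteDimensional k (hlcStarRep 𝒰 (P.chiRes χ) 0)]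

/-- **(K0)** : `cp(c | Hlc⁰(G, W_{k(χ)})) = X - C χ̄(c)`. -/
theorem charpoly_hlcStar_zero (c : P.C) :
    ((hlcStarRep 𝒰 (P.chiRes χ) 0).ρ c).charpoly = X - C ((chiC P χ hχ c : kˣ) : k) := by
  have hd : IsDiscrete 𝒰 (StarRes.Phi P.H₀ (chiRep χ)) := ‹IsDiscrete 𝒰 (P.big (P.chiRes χ))›
  have e : hlcStarRep 𝒰 (P.chiRes χ) 0 ≃ₗ[k] k := H0Chi.ev0Chi 𝒰 hχ
  exact charpoly_of_scalar_rankOne e _ _ (fun x => hlcStarRep_zero_ρ P χ hχ 𝒰 c x)

include hχ in
/-- (K0) at the class of `n ∈ H` -/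
theorem charpoly_hlcStar_zero_mk (n : P.H) :
    ((hlcStarRep 𝒰 (P.chiRes χ) 0).ρ (QuotientGroup.mk n : P.C)).charpoly =
      X - C ((χ (n : G) : kˣ) : k) :=
  charpoly_hlcStar_zero P χ hχ 𝒰 _

end K0

variable {p : ℕ} [Fact p.Prime]

/-! ### (ARCH) for the cyclotomic character and complex conjugation -/

/-- **(ARCH)** : `cp(c | W_A) = cp(c | W_A^{c∞ = 1}) * cp(c | W_k^{c∞ = 1})` for `A = 𝔽_p(χ_cyc)|_H`,
`p` odd. -/
theorem arch_charpoly_cyclo (hp2 : p ≠ 2) (P : NormPair GQ)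
    [FiniteDimensional (ZMod p) (P.big (P.chiRes (cycloChar p)))]
    [FiniteDimensional (ZMod p) (P.big (P.triv₀ (k := ZMod p)))] (c : P.C) :
    ((bigStarRep (P.chiRes (cycloChar p))).ρ c).charpoly =
      ((bigFixRep (P.chiRes (cycloChar p)) complexConjugation).ρ c).charpoly *
        ((bigFixRep (P.triv₀ (k := ZMod p)) complexConjugation).ρ c).charpoly :=
  arch_charpoly (cycloChar p) (P.chiRes (cycloChar p)) (chiResEquiv (cycloChar p))
    (fun h y => chiRes_ρ_apply (cycloChar p) h y) complexConjugation complexConjugation_mul_self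
    (FormulaAbs.cycloChar_complexConjugation p) (FormulaAbs.two_ne_zero_zmod p hp2) c

/-- `W_k` is finite-dimensional as soon as `W_A` is -/
theorem finiteDimensional_big_triv₀_cyclo (P : NormPair GQ)
    [FiniteDimensional (ZMod p) (P.big (P.chiRes (cycloChar p)))] :
    FiniteDimensional (ZMod p) (P.big (P.triv₀ (k := ZMod p))) :=
  finiteDimensional_big_triv₀ (cycloChar p) (P.chiRes (cycloChar p)) (chiResEquiv (cycloChar p))
    (fun h y => chiRes_ρ_apply (cycloChar p) h y)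

section Q

variable (S : Finset Nat.Primes) (U : Subgroup GQ) [U.Normal]

/-! ### G1 over `G_ℚ` -/

/-- **`TwInvQ U` holds unconditionally** (leaf G1, helper51). -/
theorem twInvQ : TwInvQ (p := p) U := by
  intro H hUH g hg hpC n b
  have hcard : Nat.card (normPairQ U H hUH).C ≠ 0 := fun h => hpC (h ▸ dvd_zero p)
  have : Finite (normPairQ U H hUH).C := Nat.finite_of_card_ne_zero hcard
  have hn : (Nat.card (normPairQ U H hUH).C : ZMod p) ≠ 0 :=
    fun h => hpC ((ZMod.natCast_eq_zero_iff _ _).1 h)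
  obtain ⟨F, -, hFmul, hF⟩ := TwInvAddFun.exists_twInv_additive g hg hn b
  exact ⟨F, hFmul, fun X _ => hF X⟩

/-! ### The remaining leaves and `KeyCPQ` -/

/-- **the two remaining leaves (H2q), (UNITq)** of (KEY-CP) over `G_ℚ`: for every `H ⊇ U` with
`H/U` cyclic of order prime to `p` there are a lift `n ∈ H` of a generator of `C = H ⧸ U` and a
polynomial `PS` with
  (H2q)   `cp([n] | Hlc²(W_A)) * (X - 1) = PS`,
  (UNITq) `cp([n] | Hlc¹(W_A)) * (X - 1) = (X - C χ_cyc(n)) * PS * cp([n] | W_k^{c = 1})`,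
`A = 𝔽_p(χ_cyc)|_H`, `W_A = Coind_U A`, `W_k = Coind_U 𝔽_p`. -/
def KeyLeavesQ : Prop :=
  ∀ (H : Subgroup GQ) (hUH : U ≤ H), IsCyclic (normPairQ U H hUH).C →
    ¬ p ∣ Nat.card (normPairQ U H hUH).C →
    ∀ [IsDiscrete (levelS S) ((normPairQ U H hUH).big ((normPairQ U H hUH).chiRes (cycloChar p)))]
      [FiniteDimensional (ZMod p)
        (hlcStarRep (levelS S) ((normPairQ U H hUH).chiRes (cycloChar p)) 1)]
      [FiniteDimensional (ZMod p)
        (hlcStarRep (levelS S) ((normPairQ U H hUH).chiRes (cycloChar p)) 2)]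
      [FiniteDimensional (ZMod p)
        ((normPairQ U H hUH).big ((normPairQ U H hUH).triv₀ (k := ZMod p)))],
      ∃ n : (normPairQ U H hUH).H,
        (∀ c : (normPairQ U H hUH).C,
          c ∈ Subgroup.zpowers (QuotientGroup.mk n : (normPairQ U H hUH).C)) ∧
        ∃ PS : (ZMod p)[X],
          ((hlcStarRep (levelS S) ((normPairQ U H hUH).chiRes (cycloChar p)) 2).ρ
              (QuotientGroup.mk n : (normPairQ U H hUH).C)).charpoly * (X - 1) = PS ∧
          ((hlcStarRep (levelS S) ((normPairQ U H hUH).chiRes (cycloChar p)) 1).ρ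
              (QuotientGroup.mk n : (normPairQ U H hUH).C)).charpoly * (X - 1) =
            (X - C ((cycloChar p (n : GQ) : (ZMod p)ˣ) : ZMod p)) * PS *
              ((bigFixRep ((normPairQ U H hUH).triv₀ (k := ZMod p)) complexConjugation).ρ
                (QuotientGroup.mk n : (normPairQ U H hUH).C)).charpoly

variable {S U}

/-- **`KeyCPQ S U` from the leaves**: (K0), (K1), (ARCH) are proven, (H2q) and (UNITq) are the
hypothesis `KeyLeavesQ S U`. -/
theorem keyCPQ_of_leaves (hp2 : p ≠ 2) (hχU : ∀ u ∈ U, cycloChar p u = 1)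
    (hleaves : KeyLeavesQ (p := p) S U) : KeyCPQ (p := p) S U := by
  intro H hUH hcyc hpC idisc fd0 fd1 fd2 fdW fdc
  have fdWA : FiniteDimensional (ZMod p)
      ((normPairQ U H hUH).big ((normPairQ U H hUH).chiRes (cycloChar p))) := fdW
  have fdWk := finiteDimensional_big_triv₀_cyclo (p := p) (normPairQ U H hUH)
  obtain ⟨n, hn, PS, hH2, hUNIT⟩ := hleaves H hUH hcyc hpC
  refine ⟨QuotientGroup.mk n, hn, ?_⟩
  exact keyCP_of_leaves ((cycloChar p (n : GQ) : (ZMod p)ˣ) : ZMod p)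
    (charpoly_hlcStar_zero_mk (normPairQ U H hUH) (cycloChar p) hχU (levelS S) n) rfl hUNIT hH2
    (arch_charpoly_cyclo hp2 (normPairQ U H hUH) _)

/-- **E3 BASE from the leaves.** -/
theorem baseCase_of_leaves (hp2 : p ≠ 2) (hU : U ∈ (levelS S).sets)
    (hχU : ∀ u ∈ U, cycloChar p u = 1) (hfin : HlcFinite (p := p) S)
    (hleaves : KeyLeavesQ (p := p) S U) : BaseCase (p := p) S U :=
  baseCase_of_keyCPQ hU hχU hfin (twInvQ U) (keyCPQ_of_leaves hp2 hχU hleaves)

end Q

end Fermat.Agent.GP.GW.E3.KeyCPQLeaves
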