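/-
GATE-P (S56) / [P-GW] / E3 (M-DUAL) (helper74): the twisted dual of `Coind_U Res_U k(χ)` is the
permutation module `Coind_U Res_U k`, compatibly with the `⋆`-action.

`U ≤ G` of finite index, `χ : G →* kˣ`, `T := Phi U (chiRep χ) = Coind_U^G Res_U k(χ)`.
* `dualPermIso U χ : T.dualTwist χ ≅ Phi U (Rep.trivial k G k)`,
  `λ ↦ (y ↦ χ(y) · λ(δ_y))` (`δ_y` = the element of `T` supported on `U y` with value `1` at `y`),
  i.e. GC's `coindDualIso` followed by `k(χ)* ⊗ χ ≅ k`;
* `dualPermIso_hom_apply`, `dualPermIso_inv_apply` : the explicit formulas;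
* `star_coindDelta` : `n ⋆ δ_y = χ(n) δ_{n y}`;
* `dualTwistMap_star_dualPermIso` : for `n` normalising `U`, the transpose of `star_n` on `T`
  corresponds to `star_{n⁻¹}` on the permutation module, i.e. to `a ↦ (y ↦ a (n y))`.
-/
import Mathlib
import Fermat.Prelude.Def_GroupCohomology_Selmer
import Fermat.Agent.GC.Prof.CoindDualCup
import Fermat.Agent.GC.PT.Triples
import Fermat.Agent.GP.GW.Euler.StarRes

set_option autoImplicit false

open CategoryTheory

noncomputable section

namespace Fermat.Agent.GP.GW.E3.DualPerm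

open Fermat.Agent.GC.Prof Fermat.Agent.GP.GW.Euler.StarRes Rep

universe u

variable {k G : Type u} [CommRing k] [Group G] (U : Subgroup G) (χ : G →* kˣ)

/-- `Res_U k(χ)`. -/
abbrev chiU : Rep.{u} k U := Rep.res U.subtype (chiRep χ)

/-- `Res_U k`. -/
abbrev trivU : Rep.{u} k U := Rep.res U.subtype (Rep.trivial k G k)

/-- `k(χ)* ⊗ χ ≅ k` as representations of `U`: evaluation at `1`. -/
def evOneIso : dualTw U χ (chiU U χ) ≅ trivU (k := k) U :=
  Rep.mkIso (Representation.Equiv.mk (LinearMap.ringLmapEquivSelf k k k) fun s => by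
    ext φ
    show (χ.comp U.subtype s : k) • (φ : Module.Dual k k) ((χ ((s : G)⁻¹) : k) * 1) =
      (φ : Module.Dual k k) 1
    rw [MonoidHom.comp_apply, Subgroup.coe_subtype, mul_one]
    have h : ((χ (s : G)⁻¹ : kˣ) : k) = ((χ (s : G)⁻¹ : kˣ) : k) • (1 : k) := by
      rw [smul_eq_mul, mul_one]
    rw [h, map_smul, smul_smul, ← Units.val_mul, ← map_mul, mul_inv_cancel, map_one,
      Units.val_one, one_smul])

lemma evOneIso_hom_apply (φ : dualTw U χ (chiU U χ)) :
    (evOneIso U χ).hom.hom φ = (φ : Module.Dual k k) 1 := rfl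

variable [U.FiniteIndex]

/-- The inverse of GC's `coindDualIso` is `coindDualInv`. -/
lemma coindDualIso_inv_apply (N : Rep.{u} k U) (l : (Rep.coind U.subtype N).dualTwist χ) :
    (coindDualIso U χ N).inv.hom l = coindDualInv χ (l : Module.Dual k (Rep.coind U.subtype N)) := by
  apply coindDualHom_injective χ
  have h1 : (coindDualHom U χ N).hom ((coindDualIso U χ N).inv.hom l) = l := by
    rw [← coindDualIso_hom]
    exact Rep.hom_inv_apply (e := coindDualIso U χ N) (x := l)
  rw [h1]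
  apply LinearMap.ext
  intro Φ
  exact (coindPair_coindDualInv χ (l : Module.Dual k (Rep.coind U.subtype N)) Φ).symm

/-- **M-DUAL**: `(Coind_U Res_U k(χ))* ⊗ χ ≅ Coind_U Res_U k`. -/
def dualPermIso : (Phi U (chiRep χ)).dualTwist χ ≅ Phi U (Rep.trivial k G k) :=
  (coindDualIso U χ (chiU U χ)).symm ≪≫ (Rep.coindFunctor k U.subtype).mapIso (evOneIso U χ)

/-- The explicit formula: `λ ↦ (y ↦ χ(y) · λ(δ_y))`. -/
theorem dualPermIso_hom_apply (l : (Phi U (chiRep χ)).dualTwist χ) (y : G) :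
    ((dualPermIso U χ).hom.hom l).1 y =
      (χ y : k) * (l : Module.Dual k (Phi U (chiRep χ))) (coindDelta (chiU U χ) y (1 : k)) := by
  show (evOneIso U χ).hom.hom (((coindDualIso U χ (chiU U χ)).inv.hom l).1 y) = _
  rw [coindDualIso_inv_apply, evOneIso_hom_apply, coindDualInv_apply, smul_eq_mul]

omit [U.FiniteIndex] in
/-- **`n ⋆ δ_y = χ(n) δ_{n y}`** for `n` normalising `U`. -/
theorem star_coindDelta {n : G} (hn : Norm U n) (hn' : Norm U n⁻¹) (y : G) (c : k) :
    (star (chiRep χ) hn).hom (coindDelta (chiU U χ) y c) =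
      coindDelta (chiU U χ) (n * y) ((χ n : k) * c) := by
  classical
  apply Subtype.ext
  funext x
  rw [star_apply, coindDelta_apply, coindDelta_apply]
  by_cases h : (QuotientGroup.rightRel U).r x (n * y)
  · obtain ⟨s, rfl⟩ := h
    have h1 : n⁻¹ * ((s : G) * (n * y)) = ((⟨n⁻¹ * s * n, hn s s.2⟩ : U) : G) * y := by
      simp [mul_assoc]
    show (chiRep χ).ρ n (indToCoindAux (chiU U χ) y c (n⁻¹ * ((s : G) * (n * y)))) =
      indToCoindAux (chiU U χ) (n * y) ((χ n : k) * c) ((s : G) * (n * y))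
    rw [h1, indToCoindAux_mul_snd, indToCoindAux_mul_snd, indToCoindAux_self, indToCoindAux_self]
    show (χ n : k) * ((χ (n⁻¹ * (s : G) * n) : k) * c) = (χ (s : G) : k) * ((χ n : k) * c)
    rw [map_mul, map_mul, map_inv, Units.val_mul, Units.val_mul]
    have h2 : ((χ n)⁻¹ : kˣ) * χ (s : G) * χ n = χ (s : G) := by
      rw [mul_comm ((χ n)⁻¹ : kˣ), mul_assoc, inv_mul_cancel, mul_one]
    have h3 : (((χ n)⁻¹ : kˣ) : k) * (χ (s : G) : k) * (χ n : k) = (χ (s : G) : k) := by
      rw [← Units.val_mul, ← Units.val_mul, h2]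
    rw [h3]
    ring
  · rw [indToCoindAux_of_not_rel _ _ _ h, indToCoindAux_of_not_rel, map_zero]
    rintro ⟨s, hs⟩
    apply h
    refine ⟨⟨n * s * n⁻¹, by simpa using hn' s s.2⟩, ?_⟩
    have hs' : (s : G) * y = n⁻¹ * x := hs
    show n * (s : G) * n⁻¹ * (n * y) = x
    rw [mul_assoc, mul_assoc, inv_mul_cancel_left, ← mul_assoc n, mul_assoc, hs',
      mul_inv_cancel_left]

/-- **M-DUAL, `⋆`-compatibility**: the transpose of `star_n` on `Coind_U Res_U k(χ)` is `star_{n⁻¹}`
on the permutation module `Coind_U Res_U k`, i.e. `a ↦ (y ↦ a (n y))`. -/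
theorem dualTwistMap_star_dualPermIso {n : G} (hn : Norm U n) (hn' : Norm U n⁻¹) :
    dualTwistMap χ (star (chiRep χ) hn) ≫ (dualPermIso U χ).hom =
      (dualPermIso U χ).hom ≫ star (Rep.trivial k G k) hn' := by
  apply Rep.hom_ext
  apply Representation.IntertwiningMap.ext
  apply LinearMap.ext
  intro l
  apply Subtype.ext
  funext y
  show ((dualPermIso U χ).hom.hom ((dualTwistMap χ (star (chiRep χ) hn)).hom l)).1 y =
    ((star (Rep.trivial k G k) hn').hom ((dualPermIso U χ).hom.hom l)).1 y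
  rw [dualPermIso_hom_apply, star_apply, dualPermIso_hom_apply, dualTwistMap_apply,
    star_coindDelta U χ hn hn', inv_inv]
  show _ = (χ (n * y) : k) * _
  have h : coindDelta (chiU U χ) (n * y) ((χ n : k) * 1) =
      (χ n : k) • coindDelta (chiU U χ) (n * y) (1 : k) := by
    rw [← map_smul, smul_eq_mul]
  rw [h, map_smul, smul_eq_mul, map_mul, Units.val_mul]
  ring

omit [U.FiniteIndex] in
/-- The value of `star_{n⁻¹}` on the permutation module: `(n⁻¹ ⋆ a)(y) = a (n y)`. -/
theorem star_trivial_apply {n : G} (hn' : Norm U n⁻¹) (a : Phi U (Rep.trivial k G k)) (y : G) :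
    ((star (Rep.trivial k G k) hn').hom a).1 y = a.1 (n * y) := by
  rw [star_apply, inv_inv]
  rfl

/-- The two transposes on the tree (`GC.PT.Triples.dualTwistMap`, `GC.Prof.dualTwistMap`) agree. -/
theorem triples_dualTwistMap_eq {k G : Type u} [Field k] [Group G] (χ : G →* kˣ)
    {M M₁ : Rep.{u} k G} (φ : M ⟶ M₁) :
    Fermat.Agent.GC.PT.Triples.dualTwistMap χ φ = dualTwistMap χ φ := rfl

end Fermat.Agent.GP.GW.E3.DualPerm
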