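/-
GATE-P / S56 [P-GW] leaf E3f (helper83), FILE 1: the abstract Mackey count for invariants.

`G` a group, `H₀ ⊴ H ≤ G`, `σ` a representation of `H` trivial on `H₀`, `D ≤ G` any subgroup.
Then the `D`-invariants of `coind_H^G σ` are canonically the `H`-equivariant maps from the
`H`-set `D \ G / H₀` (with `n • [s] = [s n⁻¹]`) to `Y`:

  `(coind_H^G Y)^D ≃ Map_H(D\G/H₀, Y)`,   `f ↦ ([s] ↦ f s⁻¹)`.

`Map_Γ(Ω, Y)` (`EquivMaps`) only depends on the `Γ`-set `Ω` up to equivariant bijection, and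
decomposes over the orbits: `Map_Γ(Ω, Y) ≃ ∏_{o} Y^{Stab(x_o)}`.

Mathlib only.
-/
import Mathlib

set_option autoImplicit false

noncomputable section

namespace Fermat.Agent.GP.GW.E3.Mackey

/-! ### Equivariant maps from a `Γ`-set to a representation -/

section EquivMaps

variable {k : Type*} [CommRing k] (Γ : Type*) [Group Γ] (Ω : Type*) [MulAction Γ Ω]
  {Y : Type*} [AddCommGroup Y] [Module k Y] (ρ : Representation k Γ Y)

/-- `Map_Γ(Ω, Y)`: the `Γ`-equivariant maps from the `Γ`-set `Ω` to the representation `Y`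
(`= Hom_{k[Γ]}(k[Ω], Y)`). -/
def EquivMaps : Submodule k (Ω → Y) where
  carrier := {φ | ∀ (n : Γ) (ω : Ω), φ (n • ω) = ρ n (φ ω)}
  add_mem' := by
    intro a b ha hb n ω
    simp only [Pi.add_apply, map_add, ha n ω, hb n ω]
  zero_mem' := by
    intro n ω
    simp
  smul_mem' := by
    intro c a ha n ω
    simp only [Pi.smul_apply, map_smul, ha n ω]

variable {Γ Ω ρ}

theorem mem_equivMaps_iff (φ : Ω → Y) :
    φ ∈ EquivMaps Γ Ω ρ ↔ ∀ (n : Γ) (ω : Ω), φ (n • ω) = ρ n (φ ω) := Iff.rfl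

theorem EquivMaps.apply_smul (φ : EquivMaps Γ Ω ρ) (n : Γ) (ω : Ω) :
    φ.1 (n • ω) = ρ n (φ.1 ω) := φ.2 n ω

/-- `Map_Γ(Ω, Y)` only depends on `Ω` up to equivariant bijection. -/
def equivMapsCongr {Ω' : Type*} [MulAction Γ Ω'] (e : Ω ≃ Ω')
    (he : ∀ (n : Γ) (ω : Ω), e (n • ω) = n • e ω) :
    EquivMaps Γ Ω ρ ≃ₗ[k] EquivMaps Γ Ω' ρ where
  toFun φ := ⟨fun ω' => φ.1 (e.symm ω'), fun n ω' => by
    have h : e.symm (n • ω') = n • e.symm ω' := by
      apply e.injective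
      rw [he, e.apply_symm_apply, e.apply_symm_apply]
    show φ.1 (e.symm (n • ω')) = ρ n (φ.1 (e.symm ω'))
    rw [h, φ.2]⟩
  map_add' φ ψ := rfl
  map_smul' c φ := rfl
  invFun ψ := ⟨fun ω => ψ.1 (e ω), fun n ω => by
    show ψ.1 (e (n • ω)) = ρ n (ψ.1 (e ω))
    rw [he, ψ.2]⟩
  left_inv φ := by
    apply Subtype.ext
    funext ω
    show φ.1 (e.symm (e ω)) = φ.1 ω
    rw [e.symm_apply_apply]
  right_inv ψ := by
    apply Subtype.ext
    funext ω'
    show ψ.1 (e (e.symm ω')) = ψ.1 ω'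
    rw [e.apply_symm_apply]

@[simp]
theorem equivMapsCongr_apply {Ω' : Type*} [MulAction Γ Ω'] (e : Ω ≃ Ω')
    (he : ∀ (n : Γ) (ω : Ω), e (n • ω) = n • e ω) (φ : EquivMaps Γ Ω ρ) (ω' : Ω') :
    (equivMapsCongr (ρ := ρ) e he φ).1 ω' = φ.1 (e.symm ω') := rfl

@[simp]
theorem equivMapsCongr_symm_apply {Ω' : Type*} [MulAction Γ Ω'] (e : Ω ≃ Ω')
    (he : ∀ (n : Γ) (ω : Ω), e (n • ω) = n • e ω) (ψ : EquivMaps Γ Ω' ρ) (ω : Ω) :
    ((equivMapsCongr (ρ := ρ) e he).symm ψ).1 ω = ψ.1 (e ω) := rfl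

/-! ### Orbit decomposition -/

variable (Γ Ω)

/-- The orbit space. -/
abbrev Orb : Type _ := MulAction.orbitRel.Quotient Γ Ω

variable {Γ Ω}

/-- The chosen point of an orbit. -/
noncomputable def orbPt (o : Orb Γ Ω) : Ω := Quotient.out o

theorem mk_orbPt (o : Orb Γ Ω) : (Quotient.mk'' (orbPt o) : Orb Γ Ω) = o := Quotient.out_eq' o

theorem exists_smul_orbPt (ω : Ω) : ∃ g : Γ, g • orbPt (Quotient.mk'' ω : Orb Γ Ω) = ω := by
  have h : (Quotient.mk'' ω : Orb Γ Ω) = Quotient.mk'' (orbPt (Quotient.mk'' ω : Orb Γ Ω)) :=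
    (mk_orbPt _).symm
  have h2 := Quotient.exact' h
  exact (MulAction.orbitRel_apply.mp h2)

/-- A group element moving the chosen point of the orbit of `ω` to `ω`. -/
noncomputable def orbElt (ω : Ω) : Γ := (exists_smul_orbPt (Γ := Γ) ω).choose

theorem orbElt_smul (ω : Ω) : (orbElt ω : Γ) • orbPt (Quotient.mk'' ω : Orb Γ Ω) = ω :=
  (exists_smul_orbPt (Γ := Γ) ω).choose_spec

variable (ρ) in
/-- The invariants of the stabiliser of the chosen point of an orbit. -/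
abbrev stabInv (o : Orb Γ Ω) : Submodule k Y :=
  Representation.invariants (ρ.comp (MulAction.stabilizer Γ (orbPt o)).subtype)

theorem mem_stabInv_iff (o : Orb Γ Ω) (y : Y) :
    y ∈ stabInv ρ o ↔ ∀ g : Γ, g • orbPt o = orbPt o → ρ g y = y := by
  rw [Representation.mem_invariants]
  constructor
  · intro h g hg
    exact h ⟨g, MulAction.mem_stabilizer_iff.mpr hg⟩
  · intro h g
    exact h g.1 (MulAction.mem_stabilizer_iff.mp g.2)

/-- Independence of the group element: the key to gluing along orbits. -/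
theorem rho_eq_of_smul_eq {o o' : Orb Γ Ω} (h : o = o') (F : ∀ o : Orb Γ Ω, stabInv ρ o)
    {g g' : Γ} (hg : g • orbPt o = g' • orbPt o') : ρ g (F o).1 = ρ g' (F o').1 := by
  subst h
  have hs : (g'⁻¹ * g) • orbPt o = orbPt o := by
    rw [mul_smul, hg, inv_smul_smul]
  have := (mem_stabInv_iff o (F o).1).mp (F o).2 _ hs
  rw [map_mul, Module.End.mul_apply] at this
  have h2 := congrArg (ρ g') this
  rw [← Module.End.mul_apply, ← map_mul, mul_inv_cancel, map_one, Module.End.one_apply] at h2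
  exact h2

theorem glue_eq (F : ∀ o : Orb Γ Ω, stabInv ρ o) (o : Orb Γ Ω) (g : Γ) :
    ρ (orbElt (g • orbPt o)) (F (Quotient.mk'' (g • orbPt o))).1 = ρ g (F o).1 := by
  have ho : (Quotient.mk'' (g • orbPt o) : Orb Γ Ω) = o := by
    rw [← mk_orbPt o]
    apply Quotient.sound'
    rw [mk_orbPt o]
    exact MulAction.orbitRel_apply.mpr ⟨g, rfl⟩
  exact rho_eq_of_smul_eq ho F (orbElt_smul (Γ := Γ) (g • orbPt o))

/-- Evaluation at the chosen points of the orbits. -/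
def orbitEval : EquivMaps Γ Ω ρ →ₗ[k] (∀ o : Orb Γ Ω, stabInv ρ o) where
  toFun φ o := ⟨φ.1 (orbPt o), by
    rw [mem_stabInv_iff]
    intro g hg
    rw [← φ.2, hg]⟩
  map_add' φ ψ := rfl
  map_smul' c φ := rfl

/-- Gluing a family of invariants along the orbits. -/
noncomputable def orbitGlue (F : ∀ o : Orb Γ Ω, stabInv ρ o) : EquivMaps Γ Ω ρ :=
  ⟨fun ω => ρ (orbElt ω) (F (Quotient.mk'' ω)).1, by
    intro n ω
    have h1 := glue_eq F (Quotient.mk'' ω) (n * orbElt ω)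
    have h2 := glue_eq F (Quotient.mk'' ω) (orbElt ω : Γ)
    rw [mul_smul, orbElt_smul] at h1
    show ρ (orbElt (n • ω)) (F (Quotient.mk'' (n • ω))).1 =
      ρ n (ρ (orbElt ω) (F (Quotient.mk'' ω)).1)
    rw [h1, map_mul, Module.End.mul_apply]⟩

/-- **Orbit decomposition**: `Map_Γ(Ω, Y) ≃ ∏_o Y^{Stab(x_o)}`. -/
noncomputable def equivMapsOrbitEquiv :
    EquivMaps Γ Ω ρ ≃ₗ[k] (∀ o : Orb Γ Ω, stabInv ρ o) where
  __ := orbitEval (Γ := Γ) (Ω := Ω) (ρ := ρ)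
  invFun := orbitGlue
  left_inv φ := by
    apply Subtype.ext
    funext ω
    show ρ (orbElt ω) (φ.1 (orbPt (Quotient.mk'' ω))) = φ.1 ω
    rw [← φ.2, orbElt_smul]
  right_inv F := by
    funext o
    apply Subtype.ext
    show ρ (orbElt (orbPt o)) (F (Quotient.mk'' (orbPt o))).1 = (F o).1
    have h := glue_eq F o (1 : Γ)
    rw [one_smul, map_one, Module.End.one_apply] at h
    exact h

@[simp]
theorem equivMapsOrbitEquiv_apply (φ : EquivMaps Γ Ω ρ) (o : Orb Γ Ω) :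
    ((equivMapsOrbitEquiv φ) o).1 = φ.1 (orbPt o) := rfl

end EquivMaps

section Count

variable {k : Type*} [Field k] {Γ : Type*} [Group Γ] {Ω : Type*} [MulAction Γ Ω]
  {Y : Type*} [AddCommGroup Y] [Module k Y] (ρ : Representation k Γ Y)

/-- **The orbit count**: `dim Map_Γ(Ω, Y) = ∑_o dim Y^{Stab(x_o)}`. -/
theorem finrank_equivMaps [FiniteDimensional k Y] [Fintype (Orb Γ Ω)] :
    Module.finrank k (EquivMaps Γ Ω ρ) = ∑ o : Orb Γ Ω, Module.finrank k (stabInv ρ o) := by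
  rw [LinearEquiv.finrank_eq (equivMapsOrbitEquiv (Γ := Γ) (Ω := Ω) (ρ := ρ)),
    Module.finrank_pi_fintype]

instance finiteDimensional_equivMaps [FiniteDimensional k Y] [Finite Ω] :
    FiniteDimensional k (EquivMaps Γ Ω ρ) := by
  have : FiniteDimensional k (Ω → Y) := inferInstance
  exact FiniteDimensional.finiteDimensional_submodule _

end Count

/-! ### The `H`-set `D \ G / H₀` -/

section DC

variable {G : Type*} [Group G]

/-- `H₀ ≤ H ≤ N_G(H₀)`: `H₀` is a normal subgroup of `H`. -/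
class NormalIn (H₀ H : Subgroup G) : Prop where
  le : H₀ ≤ H
  conj_mem' : ∀ n ∈ H, ∀ h ∈ H₀, n * h * n⁻¹ ∈ H₀

theorem NormalIn.conj_mem {H₀ H : Subgroup G} [hn : NormalIn H₀ H] {n : G} (hnH : n ∈ H)
    {h : G} (hh : h ∈ H₀) : n * h * n⁻¹ ∈ H₀ :=
  hn.conj_mem' n hnH h hh

theorem NormalIn.inv_conj_mem {H₀ H : Subgroup G} [NormalIn H₀ H] {n : G} (hnH : n ∈ H)
    {h : G} (hh : h ∈ H₀) : n⁻¹ * h * n ∈ H₀ := by
  have := NormalIn.conj_mem (H₀ := H₀) (H := H) (inv_mem hnH) hh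
  rwa [inv_inv] at this

instance NormalIn.self (H₀ : Subgroup G) : NormalIn H₀ H₀ :=
  ⟨le_rfl, fun _ hn _ hh => mul_mem (mul_mem hn hh) (inv_mem hn)⟩

instance NormalIn.of_normal (H₀ : Subgroup G) [hH₀ : H₀.Normal] : NormalIn H₀ ⊤ :=
  ⟨le_top, fun n _ h hh => hH₀.conj_mem h hh n⟩

variable (D H₀ : Subgroup G)

/-- `D \ G / H₀` (the shape of `GC/Places.placeIdx`). -/
abbrev DC : Type _ := DoubleCoset.Quotient (D : Set G) (H₀ : Set G)

/-- The class of `s` in `D \ G / H₀`. -/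
abbrev dcMk (s : G) : DC D H₀ := DoubleCoset.mk D H₀ s

theorem dcMk_eq_iff (s s' : G) :
    dcMk D H₀ s = dcMk D H₀ s' ↔ ∃ d ∈ D, ∃ h ∈ H₀, s' = d * s * h :=
  DoubleCoset.eq D H₀ s s'

theorem dcMk_surjective : Function.Surjective (dcMk D H₀) := fun w =>
  ⟨Quotient.out w, DoubleCoset.out_eq' D H₀ w⟩

theorem dcMk_mul_left {d : G} (hd : d ∈ D) (s : G) : dcMk D H₀ (d * s) = dcMk D H₀ s := by
  symm
  rw [dcMk_eq_iff]
  exact ⟨d, hd, 1, one_mem _, by rw [mul_one]⟩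

theorem dcMk_mul_right (s : G) {h : G} (hh : h ∈ H₀) : dcMk D H₀ (s * h) = dcMk D H₀ s := by
  symm
  rw [dcMk_eq_iff]
  exact ⟨1, one_mem _, h, hh, by rw [one_mul]⟩

variable (H : Subgroup G) [NormalIn H₀ H]

/-- Right multiplication by `n⁻¹` on `D \ G / H₀`, for `n ∈ H` (which normalises `H₀`). -/
def dcSmul (n : H) : DC D H₀ → DC D H₀ :=
  Quotient.map' (fun s => s * (n : G)⁻¹) (by
    intro a b hab
    obtain ⟨d, hd, h, hh, rfl⟩ := DoubleCoset.rel_iff.mp hab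
    refine DoubleCoset.rel_iff.mpr ⟨d, hd, (n : G) * h * (n : G)⁻¹,
      NormalIn.conj_mem (H₀ := H₀) (H := H) n.2 hh, ?_⟩
    group)

theorem dcSmul_mk (n : H) (s : G) : dcSmul D H₀ H n (dcMk D H₀ s) = dcMk D H₀ (s * (n : G)⁻¹) :=
  rfl

/-- The left action of `H` on `D \ G / H₀`: `n • [s] = [s n⁻¹]`.  Under the dictionary
`[s] ↦ (place x ↦ |ι (s x)|)` this is the usual Galois action `n • P = n(P)` on places. -/
instance dcMulAction : MulAction H (DC D H₀) where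
  smul := dcSmul D H₀ H
  one_smul w := by
    obtain ⟨s, rfl⟩ := dcMk_surjective D H₀ w
    show dcSmul D H₀ H 1 (dcMk D H₀ s) = dcMk D H₀ s
    rw [dcSmul_mk]
    simp
  mul_smul n m w := by
    obtain ⟨s, rfl⟩ := dcMk_surjective D H₀ w
    show dcSmul D H₀ H (n * m) (dcMk D H₀ s) =
      dcSmul D H₀ H n (dcSmul D H₀ H m (dcMk D H₀ s))
    rw [dcSmul_mk, dcSmul_mk, dcSmul_mk]
    congr 1
    simp only [Subgroup.coe_mul, mul_inv_rev, mul_assoc]

@[simp]
theorem smul_dcMk (n : H) (s : G) : n • dcMk D H₀ s = dcMk D H₀ (s * (n : G)⁻¹) := rfl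

/-- Elements of `H₀` act trivially. -/
theorem smul_dc_of_mem (n : H) (hn : (n : G) ∈ H₀) (w : DC D H₀) : n • w = w := by
  obtain ⟨s, rfl⟩ := dcMk_surjective D H₀ w
  rw [smul_dcMk]
  exact dcMk_mul_right D H₀ s (inv_mem hn)

/-- The stabiliser of `[s]` in `H` is `H ∩ H₀ (s⁻¹ D s)`. -/
theorem smul_dcMk_eq_self_iff (n : H) (s : G) :
    n • dcMk D H₀ s = dcMk D H₀ s ↔ ∃ d ∈ D, ∃ h ∈ H₀, (n : G) = h * (s⁻¹ * d * s) := by
  rw [smul_dcMk, eq_comm, dcMk_eq_iff]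
  constructor
  · rintro ⟨d, hd, h, hh, e⟩
    refine ⟨d⁻¹, inv_mem hd, h⁻¹, inv_mem hh, ?_⟩
    have e2 : (n : G)⁻¹ = s⁻¹ * d * s * h := by
      calc (n : G)⁻¹ = s⁻¹ * (s * (n : G)⁻¹) := by group
        _ = s⁻¹ * (d * s * h) := by rw [e]
        _ = s⁻¹ * d * s * h := by group
    have e3 : (n : G) = (s⁻¹ * d * s * h)⁻¹ := by rw [← e2, inv_inv]
    rw [e3]; group
  · rintro ⟨d, hd, h, hh, e⟩
    refine ⟨d⁻¹, inv_mem hd, h⁻¹, inv_mem hh, ?_⟩
    rw [e]; group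

/-- The forgetful map `D \ G / H₀ → D \ G / H`. -/
def dcProj : DC D H₀ → DC D H :=
  Quotient.map' id (by
    intro a b hab
    obtain ⟨d, hd, h, hh, rfl⟩ := DoubleCoset.rel_iff.mp hab
    exact DoubleCoset.rel_iff.mpr ⟨d, hd, h, NormalIn.le (H₀ := H₀) hh, rfl⟩)

@[simp]
theorem dcProj_mk (s : G) : dcProj D H₀ H (dcMk D H₀ s) = dcMk D H s := rfl

theorem dcProj_smul (n : H) (w : DC D H₀) : dcProj D H₀ H (n • w) = dcProj D H₀ H w := by
  obtain ⟨s, rfl⟩ := dcMk_surjective D H₀ w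
  rw [smul_dcMk, dcProj_mk, dcProj_mk]
  exact dcMk_mul_right D H s (inv_mem n.2)

theorem dcProj_eq_iff (w w' : DC D H₀) :
    dcProj D H₀ H w = dcProj D H₀ H w' ↔ ∃ n : H, n • w = w' := by
  obtain ⟨s, rfl⟩ := dcMk_surjective D H₀ w
  obtain ⟨s', rfl⟩ := dcMk_surjective D H₀ w'
  rw [dcProj_mk, dcProj_mk, dcMk_eq_iff]
  constructor
  · rintro ⟨d, hd, h, hh, rfl⟩
    refine ⟨⟨h⁻¹, inv_mem hh⟩, ?_⟩
    rw [smul_dcMk]
    show dcMk D H₀ (s * (h⁻¹)⁻¹) = dcMk D H₀ (d * s * h)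
    rw [inv_inv, mul_assoc d, dcMk_mul_left D H₀ hd]
  · rintro ⟨n, hn⟩
    rw [smul_dcMk, dcMk_eq_iff] at hn
    obtain ⟨d, hd, h, hh, e⟩ := hn
    refine ⟨d, hd, (n : G)⁻¹ * h,
      mul_mem (inv_mem n.2) (NormalIn.le (H₀ := H₀) hh), ?_⟩
    rw [e]; group

/-- The orbits of `H` on `D \ G / H₀` are the double cosets `D \ G / H`. -/
def orbEquivDC : Orb H (DC D H₀) ≃ DC D H where
  toFun := Quotient.lift (dcProj D H₀ H) (by
    intro a b hab
    obtain ⟨n, rfl⟩ := MulAction.orbitRel_apply.mp hab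
    exact dcProj_smul D H₀ H n b)
  invFun := Quotient.lift (fun s => (Quotient.mk'' (dcMk D H₀ s) : Orb H (DC D H₀))) (by
    intro a b hab
    apply Quotient.sound'
    have h1 : dcProj D H₀ H (dcMk D H₀ a) = dcProj D H₀ H (dcMk D H₀ b) := by
      rw [dcProj_mk, dcProj_mk]
      exact Quotient.sound' hab
    obtain ⟨n, hn⟩ := (dcProj_eq_iff D H₀ H _ _).mp h1
    refine MulAction.orbitRel_apply.mpr ⟨n⁻¹, ?_⟩
    show n⁻¹ • dcMk D H₀ b = dcMk D H₀ a
    rw [← hn, inv_smul_smul])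
  left_inv o := by
    induction o using Quotient.inductionOn' with
    | h w =>
      obtain ⟨s, rfl⟩ := dcMk_surjective D H₀ w
      rfl
  right_inv w := by
    obtain ⟨s, rfl⟩ := dcMk_surjective D H w
    rfl

@[simp]
theorem orbEquivDC_mk (s : G) :
    orbEquivDC D H₀ H (Quotient.mk'' (dcMk D H₀ s)) = dcMk D H s := rfl

omit [NormalIn H₀ H] in
instance finite_dc [H₀.FiniteIndex] : Finite (DC D H₀) := by
  have : Finite (G ⧸ H₀) := Subgroup.finite_quotient_of_finiteIndex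
  let f : G ⧸ H₀ → DC D H₀ :=
    Quotient.lift (dcMk D H₀) (by
      intro a b hab
      rw [dcMk_eq_iff]
      exact ⟨1, one_mem _, a⁻¹ * b, QuotientGroup.leftRel_apply.mp hab, by
        rw [one_mul, mul_inv_cancel_left]⟩)
  refine Finite.of_surjective f ?_
  intro w
  obtain ⟨s, rfl⟩ := dcMk_surjective D H₀ w
  exact ⟨QuotientGroup.mk s, rfl⟩

end DC

/-! ### The invariants of a coinduced representation -/

section InvCoind

variable {k : Type*} [CommRing k] {G : Type*} [Group G] (D H₀ H : Subgroup G) [NormalIn H₀ H]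
  {Y : Type*} [AddCommGroup Y] [Module k Y] (σ : Representation k H Y)

/-- The `D`-invariants of `coind_H^G σ`. -/
abbrev coindInv : Submodule k (Representation.coindV H.subtype σ) :=
  Representation.invariants ((Representation.coind H.subtype σ).comp D.subtype)

variable {D H σ}

omit [NormalIn H₀ H] in
theorem coindInv_apply_mul (f : coindInv D H σ) (x : G) {d : G} (hd : d ∈ D) :
    f.1.1 (x * d) = f.1.1 x := by
  have h := (Representation.mem_invariants _ _).mp f.2 ⟨d, hd⟩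
  exact congrArg (fun F : Representation.coindV H.subtype σ => F.1 x) h

omit [NormalIn H₀ H] in
theorem coindV_apply_mul (f : Representation.coindV H.subtype σ) {h : G} (hh : h ∈ H) (x : G) :
    f.1 (h * x) = σ ⟨h, hh⟩ (f.1 x) := f.2 ⟨h, hh⟩ x

variable (D H σ)

/-- The map `(coind_H^G Y)^D → Map_H(D\G/H₀, Y)`, `f ↦ ([s] ↦ f s⁻¹)`. -/
def invCoindTo (hσ : ∀ h : H, (h : G) ∈ H₀ → σ h = 1) :
    coindInv D H σ →ₗ[k] EquivMaps H (DC D H₀) σ where
  toFun f := ⟨fun w => Quotient.liftOn' w (fun s => f.1.1 s⁻¹) (by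
      intro a b hab
      obtain ⟨d, hd, h, hh, rfl⟩ := DoubleCoset.rel_iff.mp hab
      show f.1.1 a⁻¹ = f.1.1 (d * a * h)⁻¹
      have e : (d * a * h)⁻¹ = h⁻¹ * (a⁻¹ * d⁻¹) := by group
      have hhH : h⁻¹ ∈ H := NormalIn.le (H₀ := H₀) (inv_mem hh)
      rw [e, coindV_apply_mul f.1 hhH, hσ ⟨h⁻¹, hhH⟩ (inv_mem hh), Module.End.one_apply,
        coindInv_apply_mul f _ (inv_mem hd)]), by
    intro n w
    obtain ⟨s, rfl⟩ := dcMk_surjective D H₀ w
    show f.1.1 (s * (n : G)⁻¹)⁻¹ = σ n (f.1.1 s⁻¹)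
    have e : (s * (n : G)⁻¹)⁻¹ = (n : G) * s⁻¹ := by group
    rw [e, coindV_apply_mul f.1 n.2]⟩
  map_add' f g := by
    apply Subtype.ext
    funext w
    obtain ⟨s, rfl⟩ := dcMk_surjective D H₀ w
    rfl
  map_smul' c f := by
    apply Subtype.ext
    funext w
    obtain ⟨s, rfl⟩ := dcMk_surjective D H₀ w
    rfl

@[simp]
theorem invCoindTo_apply_mk (hσ : ∀ h : H, (h : G) ∈ H₀ → σ h = 1) (f : coindInv D H σ) (s : G) :
    (invCoindTo D H₀ H σ hσ f).1 (dcMk D H₀ s) = f.1.1 s⁻¹ := rfl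

/-- The inverse map `φ ↦ (g ↦ φ [g⁻¹])`. -/
def invCoindOf (φ : EquivMaps H (DC D H₀) σ) : coindInv D H σ :=
  ⟨⟨fun g => φ.1 (dcMk D H₀ g⁻¹), by
    intro h g
    show φ.1 (dcMk D H₀ ((h : G) * g)⁻¹) = σ h (φ.1 (dcMk D H₀ g⁻¹))
    rw [← φ.2 h, smul_dcMk, mul_inv_rev]⟩, by
    rw [Representation.mem_invariants]
    intro d
    apply Subtype.ext
    funext g
    show φ.1 (dcMk D H₀ (g * (d : G))⁻¹) = φ.1 (dcMk D H₀ g⁻¹)
    rw [mul_inv_rev, dcMk_mul_left D H₀ (inv_mem d.2)]⟩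

@[simp]
theorem invCoindOf_apply (φ : EquivMaps H (DC D H₀) σ) (g : G) :
    (invCoindOf D H₀ H σ φ).1.1 g = φ.1 (dcMk D H₀ g⁻¹) := rfl

/-- **Mackey for invariants**: `(coind_H^G Y)^D ≃ Map_H(D\G/H₀, Y)` for `Y` trivial on
`H₀ ⊴ H`; canonical (no choice of representatives). -/
def invCoindEquiv (hσ : ∀ h : H, (h : G) ∈ H₀ → σ h = 1) :
    coindInv D H σ ≃ₗ[k] EquivMaps H (DC D H₀) σ where
  __ := invCoindTo D H₀ H σ hσ
  invFun := invCoindOf D H₀ H σ
  left_inv f := by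
    apply Subtype.ext
    apply Subtype.ext
    funext g
    show f.1.1 (g⁻¹)⁻¹ = f.1.1 g
    rw [inv_inv]
  right_inv φ := by
    apply Subtype.ext
    funext w
    obtain ⟨s, rfl⟩ := dcMk_surjective D H₀ w
    show φ.1 (dcMk D H₀ (s⁻¹)⁻¹) = φ.1 (dcMk D H₀ s)
    rw [inv_inv]

@[simp]
theorem invCoindEquiv_apply_mk (hσ : ∀ h : H, (h : G) ∈ H₀ → σ h = 1) (f : coindInv D H σ)
    (s : G) : (invCoindEquiv D H₀ H σ hσ f).1 (dcMk D H₀ s) = f.1.1 s⁻¹ := rfl

@[simp]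
theorem invCoindEquiv_symm_apply (hσ : ∀ h : H, (h : G) ∈ H₀ → σ h = 1)
    (φ : EquivMaps H (DC D H₀) σ) (g : G) :
    ((invCoindEquiv D H₀ H σ hσ).symm φ).1.1 g = φ.1 (dcMk D H₀ g⁻¹) := rfl

end InvCoind

section InvCoindCount

variable {k : Type*} [Field k] {G : Type*} [Group G] (D H₀ H : Subgroup G) [NormalIn H₀ H]
  {Y : Type*} [AddCommGroup Y] [Module k Y] (σ : Representation k H Y)

/-- **The Mackey count**: `dim (coind_H^G Y)^D = ∑_{o ∈ H \ (D\G/H₀)} dim Y^{Stab_H(x_o)}`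
(the orbit space is `D \ G / H` by `orbEquivDC`, the stabiliser of `[s]` is `H ∩ H₀ (s⁻¹ D s)` by
`smul_dcMk_eq_self_iff`). -/
theorem finrank_coindInv (hσ : ∀ h : H, (h : G) ∈ H₀ → σ h = 1) [FiniteDimensional k Y]
    [Fintype (Orb H (DC D H₀))] :
    Module.finrank k (coindInv D H σ) =
      ∑ o : Orb H (DC D H₀), Module.finrank k (stabInv σ o) := by
  rw [LinearEquiv.finrank_eq (invCoindEquiv D H₀ H σ hσ), finrank_equivMaps]

end InvCoindCount

/-! ### Invariants of a cyclic subgroup -/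

section Zpowers

variable {k : Type*} [CommRing k] {G : Type*} [Group G] {V : Type*} [AddCommGroup V] [Module k V]
  (ρ : Representation k G V)

/-- The invariants of `⟨c⟩` are the kernel of `ρ c - 1` (the archimedean term of Tate's
formula). -/
theorem invariants_zpowers (c : G) :
    Representation.invariants (ρ.comp (Subgroup.zpowers c).subtype) =
      LinearMap.ker (ρ c - 1) := by
  ext v
  rw [Representation.mem_invariants, LinearMap.mem_ker, LinearMap.sub_apply,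
    Module.End.one_apply, sub_eq_zero]
  constructor
  · intro h
    exact h ⟨c, Subgroup.mem_zpowers c⟩
  · rintro h ⟨g, n, rfl⟩
    show ρ (c ^ n) v = v
    have hinv : ρ c⁻¹ v = v := by
      have := congrArg (ρ c⁻¹) h
      rw [← Module.End.mul_apply, ← map_mul, inv_mul_cancel, map_one,
        Module.End.one_apply] at this
      exact this.symm
    have hnat : ∀ (g : G), ρ g v = v → ∀ m : ℕ, ρ (g ^ m) v = v := by
      intro g hg m
      induction m with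
      | zero => rw [pow_zero, map_one, Module.End.one_apply]
      | succ m ih => rw [pow_succ, map_mul, Module.End.mul_apply, hg, ih]
    cases n with
    | ofNat m =>
      rw [Int.ofNat_eq_natCast, zpow_natCast]
      exact hnat c h m
    | negSucc m =>
      rw [zpow_negSucc, ← inv_pow]
      exact hnat c⁻¹ hinv (m + 1)

end Zpowers

end Fermat.Agent.GP.GW.E3.Mackey

end
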