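/-
GATE-P / S56 [P-GW] leaf E3f (helper83), FILE 2: the place dictionaries, Galois-equivariantly.

`F : IntermediateField ℚ Qbar` a number field, Galois over `ℚ`; `resF n = n|_F : F ≃ₐ[ℚ] F`.
`G_ℚ` acts on the double cosets `D \ G_ℚ / G_F` by `n • [s] = [s n⁻¹]` (`MackeyAbs.dcMulAction`).

* finite places: helper11's `placeIdxEquivPrimes q F : D_q \ G_ℚ / G_F ≃ {primes of 𝓞 F above q}`
  is equivariant: `placeAt q F (s * n) = comapAut (intAut (resF n)) (placeAt q F s)`
  (`= (n|F)⁻¹(P_s)`), i.e. `n • [s] ↦ (n|F)(P_s)`;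
* infinite places: `infPlaceEquiv F : ⟨c⟩ \ G_ℚ / G_F ≃ InfinitePlace F`,
  `[s] ↦ mk (complexEmbedding ∘ s|_F)`, equivariant for Mathlib's action
  `σ • w = w.comap σ.symm` of `F ≃ₐ[ℚ] F` on `InfinitePlace F`;
* complex embeddings: `cEmbEquiv F : 1 \ G_ℚ / G_F ≃ (F →+* ℂ)`.
-/
import Fermat.Agent.GP.GW.E3.MackeyAbs
import Fermat.Agent.GC.Places.PlaceCount
import Fermat.Agent.GC.SUnitHQ.Action
import Fermat.Prelude.Def_GaloisRep_ComplexConjugation

set_option autoImplicit false
set_option linter.unusedSectionVars false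

open scoped Padic
open IsDedekindDomain NumberField

noncomputable section

namespace Fermat.Agent.GP.GW.E3.Mackey

open Fermat.Agent.GC.Places Fermat.Agent.GC.Places.PlaceCount Fermat.Agent.GC.SUnitHQ
  Fermat.Agent.GC.Local.KR Fermat.Agent.GC.Global.Adapter

local notation "Qb" => AlgebraicClosure ℚ
local notation "GQ" => (AlgebraicClosure ℚ ≃ₐ[ℚ] AlgebraicClosure ℚ)

local instance isAlgebraicQbar_mp : Algebra.IsAlgebraic ℚ (AlgebraicClosure ℚ) :=
  AlgebraicClosure.isAlgebraic ℚ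
local instance isAlgClosureQbar_mp : IsAlgClosure ℚ (AlgebraicClosure ℚ) :=
  ⟨inferInstance, inferInstance⟩
local instance normalQbar_mp : Normal ℚ (AlgebraicClosure ℚ) :=
  IsAlgClosure.normal ℚ (AlgebraicClosure ℚ)

variable (F : IntermediateField ℚ Qb) [NumberField F] [Normal ℚ F]

/-! ### Restriction to `F` -/

/-- `n ↦ n|_F`. -/
def resF : GQ →* (F ≃ₐ[ℚ] F) := AlgEquiv.restrictNormalHom F

theorem coe_resF_apply (n : GQ) (x : F) : ((resF F n x : F) : Qb) = n (x : Qb) :=
  AlgEquiv.restrictNormal_commutes n F x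

theorem coe_resF_symm_apply (n : GQ) (x : F) : (((resF F n).symm x : F) : Qb) = n⁻¹ (x : Qb) := by
  have h : (resF F n).symm = resF F n⁻¹ := by
    rw [map_inv]; rfl
  rw [h, coe_resF_apply]

theorem apply_mem (n : GQ) {x : Qb} (hx : x ∈ F) : n x ∈ F := by
  have := coe_resF_apply F n ⟨x, hx⟩
  rw [← this]
  exact (resF F n ⟨x, hx⟩).2

/-- `G_F` is normal in `G_ℚ`, hence normal in every `H ⊇ G_F`. -/
theorem normalIn_fixingSubgroup {H : Subgroup GQ} (h : F.fixingSubgroup ≤ H) :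
    NormalIn F.fixingSubgroup H where
  le := h
  conj_mem' n _ g hg := by
    rw [IntermediateField.mem_fixingSubgroup_iff] at hg ⊢
    intro x hx
    have h1 : n⁻¹ x ∈ F := apply_mem F n⁻¹ hx
    have h2 := hg _ h1
    show n (g (n⁻¹ x)) = x
    rw [h2]
    exact n.apply_symm_apply x

theorem resF_eq_one_of_mem {n : GQ} (hn : n ∈ F.fixingSubgroup) : resF F n = 1 := by
  rw [IntermediateField.mem_fixingSubgroup_iff] at hn
  ext x
  rw [coe_resF_apply, hn _ x.2]
  rfl

/-! ### Finite places -/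

section Finite

variable (q : ℕ) [Fact q.Prime]

/-- **Equivariance of helper11's dictionary**: `P_{s n} = (n|F)⁻¹ (P_s)`. -/
theorem placeAt_mul_right (s n : GQ) :
    placeAt q F (s * n) = comapAut (intAut (resF F n)) (placeAt q F s) := by
  ext x
  rw [mem_comapAut]
  show ‖embAt q F (s * n) x‖ < 1 ↔ ‖embAt q F s (intAut (resF F n) x : 𝓞 F)‖ < 1
  rw [embAt_apply, embAt_apply, coe_intAut, coe_resF_apply]
  rfl

/-- The action of `σ ∈ Gal(F/ℚ)` on the primes of `F` above `q`: `σ • P = σ(P)`. -/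
def primeSmul (σ : F ≃ₐ[ℚ] F) (v : PrimesOverQ q F) : PrimesOverQ q F :=
  ⟨comapAut (intAut σ⁻¹) v.1, by
    rw [mem_comapAut, map_natCast]
    exact v.2⟩

theorem mem_primeSmul_iff (σ : F ≃ₐ[ℚ] F) (v : PrimesOverQ q F) (x : 𝓞 F) :
    x ∈ (primeSmul F q σ v).1.asIdeal ↔ intAut σ⁻¹ x ∈ v.1.asIdeal := Iff.rfl

theorem intAut_mul (σ τ : F ≃ₐ[ℚ] F) (x : 𝓞 F) : intAut (σ * τ) x = intAut σ (intAut τ x) := by
  apply RingOfIntegers.ext
  rw [coe_intAut, coe_intAut, coe_intAut]
  rfl

theorem intAut_one (x : 𝓞 F) : intAut (1 : F ≃ₐ[ℚ] F) x = x := by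
  apply RingOfIntegers.ext
  rw [coe_intAut]
  rfl

/-- `Gal(F/ℚ)` acts on the primes of `F` above `q` (left action `σ • P = σ(P)`). -/
instance primesMulAction : MulAction (F ≃ₐ[ℚ] F) (PrimesOverQ q F) where
  smul := primeSmul F q
  one_smul v := by
    apply Subtype.ext
    ext x
    show intAut (1 : F ≃ₐ[ℚ] F)⁻¹ x ∈ v.1.asIdeal ↔ x ∈ v.1.asIdeal
    rw [inv_one, intAut_one]
  mul_smul σ τ v := by
    apply Subtype.ext
    ext x
    show intAut (σ * τ)⁻¹ x ∈ v.1.asIdeal ↔ intAut τ⁻¹ (intAut σ⁻¹ x) ∈ v.1.asIdeal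
    rw [mul_inv_rev, intAut_mul]

theorem mem_smul_prime_iff (σ : F ≃ₐ[ℚ] F) (v : PrimesOverQ q F) (x : 𝓞 F) :
    x ∈ (σ • v).1.asIdeal ↔ intAut σ⁻¹ x ∈ v.1.asIdeal := Iff.rfl

/-- `intAut σ r ∈ σ • P ↔ r ∈ P` (the shape of helper54's `map_mem_permAbove_iff`). -/
theorem intAut_mem_smul_prime_iff (σ : F ≃ₐ[ℚ] F) (v : PrimesOverQ q F) (x : 𝓞 F) :
    intAut σ x ∈ (σ • v).1.asIdeal ↔ x ∈ v.1.asIdeal := by
  rw [mem_smul_prime_iff, ← intAut_mul, inv_mul_cancel, intAut_one]

/-- Any subgroup of `G_ℚ` acts on the primes of `F` above `q` through restriction. -/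
instance primesMulActionSub (H : Subgroup GQ) : MulAction H (PrimesOverQ q F) :=
  MulAction.compHom _ ((resF F).comp H.subtype)

theorem sub_smul_prime (H : Subgroup GQ) (n : H) (v : PrimesOverQ q F) :
    n • v = resF F (n : GQ) • v := rfl

/-- The decomposition group at the fixed place of `Qbar` above `q`. -/
abbrev decQ : Subgroup GQ := ((padicPlace q).decompositionSubgroup ℚ : Subgroup GQ)

/-- helper11's dictionary, on `MackeyAbs.DC`. -/
def primesEquiv : DC (decQ q) F.fixingSubgroup ≃ PrimesOverQ q F := placeIdxEquivPrimes q F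

theorem primesEquiv_mk (s : GQ) : (primesEquiv F q (dcMk _ _ s)).1 = placeAt q F s :=
  placeIdxToPrime_placeMk q F s

/-- **The finite-place dictionary is `H`-equivariant.** -/
theorem primesEquiv_smul (H : Subgroup GQ) [NormalIn F.fixingSubgroup H] (n : H)
    (w : DC (decQ q) F.fixingSubgroup) : primesEquiv F q (n • w) = n • primesEquiv F q w := by
  obtain ⟨s, rfl⟩ := dcMk_surjective _ _ w
  apply Subtype.ext
  rw [smul_dcMk, primesEquiv_mk, placeAt_mul_right, sub_smul_prime]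
  ext x
  rw [mem_comapAut, mem_smul_prime_iff, primesEquiv_mk, map_inv]

end Finite

/-! ### Complex embeddings and infinite places -/

section Infinite

/-- The complex embedding `ι_∞ ∘ s|_F` of `F`. -/
def cEmbAt (s : GQ) : F →+* ℂ :=
  ((complexEmbedding : Qb →+* ℂ).comp (s : Qb →+* Qb)).comp (algebraMap F Qb)

@[simp]
theorem cEmbAt_apply (s : GQ) (x : F) : cEmbAt F s x = complexEmbedding (s (x : Qb)) := rfl

theorem cEmbAt_mul_of_mem (s : GQ) {h : GQ} (hh : h ∈ F.fixingSubgroup) :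
    cEmbAt F (s * h) = cEmbAt F s := by
  rw [IntermediateField.mem_fixingSubgroup_iff] at hh
  ext x
  show complexEmbedding (s (h (x : Qb))) = complexEmbedding (s (x : Qb))
  rw [hh _ x.2]

theorem cEmbAt_conj_mul (s : GQ) :
    cEmbAt F (complexConjugation * s) = ComplexEmbedding.conjugate (cEmbAt F s) := by
  ext x
  show complexEmbedding (complexConjugation (s (x : Qb))) = _
  rw [complexEmbedding_complexConjugation]
  rfl

theorem cEmbAt_mul_right (s n : GQ) :
    cEmbAt F (s * n) = (cEmbAt F s).comp ((resF F n : F ≃ₐ[ℚ] F) : F →+* F) := by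
  ext x
  show complexEmbedding (s (n (x : Qb))) = complexEmbedding (s ((resF F n x : F) : Qb))
  rw [coe_resF_apply]

theorem cEmbAt_injective_iff (s s' : GQ) :
    cEmbAt F s = cEmbAt F s' ↔ s⁻¹ * s' ∈ F.fixingSubgroup := by
  rw [IntermediateField.mem_fixingSubgroup_iff]
  constructor
  · intro h x hx
    have h1 := congrArg (fun f : F →+* ℂ => f ⟨x, hx⟩) h
    simp only [cEmbAt_apply] at h1
    have h2 : s x = s' x := complexEmbedding.toRingHom.injective h1
    show s⁻¹ (s' x) = x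
    rw [← h2]
    exact s.symm_apply_apply x
  · intro h
    ext x
    have h1 := h _ x.2
    show complexEmbedding (s (x : Qb)) = complexEmbedding (s' (x : Qb))
    congr 1
    have h2 : s ((s⁻¹ * s') (x : Qb)) = s' (x : Qb) := by
      show s (s⁻¹ (s' (x : Qb))) = s' (x : Qb)
      exact s.apply_symm_apply _
    rw [← h2, h1]

local instance algebraQbarComplex_mp : Algebra Qb ℂ := complexEmbedding.toRingHom.toAlgebra
local instance towerQbarComplex_mp : IsScalarTower ℚ Qb ℂ :=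
  IsScalarTower.of_algebraMap_eq' (Subsingleton.elim _ _)

/-- Algebraic complex numbers come from `Qbar`. -/
theorem mem_range_complexEmbedding_of_isIntegral {b : ℂ} (hb : IsIntegral ℚ b) :
    ∃ a : Qb, complexEmbedding a = b := by
  have hb' : IsIntegral Qb b := hb.tower_top
  have hirr : Irreducible (minpoly Qb b) := minpoly.irreducible hb'
  have hdeg : (minpoly Qb b).degree = 1 := IsAlgClosed.degree_eq_one_of_irreducible Qb hirr
  obtain ⟨a, ha⟩ := minpoly.mem_range_of_degree_eq_one Qb b hdeg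
  exact ⟨a, ha⟩

/-- Every complex embedding of `F` is `ι_∞ ∘ s|_F`. -/
theorem exists_cEmbAt_eq (φ : F →+* ℂ) : ∃ s : GQ, cEmbAt F s = φ := by
  have hmem : ∀ x : F, φ.toRatAlgHom x ∈ (complexEmbedding : Qb →ₐ[ℚ] ℂ).range := by
    intro x
    have hx : IsIntegral ℚ x := Algebra.IsIntegral.isIntegral x
    obtain ⟨a, ha⟩ := mem_range_complexEmbedding_of_isIntegral (hx.map φ.toRatAlgHom)
    exact ⟨a, ha⟩
  let e : Qb ≃ₐ[ℚ] (complexEmbedding : Qb →ₐ[ℚ] ℂ).range :=
    AlgEquiv.ofInjectiveField complexEmbedding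
  let ψ : F →ₐ[ℚ] Qb := (e.symm : (complexEmbedding : Qb →ₐ[ℚ] ℂ).range →ₐ[ℚ] Qb).comp
    (φ.toRatAlgHom.codRestrict (complexEmbedding : Qb →ₐ[ℚ] ℂ).range hmem)
  have hψ : ∀ x : F, complexEmbedding (ψ x) = φ x := by
    intro x
    have h1 : (e (ψ x) : ℂ) = φ x := by
      change ((e (e.symm _) : (complexEmbedding : Qb →ₐ[ℚ] ℂ).range) : ℂ) = φ x
      rw [AlgEquiv.apply_symm_apply]
      rfl
    exact h1
  obtain ⟨s, hs⟩ := exists_algEquiv_extends F ψ
  refine ⟨s, ?_⟩
  ext x
  rw [cEmbAt_apply, hs, hψ]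

/-- `Gal(F/ℚ)` acts on the complex embeddings: `σ • φ = φ ∘ σ⁻¹`. -/
instance cEmbMulAction : MulAction (F ≃ₐ[ℚ] F) (F →+* ℂ) where
  smul σ φ := φ.comp ((σ.symm : F ≃ₐ[ℚ] F) : F →+* F)
  one_smul φ := by
    ext x
    rfl
  mul_smul σ τ φ := by
    ext x
    rfl

theorem smul_cEmb_apply (σ : F ≃ₐ[ℚ] F) (φ : F →+* ℂ) (x : F) : (σ • φ) x = φ (σ.symm x) := rfl

instance cEmbMulActionSub (H : Subgroup GQ) : MulAction H (F →+* ℂ) :=
  MulAction.compHom _ ((resF F).comp H.subtype)

instance infPlaceMulActionSub (H : Subgroup GQ) : MulAction H (InfinitePlace F) :=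
  MulAction.compHom _ ((resF F).comp H.subtype)

theorem sub_smul_cEmb (H : Subgroup GQ) (n : H) (φ : F →+* ℂ) :
    n • φ = resF F (n : GQ) • φ := rfl

theorem sub_smul_infPlace (H : Subgroup GQ) (n : H) (w : InfinitePlace F) :
    n • w = resF F (n : GQ) • w := rfl

/-- The complex-embedding dictionary `1 \ G_ℚ / G_F ≃ (F →+* ℂ)`. -/
def cEmbEquiv : DC (⊥ : Subgroup GQ) F.fixingSubgroup ≃ (F →+* ℂ) :=
  Equiv.ofBijective
    (fun w => Quotient.liftOn' w (cEmbAt F) (by
      intro a b hab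
      obtain ⟨d, hd, h, hh, rfl⟩ := DoubleCoset.rel_iff.mp hab
      rw [Subgroup.mem_bot] at hd
      subst hd
      show cEmbAt F a = cEmbAt F (1 * a * h)
      rw [one_mul, cEmbAt_mul_of_mem F a hh]))
    (by
      constructor
      · intro w w' h
        obtain ⟨s, rfl⟩ := dcMk_surjective _ _ w
        obtain ⟨s', rfl⟩ := dcMk_surjective _ _ w'
        have h1 : cEmbAt F s = cEmbAt F s' := h
        rw [dcMk_eq_iff]
        exact ⟨1, Subgroup.mem_bot.mpr rfl, s⁻¹ * s', (cEmbAt_injective_iff F s s').mp h1, by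
          rw [one_mul, mul_inv_cancel_left]⟩
      · intro φ
        obtain ⟨s, hs⟩ := exists_cEmbAt_eq F φ
        exact ⟨dcMk _ _ s, hs⟩)

@[simp]
theorem cEmbEquiv_mk (s : GQ) : cEmbEquiv F (dcMk _ _ s) = cEmbAt F s := rfl

theorem cEmbEquiv_smul (H : Subgroup GQ) [NormalIn F.fixingSubgroup H] (n : H)
    (w : DC (⊥ : Subgroup GQ) F.fixingSubgroup) : cEmbEquiv F (n • w) = n • cEmbEquiv F w := by
  obtain ⟨s, rfl⟩ := dcMk_surjective _ _ w
  rw [smul_dcMk, cEmbEquiv_mk, cEmbEquiv_mk, cEmbAt_mul_right, sub_smul_cEmb, map_inv]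
  rfl

/-- The infinite place `|ι_∞ (s ·)|` of `F`. -/
def infPlaceAt (s : GQ) : InfinitePlace F := InfinitePlace.mk (cEmbAt F s)

theorem infPlaceAt_conj_mul (s : GQ) : infPlaceAt F (complexConjugation * s) = infPlaceAt F s := by
  rw [infPlaceAt, cEmbAt_conj_mul, InfinitePlace.mk_conjugate_eq, infPlaceAt]

theorem infPlaceAt_zpow_mul (k : ℤ) (s : GQ) :
    infPlaceAt F (complexConjugation ^ k * s) = infPlaceAt F s := by
  induction k using Int.induction_on with
  | zero => rw [zpow_zero, one_mul]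
  | succ k ih =>
    rw [zpow_add_one, mul_assoc]
    have h : complexConjugation ^ (k : ℤ) * (complexConjugation * s) =
        complexConjugation * (complexConjugation ^ (k : ℤ) * s) := by
      rw [← mul_assoc, ← mul_assoc]
      congr 1
      exact (zpow_mul_comm complexConjugation (k : ℤ) 1).trans (by rw [zpow_one]) |>.symm ▸ rfl
    rw [h, infPlaceAt_conj_mul, ih]
  | pred k ih =>
    have h : complexConjugation ^ (-(k : ℤ) - 1) * s =
        complexConjugation * (complexConjugation ^ (-(k : ℤ)) * s) := by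
      rw [← mul_assoc]
      congr 1
      rw [zpow_sub_one, complexConjugation_inv]
      exact (Commute.self_zpow complexConjugation _).eq.symm
    rw [h, infPlaceAt_conj_mul, ih]

theorem infPlaceAt_mul_of_mem (s : GQ) {h : GQ} (hh : h ∈ F.fixingSubgroup) :
    infPlaceAt F (s * h) = infPlaceAt F s := by
  rw [infPlaceAt, cEmbAt_mul_of_mem F s hh, infPlaceAt]

/-- The archimedean decomposition group `⟨c⟩`. -/
abbrev decInf : Subgroup GQ := Subgroup.zpowers complexConjugation

/-- **The infinite-place dictionary** `⟨c⟩ \ G_ℚ / G_F ≃ InfinitePlace F`. -/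
def infPlaceEquiv : DC decInf F.fixingSubgroup ≃ InfinitePlace F :=
  Equiv.ofBijective
    (fun w => Quotient.liftOn' w (infPlaceAt F) (by
      intro a b hab
      obtain ⟨d, hd, h, hh, rfl⟩ := DoubleCoset.rel_iff.mp hab
      obtain ⟨k, rfl⟩ := Subgroup.mem_zpowers_iff.mp hd
      show infPlaceAt F a = infPlaceAt F (complexConjugation ^ k * a * h)
      rw [infPlaceAt_mul_of_mem F _ hh, infPlaceAt_zpow_mul]))
    (by
      constructor
      · intro w w' h
        obtain ⟨s, rfl⟩ := dcMk_surjective _ _ w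
        obtain ⟨s', rfl⟩ := dcMk_surjective _ _ w'
        have h1 : InfinitePlace.mk (cEmbAt F s) = InfinitePlace.mk (cEmbAt F s') := h
        rw [InfinitePlace.mk_eq_iff] at h1
        rw [dcMk_eq_iff]
        rcases h1 with h1 | h1
        · exact ⟨1, one_mem _, s⁻¹ * s', (cEmbAt_injective_iff F s s').mp h1, by
            rw [one_mul, mul_inv_cancel_left]⟩
        · rw [← cEmbAt_conj_mul] at h1
          refine ⟨complexConjugation, Subgroup.mem_zpowers _,
            (complexConjugation * s)⁻¹ * s', (cEmbAt_injective_iff F _ s').mp h1, ?_⟩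
          rw [mul_inv_cancel_left]
      · intro v
        obtain ⟨s, hs⟩ := exists_cEmbAt_eq F v.embedding
        refine ⟨dcMk _ _ s, ?_⟩
        show InfinitePlace.mk (cEmbAt F s) = v
        rw [hs, InfinitePlace.mk_embedding])

@[simp]
theorem infPlaceEquiv_mk (s : GQ) : infPlaceEquiv F (dcMk _ _ s) = infPlaceAt F s := rfl

/-- **The infinite-place dictionary is `H`-equivariant** (Mathlib's action of `Gal(F/ℚ)`). -/
theorem infPlaceEquiv_smul (H : Subgroup GQ) [NormalIn F.fixingSubgroup H] (n : H)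
    (w : DC decInf F.fixingSubgroup) : infPlaceEquiv F (n • w) = n • infPlaceEquiv F w := by
  obtain ⟨s, rfl⟩ := dcMk_surjective _ _ w
  rw [smul_dcMk, infPlaceEquiv_mk, infPlaceEquiv_mk, infPlaceAt, cEmbAt_mul_right,
    sub_smul_infPlace, infPlaceAt, InfinitePlace.smul_mk, map_inv]
  rfl

end Infinite

end Fermat.Agent.GP.GW.E3.Mackey

end
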