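/-
GATE-P / S56 [P-GW] leaf E3f (helper83), FILE 1b: the twisted Mackey count and the archimedean
`±`-decomposition.

* `twistRep σ ω = ω ⊗ σ`;
* `twInvCoindEquiv`: for a character `ω` of `G` trivial on `H₀`, the `ω⁻¹`-semi-invariants of `D`
  on `coind_H^G σ` (`f (x d) = ω(d)⁻¹ f(x)`) are `Map_H(D\G/H₀, ω ⊗ σ)`, `f ↦ ([s] ↦ ω(s)⁻¹ f s⁻¹)`;
* for an involution `c` with `ω(c) = -1`: `ker (ρ(c) + 1) = ` the `ω⁻¹`-semi-invariants of `⟨c⟩`,
  and `dim V = dim ker (ρ(c) - 1) + dim ker (ρ(c) + 1)` when `2` is invertible.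

Consequence (the archimedean term of Tate's formula for `N = coind_H Y`):
`dim N - dim N^c = dim Map_H(⟨c⟩\G/H₀, ω ⊗ Y)`.

Mathlib + `MackeyAbs` only.
-/
import Fermat.Agent.GP.GW.E3.MackeyAbs

set_option autoImplicit false

noncomputable section

namespace Fermat.Agent.GP.GW.E3.Mackey

/-! ### Twisting a representation by a character -/

section Twist

variable {k : Type*} [CommRing k] {Γ : Type*} [Group Γ] {Y : Type*} [AddCommGroup Y] [Module k Y]

theorem map_units_smul (f : Y →ₗ[k] Y) (u : kˣ) (y : Y) : f (u • y) = u • f y := by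
  rw [Units.smul_def, map_smul, ← Units.smul_def]

/-- `ω ⊗ σ`: the twist of a representation by a character. -/
def twistRep (σ : Representation k Γ Y) (ω : Γ →* kˣ) : Representation k Γ Y where
  toFun n := ((ω n : kˣ) : k) • σ n
  map_one' := by
    rw [map_one, map_one, Units.val_one, one_smul]
  map_mul' a b := by
    rw [map_mul, map_mul, Units.val_mul]
    ext y
    simp only [LinearMap.smul_apply, Module.End.mul_apply, map_smul, smul_smul]
    rw [mul_comm]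

@[simp]
theorem twistRep_apply (σ : Representation k Γ Y) (ω : Γ →* kˣ) (n : Γ) (y : Y) :
    twistRep σ ω n y = ω n • σ n y := rfl

end Twist

/-! ### Semi-invariants of a coinduced representation -/

section TwInv

variable {k : Type*} [CommRing k] {G : Type*} [Group G] (D H₀ H : Subgroup G) [NormalIn H₀ H]
  {Y : Type*} [AddCommGroup Y] [Module k Y] (σ : Representation k H Y) (ω : G →* kˣ)

/-- The `ω⁻¹`-semi-invariants of `D` on `coind_H^G σ`: `f (x d) = ω(d)⁻¹ f(x)`. -/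
def coindTwInv : Submodule k (Representation.coindV H.subtype σ) where
  carrier := {f | ∀ d ∈ D, ∀ x : G, f.1 (x * d) = (ω d)⁻¹ • f.1 x}
  add_mem' := by
    intro a b ha hb d hd x
    show a.1 (x * d) + b.1 (x * d) = (ω d)⁻¹ • (a.1 x + b.1 x)
    rw [ha d hd x, hb d hd x, smul_add]
  zero_mem' := by
    intro d _ x
    show (0 : Y) = (ω d)⁻¹ • (0 : Y)
    rw [smul_zero]
  smul_mem' := by
    intro c a ha d hd x
    show c • a.1 (x * d) = (ω d)⁻¹ • (c • a.1 x)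
    rw [ha d hd x, smul_comm]

variable {D H σ ω}

omit [NormalIn H₀ H] in
theorem coindTwInv_apply_mul (f : coindTwInv D H σ ω) (x : G) {d : G} (hd : d ∈ D) :
    f.1.1 (x * d) = (ω d)⁻¹ • f.1.1 x := f.2 d hd x

variable (D H σ ω)

/-- The function `[s] ↦ ω(s)⁻¹ f s⁻¹` on `D \ G / H₀`. -/
def twInvFun (hσ : ∀ h : H, (h : G) ∈ H₀ → σ h = 1) (hω : ∀ h ∈ H₀, ω h = 1)
    (f : coindTwInv D H σ ω) (w : DC D H₀) : Y :=
  Quotient.liftOn' w (fun s => (ω s)⁻¹ • f.1.1 s⁻¹) (by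
    intro a b hab
    obtain ⟨d, hd, h, hh, rfl⟩ := DoubleCoset.rel_iff.mp hab
    show (ω a)⁻¹ • f.1.1 a⁻¹ = (ω (d * a * h))⁻¹ • f.1.1 (d * a * h)⁻¹
    have e : (d * a * h)⁻¹ = h⁻¹ * (a⁻¹ * d⁻¹) := by group
    have hhH : h⁻¹ ∈ H := NormalIn.le (H₀ := H₀) (inv_mem hh)
    have hu : (ω (d * a * h))⁻¹ * (ω d⁻¹)⁻¹ = (ω a)⁻¹ := by
      rw [map_mul, map_mul, hω h hh, mul_one, map_inv, inv_inv, mul_inv, mul_comm (ω d)⁻¹,
        mul_assoc, inv_mul_cancel, mul_one]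
    rw [e, coindV_apply_mul f.1 hhH, hσ ⟨h⁻¹, hhH⟩ (inv_mem hh), Module.End.one_apply,
      coindTwInv_apply_mul f _ (inv_mem hd), smul_smul, hu])

theorem twInvFun_mk (hσ : ∀ h : H, (h : G) ∈ H₀ → σ h = 1) (hω : ∀ h ∈ H₀, ω h = 1)
    (f : coindTwInv D H σ ω) (s : G) :
    twInvFun D H₀ H σ ω hσ hω f (dcMk D H₀ s) = (ω s)⁻¹ • f.1.1 s⁻¹ := rfl

/-- `f ↦ ([s] ↦ ω(s)⁻¹ f s⁻¹)`. -/
def twInvCoindTo (hσ : ∀ h : H, (h : G) ∈ H₀ → σ h = 1) (hω : ∀ h ∈ H₀, ω h = 1) :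
    coindTwInv D H σ ω →ₗ[k] EquivMaps H (DC D H₀) (twistRep σ (ω.comp H.subtype)) where
  toFun f := ⟨twInvFun D H₀ H σ ω hσ hω f, by
    intro n w
    obtain ⟨s, rfl⟩ := dcMk_surjective D H₀ w
    rw [smul_dcMk, twInvFun_mk, twInvFun_mk, twistRep_apply]
    have e : (s * (n : G)⁻¹)⁻¹ = (n : G) * s⁻¹ := by group
    have hu : (ω (s * (n : G)⁻¹))⁻¹ = ω (n : G) * (ω s)⁻¹ := by
      rw [map_mul, map_inv, mul_inv, inv_inv, mul_comm]
    rw [e, coindV_apply_mul f.1 n.2, map_units_smul, smul_smul, hu]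
    rfl⟩
  map_add' f g := by
    apply Subtype.ext
    funext w
    obtain ⟨s, rfl⟩ := dcMk_surjective D H₀ w
    show twInvFun D H₀ H σ ω hσ hω (f + g) (dcMk D H₀ s) =
      twInvFun D H₀ H σ ω hσ hω f (dcMk D H₀ s) + twInvFun D H₀ H σ ω hσ hω g (dcMk D H₀ s)
    rw [twInvFun_mk, twInvFun_mk, twInvFun_mk, ← smul_add]
    rfl
  map_smul' c f := by
    apply Subtype.ext
    funext w
    obtain ⟨s, rfl⟩ := dcMk_surjective D H₀ w
    show twInvFun D H₀ H σ ω hσ hω (c • f) (dcMk D H₀ s) =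
      c • twInvFun D H₀ H σ ω hσ hω f (dcMk D H₀ s)
    rw [twInvFun_mk, twInvFun_mk, smul_comm]
    rfl

@[simp]
theorem twInvCoindTo_apply_mk (hσ : ∀ h : H, (h : G) ∈ H₀ → σ h = 1) (hω : ∀ h ∈ H₀, ω h = 1)
    (f : coindTwInv D H σ ω) (s : G) :
    (twInvCoindTo D H₀ H σ ω hσ hω f).1 (dcMk D H₀ s) = (ω s)⁻¹ • f.1.1 s⁻¹ := rfl

/-- `φ ↦ (g ↦ ω(g)⁻¹ φ [g⁻¹])`. -/
def twInvCoindOf (φ : EquivMaps H (DC D H₀) (twistRep σ (ω.comp H.subtype))) :
    coindTwInv D H σ ω :=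
  ⟨⟨fun g => (ω g)⁻¹ • φ.1 (dcMk D H₀ g⁻¹), by
    intro h g
    show (ω ((h : G) * g))⁻¹ • φ.1 (dcMk D H₀ ((h : G) * g)⁻¹) =
      σ h ((ω g)⁻¹ • φ.1 (dcMk D H₀ g⁻¹))
    have h1 : dcMk D H₀ ((h : G) * g)⁻¹ = h • dcMk D H₀ g⁻¹ := by
      rw [smul_dcMk, mul_inv_rev]
    have hu : (ω ((h : G) * g))⁻¹ * ω (h : G) = (ω g)⁻¹ := by
      rw [map_mul, mul_inv, mul_comm (ω (h : G))⁻¹, mul_assoc, inv_mul_cancel, mul_one]
    rw [h1, φ.2 h, twistRep_apply, map_units_smul, smul_smul]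
    show ((ω ((h : G) * g))⁻¹ * ω (h : G)) • σ h (φ.1 (dcMk D H₀ g⁻¹)) = _
    rw [hu]⟩, by
    intro d hd g
    show (ω (g * d))⁻¹ • φ.1 (dcMk D H₀ (g * d)⁻¹) =
      (ω d)⁻¹ • ((ω g)⁻¹ • φ.1 (dcMk D H₀ g⁻¹))
    rw [mul_inv_rev, dcMk_mul_left D H₀ (inv_mem hd), smul_smul, map_mul, mul_inv, mul_comm]⟩

@[simp]
theorem twInvCoindOf_apply (φ : EquivMaps H (DC D H₀) (twistRep σ (ω.comp H.subtype))) (g : G) :
    (twInvCoindOf D H₀ H σ ω φ).1.1 g = (ω g)⁻¹ • φ.1 (dcMk D H₀ g⁻¹) := rfl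

/-- **Twisted Mackey for semi-invariants**:
`{f ∈ coind_H^G σ | f (x d) = ω(d)⁻¹ f(x), d ∈ D} ≃ Map_H(D\G/H₀, ω ⊗ σ)`. -/
def twInvCoindEquiv (hσ : ∀ h : H, (h : G) ∈ H₀ → σ h = 1) (hω : ∀ h ∈ H₀, ω h = 1) :
    coindTwInv D H σ ω ≃ₗ[k] EquivMaps H (DC D H₀) (twistRep σ (ω.comp H.subtype)) where
  __ := twInvCoindTo D H₀ H σ ω hσ hω
  invFun := twInvCoindOf D H₀ H σ ω
  left_inv f := by
    apply Subtype.ext
    apply Subtype.ext
    funext g
    show (ω g)⁻¹ • ((ω g⁻¹)⁻¹ • f.1.1 (g⁻¹)⁻¹) = f.1.1 g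
    rw [inv_inv, smul_smul, map_inv, inv_inv, inv_mul_cancel, one_smul]
  right_inv φ := by
    apply Subtype.ext
    funext w
    obtain ⟨s, rfl⟩ := dcMk_surjective D H₀ w
    show (ω s)⁻¹ • ((ω s⁻¹)⁻¹ • φ.1 (dcMk D H₀ (s⁻¹)⁻¹)) = φ.1 (dcMk D H₀ s)
    rw [inv_inv, smul_smul, map_inv, inv_inv, inv_mul_cancel, one_smul]

end TwInv

/-! ### Involutions -/

section Involution

variable {k : Type*} [Field k] {V : Type*} [AddCommGroup V] [Module k V]

/-- For an involution `g` with `2` invertible, `V = ker (g - 1) ⊕ ker (g + 1)`; dimension form. -/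
theorem finrank_ker_sub_one_add_ker_add_one [FiniteDimensional k V] (h2 : (2 : k) ≠ 0)
    (g : Module.End k V) (hg : g * g = 1) :
    Module.finrank k (LinearMap.ker (g - 1)) + Module.finrank k (LinearMap.ker (g + 1)) =
      Module.finrank k V := by
  have hdisj : Disjoint (LinearMap.ker (g - 1)) (LinearMap.ker (g + 1)) := by
    rw [Submodule.disjoint_def]
    intro v h1 h2'
    rw [LinearMap.mem_ker, LinearMap.sub_apply, Module.End.one_apply, sub_eq_zero] at h1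
    rw [LinearMap.mem_ker, LinearMap.add_apply, Module.End.one_apply, h1] at h2'
    have h3 : (2 : k) • v = 0 := by rw [two_smul]; exact h2'
    exact (smul_eq_zero.mp h3).resolve_left h2
  have hsup : LinearMap.ker (g - 1) ⊔ LinearMap.ker (g + 1) = ⊤ := by
    rw [eq_top_iff]
    intro v _
    have hgg : ∀ w, g (g w) = w := fun w => by
      rw [← Module.End.mul_apply, hg, Module.End.one_apply]
    have hv : v = (2 : k)⁻¹ • (v + g v) + (2 : k)⁻¹ • (v - g v) := by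
      rw [← smul_add, add_add_sub_cancel, ← two_smul k v, smul_smul, inv_mul_cancel₀ h2, one_smul]
    rw [hv]
    refine Submodule.add_mem_sup ?_ ?_
    · rw [LinearMap.mem_ker, LinearMap.sub_apply, Module.End.one_apply, map_smul, map_add, hgg,
        add_comm, sub_self]
    · rw [LinearMap.mem_ker, LinearMap.add_apply, Module.End.one_apply, map_smul, map_sub, hgg,
        ← smul_add, sub_add_sub_cancel, sub_self, smul_zero]
  have h := Submodule.finrank_sup_add_finrank_inf_eq (LinearMap.ker (g - 1)) (LinearMap.ker (g + 1))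
  rw [hsup, hdisj.eq_bot, finrank_bot, add_zero, finrank_top] at h
  exact h.symm

end Involution

section Anti

variable {k : Type*} [CommRing k] {G : Type*} [Group G] (H : Subgroup G)
  {Y : Type*} [AddCommGroup Y] [Module k Y] (σ : Representation k H Y) (ω : G →* kˣ)

/-- For `ω(c) = -1`, the `ω⁻¹`-semi-invariants of `⟨c⟩` on `coind_H^G σ` are `ker (ρ(c) + 1)`. -/
theorem coindTwInv_zpowers (c : G) (hc : ω c = -1) :
    coindTwInv (Subgroup.zpowers c) H σ ω =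
      LinearMap.ker (Representation.coind H.subtype σ c + 1) := by
  have hneg : ∀ y : Y, (-1 : kˣ) • y = -y := by
    intro y
    rw [Units.smul_def, Units.val_neg, Units.val_one, neg_one_smul]
  have hcinv : (ω c)⁻¹ = -1 := by rw [hc, inv_neg, inv_one]
  ext f
  rw [LinearMap.mem_ker, LinearMap.add_apply, Module.End.one_apply]
  constructor
  · intro hf
    apply Subtype.ext
    funext x
    show f.1 (x * c) + f.1 x = 0
    rw [hf c (Subgroup.mem_zpowers c) x, hcinv, hneg, neg_add_cancel]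
  · intro hf
    have h1 : ∀ x : G, f.1 (x * c) = -f.1 x := by
      intro x
      have := congrArg (fun F : Representation.coindV H.subtype σ => F.1 x) hf
      exact eq_neg_of_add_eq_zero_left this
    have h1' : ∀ x : G, f.1 (x * c⁻¹) = -f.1 x := by
      intro x
      have := h1 (x * c⁻¹)
      rw [inv_mul_cancel_right] at this
      rw [this, neg_neg]
    have hgen : ∀ (g : G), (ω g)⁻¹ = -1 → (∀ x : G, f.1 (x * g) = -f.1 x) →
        ∀ (m : ℕ) (x : G), f.1 (x * g ^ m) = (ω (g ^ m))⁻¹ • f.1 x := by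
      intro g hg hgf m
      induction m with
      | zero =>
        intro x
        rw [pow_zero, mul_one, map_one, inv_one, one_smul]
      | succ m ih =>
        intro x
        rw [pow_succ, ← mul_assoc, hgf, ih, map_mul, mul_inv, hg, ← smul_smul, hneg, smul_neg]
    rintro d ⟨n, rfl⟩ x
    show f.1 (x * c ^ n) = (ω (c ^ n))⁻¹ • f.1 x
    cases n with
    | ofNat m =>
      rw [Int.ofNat_eq_natCast, zpow_natCast]
      exact hgen c hcinv h1 m x
    | negSucc m =>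
      rw [zpow_negSucc, ← inv_pow]
      refine hgen c⁻¹ ?_ h1' (m + 1) x
      rw [map_inv, inv_inv, hc]

end Anti

section ArchCount

variable {k : Type*} [Field k] {G : Type*} [Group G] (H₀ H : Subgroup G) [NormalIn H₀ H]
  {Y : Type*} [AddCommGroup Y] [Module k Y] (σ : Representation k H Y) (ω : G →* kˣ)

/-- **The archimedean count**: for an involution `c` with `ω(c) = -1`, `ω` trivial on `H₀`,
`2 ≠ 0`:  `dim coind_H^G Y = dim Map_H(⟨c⟩\G/H₀, Y) + dim Map_H(⟨c⟩\G/H₀, ω ⊗ Y)`, where the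
first term is `dim ker (ρ(c) - 1)`. -/
theorem finrank_coindV_eq_add (hσ : ∀ h : H, (h : G) ∈ H₀ → σ h = 1) (hω : ∀ h ∈ H₀, ω h = 1)
    (c : G) (hcc : c * c = 1) (hc : ω c = -1) (h2 : (2 : k) ≠ 0)
    [FiniteDimensional k (Representation.coindV H.subtype σ)] :
    Module.finrank k (Representation.coindV H.subtype σ) =
      Module.finrank k (EquivMaps H (DC (Subgroup.zpowers c) H₀) σ) +
      Module.finrank k
        (EquivMaps H (DC (Subgroup.zpowers c) H₀) (twistRep σ (ω.comp H.subtype))) := by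
  have hg : Representation.coind H.subtype σ c * Representation.coind H.subtype σ c = 1 := by
    rw [← map_mul, hcc, map_one]
  rw [← finrank_ker_sub_one_add_ker_add_one h2 _ hg, ← invariants_zpowers,
    ← coindTwInv_zpowers H σ ω c hc,
    LinearEquiv.finrank_eq (invCoindEquiv (Subgroup.zpowers c) H₀ H σ hσ),
    LinearEquiv.finrank_eq (twInvCoindEquiv (Subgroup.zpowers c) H₀ H σ ω hσ hω)]

end ArchCount

end Fermat.Agent.GP.GW.E3.Mackey

end
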