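/-
GATE-P / S56 [P-GW] leaf E3f (helper83), FILE 3: the `H⁰`-type terms of Tate's formula for
`N = coind_H^{G_ℚ} Y` in the pinned model (`Hlc`, `locDataQ S`), as dimensions of spaces of
`H`-equivariant maps from place-sets of `F` to `Y`.

`F : IntermediateField ℚ Qbar` a number field Galois over `ℚ`, `U = F.fixingSubgroup ≤ H ≤ G_ℚ`,
`Y : Rep k H` trivial on `U`.

* `finrank_Hlc_zero`            : `dim Hlc⁰(M) = dim M^G`;
* `finrank_Hlc_zero_coind`      : `dim Hlc⁰(coind_H Y) = dim Y^H`;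
* `finrank_pi_Hloc_zero`        : `dim ∏_{v∈S} H⁰_v(M) = ∑_v dim M^{D_v}`;
* `finrank_invariants_dec_coind`: `dim (coind_H Y)^{D_q} = dim Map_H({primes of F over q}, Y)`;
* `finrank_pi_Hloc_zero_coind`, `finrank_pi_Hloc_zero_of_iso`, and
  `finrank_pi_Hloc_zero_dualTwist_coind` : `dim P⁰((coind_H Y)*) = ∑_v dim Map_H(primes over v, Y*)`;
* `finrank_ker_conj_coind`      : `dim ker (ρ_N(c) - 1) = dim Map_H(InfinitePlace F, Y)`;
* `finrank_coind_eq_arch`       : `dim N = dim Map_H(InfinitePlace F, Y) + dim Map_H(InfinitePlace F, ω ⊗ Y)`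
  for a character `ω` of `G_ℚ`, trivial on `U`, with `ω(c) = -1`.
-/
import Fermat.Agent.GP.GW.E3.MackeyPlaces
import Fermat.Agent.GP.GW.E3.MackeyTwist
import Fermat.Agent.GC.PT.LocDataQ
import Fermat.Agent.GC.Prof.CoindDual
import Fermat.Agent.GC.Prof.Low

set_option autoImplicit false
set_option linter.unusedSectionVars false

open scoped Padic
open IsDedekindDomain NumberField Module

noncomputable section

namespace Fermat.Agent.GP.GW.E3.Mackey

open Fermat.Agent.GC.Prof Fermat.Agent.GC.Places Fermat.Agent.GC.Places.PlaceCount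
  Fermat.Agent.GC.PT.LocDataQ Fermat.Agent.GC.C0 Fermat.Agent.GC.Local.KR CategoryTheory

local notation "Qb" => AlgebraicClosure ℚ

/-! ### Generalities on invariants -/

section General

universe u

variable {k G : Type u} [Field k] [Group G]

/-- `dim Hlc⁰(M) = dim M^G`. -/
theorem finrank_Hlc_zero (𝒰 : LevelSystem G) (M : Rep.{u} k G) [IsDiscrete 𝒰 M] :
    finrank k (Hlc 𝒰 M 0) = finrank k M.ρ.invariants :=
  (Hlc0Equiv 𝒰 M).finrank_eq

/-- The invariants of a restriction along `r` are the invariants of the range of `r`. -/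
def invariantsResEquiv {D' : Type u} [Group D'] (r : D' →* G) (M : Rep.{u} k G)
    (D : Subgroup G) (hD : ∀ d : G, d ∈ D ↔ ∃ τ : D', r τ = d) :
    (Rep.res r M).ρ.invariants ≃ₗ[k] Representation.invariants (M.ρ.comp D.subtype) where
  toFun x := ⟨(x.1 : M.V), by
    rw [Representation.mem_invariants]
    rintro ⟨d, hd⟩
    obtain ⟨τ, rfl⟩ := (hD d).mp hd
    exact (Representation.mem_invariants _ _).mp x.2 τ⟩
  map_add' _ _ := rfl
  map_smul' _ _ := rfl
  invFun x := ⟨(x.1 : M.V), by
    rw [Representation.mem_invariants]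
    intro τ
    exact (Representation.mem_invariants _ _).mp x.2 ⟨r τ, (hD _).mpr ⟨τ, rfl⟩⟩⟩
  left_inv _ := rfl
  right_inv _ := rfl

/-- Isomorphic representations have isomorphic invariants under any subgroup. -/
def invariantsCongr {M M' : Rep.{u} k G} (e : M ≅ M') (D : Subgroup G) :
    Representation.invariants (M.ρ.comp D.subtype) ≃ₗ[k]
      Representation.invariants (M'.ρ.comp D.subtype) where
  toFun x := ⟨e.hom.hom x.1, by
    rw [Representation.mem_invariants]
    intro d
    have hx := (Representation.mem_invariants _ _).mp x.2 d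
    show M'.ρ (d : G) (e.hom.hom x.1) = e.hom.hom x.1
    rw [← Rep.hom_comm_apply]
    exact congrArg _ hx⟩
  map_add' x y := by
    apply Subtype.ext
    exact map_add _ _ _
  map_smul' c x := by
    apply Subtype.ext
    exact map_smul _ _ _
  invFun x := ⟨e.inv.hom x.1, by
    rw [Representation.mem_invariants]
    intro d
    have hx := (Representation.mem_invariants _ _).mp x.2 d
    show M.ρ (d : G) (e.inv.hom x.1) = e.inv.hom x.1
    rw [← Rep.hom_comm_apply]
    exact congrArg _ hx⟩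
  left_inv x := by
    apply Subtype.ext
    show e.inv.hom (e.hom.hom x.1) = x.1
    rw [← Rep.comp_apply, e.hom_inv_id]
    rfl
  right_inv x := by
    apply Subtype.ext
    show e.hom.hom (e.inv.hom x.1) = x.1
    rw [← Rep.comp_apply, e.inv_hom_id]
    rfl

/-- Invariants of `G` as invariants of `⊤`. -/
def invariantsTopEquiv (M : Rep.{u} k G) :
    M.ρ.invariants ≃ₗ[k] Representation.invariants (M.ρ.comp (⊤ : Subgroup G).subtype) where
  toFun x := ⟨x.1, by
    rw [Representation.mem_invariants]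
    intro d
    exact (Representation.mem_invariants _ _).mp x.2 d.1⟩
  map_add' _ _ := rfl
  map_smul' _ _ := rfl
  invFun x := ⟨x.1, by
    rw [Representation.mem_invariants]
    intro g
    exact (Representation.mem_invariants _ _).mp x.2 ⟨g, Subgroup.mem_top g⟩⟩
  left_inv _ := rfl
  right_inv _ := rfl

variable (H₀ H : Subgroup G) [NormalIn H₀ H] (Y : Rep.{u} k H)

/-- Equivariant maps from the one-point set `G \ G / H₀` are the invariants. -/
def equivMapsTopEquiv : EquivMaps H (DC (⊤ : Subgroup G) H₀) Y.ρ ≃ₗ[k] Y.ρ.invariants where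
  toFun φ := ⟨φ.1 (dcMk _ _ 1), by
    rw [Representation.mem_invariants]
    intro n
    rw [← φ.2 n, smul_dcMk, one_mul]
    refine congrArg φ.1 ?_
    rw [dcMk_eq_iff]
    exact ⟨(n : G), Subgroup.mem_top _, 1, one_mem _, by rw [mul_one, mul_inv_cancel]⟩⟩
  map_add' _ _ := rfl
  map_smul' _ _ := rfl
  invFun y := ⟨fun _ => y.1, by
    intro n _
    exact ((Representation.mem_invariants _ _).mp y.2 n).symm⟩
  left_inv φ := by
    apply Subtype.ext
    funext w
    obtain ⟨s, rfl⟩ := dcMk_surjective _ _ w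
    show φ.1 (dcMk _ _ 1) = φ.1 (dcMk _ _ s)
    refine congrArg φ.1 ?_
    rw [dcMk_eq_iff]
    exact ⟨s, Subgroup.mem_top _, 1, one_mem _, by rw [mul_one, mul_one]⟩
  right_inv _ := rfl

/-- `dim Hlc⁰(coind_H Y) = dim Y^H` (for `Y` trivial on some `H₀ ⊴ H`, e.g. `H₀ = ⊥`). -/
theorem finrank_Hlc_zero_coind (𝒰 : LevelSystem G) [IsDiscrete 𝒰 (Rep.coind H.subtype Y)]
    (hY : ∀ h : H, (h : G) ∈ H₀ → Y.ρ h = 1) :
    finrank k (Hlc 𝒰 (Rep.coind H.subtype Y) 0) = finrank k Y.ρ.invariants := by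
  rw [finrank_Hlc_zero,
    LinearEquiv.finrank_eq (invariantsTopEquiv (Rep.coind H.subtype Y)),
    ← LinearEquiv.finrank_eq (equivMapsTopEquiv H₀ H Y)]
  exact LinearEquiv.finrank_eq (invCoindEquiv ⊤ H₀ H Y.ρ hY)

end General

/-! ### The local `H⁰` terms in the pinned model -/

section Local

variable {k : Type} [Field k] (S : Finset Nat.Primes)

/-- The rational prime `v ∈ S` as a natural number. -/
abbrev idxPrime (v : (locDataQ S).ι) : ℕ := ((Subtype.val (show ↥S from v) : Nat.Primes) : ℕ)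

instance fact_idxPrime (v : (locDataQ S).ι) : Fact (idxPrime S v).Prime :=
  ⟨(Subtype.val (show ↥S from v) : Nat.Primes).2⟩

/-- `dim H⁰_v(M) = dim M^{D_v}`, `D_v` the decomposition group of the fixed place above `v`. -/
theorem finrank_Hloc_zero (M : Rep k GQ) [IsDiscrete (levelS S) M] (v : (locDataQ S).ι) :
    finrank k (Hlc ((locDataQ S).𝒰v v) (Rep.res ((locDataQ S).r v) M) 0) =
      finrank k (Representation.invariants
        (M.ρ.comp (decQ (idxPrime S v)).subtype)) := by
  rw [finrank_Hlc_zero]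
  exact LinearEquiv.finrank_eq (invariantsResEquiv _ M _ (fun d =>
    mem_decompositionSubgroup_iff (idxPrime S v) d))

/-- `dim ∏_{v ∈ S} H⁰_v(M) = ∑_v dim M^{D_v}`. -/
theorem finrank_pi_Hloc_zero (M : Rep k GQ) [IsDiscrete (levelS S) M] [FiniteDimensional k M] :
    finrank k (∀ v : (locDataQ S).ι,
        Hlc ((locDataQ S).𝒰v v) (Rep.res ((locDataQ S).r v) M) 0) =
      ∑ v : (locDataQ S).ι, finrank k (Representation.invariants
        (M.ρ.comp (decQ (idxPrime S v)).subtype)) := by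
  have hfd : ∀ v : (locDataQ S).ι, Module.Finite k
      (Hlc ((locDataQ S).𝒰v v) (Rep.res ((locDataQ S).r v) M) 0) := by
    intro v
    have : FiniteDimensional k (Rep.res ((locDataQ S).r v) M).ρ.invariants :=
      FiniteDimensional.finiteDimensional_submodule (K := k) (V := M.V) _
    exact Module.Finite.equiv (Hlc0Equiv ((locDataQ S).𝒰v v)
      (Rep.res ((locDataQ S).r v) M)).symm
  rw [Module.finrank_pi_fintype]
  exact Finset.sum_congr rfl fun v _ => finrank_Hloc_zero S M v

end Local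

/-! ### Coinduced modules: the place-set forms -/

section Coind

variable {k : Type} [Field k]
variable (F : IntermediateField ℚ Qb) [NumberField F] [Normal ℚ F]
variable (H : Subgroup GQ) [NormalIn F.fixingSubgroup H] (Y : Rep k H)

/-- `dim (coind_H Y)^{D_q} = dim Map_H({primes of F over q}, Y)`. -/
theorem finrank_invariants_dec_coind (q : ℕ) [Fact q.Prime]
    (hY : ∀ h : H, (h : GQ) ∈ F.fixingSubgroup → Y.ρ h = 1) :
    finrank k (Representation.invariants ((Rep.coind H.subtype Y).ρ.comp (decQ q).subtype)) =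
      finrank k (EquivMaps H (PrimesOverQ q F) Y.ρ) := by
  rw [← LinearEquiv.finrank_eq (equivMapsCongr (ρ := Y.ρ) (primesEquiv F q)
    (fun n w => primesEquiv_smul F q H n w))]
  exact LinearEquiv.finrank_eq (invCoindEquiv (decQ q) F.fixingSubgroup H Y.ρ hY)

/-- `dim ker (ρ_N(c) - 1) = dim Map_H(InfinitePlace F, Y)` for `N = coind_H Y`. -/
theorem finrank_ker_conj_coind (hY : ∀ h : H, (h : GQ) ∈ F.fixingSubgroup → Y.ρ h = 1) :
    finrank k (LinearMap.ker ((Rep.coind H.subtype Y).ρ complexConjugation - 1)) =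
      finrank k (EquivMaps H (InfinitePlace F) Y.ρ) := by
  rw [← LinearEquiv.finrank_eq (equivMapsCongr (ρ := Y.ρ) (infPlaceEquiv F)
    (fun n w => infPlaceEquiv_smul F H n w)), ← invariants_zpowers]
  exact LinearEquiv.finrank_eq (invCoindEquiv decInf F.fixingSubgroup H Y.ρ hY)

/-- `dim N = dim Map_H(InfinitePlace F, Y) + dim Map_H(InfinitePlace F, ω ⊗ Y)` for
`N = coind_H Y` and a character `ω` of `G_ℚ` trivial on `G_F` with `ω(c) = -1`
(e.g. the mod `p` cyclotomic character when `ζ_p ∈ F`, `p` odd). -/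
theorem finrank_coind_eq_arch (hY : ∀ h : H, (h : GQ) ∈ F.fixingSubgroup → Y.ρ h = 1)
    (ω : GQ →* kˣ) (hω : ∀ h ∈ F.fixingSubgroup, ω h = 1) (hc : ω complexConjugation = -1)
    (h2 : (2 : k) ≠ 0) [FiniteDimensional k (Rep.coind H.subtype Y)] :
    finrank k (Rep.coind H.subtype Y) =
      finrank k (EquivMaps H (InfinitePlace F) Y.ρ) +
      finrank k (EquivMaps H (InfinitePlace F) (twistRep Y.ρ (ω.comp H.subtype))) := by
  rw [← LinearEquiv.finrank_eq (equivMapsCongr (ρ := Y.ρ) (infPlaceEquiv F)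
    (fun n w => infPlaceEquiv_smul F H n w)),
    ← LinearEquiv.finrank_eq (equivMapsCongr (ρ := twistRep Y.ρ (ω.comp H.subtype))
      (infPlaceEquiv F) (fun n w => infPlaceEquiv_smul F H n w))]
  exact finrank_coindV_eq_add F.fixingSubgroup H Y.ρ ω hY hω complexConjugation
    complexConjugation_mul_self hc h2

/-- `dim N - dim N^c` form: `dim N = dim ker (ρ_N(c) - 1) + dim Map_H(InfinitePlace F, ω ⊗ Y)`. -/
theorem finrank_coind_eq_ker_add (hY : ∀ h : H, (h : GQ) ∈ F.fixingSubgroup → Y.ρ h = 1)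
    (ω : GQ →* kˣ) (hω : ∀ h ∈ F.fixingSubgroup, ω h = 1) (hc : ω complexConjugation = -1)
    (h2 : (2 : k) ≠ 0) [FiniteDimensional k (Rep.coind H.subtype Y)] :
    finrank k (Rep.coind H.subtype Y) =
      finrank k (LinearMap.ker ((Rep.coind H.subtype Y).ρ complexConjugation - 1)) +
      finrank k (EquivMaps H (InfinitePlace F) (twistRep Y.ρ (ω.comp H.subtype))) := by
  rw [finrank_ker_conj_coind F H Y hY]
  exact finrank_coind_eq_arch F H Y hY ω hω hc h2

variable (S : Finset Nat.Primes)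

/-- Discreteness of the restriction of `coind_H Y` to `G_v` (instance search does not find it). -/
instance isDiscrete_res_coind [IsDiscrete (levelS S) (Rep.coind H.subtype Y)]
    (v : (locDataQ S).ι) :
    IsDiscrete ((locDataQ S).𝒰v v) (Rep.res ((locDataQ S).r v) (Rep.coind H.subtype Y)) :=
  Fermat.Agent.GC.Prof.Cone.LocalData.isDiscrete_res (locDataQ S) v (Rep.coind H.subtype Y)

/-- Discreteness of the restriction of `(coind_H Y)*` to `G_v`. -/
instance isDiscrete_res_dualTwist_coind (χ : GQ →* kˣ)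
    [IsDiscrete (levelS S) ((Rep.coind H.subtype Y).dualTwist χ)] (v : (locDataQ S).ι) :
    IsDiscrete ((locDataQ S).𝒰v v)
      (Rep.res ((locDataQ S).r v) ((Rep.coind H.subtype Y).dualTwist χ)) :=
  Fermat.Agent.GC.Prof.Cone.LocalData.isDiscrete_res (locDataQ S) v ((Rep.coind H.subtype Y).dualTwist χ)

/-- `dim P⁰(coind_H Y) = ∑_{v ∈ S} dim Map_H({primes of F over v}, Y)`. -/
theorem finrank_pi_Hloc_zero_coind [IsDiscrete (levelS S) (Rep.coind H.subtype Y)]
    [FiniteDimensional k (Rep.coind H.subtype Y)]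
    (hY : ∀ h : H, (h : GQ) ∈ F.fixingSubgroup → Y.ρ h = 1) :
    finrank k (∀ v : (locDataQ S).ι, Hlc ((locDataQ S).𝒰v v)
        (Rep.res ((locDataQ S).r v) (Rep.coind H.subtype Y)) 0) =
      ∑ v : (locDataQ S).ι,
        finrank k (EquivMaps H (PrimesOverQ (idxPrime S v) F) Y.ρ) := by
  rw [finrank_pi_Hloc_zero]
  refine Finset.sum_congr rfl fun v _ => ?_
  exact finrank_invariants_dec_coind F H Y (idxPrime S v) hY

/-- The same for any `M ≅ coind_H Y`. -/
theorem finrank_pi_Hloc_zero_of_iso (M : Rep k GQ) [IsDiscrete (levelS S) M]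
    [FiniteDimensional k M] (e : M ≅ Rep.coind H.subtype Y)
    (hY : ∀ h : H, (h : GQ) ∈ F.fixingSubgroup → Y.ρ h = 1) :
    finrank k (∀ v : (locDataQ S).ι, Hlc ((locDataQ S).𝒰v v)
        (Rep.res ((locDataQ S).r v) M) 0) =
      ∑ v : (locDataQ S).ι,
        finrank k (EquivMaps H (PrimesOverQ (idxPrime S v) F) Y.ρ) := by
  rw [finrank_pi_Hloc_zero]
  refine Finset.sum_congr rfl fun v _ => ?_
  rw [LinearEquiv.finrank_eq (invariantsCongr e (decQ (idxPrime S v)))]
  exact finrank_invariants_dec_coind F H Y (idxPrime S v) hY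

/-- **`dim P⁰(N*) = ∑_{v ∈ S} dim Map_H({primes of F over v}, Y*)`** for `N = coind_H Y`,
`N* = N.dualTwist χ`, `Y* = Y.dualTwist χ|_H`, `χ` trivial on `G_F` (helper5's
`coindDualIso`). -/
theorem finrank_pi_Hloc_zero_dualTwist_coind (χ : GQ →* kˣ)
    (hχ : ∀ h ∈ F.fixingSubgroup, χ h = 1) [H.FiniteIndex]
    [IsDiscrete (levelS S) ((Rep.coind H.subtype Y).dualTwist χ)]
    [FiniteDimensional k ((Rep.coind H.subtype Y).dualTwist χ)]
    (hY : ∀ h : H, (h : GQ) ∈ F.fixingSubgroup → Y.ρ h = 1) :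
    finrank k (∀ v : (locDataQ S).ι, Hlc ((locDataQ S).𝒰v v)
        (Rep.res ((locDataQ S).r v) ((Rep.coind H.subtype Y).dualTwist χ)) 0) =
      ∑ v : (locDataQ S).ι,
        finrank k (EquivMaps H (PrimesOverQ (idxPrime S v) F)
          (Y.dualTwist (χ.comp H.subtype)).ρ) := by
  refine finrank_pi_Hloc_zero_of_iso F H (Y.dualTwist (χ.comp H.subtype)) S _
    (coindDualIso H χ Y).symm ?_
  intro h hh
  ext f y
  rw [Rep.dualTwist_ρ_apply]
  have h1 : Y.ρ h⁻¹ = 1 := hY h⁻¹ (inv_mem hh)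
  have h2 : (χ.comp H.subtype) h = 1 := hχ _ hh
  rw [h1, h2]
  simp

end Coind

end Fermat.Agent.GP.GW.E3.Mackey

end
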