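/-
GATE-P / S56 [P-GW] leaf E3f (helper83), FILE 4: the `⋆`-action on the local `H⁰` of the big
module, in helper12's `StarRes` language — the `(M)` binder of the E3 assembly.

`U ≤ G`, `B : Rep k G` trivial on `U`, `T = Φ_U(B) = coind_U (res_U B)`, `D ≤ G`.
* `phiInvEquiv D U B hB : (Φ_U B)^D ≃ₗ (D\G/U → B)`, `f ↦ ([s] ↦ f s⁻¹)`;
* for `n` normalising `U` (`Norm U n`): `dcRight D U hn : D\G/U → D\G/U`, `[s] ↦ [s n]`, and
  `phiInvEquiv (n ⋆ f) w = B.ρ n (phiInvEquiv f (dcRight hn w))`: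
  on `(Φ_U B)^D`, `⋆n` is the permutation operator of right translation by `n`, twisted by `B.ρ n`;
* `Hlc` form: `hlcZeroPhiEquiv : Hlc 𝒱 (res_r Φ_U B) 0 ≃ₗ (D\G/U → B)` for `r : D' → G` with
  range `D`, and `HlcMap 𝒱 (res_r (⋆n)) 0` corresponds to the same twisted permutation operator;
* the conjugacy statement `phiPermConj` and the polynomial-rank corollary
  `finrank_range_aeval_hlcStar`.
-/
import Fermat.Agent.GP.GW.E3.MackeyH0
import Fermat.Agent.GP.GW.Euler.PhiKum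

set_option autoImplicit false
set_option linter.unusedSectionVars false

open Module CategoryTheory

noncomputable section

namespace Fermat.Agent.GP.GW.E3.Mackey

open Fermat.Agent.GC.Prof Fermat.Agent.GP.GW.Euler.StarRes Fermat.Agent.GP.GW.Euler.PhiKum

universe u

section Abstract

variable {k G : Type u} [Field k] [Group G] (D Sg : Subgroup G) (B : Rep.{u} k G)

/-- Right translation by a normalising element on `D \ G / U`: `[s] ↦ [s n]`. -/
def dcRight {n : G} (hn : Norm Sg n) : DC D Sg → DC D Sg :=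
  Quotient.map' (fun s => s * n) (by
    intro a b hab
    obtain ⟨d, hd, u, hu, rfl⟩ := DoubleCoset.rel_iff.mp hab
    refine DoubleCoset.rel_iff.mpr ⟨d, hd, n⁻¹ * u * n, hn u hu, ?_⟩
    group)

@[simp]
theorem dcRight_mk {n : G} (hn : Norm Sg n) (s : G) :
    dcRight D Sg hn (dcMk D Sg s) = dcMk D Sg (s * n) := rfl

/-- For `n ∈ H` with `U ⊴ H`, right translation by `n` is the action of `n⁻¹`. -/
theorem dcRight_eq_inv_smul (H : Subgroup G) [NormalIn Sg H] (n : H) (hn : Norm Sg (n : G))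
    (w : DC D Sg) : dcRight D Sg hn w = n⁻¹ • w := by
  obtain ⟨s, rfl⟩ := dcMk_surjective D Sg w
  rw [dcRight_mk, smul_dcMk, Subgroup.coe_inv, inv_inv]

/-- The `D`-invariants of `Φ_U(B)`. -/
def phiInv : Submodule k (Phi Sg B).V :=
  Representation.invariants ((Phi Sg B).ρ.comp D.subtype)

theorem mem_phiInv_iff (f : (Phi Sg B).V) :
    f ∈ phiInv D Sg B ↔ ∀ d : D, (Phi Sg B).ρ (d : G) f = f :=
  Representation.mem_invariants _ _

variable {D Sg B}

theorem phiInv_apply_mul (f : phiInv D Sg B) (x : G) {d : G} (hd : d ∈ D) :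
    f.1.1 (x * d) = f.1.1 x := by
  have h := (mem_phiInv_iff D Sg B f.1).mp f.2 ⟨d, hd⟩
  exact congrArg (fun F : (Phi Sg B).V => F.1 x) h

theorem phi_apply_mul (f : (Phi Sg B).V) {u : G} (hu : u ∈ Sg) (x : G) :
    f.1 (u * x) = B.ρ u (f.1 x) := f.2 ⟨u, hu⟩ x

variable (D Sg B)

/-- The function `[s] ↦ f s⁻¹` on `D \ G / U`. -/
def phiInvFun (hB : ∀ u ∈ Sg, B.ρ u = 1) (f : phiInv D Sg B) (w : DC D Sg) : B.V :=
  Quotient.liftOn' w (fun s => f.1.1 s⁻¹) (by
    intro a b hab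
    obtain ⟨d, hd, u, hu, rfl⟩ := DoubleCoset.rel_iff.mp hab
    show f.1.1 a⁻¹ = f.1.1 (d * a * u)⁻¹
    have e : (d * a * u)⁻¹ = u⁻¹ * (a⁻¹ * d⁻¹) := by group
    rw [e, phi_apply_mul f.1 (inv_mem hu), hB u⁻¹ (inv_mem hu), Module.End.one_apply,
      phiInv_apply_mul f _ (inv_mem hd)])

@[simp]
theorem phiInvFun_mk (hB : ∀ u ∈ Sg, B.ρ u = 1) (f : phiInv D Sg B) (s : G) :
    phiInvFun D Sg B hB f (dcMk D Sg s) = f.1.1 s⁻¹ := rfl

/-- **`(Φ_U B)^D ≃ (D\G/U → B)`** for `B` trivial on `U`. -/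
def phiInvEquiv (hB : ∀ u ∈ Sg, B.ρ u = 1) : phiInv D Sg B ≃ₗ[k] (DC D Sg → B.V) where
  toFun f := phiInvFun D Sg B hB f
  map_add' f g := by
    funext w
    obtain ⟨s, rfl⟩ := dcMk_surjective D Sg w
    rfl
  map_smul' c f := by
    funext w
    obtain ⟨s, rfl⟩ := dcMk_surjective D Sg w
    rfl
  invFun φ := ⟨⟨fun g => φ (dcMk D Sg g⁻¹), by
    intro u g
    show φ (dcMk D Sg ((u : G) * g)⁻¹) = B.ρ (u : G) (φ (dcMk D Sg g⁻¹))
    rw [hB u u.2, Module.End.one_apply, mul_inv_rev, dcMk_mul_right D Sg _ (inv_mem u.2)]⟩, by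
    rw [mem_phiInv_iff]
    intro d
    apply Subtype.ext
    funext g
    show φ (dcMk D Sg (g * (d : G))⁻¹) = φ (dcMk D Sg g⁻¹)
    rw [mul_inv_rev, dcMk_mul_left D Sg (inv_mem d.2)]⟩
  left_inv f := by
    apply Subtype.ext
    apply Subtype.ext
    funext g
    show f.1.1 (g⁻¹)⁻¹ = f.1.1 g
    rw [inv_inv]
  right_inv φ := by
    funext w
    obtain ⟨s, rfl⟩ := dcMk_surjective D Sg w
    show φ (dcMk D Sg (s⁻¹)⁻¹) = φ (dcMk D Sg s)
    rw [inv_inv]

@[simp]
theorem phiInvEquiv_apply_mk (hB : ∀ u ∈ Sg, B.ρ u = 1) (f : phiInv D Sg B) (s : G) :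
    phiInvEquiv D Sg B hB f (dcMk D Sg s) = f.1.1 s⁻¹ := rfl

/-- `⋆n` preserves the `D`-invariants. -/
def starInv {n : G} (hn : Norm Sg n) : Module.End k (phiInv D Sg B) where
  toFun f := ⟨(star B hn).hom f.1, by
    rw [mem_phiInv_iff]
    intro d
    have hf := (mem_phiInv_iff D Sg B f.1).mp f.2 d
    show (Phi Sg B).ρ (d : G) ((star B hn).hom f.1) = (star B hn).hom f.1
    rw [← Rep.hom_comm_apply]
    exact congrArg _ hf⟩
  map_add' f g := by
    apply Subtype.ext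
    exact map_add _ _ _
  map_smul' c f := by
    apply Subtype.ext
    exact map_smul _ _ _

@[simp]
theorem coe_starInv {n : G} (hn : Norm Sg n) (f : phiInv D Sg B) :
    (starInv D Sg B hn f).1 = (star B hn).hom f.1 := rfl

/-- The twisted permutation operator `φ ↦ (w ↦ B.ρ n (φ (w n)))` on `D\G/U → B`. -/
def permTw {n : G} (hn : Norm Sg n) : Module.End k (DC D Sg → B.V) where
  toFun φ w := B.ρ n (φ (dcRight D Sg hn w))
  map_add' φ ψ := by
    funext w
    exact map_add _ _ _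
  map_smul' c φ := by
    funext w
    exact map_smul _ _ _

@[simp]
theorem permTw_apply {n : G} (hn : Norm Sg n) (φ : DC D Sg → B.V) (w : DC D Sg) :
    permTw D Sg B hn φ w = B.ρ n (φ (dcRight D Sg hn w)) := rfl

/-- **`⋆n` on `(Φ_U B)^D` is the twisted permutation operator of right translation by `n`.** -/
theorem phiInvEquiv_starInv (hB : ∀ u ∈ Sg, B.ρ u = 1) {n : G} (hn : Norm Sg n)
    (f : phiInv D Sg B) :
    phiInvEquiv D Sg B hB (starInv D Sg B hn f) =
      permTw D Sg B hn (phiInvEquiv D Sg B hB f) := by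
  funext w
  obtain ⟨s, rfl⟩ := dcMk_surjective D Sg w
  rw [phiInvEquiv_apply_mk, permTw_apply, dcRight_mk, phiInvEquiv_apply_mk, coe_starInv,
    star_apply, mul_inv_rev]

/-- Conjugacy form. -/
theorem phiPermConj (hB : ∀ u ∈ Sg, B.ρ u = 1) {n : G} (hn : Norm Sg n) :
    (phiInvEquiv D Sg B hB).conj (starInv D Sg B hn) = permTw D Sg B hn := by
  apply LinearMap.ext
  intro φ
  rw [LinearEquiv.conj_apply_apply, phiInvEquiv_starInv, LinearEquiv.apply_symm_apply]

end Abstract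

/-! ### Polynomial ranks of intertwined operators -/

section Intertwine

variable {k : Type*} [Field k] {V W : Type*} [AddCommGroup V] [Module k V] [AddCommGroup W]
  [Module k W]

/-- Operators intertwined by a linear equivalence have the same polynomial ranks. -/
theorem finrank_range_aeval_of_intertwine (e : V ≃ₗ[k] W) (a : Module.End k V)
    (b : Module.End k W) (h : ∀ x, e (a x) = b (e x)) (P : Polynomial k) :
    finrank k (LinearMap.range (Polynomial.aeval a P)) =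
      finrank k (LinearMap.range (Polynomial.aeval b P)) := by
  have hb : b = e.conjAlgEquiv k a := by
    apply LinearMap.ext
    intro y
    rw [LinearEquiv.conjAlgEquiv_apply]
    show b y = e (a (e.symm y))
    rw [h, LinearEquiv.apply_symm_apply]
  have h1 : Polynomial.aeval b P = e.conjAlgEquiv k (Polynomial.aeval a P) := by
    rw [hb]
    exact Polynomial.aeval_algHom_apply ((e.conjAlgEquiv k : Module.End k V ≃ₐ[k] Module.End k W) :
      Module.End k V →ₐ[k] Module.End k W) a P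
  have h2 : LinearMap.range (Polynomial.aeval b P) =
      (LinearMap.range (Polynomial.aeval a P)).map e.toLinearMap := by
    rw [h1, LinearEquiv.conjAlgEquiv_apply]
    ext y
    constructor
    · rintro ⟨z, rfl⟩
      exact ⟨_, ⟨e.symm z, rfl⟩, rfl⟩
    · rintro ⟨_, ⟨z, rfl⟩, rfl⟩
      refine ⟨e z, ?_⟩
      show e (Polynomial.aeval a P (e.symm (e z))) = e (Polynomial.aeval a P z)
      rw [LinearEquiv.symm_apply_apply]
  rw [h2]
  exact (LinearEquiv.finrank_map_eq e _).symm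

end Intertwine

section AbstractRank

variable {k G : Type u} [Field k] [Group G] (D Sg : Subgroup G) (B : Rep.{u} k G)

/-- Polynomial ranks of `⋆n` on `(Φ_U B)^D` (use `D = ⟨c⟩`, `invariants_zpowers` for the
archimedean place). -/
theorem finrank_range_aeval_starInv (hB : ∀ u ∈ Sg, B.ρ u = 1) {n : G} (hn : Norm Sg n)
    (P : Polynomial k) :
    finrank k (LinearMap.range (Polynomial.aeval (starInv D Sg B hn) P)) =
      finrank k (LinearMap.range (Polynomial.aeval (permTw D Sg B hn) P)) := by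
  have h := phiInvEquiv_starInv D Sg B hB hn
  exact @finrank_range_aeval_of_intertwine k _ ↥(phiInv D Sg B) (DC D Sg → B.V) _ _ _ _
    (phiInvEquiv D Sg B hB) (starInv D Sg B hn) (permTw D Sg B hn) h P

end AbstractRank

/-! ### The `Hlc⁰` form -/

section HlcForm

variable {k G D' : Type u} [Field k] [Group G] [Group D'] (𝒱 : LevelSystem D') (r : D' →* G)
  (D Sg : Subgroup G) (hD : ∀ d : G, d ∈ D ↔ ∃ τ : D', r τ = d) (B : Rep.{u} k G)
  [IsDiscrete 𝒱 (Rep.res r (Phi Sg B))]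

/-- `H⁰(D', res_r Φ_U(B)) ≃ (D\G/U → B)` for `B` trivial on `U`, `D = range r`. -/
def hlcZeroPhiEquiv (hB : ∀ u ∈ Sg, B.ρ u = 1) :
    Hlc 𝒱 (Rep.res r (Phi Sg B)) 0 ≃ₗ[k] (DC D Sg → B.V) :=
  ((Hlc0Equiv 𝒱 (Rep.res r (Phi Sg B))).trans
    (invariantsResEquiv r (Phi Sg B) D hD)).trans (phiInvEquiv D Sg B hB)

theorem hlcZeroPhiEquiv_apply_mk (hB : ∀ u ∈ Sg, B.ρ u = 1)
    (x : Hlc 𝒱 (Rep.res r (Phi Sg B)) 0) (s : G) :
    hlcZeroPhiEquiv 𝒱 r D Sg hD B hB x (dcMk D Sg s) =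
      ((Hlc0Equiv 𝒱 (Rep.res r (Phi Sg B)) x).1 : (Phi Sg B).V).1 s⁻¹ := rfl

/-- **`⋆n` on `H⁰(D', res_r Φ_U(B))` is the twisted permutation operator.** -/
theorem hlcZeroPhiEquiv_star (hB : ∀ u ∈ Sg, B.ρ u = 1) {n : G} (hn : Norm Sg n)
    (x : Hlc 𝒱 (Rep.res r (Phi Sg B)) 0) :
    hlcZeroPhiEquiv 𝒱 r D Sg hD B hB
        (HlcMap 𝒱 ((Rep.resFunctor r).map (star B hn)) 0 x) =
      permTw D Sg B hn (hlcZeroPhiEquiv 𝒱 r D Sg hD B hB x) := by
  funext w
  obtain ⟨s, rfl⟩ := dcMk_surjective D Sg w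
  rw [hlcZeroPhiEquiv_apply_mk, permTw_apply, dcRight_mk, hlcZeroPhiEquiv_apply_mk,
    Hlc0Equiv_HlcMap]
  show ((star B hn).hom ((Hlc0Equiv 𝒱 (Rep.res r (Phi Sg B)) x).1 : (Phi Sg B).V)).1 s⁻¹ = _
  rw [star_apply, mul_inv_rev]

/-- Conjugacy form: `HlcMap (res_r ⋆n) 0` is conjugate to the twisted permutation operator. -/
theorem hlcStar_conj (hB : ∀ u ∈ Sg, B.ρ u = 1) {n : G} (hn : Norm Sg n) :
    (hlcZeroPhiEquiv 𝒱 r D Sg hD B hB).conj
        (HlcMap 𝒱 ((Rep.resFunctor r).map (star B hn)) 0).hom =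
      permTw D Sg B hn := by
  apply LinearMap.ext
  intro φ
  rw [LinearEquiv.conj_apply_apply]
  exact (hlcZeroPhiEquiv_star 𝒱 r D Sg hD B hB hn _).trans (by
    rw [LinearEquiv.apply_symm_apply])

include hD in
/-- **The `(M)` rank identity**: for every polynomial `P`,
`rank P(⋆n | H⁰(D', Φ_U B)) = rank P(twisted permutation operator on (D\G/U → B))`. -/
theorem finrank_range_aeval_hlcStar (hB : ∀ u ∈ Sg, B.ρ u = 1) {n : G} (hn : Norm Sg n)
    (P : Polynomial k) :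
    finrank k (LinearMap.range (Polynomial.aeval
        (HlcMap 𝒱 ((Rep.resFunctor r).map (star B hn)) 0).hom P)) =
      finrank k (LinearMap.range (Polynomial.aeval (permTw D Sg B hn) P)) := by
  have h := hlcZeroPhiEquiv_star 𝒱 r D Sg hD B hB hn
  exact @finrank_range_aeval_of_intertwine k _ ↑(Hlc 𝒱 (Rep.res r (Phi Sg B)) 0)
    (DC D Sg → B.V) _ _ _ _ (hlcZeroPhiEquiv 𝒱 r D Sg hD B hB)
    (HlcMap 𝒱 ((Rep.resFunctor r).map (star B hn)) 0).hom (permTw D Sg B hn) h P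

end HlcForm

/-! ### The pinned model: `H⁰_v` of the big module at `v ∈ S` -/

section Pinned

open Fermat.Agent.GC.PT.LocDataQ Fermat.Agent.GC.C0 Fermat.Agent.GC.Local.KR

variable {k : Type} [Field k] (S : Finset Nat.Primes) (Sg : Subgroup GQ) (B : Rep k GQ)
  [IsDiscrete (levelS S) (Phi Sg B)]

/-- Discreteness of the restriction of the big module to `G_v`. -/
instance isDiscrete_res_phi (v : (locDataQ S).ι) :
    IsDiscrete ((locDataQ S).𝒰v v) (Rep.res ((locDataQ S).r v) (Phi Sg B)) :=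
  Fermat.Agent.GC.Prof.Cone.LocalData.isDiscrete_res (locDataQ S) v (Phi Sg B)

/-- `H⁰_v(Φ_U B) ≃ (D_v\G_ℚ/U → B)`. -/
def hlocZeroPhiEquiv (hB : ∀ u ∈ Sg, B.ρ u = 1) (v : (locDataQ S).ι) :
    Hlc ((locDataQ S).𝒰v v) (Rep.res ((locDataQ S).r v) (Phi Sg B)) 0 ≃ₗ[k]
      (DC (decQ (idxPrime S v)) Sg → B.V) :=
  hlcZeroPhiEquiv ((locDataQ S).𝒰v v) ((locDataQ S).r v) (decQ (idxPrime S v)) Sg
    (fun d => mem_decompositionSubgroup_iff (idxPrime S v) d) B hB

/-- `⋆n` on `H⁰_v(Φ_U B)` is the twisted permutation operator on `D_v\G_ℚ/U → B`. -/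
theorem hlocZeroPhiEquiv_star (hB : ∀ u ∈ Sg, B.ρ u = 1) (v : (locDataQ S).ι) {n : GQ}
    (hn : Norm Sg n)
    (x : Hlc ((locDataQ S).𝒰v v) (Rep.res ((locDataQ S).r v) (Phi Sg B)) 0) :
    hlocZeroPhiEquiv S Sg B hB v
        (HlcMap ((locDataQ S).𝒰v v) ((Rep.resFunctor ((locDataQ S).r v)).map (star B hn)) 0 x) =
      permTw (decQ (idxPrime S v)) Sg B hn (hlocZeroPhiEquiv S Sg B hB v x) :=
  hlcZeroPhiEquiv_star ((locDataQ S).𝒰v v) ((locDataQ S).r v) (decQ (idxPrime S v)) Sg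
    (fun d => mem_decompositionSubgroup_iff (idxPrime S v) d) B hB hn x

/-- **The `(M)` binder at `v ∈ S`**: polynomial ranks of `⋆n` on `H⁰_v(Φ_U B)`. -/
theorem finrank_range_aeval_hlocStar (hB : ∀ u ∈ Sg, B.ρ u = 1) (v : (locDataQ S).ι) {n : GQ}
    (hn : Norm Sg n) (P : Polynomial k) :
    finrank k (LinearMap.range (Polynomial.aeval
        (HlcMap ((locDataQ S).𝒰v v)
          ((Rep.resFunctor ((locDataQ S).r v)).map (star B hn)) 0).hom P)) =
      finrank k (LinearMap.range (Polynomial.aeval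
        (permTw (decQ (idxPrime S v)) Sg B hn) P)) :=
  finrank_range_aeval_hlcStar ((locDataQ S).𝒰v v) ((locDataQ S).r v) (decQ (idxPrime S v)) Sg
    (fun d => mem_decompositionSubgroup_iff (idxPrime S v) d) B hB hn P

end Pinned

end Fermat.Agent.GP.GW.E3.Mackey

end
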