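/-
GATE-P / S56 [P-GW] leaf E3f (helper83), FILE 5: characteristic polynomials of the `⋆`-action on
the `H⁰`-terms — the local factors of the `(H2)` leaf of the E3 assembly.

* `charpoly_of_intertwine` : operators intertwined by a linear equivalence have the same
  characteristic polynomial;
* `charpoly_starInv`, `charpoly_hlcStar`, `charpoly_hlocStar` : `⋆n` on `(Φ_U B)^D`, on
  `Hlc⁰(D', res Φ_U B)`, on `H⁰_v(Φ_U B)` has the characteristic polynomial of the twisted
  permutation operator `permTw` on `D\G/U → B`;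
* `permTw_trivial` : for `B = k` trivial, `permTw = funLeft (dcRight n)`, the permutation operator
  `f ↦ f ∘ (· n)` (`= f ∘ (n⁻¹ • ·)` for helper83's `MackeyAbs` action);
* `hlocDualEquiv`, `hlocDualEquiv_star`, `charpoly_hloc_dualStar` : for `T = Φ_U k(χ)` and the
  transpose `γ* = dualTwistMap χ (⋆n)` on `T* = T.dualTwist χ` (helper74's `dualPermIso`):
  `H⁰_v(T*) ≃ (D_v\G_ℚ/U → k)` carrying `γ*` to `f ↦ f ∘ (· n⁻¹)`;
* `hlcDualEquiv`, `charpoly_hlc_dualStar` : the global twin, `H⁰(G, T*) ≃ k` with `γ* = 1`,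
  characteristic polynomial `X - 1`.
-/
import Fermat.Agent.GP.GW.E3.MackeyStar
import Fermat.Agent.GP.GW.E3.DualPerm
import Fermat.Agent.GC.Prof.Prod

set_option autoImplicit false
set_option linter.unusedSectionVars false

open Module CategoryTheory Polynomial

noncomputable section

namespace Fermat.Agent.GP.GW.E3.Mackey

open Fermat.Agent.GC.Prof Fermat.Agent.GP.GW.Euler.StarRes Fermat.Agent.GP.GW.Euler.PhiKum
  Fermat.Agent.GP.GW.E3.DualPerm

universe u

/-! ### Characteristic polynomials of intertwined operators -/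

section Intertwine

variable {k : Type*} [Field k] {V W : Type*} [AddCommGroup V] [Module k V] [AddCommGroup W]
  [Module k W] [FiniteDimensional k V] [FiniteDimensional k W]

/-- Operators intertwined by a linear equivalence have the same characteristic polynomial. -/
theorem charpoly_of_intertwine (e : V ≃ₗ[k] W) (a : Module.End k V) (b : Module.End k W)
    (h : ∀ x, e (a x) = b (e x)) : a.charpoly = b.charpoly := by
  have hb : b = e.conj a := by
    apply LinearMap.ext
    intro y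
    rw [LinearEquiv.conj_apply_apply, h, LinearEquiv.apply_symm_apply]
  rw [hb, LinearEquiv.charpoly_conj]

end Intertwine

/-! ### The abstract form -/

section Abstract

variable {k G : Type u} [Field k] [Group G] (D Sg : Subgroup G) (B : Rep.{u} k G)

/-- Instance shortcut (the generic search for `Module.Free` over a field gets lost in the carrier
of `Φ_U B`). -/
instance free_phiInv : Module.Free k ↥(phiInv D Sg B) :=
  @Module.Free.of_divisionRing k ↥(phiInv D Sg B) _ (phiInv D Sg B).addCommGroup _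

/-- `⋆n` on `(Φ_U B)^D` has the characteristic polynomial of the twisted permutation operator. -/
theorem charpoly_starInv [FiniteDimensional k (phiInv D Sg B)]
    [FiniteDimensional k (DC D Sg → B.V)] (hB : ∀ u ∈ Sg, B.ρ u = 1) {n : G}
    (hn : Norm Sg n) :
    LinearMap.charpoly (R := k) (M := ↥(phiInv D Sg B)) (starInv D Sg B hn) =
      LinearMap.charpoly (R := k) (M := DC D Sg → B.V) (permTw D Sg B hn) := by
  have h := phiInvEquiv_starInv D Sg B hB hn
  exact @charpoly_of_intertwine k _ ↥(phiInv D Sg B) (DC D Sg → B.V)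
    (phiInv D Sg B).addCommGroup _ _ _ _ _
    (phiInvEquiv D Sg B hB) (starInv D Sg B hn) (permTw D Sg B hn) h

/-- For trivial coefficients `k`, `permTw` is the permutation operator `f ↦ f ∘ (· n)`. -/
theorem permTw_trivial {n : G} (hn : Norm Sg n) :
    permTw D Sg (Rep.trivial k G k) hn = LinearMap.funLeft k k (dcRight D Sg hn) := by
  apply LinearMap.ext
  intro φ
  funext w
  rfl

/-- The trivial representation is trivial on every subgroup. -/
theorem trivial_rho_eq_one (u : G) (_ : u ∈ Sg) : (Rep.trivial k G k).ρ u = 1 :=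
  Rep.trivial_ρ u

/-- For `n ∈ H` with `U ⊴ H`, right translation by `n⁻¹` is the action of `n`
(`n • [s] = [s n⁻¹]`). -/
theorem dcRight_inv_eq_smul (H : Subgroup G) [NormalIn Sg H] (n : H)
    (hn' : Norm Sg ((n : G)⁻¹)) (w : DC D Sg) : dcRight D Sg hn' w = n • w := by
  obtain ⟨s, rfl⟩ := dcMk_surjective D Sg w
  rw [dcRight_mk, smul_dcMk]

theorem dcRight_inv_eq_smul' (H : Subgroup G) [NormalIn Sg H] (n : H)
    (hn' : Norm Sg ((n : G)⁻¹)) : dcRight D Sg hn' = fun w => n • w :=
  funext (dcRight_inv_eq_smul D Sg H n hn')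

/-- Elements of `H` normalise `U` when `U ⊴ H`. -/
theorem norm_of_normalIn (H : Subgroup G) [NormalIn Sg H] (n : H) : Norm Sg (n : G) :=
  fun s hs => by
    have h := NormalIn.conj_mem (H₀ := Sg) (H := H) (inv_mem n.2) hs
    rwa [inv_inv] at h

theorem norm_inv_of_normalIn (H : Subgroup G) [NormalIn Sg H] (n : H) :
    Norm Sg ((n : G)⁻¹) :=
  fun s hs => by
    have h := NormalIn.conj_mem (H₀ := Sg) (H := H) n.2 hs
    show (n : G)⁻¹⁻¹ * s * (n : G)⁻¹ ∈ Sg
    rwa [inv_inv]

end Abstract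

/-! ### Permutation operators -/

section Perm

variable {k : Type*} [Field k] {Ω Ω' : Type*} [Finite Ω] [Finite Ω']

/-- Conjugate self-maps of finite sets have permutation operators with the same characteristic
polynomial. -/
theorem charpoly_funLeft_congr (e : Ω ≃ Ω') (σ : Ω → Ω) (σ' : Ω' → Ω')
    (h : ∀ w, e (σ w) = σ' (e w)) :
    (LinearMap.funLeft k k σ).charpoly = (LinearMap.funLeft k k σ').charpoly := by
  refine charpoly_of_intertwine (LinearEquiv.funCongrLeft k k e.symm)
    (LinearMap.funLeft k k σ) (LinearMap.funLeft k k σ') ?_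
  intro φ
  funext w'
  show φ (σ (e.symm (w'))) = φ (e.symm (σ' w'))
  congr 1
  apply e.injective
  rw [h, Equiv.apply_symm_apply, Equiv.apply_symm_apply]

end Perm

/-! ### The `Hlc⁰` form -/

section HlcForm

variable {k G D' : Type u} [Field k] [Group G] [Group D'] (𝒱 : LevelSystem D') (r : D' →* G)
  (D Sg : Subgroup G) (hD : ∀ d : G, d ∈ D ↔ ∃ τ : D', r τ = d) (B : Rep.{u} k G)
  [IsDiscrete 𝒱 (Rep.res r (Phi Sg B))]

include hD in
/-- `⋆n` on `H⁰(D', res_r Φ_U B)` has the characteristic polynomial of the twisted permutation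
operator on `D\G/U → B`, `D = range r`. -/
theorem charpoly_hlcStar [FiniteDimensional k (Hlc 𝒱 (Rep.res r (Phi Sg B)) 0)]
    [FiniteDimensional k (DC D Sg → B.V)] (hB : ∀ u ∈ Sg, B.ρ u = 1) {n : G}
    (hn : Norm Sg n) :
    (HlcMap 𝒱 ((Rep.resFunctor r).map (star B hn)) 0).hom.charpoly =
      LinearMap.charpoly (R := k) (M := DC D Sg → B.V) (permTw D Sg B hn) := by
  have h := hlcZeroPhiEquiv_star 𝒱 r D Sg hD B hB hn
  exact @charpoly_of_intertwine k _ ↑(Hlc 𝒱 (Rep.res r (Phi Sg B)) 0) (DC D Sg → B.V)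
    _ _ _ _ _ _ (hlcZeroPhiEquiv 𝒱 r D Sg hD B hB)
    (HlcMap 𝒱 ((Rep.resFunctor r).map (star B hn)) 0).hom (permTw D Sg B hn) h

end HlcForm

/-! ### The pinned model -/

section Pinned

open Fermat.Agent.GC.PT.LocDataQ Fermat.Agent.GC.C0 Fermat.Agent.GC.Local.KR

variable {k : Type} [Field k] (S : Finset Nat.Primes) (Sg : Subgroup GQ) (B : Rep k GQ)
  [IsDiscrete (levelS S) (Phi Sg B)]

/-- **`⋆n` on `H⁰_v(Φ_U B)`** has the characteristic polynomial of the twisted permutation
operator on `D_v\G_ℚ/U → B`. -/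
theorem charpoly_hlocStar (hB : ∀ u ∈ Sg, B.ρ u = 1) (v : (locDataQ S).ι)
    [FiniteDimensional k (Hlc ((locDataQ S).𝒰v v) (Rep.res ((locDataQ S).r v) (Phi Sg B)) 0)]
    [FiniteDimensional k (DC (decQ (idxPrime S v)) Sg → B.V)] {n : GQ} (hn : Norm Sg n) :
    (HlcMap ((locDataQ S).𝒰v v)
        ((Rep.resFunctor ((locDataQ S).r v)).map (star B hn)) 0).hom.charpoly =
      LinearMap.charpoly (R := k) (M := DC (decQ (idxPrime S v)) Sg → B.V)
        (permTw (decQ (idxPrime S v)) Sg B hn) :=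
  charpoly_hlcStar ((locDataQ S).𝒰v v) ((locDataQ S).r v) (decQ (idxPrime S v)) Sg
    (fun d => mem_decompositionSubgroup_iff (idxPrime S v) d) B hB hn

end Pinned

/-! ### The dual side: `T* = (Φ_U k(χ)).dualTwist χ` and the transpose of `⋆n` -/

section Dual

open Fermat.Agent.GC.PT.LocDataQ Fermat.Agent.GC.C0 Fermat.Agent.GC.Local.KR

variable {k : Type} [Field k] (S : Finset Nat.Primes) (U : Subgroup GQ) [U.FiniteIndex]
  (χ : GQ →* kˣ) [IsDiscrete (levelS S) ((Phi U (chiRep χ)).dualTwist χ)]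
  [IsDiscrete (levelS S) (Phi U (Rep.trivial k GQ k))]

/-- Discreteness of the restriction of `T*` to `G_v` (instance shortcut). -/
instance isDiscrete_res_dualPhi (v : (locDataQ S).ι) :
    IsDiscrete ((locDataQ S).𝒰v v)
      (Rep.res ((locDataQ S).r v) ((Phi U (chiRep χ)).dualTwist χ)) :=
  Fermat.Agent.GC.Prof.Cone.LocalData.isDiscrete_res (locDataQ S) v
    ((Phi U (chiRep χ)).dualTwist χ)

/-- Discreteness of the restriction of the permutation module to `G_v` (instance shortcut). -/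
instance isDiscrete_res_phiTriv (v : (locDataQ S).ι) :
    IsDiscrete ((locDataQ S).𝒰v v)
      (Rep.res ((locDataQ S).r v) (Phi U (Rep.trivial k GQ k))) :=
  Fermat.Agent.GC.Prof.Cone.LocalData.isDiscrete_res (locDataQ S) v
    (Phi U (Rep.trivial k GQ k))

/-- `H⁰_v(T*) ≃ (D_v\G_ℚ/U → k)`: helper74's `dualPermIso` followed by `hlocZeroPhiEquiv`. -/
def hlocDualEquiv (v : (locDataQ S).ι) :
    Hlc ((locDataQ S).𝒰v v)
        (Rep.res ((locDataQ S).r v) ((Phi U (chiRep χ)).dualTwist χ)) 0 ≃ₗ[k]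
      (DC (decQ (idxPrime S v)) U → k) :=
  (HlcIso ((locDataQ S).𝒰v v)
      ((Rep.resFunctor ((locDataQ S).r v)).mapIso (dualPermIso U χ)) 0).toLinearEquiv.trans
    (hlocZeroPhiEquiv S U (Rep.trivial k GQ k) (trivial_rho_eq_one U) v)

theorem hlocDualEquiv_apply (v : (locDataQ S).ι)
    (x : Hlc ((locDataQ S).𝒰v v)
      (Rep.res ((locDataQ S).r v) ((Phi U (chiRep χ)).dualTwist χ)) 0) :
    hlocDualEquiv S U χ v x =
      hlocZeroPhiEquiv S U (Rep.trivial k GQ k) (trivial_rho_eq_one U) v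
        (HlcMap ((locDataQ S).𝒰v v)
          ((Rep.resFunctor ((locDataQ S).r v)).map (dualPermIso U χ).hom) 0 x) := rfl

/-- **The transpose of `⋆n` on `H⁰_v(T*)` is `f ↦ f ∘ (· n⁻¹)` on `D_v\G_ℚ/U → k`.** -/
theorem hlocDualEquiv_star (v : (locDataQ S).ι) {n : GQ} (hn : Norm U n) (hn' : Norm U n⁻¹)
    (x : Hlc ((locDataQ S).𝒰v v)
      (Rep.res ((locDataQ S).r v) ((Phi U (chiRep χ)).dualTwist χ)) 0) :
    hlocDualEquiv S U χ v
        (HlcMap ((locDataQ S).𝒰v v) ((Rep.resFunctor ((locDataQ S).r v)).map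
          (dualTwistMap χ (star (chiRep χ) hn))) 0 x) =
      LinearMap.funLeft k k (dcRight (decQ (idxPrime S v)) U hn')
        (hlocDualEquiv S U χ v x) := by
  rw [hlocDualEquiv_apply, hlocDualEquiv_apply, ← HlcMap_comp_apply, ← Functor.map_comp,
    dualTwistMap_star_dualPermIso U χ hn hn', Functor.map_comp, HlcMap_comp_apply]
  refine (hlocZeroPhiEquiv_star S U (Rep.trivial k GQ k) (trivial_rho_eq_one U) v hn' _).trans ?_
  rw [permTw_trivial]

/-- **The local factor of `(H2)`**: the characteristic polynomial of the transpose of `⋆n` on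
`H⁰_v(T*)` is that of the permutation operator `f ↦ f ∘ (· n⁻¹)` on `D_v\G_ℚ/U → k`. -/
theorem charpoly_hloc_dualStar (v : (locDataQ S).ι)
    [FiniteDimensional k (Hlc ((locDataQ S).𝒰v v)
      (Rep.res ((locDataQ S).r v) ((Phi U (chiRep χ)).dualTwist χ)) 0)]
    {n : GQ} (hn : Norm U n) (hn' : Norm U n⁻¹) :
    (HlcMap ((locDataQ S).𝒰v v) ((Rep.resFunctor ((locDataQ S).r v)).map
        (dualTwistMap χ (star (chiRep χ) hn))) 0).hom.charpoly =
      (LinearMap.funLeft k k (dcRight (decQ (idxPrime S v)) U hn')).charpoly := by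
  have h := hlocDualEquiv_star S U χ v hn hn'
  exact @charpoly_of_intertwine k _ _ (DC (decQ (idxPrime S v)) U → k)
    _ _ _ _ _ _ (hlocDualEquiv S U χ v)
    (HlcMap ((locDataQ S).𝒰v v) ((Rep.resFunctor ((locDataQ S).r v)).map
        (dualTwistMap χ (star (chiRep χ) hn))) 0).hom
    (LinearMap.funLeft k k (dcRight (decQ (idxPrime S v)) U hn')) h

/-- The local factor of `(H2)` in the `MackeyAbs` action (`n • [s] = [s n⁻¹]`): for `U ⊴ H`,
`n : H`, it is the characteristic polynomial of `f ↦ f ∘ (n • ·)` on `D_v\G_ℚ/U → k`. -/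
theorem charpoly_hloc_dualStar_smul (H : Subgroup GQ) [NormalIn U H] (n : H)
    (v : (locDataQ S).ι)
    [FiniteDimensional k (Hlc ((locDataQ S).𝒰v v)
      (Rep.res ((locDataQ S).r v) ((Phi U (chiRep χ)).dualTwist χ)) 0)]
    (hn : Norm U (n : GQ)) :
    (HlcMap ((locDataQ S).𝒰v v) ((Rep.resFunctor ((locDataQ S).r v)).map
        (dualTwistMap χ (star (chiRep χ) hn))) 0).hom.charpoly =
      (LinearMap.funLeft k k
        (fun w : DC (decQ (idxPrime S v)) U => n • w)).charpoly := by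
  rw [charpoly_hloc_dualStar S U χ v hn (norm_inv_of_normalIn U H n),
    dcRight_inv_eq_smul' (decQ (idxPrime S v)) U H n (norm_inv_of_normalIn U H n)]

end Dual

/-! ### The places form -/

section Places

open Fermat.Agent.GC.PT.LocDataQ Fermat.Agent.GC.C0 Fermat.Agent.GC.Local.KR
  Fermat.Agent.GC.Places Fermat.Agent.GC.Places.PlaceCount NumberField

variable {k : Type} [Field k] (F : IntermediateField ℚ (AlgebraicClosure ℚ)) [NumberField F]
  [Normal ℚ F] (H : Subgroup GQ) [NormalIn F.fixingSubgroup H]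

/-- The permutation operator of `n : H` on `D_q\G_ℚ/G_F → k` and on `{primes of F over q} → k`
have the same characteristic polynomial. -/
theorem charpoly_funLeft_dc_primes (q : ℕ) [Fact q.Prime] [Finite (PrimesOverQ q F)]
    [Finite (DC (decQ q) F.fixingSubgroup)] (n : H) :
    (LinearMap.funLeft k k (fun w : DC (decQ q) F.fixingSubgroup => n • w)).charpoly =
      (LinearMap.funLeft k k (fun P : PrimesOverQ q F => n • P)).charpoly :=
  charpoly_funLeft_congr (primesEquiv F q) _ _ (fun w => primesEquiv_smul F q H n w)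

/-- The permutation operator of `n : H` on `⟨c⟩\G_ℚ/G_F → k` and on `InfinitePlace F → k` have
the same characteristic polynomial. -/
theorem charpoly_funLeft_dc_infPlace [Finite (DC decInf F.fixingSubgroup)] (n : H) :
    (LinearMap.funLeft k k (fun w : DC decInf F.fixingSubgroup => n • w)).charpoly =
      (LinearMap.funLeft k k (fun P : InfinitePlace F => n • P)).charpoly :=
  charpoly_funLeft_congr (infPlaceEquiv F) _ _ (fun w => infPlaceEquiv_smul F H n w)

end Places

/-! ### The global `H⁰` of the dual: `H⁰(G, T*) ≃ k`, the transpose of `⋆n` acts trivially -/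

section DualGlobal

variable {k G : Type u} [Field k] [Group G] (𝒰 : LevelSystem G) (U : Subgroup G)

/-- `(Φ_U k)^G ≃ k`, evaluation at `1` (the invariants are the constant functions). -/
def phiTrivInvEquiv : (Phi U (Rep.trivial k G k)).ρ.invariants ≃ₗ[k] k where
  toFun f := f.1.1 1
  map_add' _ _ := rfl
  map_smul' _ _ := rfl
  invFun c := ⟨⟨fun _ => c, fun _ _ => rfl⟩, fun _ => rfl⟩
  left_inv f := by
    apply Subtype.ext
    apply Subtype.ext
    funext g
    show f.1.1 1 = f.1.1 g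
    have h := congrArg (fun F : (Phi U (Rep.trivial k G k)).V => F.1 1) (f.2 g)
    have h' : f.1.1 (1 * g) = f.1.1 1 := h
    rw [← h', one_mul]
  right_inv _ := rfl

theorem phiTrivInvEquiv_apply (f : (Phi U (Rep.trivial k G k)).ρ.invariants) :
    phiTrivInvEquiv U f = f.1.1 1 := rfl

/-- Invariant elements of `Φ_U k` are constant. -/
theorem phiTriv_invariant_apply (f : (Phi U (Rep.trivial k G k)).ρ.invariants) (g : G) :
    f.1.1 g = f.1.1 1 := by
  have h := congrArg (fun F : (Phi U (Rep.trivial k G k)).V => F.1 1) (f.2 g)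
  have h' : f.1.1 (1 * g) = f.1.1 1 := h
  rw [← h', one_mul]

variable [U.FiniteIndex] (χ : G →* kˣ) [IsDiscrete 𝒰 ((Phi U (chiRep χ)).dualTwist χ)]
  [IsDiscrete 𝒰 (Phi U (Rep.trivial k G k))]

/-- `H⁰(G, T*) ≃ k` for `T = Φ_U k(χ)`. -/
def hlcDualEquiv : Hlc 𝒰 ((Phi U (chiRep χ)).dualTwist χ) 0 ≃ₗ[k] k :=
  ((HlcIso 𝒰 (dualPermIso U χ) 0).toLinearEquiv.trans
    (Hlc0Equiv 𝒰 (Phi U (Rep.trivial k G k)))).trans (phiTrivInvEquiv U)

theorem hlcDualEquiv_apply (x : Hlc 𝒰 ((Phi U (chiRep χ)).dualTwist χ) 0) :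
    hlcDualEquiv 𝒰 U χ x =
      ((Hlc0Equiv 𝒰 (Phi U (Rep.trivial k G k))
        (HlcMap 𝒰 (dualPermIso U χ).hom 0 x)).1 : (Phi U (Rep.trivial k G k)).V).1 1 := rfl

/-- **The transpose of `⋆n` acts trivially on `H⁰(G, T*)`.** -/
theorem hlcDualEquiv_star {n : G} (hn : Norm U n) (hn' : Norm U n⁻¹)
    (x : Hlc 𝒰 ((Phi U (chiRep χ)).dualTwist χ) 0) :
    hlcDualEquiv 𝒰 U χ (HlcMap 𝒰 (dualTwistMap χ (star (chiRep χ) hn)) 0 x) =
      hlcDualEquiv 𝒰 U χ x := by
  rw [hlcDualEquiv_apply, hlcDualEquiv_apply, ← HlcMap_comp_apply,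
    dualTwistMap_star_dualPermIso U χ hn hn', HlcMap_comp_apply, Hlc0Equiv_HlcMap,
    star_trivial_apply, mul_one]
  exact phiTriv_invariant_apply U _ n

theorem hlcMap_dualStar_eq {n : G} (hn : Norm U n) (hn' : Norm U n⁻¹)
    (x : Hlc 𝒰 ((Phi U (chiRep χ)).dualTwist χ) 0) :
    HlcMap 𝒰 (dualTwistMap χ (star (chiRep χ) hn)) 0 x = x :=
  (hlcDualEquiv 𝒰 U χ).injective (hlcDualEquiv_star 𝒰 U χ hn hn' x)

/-- `dim H⁰(G, T*) = 1`. -/
theorem finrank_hlc_dual : finrank k (Hlc 𝒰 ((Phi U (chiRep χ)).dualTwist χ) 0) = 1 := by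
  rw [LinearEquiv.finrank_eq (hlcDualEquiv 𝒰 U χ), Module.finrank_self]

/-- **The global factor of `(H2)`**: the transpose of `⋆n` on `H⁰(G, T*)` has characteristic
polynomial `X - 1`. -/
theorem charpoly_hlc_dualStar [FiniteDimensional k (Hlc 𝒰 ((Phi U (chiRep χ)).dualTwist χ) 0)]
    {n : G} (hn : Norm U n) (hn' : Norm U n⁻¹) :
    (HlcMap 𝒰 (dualTwistMap χ (star (chiRep χ) hn)) 0).hom.charpoly = X - 1 := by
  have h1 : (HlcMap 𝒰 (dualTwistMap χ (star (chiRep χ) hn)) 0).hom = 1 := by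
    apply LinearMap.ext
    intro x
    exact hlcMap_dualStar_eq 𝒰 U χ hn hn' x
  rw [h1, LinearMap.charpoly_one, finrank_hlc_dual 𝒰 U χ, pow_one]

end DualGlobal

end Fermat.Agent.GP.GW.E3.Mackey

end
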