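/-
GATE-P / S56 [P-GW] leaf E3f (helper83), FILE 6: the `(H2)` leaf of (KEY-CP) for
`T'' = Φ_U 𝔽_p(χ_cyc)` — assembly of helper18's `PTTailCharpoly` (tail of Poitou–Tate,
characteristic polynomials), helper19's `H30Local.h30Right_ev`, helper74's `DualPerm` and
`MackeyCharpoly`:

  `cp(⋆n | H²(G_S, T'')) * (X - 1) = ∏_{v ∈ S} cp(f ↦ f ∘ (· n⁻¹) | Map(D_v\G_ℚ/U, 𝔽_p))`

provided `Ш²(T'') = 0` (helper71 `K2Big`).
-/
import Fermat.Agent.GP.GW.E3.MackeyCharpoly
import Fermat.Agent.GP.GW.E3.PTTailCharpoly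
import Fermat.Agent.GP.GW.H30Local

set_option autoImplicit false
set_option linter.unusedSectionVars false

open Module CategoryTheory Polynomial

noncomputable section

namespace Fermat.Agent.GP.GW.E3.Mackey

open Fermat.Agent.GC.Prof Fermat.Agent.GC.Prof.Cone Fermat.Agent.GC.PT
  Fermat.Agent.GC.PT.LocDataQ Fermat.Agent.GC.PT.MainInst ExtCitation Fermat.Agent.GC.C0
  Fermat.Agent.GP.GW Fermat.Agent.GP.GW.Euler.StarRes Fermat.Agent.GP.GW.E3.DualPerm
  Fermat.Agent.GC.Local.KR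

variable {p : ℕ} [Fact p.Prime] {S : Finset Nat.Primes}

section WithData

variable [IsDiscrete (levelS S) (TChi p)]
  (Δ : PTData (p := p) S) (hpS : pPrime p ∈ S) (U : Subgroup GQ) [U.FiniteIndex]
  [FiniteDimensional (ZMod p) (Phi U (chiRep (k := ZMod p) (cycloChar p)))]
  [IsDiscrete (levelS S) (Phi U (chiRep (k := ZMod p) (cycloChar p)))]
  [IsDiscrete (levelS S) ((Phi U (chiRep (k := ZMod p) (cycloChar p))).dualTwist (cycloChar p))]
  [IsDiscrete (levelS S) (Phi U (Rep.trivial (ZMod p) GQ (ZMod p)))]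

include Δ hpS in
/-- **(H2)** for `T'' = Φ_U 𝔽_p(χ_cyc)`, `Ш²(T'') = 0`, in helper12's `StarRes` spelling. -/
theorem charpoly_H2_phi
    [FiniteDimensional (ZMod p) (Hlc (levelS S) (Phi U (chiRep (k := ZMod p) (cycloChar p))) 2)]
    (hsha : LinearMap.ker
      (locRes (locDataQ S) (Phi U (chiRep (k := ZMod p) (cycloChar p))) 2) = ⊥)
    {n : GQ} (hn : Norm U n) (hn' : Norm U n⁻¹) :
    (HlcMap (levelS S) (star (chiRep (k := ZMod p) (cycloChar p)) hn) 2).hom.charpoly * (X - 1) =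
      ∏ v : (locDataQ S).ι, (LinearMap.funLeft (ZMod p) (ZMod p)
        (dcRight (decQ (idxPrime S v)) U hn')).charpoly := by
  have := NineTermQ.finiteDimensional_dual (p := p) (Phi U (chiRep (k := ZMod p) (cycloChar p)))
  have : FiniteDimensional (ZMod p) (Hlc (levelS S)
      ((Phi U (chiRep (k := ZMod p) (cycloChar p))).dualTwist (cycloChar p)) 0) :=
    NineTerm.fdH0 (𝒰 := levelS S) _
  have : ∀ v, FiniteDimensional (ZMod p) (Hlc ((locDataQ S).𝒰v v)
      (Rep.res ((locDataQ S).r v)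
        ((Phi U (chiRep (k := ZMod p) (cycloChar p))).dualTwist (cycloChar p))) 0) :=
    fun v => NineTerm.fdH0 (𝒰 := (locDataQ S).𝒰v v) _
  have h := PTTailCharpoly.charpoly_H2_of_sha_two_eq_bot_prod Δ hpS
    (Phi U (chiRep (k := ZMod p) (cycloChar p))) (star (chiRep (k := ZMod p) (cycloChar p)) hn)
    (H30Local.h30Right_ev Δ hpS _) hsha
  have h0 := charpoly_hlc_dualStar (levelS S) U (cycloChar p) hn hn'
  rw [triples_dualTwistMap_eq, h0] at h
  rw [h]
  exact Finset.prod_congr rfl (fun v _ => charpoly_hloc_dualStar S U (cycloChar p) v hn hn')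

end WithData

/-- **(H2)** for `T'' = Φ_U 𝔽_p(χ_cyc)` with all auxiliary instances discharged: `p` odd, `p ∈ S`,
`U` a member of `levelS S` on which `χ_cyc` is trivial, `Ш²(T'') = 0`. -/
theorem charpoly_H2_phi_of_mem (hp2 : p ≠ 2) (hpS : pPrime p ∈ S) (U : Subgroup GQ)
    [U.FiniteIndex] (hU : U ∈ (levelS S).sets) (hχU : ∀ u ∈ U, cycloChar p u = 1)
    [IsDiscrete (levelS S) (Phi U (chiRep (k := ZMod p) (cycloChar p)))]
    [FiniteDimensional (ZMod p) (Hlc (levelS S) (Phi U (chiRep (k := ZMod p) (cycloChar p))) 2)]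
    (hsha : LinearMap.ker
      (locRes (locDataQ S) (Phi U (chiRep (k := ZMod p) (cycloChar p))) 2) = ⊥)
    {n : GQ} (hn : Norm U n) (hn' : Norm U n⁻¹) :
    (HlcMap (levelS S) (star (chiRep (k := ZMod p) (cycloChar p)) hn) 2).hom.charpoly * (X - 1) =
      ∏ v : (locDataQ S).ι, (LinearMap.funLeft (ZMod p) (ZMod p)
        (dcRight (decQ (idxPrime S v)) U hn')).charpoly := by
  have hT : IsDiscrete (levelS S) (TChi p) := isDiscrete_TChi S hpS
  obtain ⟨Δ⟩ := nonempty_ptData hp2 S hpS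
  have hfdA : FiniteDimensional (ZMod p) (Rep.res U.subtype (chiRep (k := ZMod p) (cycloChar p))) :=
    inferInstanceAs (FiniteDimensional (ZMod p) (ZMod p))
  have hfdW : FiniteDimensional (ZMod p) (Phi U (chiRep (k := ZMod p) (cycloChar p))) :=
    Fermat.Agent.GC.PT.RepDevissage.finiteDimensional_coind U _
  have hdual : IsDiscrete (levelS S)
      ((Phi U (chiRep (k := ZMod p) (cycloChar p))).dualTwist (cycloChar p)) :=
    Fermat.Agent.GC.PT.Triples.isDiscrete_dualTwist (levelS S) (cycloChar p) ⟨U, hU, hχU⟩ _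
  have htriv : IsDiscrete (levelS S) (Phi U (Rep.trivial (ZMod p) GQ (ZMod p))) :=
    Fermat.Agent.GC.PT.RepDevissage.isDiscrete_coind (levelS S) U _
      ⟨U, hU, le_refl U, fun _ _ => rfl⟩
  exact charpoly_H2_phi Δ hpS U hsha hn hn'

end Fermat.Agent.GP.GW.E3.Mackey

end
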