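/-
GATE-P (S56) / [P-GW] / E3 (helper59): **the permutation polynomials `P_S`, `P_∞` of the KEY
identity — ONE spelling for the three leaves (UNIT), (H2), (ARCH).**

A. (Mathlib only) `permCharpoly k σ` = the characteristic polynomial of `f ↦ f ∘ σ` on `X → k`
   (`X` finite).  `permCharpoly_congr` (an equivariant bijection gives the same polynomial),
   `permCharpoly_symm` (`σ` and `σ⁻¹` give the same polynomial: a permutation matrix and its
   transpose).

B. (`NormPair`, helper86 / helper78 / helper83 vocabulary) for `P = (H₀ ≤ H)`, `D ≤ G` any subgroup,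
   `W_k = P.big triv₀ = Coind_{H₀}^G k`:
   * `dcPoly D n := permCharpoly k (n • · on DC D H₀)` for `n : H` — **the PINNED spelling**:
     `P_S = ∏_{v ∈ S} dcPoly (decQ v) g`, `P_∞ = dcPoly decInf g`;
   * `invSub A D` : the `D`-invariants of `W_A`, stable under `⋆`; `invStar A D c`;
   * `invDCEquiv D : invSub triv₀ D ≃ₗ[k] (DC D H₀ → k)`, `f ↦ ([s] ↦ f s⁻¹)`, which carries
     `⋆n` to `φ ↦ φ ∘ (n⁻¹ • ·)`;
   * **`charpoly_invStar_triv`** : `charpoly (⋆n | W_k^D) = dcPoly D n`  (PERM-INV);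
   * **`charpoly_bigFixRep_triv`** : `charpoly ((bigFixRep triv₀ x).ρ [n]) = dcPoly (zpowers x) n`,
     i.e. the `Pinf` of `ArchSplit.arch_charpoly` IS `dcPoly decInf`.
-/
import Mathlib
import Fermat.Agent.GP.GW.E3.MackeyAbs
import Fermat.Agent.GP.GW.E3.ArchSplit

set_option autoImplicit false

open CategoryTheory Module Polynomial

noncomputable section

namespace Fermat.Agent.GP.GW.E3.PermPoly

/-! ### A. permutation polynomials -/

section Abs

variable (k : Type*) [Field k]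

/-- The characteristic polynomial of `f ↦ f ∘ σ` on `X → k`. -/
def permCharpoly {X : Type*} [Finite X] (σ : X → X) : k[X] :=
  (LinearMap.funLeft k k σ).charpoly

theorem permCharpoly_congr {X Y : Type*} [Finite X] [Finite Y] (e : X ≃ Y) (σ : X → X)
    (τ : Y → Y) (h : ∀ x, e (σ x) = τ (e x)) : permCharpoly k σ = permCharpoly k τ := by
  unfold permCharpoly
  rw [← LinearEquiv.charpoly_conj (LinearEquiv.funCongrLeft k k e) (LinearMap.funLeft k k τ)]
  congr 1
  refine LinearMap.ext fun f => funext fun x => ?_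
  show f (σ x) = f (e.symm (τ (e x)))
  rw [← h x, Equiv.symm_apply_apply]

theorem permCharpoly_eq_of_eq {X : Type*} [Finite X] {σ τ : X → X} (h : ∀ x, σ x = τ x) :
    permCharpoly k σ = permCharpoly k τ := by
  have : σ = τ := funext h
  rw [this]

/-- the matrix of `f ↦ f ∘ σ` -/
theorem permCharpoly_eq_matrix {X : Type*} [Fintype X] [DecidableEq X] (σ : X → X) :
    permCharpoly k σ = (Matrix.of fun i j : X => if σ i = j then (1 : k) else 0).charpoly := by
  unfold permCharpoly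
  rw [← LinearMap.charpoly_toMatrix (LinearMap.funLeft k k σ) (Pi.basisFun k X)]
  congr 1
  ext i j
  rw [LinearMap.toMatrix_apply, Pi.basisFun_apply, Pi.basisFun_repr, LinearMap.funLeft_apply,
    Matrix.of_apply, Pi.single_apply]

/-- **A permutation and its inverse have the same permutation polynomial.** -/
theorem permCharpoly_symm {X : Type*} [Finite X] (σ : Equiv.Perm X) :
    permCharpoly k (σ.symm : X → X) = permCharpoly k (σ : X → X) := by
  classical
  have := Fintype.ofFinite X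
  rw [permCharpoly_eq_matrix, permCharpoly_eq_matrix, ← Matrix.charpoly_transpose]
  congr 1
  ext i j
  rw [Matrix.transpose_apply, Matrix.of_apply, Matrix.of_apply]
  by_cases hij : σ.symm j = i
  · rw [if_pos hij, if_pos (by rw [← hij, Equiv.apply_symm_apply])]
  · rw [if_neg hij, if_neg (fun h => hij (by rw [← h, Equiv.symm_apply_apply]))]

/-- An operator which becomes `φ ↦ φ ∘ σ` under a linear equivalence with `X → k` has
characteristic polynomial `permCharpoly k σ`. -/
theorem charpoly_eq_permCharpoly_of_equiv {M : Type*} [AddCommGroup M] [Module k M]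
    [Module.Finite k M] {X : Type*} [Finite X] (E : M ≃ₗ[k] (X → k)) (T : M →ₗ[k] M)
    (σ : X → X) (h : ∀ m x, E (T m) x = E m (σ x)) : T.charpoly = permCharpoly k σ := by
  unfold permCharpoly
  rw [← LinearEquiv.charpoly_conj E T]
  congr 1
  refine LinearMap.ext fun φ => funext fun x => ?_
  show E (T (E.symm φ)) x = φ (σ x)
  rw [h, LinearEquiv.apply_symm_apply]

end Abs

/-! ### B. the `D`-invariants of `W_k` and the double cosets `D \ G / H₀` -/

section NP

universe u

variable {k G : Type u} [Field k] [Group G] {P : NormPair G}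

open Mackey NormPair

instance normalIn_normPair (P : NormPair G) : NormalIn P.H₀ P.H := ⟨P.le, P.conj_mem⟩

/-- **The pinned permutation polynomial**: `n : H` acting on `Map(D \ G / H₀, k)` by
`φ ↦ φ ∘ (n • ·)`. -/
def dcPoly (k : Type u) [Field k] (P : NormPair G) (D : Subgroup G) [Finite (DC D P.H₀)]
    (n : P.H) : k[X] :=
  permCharpoly k (fun w : DC D P.H₀ => n • w)

/-- the permutation `n • ·` of `D \ G / H₀` -/
def dcPerm (P : NormPair G) (D : Subgroup G) (n : P.H) : Equiv.Perm (DC D P.H₀) :=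
  MulAction.toPerm n

theorem dcPoly_inv (D : Subgroup G) [Finite (DC D P.H₀)] (n : P.H) :
    dcPoly k P D n⁻¹ = dcPoly k P D n := by
  have h := permCharpoly_symm k (dcPerm P D n)
  exact h

/-- `dcPoly` only depends on the class of `n` modulo `H₀`. -/
theorem dcPoly_congr_mk (D : Subgroup G) [Finite (DC D P.H₀)] {n n' : P.H}
    (h : (QuotientGroup.mk n : P.C) = QuotientGroup.mk n') : dcPoly k P D n = dcPoly k P D n' := by
  unfold dcPoly
  apply permCharpoly_eq_of_eq
  intro w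
  have h1 : n⁻¹ * n' ∈ P.sub₀ := QuotientGroup.eq.1 h
  have h2 : n' = n * (n⁻¹ * n') := by group
  rw [h2, mul_smul, smul_dc_of_mem D P.H₀ P.H (n⁻¹ * n') (mem_sub₀.1 h1)]

/-- the `D`-invariants of a representation of `G` -/
def invSub (N : Rep.{u} k G) (D : Subgroup G) : Submodule k N where
  carrier := {f | ∀ d ∈ D, N.ρ d f = f}
  add_mem' := fun {f f'} hf hf' d hd => by rw [map_add, hf d hd, hf' d hd]
  zero_mem' := fun d _ => map_zero _
  smul_mem' := fun c f hf d hd => by rw [map_smul, hf d hd]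

lemma mem_invSub {N : Rep.{u} k G} {D : Subgroup G} {f : N} :
    f ∈ invSub N D ↔ ∀ d ∈ D, N.ρ d f = f := Iff.rfl

lemma map_mem_invSub {N N' : Rep.{u} k G} {D : Subgroup G} (φ : N ⟶ N')
    {f : N} (hf : f ∈ invSub N D) : φ.hom f ∈ invSub N' D := fun d hd => by
  rw [← Rep.hom_comm_apply, hf d hd]

/-- `⋆c` on the `D`-invariants of `W_A` -/
def invStar (A : Rep.{u} k P.H) (D : Subgroup G) (c : P.C) :
    invSub (P.big A) D →ₗ[k] invSub (P.big A) D :=
  (starC A c : P.big A ⟶ P.big A).hom.toLinearMap.restrict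
    (fun _ hf => map_mem_invSub (starC A c : P.big A ⟶ P.big A) hf)

lemma invStar_coe (A : Rep.{u} k P.H) (D : Subgroup G) (c : P.C) (f : invSub (P.big A) D) :
    ((invStar A D c f : invSub (P.big A) D) : P.big A) =
      (starC A c : P.big A ⟶ P.big A).hom f.1 := rfl

/-- the fixed space of `x` is the space of invariants of `⟨x⟩` -/
theorem fixSub_eq_invSub (N : Rep.{u} k G) (x : G) :
    fixSub N x = invSub N (Subgroup.zpowers x) := by
  ext f
  rw [mem_fixSub, mem_invSub]
  constructor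
  · intro h
    let T : Subgroup G :=
      { carrier := {d | N.ρ d f = f}
        one_mem' := by
          show N.ρ 1 f = f
          rw [map_one]; rfl
        mul_mem' := fun {a b} ha hb => by
          show N.ρ (a * b) f = f
          rw [map_mul, Module.End.mul_apply, hb, ha]
        inv_mem' := fun {a} ha => by
          show N.ρ a⁻¹ f = f
          have h1 : N.ρ a⁻¹ (N.ρ a f) = f := by
            rw [← Module.End.mul_apply, ← map_mul, inv_mul_cancel, map_one]; rfl
          rw [ha] at h1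
          exact h1 }
    have hle : Subgroup.zpowers x ≤ T := (Subgroup.zpowers_le (g := x) (H := T)).2 h
    exact fun d hd => hle hd
  · intro h
    exact h x (Subgroup.mem_zpowers x)

/-! #### functions on `D \ G / H₀` -/

variable (D : Subgroup G)

/-- `f ↦ ([s] ↦ f s⁻¹)` -/
def toDC : invSub (P.big (P.triv₀ (k := k))) D →ₗ[k] (DC D P.H₀ → k) where
  toFun f := fun w => Quotient.liftOn' w (fun s => f.1.1 s⁻¹) (by
    intro a b hab
    obtain ⟨d, hd, h, hh, rfl⟩ := DoubleCoset.rel_iff.mp hab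
    show f.1.1 a⁻¹ = f.1.1 (d * a * h)⁻¹
    have h1 : (d * a * h)⁻¹ = h⁻¹ * (a⁻¹ * d⁻¹) := by group
    rw [h1, big_triv₀_prop f.1 ⟨h⁻¹, P.H₀.inv_mem hh⟩ (a⁻¹ * d⁻¹)]
    have h2 := congrArg (fun F : P.big (P.triv₀ (k := k)) => F.1 a⁻¹) (f.2 d⁻¹ (D.inv_mem hd))
    exact h2.symm)
  map_add' f f' := by
    funext w
    obtain ⟨s, rfl⟩ := dcMk_surjective D P.H₀ w
    rfl
  map_smul' c f := by
    funext w
    obtain ⟨s, rfl⟩ := dcMk_surjective D P.H₀ w
    rfl

@[simp] lemma toDC_mk (f : invSub (P.big (P.triv₀ (k := k))) D) (s : G) :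
    toDC D f (dcMk D P.H₀ s) = f.1.1 s⁻¹ := rfl

/-- `φ ↦ (g ↦ φ [g⁻¹])` -/
def ofDC : (DC D P.H₀ → k) →ₗ[k] invSub (P.big (P.triv₀ (k := k))) D where
  toFun φ := ⟨⟨fun g => φ (dcMk D P.H₀ g⁻¹), fun s g => by
      show φ (dcMk D P.H₀ ((s : G) * g)⁻¹) = φ (dcMk D P.H₀ g⁻¹)
      rw [mul_inv_rev, dcMk_mul_right D P.H₀ g⁻¹ (P.H₀.inv_mem s.2)]⟩, fun d hd => by
      apply Subtype.ext
      funext g
      show φ (dcMk D P.H₀ (g * d)⁻¹) = φ (dcMk D P.H₀ g⁻¹)
      rw [mul_inv_rev, dcMk_mul_left D P.H₀ (D.inv_mem hd)]⟩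
  map_add' φ φ' := rfl
  map_smul' c φ := rfl

@[simp] lemma ofDC_apply (φ : DC D P.H₀ → k) (g : G) :
    (ofDC D φ).1.1 g = φ (dcMk D P.H₀ g⁻¹) := rfl

/-- **`W_k^D ≃ Map(D \ G / H₀, k)`.** -/
def invDCEquiv : invSub (P.big (P.triv₀ (k := k))) D ≃ₗ[k] (DC D P.H₀ → k) where
  __ := toDC D
  invFun := ofDC D
  left_inv f := by
    apply Subtype.ext
    apply Subtype.ext
    funext g
    show toDC D f (dcMk D P.H₀ g⁻¹) = f.1.1 g
    rw [toDC_mk, inv_inv]
  right_inv φ := by
    funext w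
    obtain ⟨s, rfl⟩ := dcMk_surjective D P.H₀ w
    show (ofDC D φ).1.1 s⁻¹ = φ (dcMk D P.H₀ s)
    rw [ofDC_apply, inv_inv]

lemma invDCEquiv_mk (f : invSub (P.big (P.triv₀ (k := k))) D) (s : G) :
    invDCEquiv D f (dcMk D P.H₀ s) = f.1.1 s⁻¹ := rfl

/-- `⋆n` on `W_k^D` is `φ ↦ φ ∘ (n⁻¹ • ·)` on `Map(D \ G / H₀, k)`. -/
theorem invDCEquiv_star (n : P.H) (f : invSub (P.big (P.triv₀ (k := k))) D) (w : DC D P.H₀) :
    invDCEquiv D (invStar (P.triv₀ (k := k)) D (QuotientGroup.mk n) f) w =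
      invDCEquiv D f (n⁻¹ • w) := by
  obtain ⟨s, rfl⟩ := dcMk_surjective D P.H₀ w
  rw [smul_dcMk, invDCEquiv_mk, invDCEquiv_mk, invStar_coe]
  show ((star (P.triv₀ (k := k)) n).hom f.1).1 s⁻¹ = _
  rw [star_hom_apply]
  show f.1.1 ((n : G)⁻¹ * s⁻¹) = f.1.1 (s * ((n⁻¹ : P.H) : G)⁻¹)⁻¹
  have h1 : (n : G)⁻¹ * s⁻¹ = (s * ((n⁻¹ : P.H) : G)⁻¹)⁻¹ := by
    rw [Subgroup.coe_inv, inv_inv, mul_inv_rev]
  rw [h1]

variable [Finite (DC D P.H₀)]

instance finite_invSub_triv : Module.Finite k (invSub (P.big (P.triv₀ (k := k))) D) :=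
  Module.Finite.equiv (invDCEquiv D).symm

/-- **PERM-INV**: the characteristic polynomial of `⋆n` on the `D`-invariants of
`W_k = Coind_{H₀}^G k` is the permutation polynomial of `n` on `D \ G / H₀`. -/
theorem charpoly_invStar_triv (n : P.H) :
    (invStar (P.triv₀ (k := k)) D (QuotientGroup.mk n)).charpoly = dcPoly k P D n := by
  rw [← dcPoly_inv]
  exact charpoly_eq_permCharpoly_of_equiv k (invDCEquiv D) _ _
    (fun f w => invDCEquiv_star D n f w)

omit [Finite (DC D P.H₀)] in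
/-- `W_k^{x = 1} ≃ Map(⟨x⟩ \ G / H₀, k)` -/
def fixDCEquiv (x : G) :
    bigFixRep (P.triv₀ (k := k)) x ≃ₗ[k] (DC (Subgroup.zpowers x) P.H₀ → k) :=
  (LinearEquiv.ofEq _ _ (fixSub_eq_invSub (P.big (P.triv₀ (k := k))) x)).trans
    (invDCEquiv (Subgroup.zpowers x))

theorem fixDCEquiv_star (x : G) (n : P.H) (f : bigFixRep (P.triv₀ (k := k)) x)
    (w : DC (Subgroup.zpowers x) P.H₀) :
    fixDCEquiv x ((bigFixRep (P.triv₀ (k := k)) x).ρ (QuotientGroup.mk n) f) w =
      fixDCEquiv x f (n⁻¹ • w) :=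
  invDCEquiv_star (Subgroup.zpowers x) n
    (LinearEquiv.ofEq _ _ (fixSub_eq_invSub (P.big (P.triv₀ (k := k))) x) f) w

/-- **the `Pinf` of `ArchSplit.arch_charpoly` is the permutation polynomial of `⟨x⟩ \ G / H₀`.** -/
theorem charpoly_bigFixRep_triv (x : G) [Finite (DC (Subgroup.zpowers x) P.H₀)]
    [FiniteDimensional k (bigFixRep (P.triv₀ (k := k)) x)] (n : P.H) :
    ((bigFixRep (P.triv₀ (k := k)) x).ρ (QuotientGroup.mk n)).charpoly =
      dcPoly k P (Subgroup.zpowers x) n := by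
  rw [← dcPoly_inv]
  exact charpoly_eq_permCharpoly_of_equiv k (fixDCEquiv x) _ _
    (fun f w => fixDCEquiv_star x n f w)

theorem finiteDimensional_bigFixRep_triv (x : G) [Finite (DC (Subgroup.zpowers x) P.H₀)] :
    FiniteDimensional k (bigFixRep (P.triv₀ (k := k)) x) :=
  Module.Finite.equiv (fixDCEquiv x).symm


/-- transport to any other finite `H`-set (e.g. `PrimesOverQ q F` via `primesEquiv_smul`,
`InfinitePlace F` via `infPlaceEquiv_smul`). -/
theorem dcPoly_eq_permCharpoly {X : Type*} [Finite X] (e : DC D P.H₀ ≃ X) (n : P.H) (σ : X → X)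
    (h : ∀ w, e (n • w) = σ (e w)) : dcPoly k P D n = permCharpoly k σ :=
  permCharpoly_congr k e _ σ h

end NP

end Fermat.Agent.GP.GW.E3.PermPoly
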