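/-
GATE-P (S56) / [P-GW] / E3 (UNITq), the `ψ` side (helper66; asked for by helper54 4455):
for `F/ℚ` normal inside `Qb`, `ζ ∈ F` a primitive `p`-th root of unity, `n ∈ G_ℚ` and
`σ = n|_F = AlgEquiv.restrictNormal n F`,
  `σ ζ = ζ ^ m`,  `m = (χ_cyc(n)).val`,  `(m : ZMod p) = χ_cyc(n)`,
so that the factor `X - C (m : ZMod p)` of helper54's `unit_charpoly` IS the factor `X - C ψ`,
`ψ = χ_cyc(n)`, of (K0) / `keyCP_of_leaves`.
-/
import Mathlib
import Fermat.Agent.GJ.CycChar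
import Fermat.Prelude.Def_ExtCitation_KummerBridge

set_option autoImplicit false

open Polynomial

noncomputable section

namespace Fermat.Agent.GP.GW.E3.PsiSide

open ExtCitation

local notation "Qb" => AlgebraicClosure ℚ
local notation "GQ" => (AlgebraicClosure ℚ ≃ₐ[ℚ] AlgebraicClosure ℚ)

variable {p : ℕ} [Fact p.Prime]

/-- the exponent `m = (χ_cyc(n)).val` -/
def cycloExpNat (p : ℕ) [Fact p.Prime] (n : GQ) : ℕ := ((cycloChar p n : (ZMod p)ˣ) : ZMod p).val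

/-- `(m : ZMod p) = χ_cyc(n)` -/
theorem natCast_cycloExpNat (n : GQ) :
    ((cycloExpNat p n : ℕ) : ZMod p) = ((cycloChar p n : (ZMod p)ˣ) : ZMod p) := by
  have : NeZero p := ⟨(Fact.out : p.Prime).ne_zero⟩
  exact ZMod.natCast_zmod_val _

/-- `n ζ = ζ ^ m` in `Qb` -/
theorem apply_zeta {ζ : Qb} (hζ : IsPrimitiveRoot ζ p) (n : GQ) : n ζ = ζ ^ cycloExpNat p n :=
  Fermat.Agent.GJ.CycChar.apply_eq_pow hζ n

/-- **the `ψ` side**: `σ ζ = ζ ^ m` for `σ = n|_F`, `ζ ∈ F` a primitive `p`-th root of unity -/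
theorem restrictNormal_zeta (F : IntermediateField ℚ Qb) [Normal ℚ F] {ζ : F}
    (hζ : IsPrimitiveRoot ζ p) (n : GQ) :
    AlgEquiv.restrictNormal n F ζ = ζ ^ cycloExpNat p n := by
  apply Subtype.ext
  have h1 : ((AlgEquiv.restrictNormal n F ζ : F) : Qb) = n (ζ : Qb) :=
    AlgEquiv.restrictNormal_commutes n F ζ
  have h2 : IsPrimitiveRoot (ζ : Qb) p := hζ.map_of_injective (f := F.val) F.val.injective
  rw [h1, apply_zeta h2 n]
  rfl

omit [Fact p.Prime] in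
/-- a primitive root of `Qb` lying in `F` is a primitive root of `F` -/
theorem isPrimitiveRoot_mk (F : IntermediateField ℚ Qb) {ζ : Qb} (hζ : IsPrimitiveRoot ζ p)
    (hmem : ζ ∈ F) : IsPrimitiveRoot (⟨ζ, hmem⟩ : F) p :=
  IsPrimitiveRoot.of_map_of_injective (f := F.val) hζ F.val.injective

/-- the `ψ` side for a primitive root of `Qb` lying in `F` -/
theorem restrictNormal_zeta_mk (F : IntermediateField ℚ Qb) [Normal ℚ F] {ζ : Qb}
    (hζ : IsPrimitiveRoot ζ p) (hmem : ζ ∈ F) (n : GQ) :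
    AlgEquiv.restrictNormal n F (⟨ζ, hmem⟩ : F) = (⟨ζ, hmem⟩ : F) ^ cycloExpNat p n :=
  restrictNormal_zeta F (isPrimitiveRoot_mk F hζ hmem) n

/-- the linear factor: `X - C (m : ZMod p) = X - C χ_cyc(n)` -/
theorem X_sub_C_cycloExpNat (n : GQ) :
    (X - C ((cycloExpNat p n : ℕ) : ZMod p) : (ZMod p)[X]) =
      X - C ((cycloChar p n : (ZMod p)ˣ) : ZMod p) := by
  rw [natCast_cycloExpNat]

end Fermat.Agent.GP.GW.E3.PsiSide
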