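/-
GATE-P (S56) / [P-GW] / E3g (ARCH-PERM) (helper78): the archimedean factor `Pinf` of `ArchSplit`
in the pinned permutation spelling (helper83 `MackeyStar`, helper59 4423 (2)):

  `charpoly (⋆n | (Coind_{H₀} k)^{x = 1}) = charpoly (permTw (zpowers x) H₀ k n)`,

`permTw … φ w = φ (w · n)` on functions on `⟨x⟩ \ G / H₀`.
-/
import Fermat.Agent.GP.GW.E3.ArchSplit
import Fermat.Agent.GP.GW.E3.MackeyStar

set_option autoImplicit false

open CategoryTheory Module

noncomputable section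

namespace Fermat.Agent.GP.GW.E3

open Fermat.Agent.GP.GW.Euler.StarRes Fermat.Agent.GP.GW.E3.Mackey

universe u

variable {k G : Type u} [Field k] [Group G] {P : NormPair G}

namespace NormPair

/-- elements of `H` normalise `H₀` (in helper12's sense) -/
lemma norm_of_mem (n : P.H) : Norm P.H₀ (n : G) := fun _ hs => P.conj_mem' n.2 hs

/-- `W_k^{x = 1}` is the space of `⟨x⟩`-invariants of `Φ_{H₀} k`. -/
lemma fixSub_big_triv₀_eq (x : G) :
    fixSub (P.big (P.triv₀ (k := k))) x =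
      phiInv (Subgroup.zpowers x) P.H₀ (Rep.trivial k G k) :=
  (invariants_zpowers (Phi P.H₀ (Rep.trivial k G k)).ρ x).symm

/-- the identity, as a linear equivalence `W_k^{x = 1} ≃ (Φ_{H₀} k)^{⟨x⟩}` -/
def fixPhiEquiv (x : G) :
    bigFixRep (P.triv₀ (k := k)) x ≃ₗ[k] phiInv (Subgroup.zpowers x) P.H₀ (Rep.trivial k G k) :=
  LinearEquiv.ofEq _ _ (fixSub_big_triv₀_eq x)

lemma fixPhiEquiv_star (x : G) (n : P.H) (v : bigFixRep (P.triv₀ (k := k)) x) :
    fixPhiEquiv x ((bigFixRep (P.triv₀ (k := k)) x).ρ (QuotientGroup.mk n) v) =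
      starInv (Subgroup.zpowers x) P.H₀ (Rep.trivial k G k) (norm_of_mem n) (fixPhiEquiv x v) := by
  apply Subtype.ext
  apply Subtype.ext
  funext g
  rfl

/-- **(ARCH-PERM)** -/
theorem charpoly_bigFixRep_triv₀ (x : G) (n : P.H)
    [FiniteDimensional k (P.big (P.triv₀ (k := k)))]
    [Finite (DC (Subgroup.zpowers x) P.H₀)] :
    ((bigFixRep (P.triv₀ (k := k)) x).ρ (QuotientGroup.mk n)).charpoly =
      (permTw (Subgroup.zpowers x) P.H₀ (Rep.trivial k G k) (norm_of_mem n)).charpoly := by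
  have hB : ∀ u ∈ P.H₀, (Rep.trivial k G k).ρ u = 1 := fun _ _ => rfl
  set e : bigFixRep (P.triv₀ (k := k)) x ≃ₗ[k] (DC (Subgroup.zpowers x) P.H₀ → k) :=
    (fixPhiEquiv x).trans (phiInvEquiv (Subgroup.zpowers x) P.H₀ (Rep.trivial k G k) hB) with he
  have hconj : e.conj ((bigFixRep (P.triv₀ (k := k)) x).ρ (QuotientGroup.mk n)) =
      permTw (Subgroup.zpowers x) P.H₀ (Rep.trivial k G k) (norm_of_mem n) := by
    apply LinearMap.ext
    intro φ
    rw [LinearEquiv.conj_apply_apply]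
    show phiInvEquiv _ _ _ hB (fixPhiEquiv x
      ((bigFixRep (P.triv₀ (k := k)) x).ρ (QuotientGroup.mk n) (e.symm φ))) = _
    rw [fixPhiEquiv_star, phiInvEquiv_starInv]
    congr 1
    exact e.apply_symm_apply φ
  rw [← hconj, LinearEquiv.charpoly_conj]

end NormPair

end Fermat.Agent.GP.GW.E3
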