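/-
GATE-P (S56) / [P-GW] / E3a (helper86), re-aimed per helper74 4198: polynomials in the operator
`γ = c ⋆ -` and retracts along idempotents.

* `exists_retract_of_idempotent`: an idempotent endomorphism `ε` of `T : Rep k G` splits:
  `∃ N i r, i ≫ r = 𝟙 N ∧ r ≫ i = ε` (`Rep k G` is abelian), with `i` injective and `r` surjective;
* `starPoly Y c P := aeval (starC Y c) P : End W_Y` (polynomial in `γ = c ⋆ -`), natural in the
  coefficients `Y`; `starC_pow`, `starC_pow_eq_one`.
Mathlib only.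
-/
import Fermat.Agent.GP.GW.E3.StarAct

set_option autoImplicit false

open CategoryTheory

noncomputable section

namespace Fermat.Agent.GP.GW.E3

universe u

variable {k G : Type u} [CommRing k] [Group G]

/-- **Idempotents of `Rep k G` split.** -/
theorem exists_retract_of_idempotent (T : Rep.{u} k G) (ε : T ⟶ T) (hε : ε ≫ ε = ε) :
    ∃ (N : Rep.{u} k G) (i : N ⟶ T) (r : T ⟶ N), i ≫ r = 𝟙 N ∧ r ≫ i = ε :=
  IsIdempotentComplete.idempotents_split T ε hε

lemma injective_of_retract {N T : Rep.{u} k G} (i : N ⟶ T) (r : T ⟶ N) (h : i ≫ r = 𝟙 N) :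
    Function.Injective i.hom := by
  intro x y hxy
  have hx : r.hom (i.hom x) = x := congr($(h) x)
  have hy : r.hom (i.hom y) = y := congr($(h) y)
  rw [← hx, ← hy, hxy]

lemma surjective_of_retract {N T : Rep.{u} k G} (i : N ⟶ T) (r : T ⟶ N) (h : i ≫ r = 𝟙 N) :
    Function.Surjective r.hom := fun x => ⟨i.hom x, congr($(h) x)⟩

/-- the range of `ε = r ≫ i` is the range of `i` -/
lemma range_eq_of_retract {N T : Rep.{u} k G} (i : N ⟶ T) (r : T ⟶ N) (h : i ≫ r = 𝟙 N) :
    Set.range (r ≫ i).hom = Set.range i.hom := by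
  ext t
  constructor
  · rintro ⟨x, rfl⟩
    exact ⟨r.hom x, rfl⟩
  · rintro ⟨y, rfl⟩
    exact ⟨i.hom y, congrArg i.hom (congr($(h) y))⟩

namespace NormPair

variable {P : NormPair G}

lemma starC_pow (Y : Rep.{u} k P.H) (c : P.C) (n : ℕ) : starC Y c ^ n = starC Y (c ^ n) :=
  (map_pow (starC Y) c n).symm

lemma starC_pow_eq_one (Y : Rep.{u} k P.H) (c : P.C) (n : ℕ) (hc : c ^ n = 1) :
    starC Y c ^ n = 1 := by
  rw [starC_pow, hc, map_one]

/-- a polynomial in the operator `γ = c ⋆ -` on `W_Y` -/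
def starPoly (Y : Rep.{u} k P.H) (c : P.C) (Q : Polynomial k) : End (P.big Y) :=
  Polynomial.aeval (starC Y c) Q

lemma starPoly_X (Y : Rep.{u} k P.H) (c : P.C) : starPoly Y c Polynomial.X = starC Y c :=
  Polynomial.aeval_X _

lemma starPoly_mul (Y : Rep.{u} k P.H) (c : P.C) (Q Q' : Polynomial k) :
    starPoly Y c (Q * Q') = starPoly Y c Q * starPoly Y c Q' :=
  map_mul _ _ _

/-- polynomials in `γ` are natural in the coefficients -/
lemma starPoly_naturality {Y Y' : Rep.{u} k P.H} (φ : Y ⟶ Y') (c : P.C) (Q : Polynomial k) :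
    (starPoly Y c Q : P.big Y ⟶ P.big Y) ≫ bigMap φ =
      bigMap φ ≫ (starPoly Y' c Q : P.big Y' ⟶ P.big Y') := by
  unfold starPoly
  induction Q using Polynomial.induction_on' with
  | add Q Q' hQ hQ' =>
    rw [map_add, map_add]
    show ((Polynomial.aeval (starC Y c) Q : P.big Y ⟶ P.big Y) +
      (Polynomial.aeval (starC Y c) Q' : P.big Y ⟶ P.big Y)) ≫ bigMap φ = bigMap φ ≫
      ((Polynomial.aeval (starC Y' c) Q : P.big Y' ⟶ P.big Y') +
        (Polynomial.aeval (starC Y' c) Q' : P.big Y' ⟶ P.big Y'))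
    rw [Preadditive.add_comp, Preadditive.comp_add, hQ, hQ']
  | monomial n a =>
    rw [Polynomial.aeval_monomial, Polynomial.aeval_monomial, starC_pow, starC_pow]
    show ((algebraMap k (End (P.big Y)) a * starC Y (c ^ n) : End (P.big Y)) :
      P.big Y ⟶ P.big Y) ≫ bigMap φ = bigMap φ ≫
      ((algebraMap k (End (P.big Y')) a * starC Y' (c ^ n) : End (P.big Y')) :
        P.big Y' ⟶ P.big Y')
    rw [Algebra.algebraMap_eq_smul_one, Algebra.algebraMap_eq_smul_one, smul_mul_assoc, one_mul,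
      smul_mul_assoc, one_mul]
    show (a • (starC Y (c ^ n) : P.big Y ⟶ P.big Y)) ≫ bigMap φ =
      bigMap φ ≫ (a • (starC Y' (c ^ n) : P.big Y' ⟶ P.big Y'))
    rw [Linear.smul_comp, Linear.comp_smul, starC_naturality]

end NormPair

end Fermat.Agent.GP.GW.E3
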