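/-
GATE-P / S56 [P-GW] E3 — REGADAPTER part 2 (helper86): `W_Y = Coind_{H₀}^G Res Y` is
`Coind_H^G (Coind_{H₀}^H Res Y)`, compatibly with the `⋆`-operators.

* `ind Y := Coind_{H₀}^{H} Res_{H₀} Y : Rep k H`, with the `H`-equivariant operators
  `star' Y n` (`(n ⋆' f) h = n • f (n⁻¹ h)`);
* `bigSmallIso Y : P.big Y ≅ P.small (ind Y)` (`F ↦ g ↦ (h ↦ F (h g))`), and
  `bigSmallIso_star : star Y n ≫ (bigSmallIso Y).hom = (bigSmallIso Y).hom ≫ smallMap (star' Y n)`;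
* general: polynomials in intertwined operators are intertwined (`aeval_intertwine`), and
  `smallMap` commutes with polynomials (`smallMap_aeval`);
* **CORE** `small_retract_of_ind_retract`: if `Z : Rep k H` is a retract of `ind Y` along
  `Q(n ⋆' -)`, then `Coind_H^G Z` is a retract of `W_Y` along `starPoly Y (mk n) Q`.
Mathlib + StarAct/IdemRetract only.
-/
import Fermat.Agent.GP.GW.E3.IdemRetract

set_option autoImplicit false

open CategoryTheory

noncomputable section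

namespace Fermat.Agent.GP.GW.E3

universe u

variable {k G : Type u} [CommRing k] [Group G]

/-! ### Polynomials in intertwined operators -/

section General

variable {𝒞 : Type*} [Category 𝒞] [Preadditive 𝒞] [Linear k 𝒞]

omit [Preadditive 𝒞] [Linear k 𝒞] in
lemma pow_intertwine {X X' : 𝒞} (γ : End X) (γ' : End X') (θ : X ⟶ X')
    (h : (γ : X ⟶ X) ≫ θ = θ ≫ (γ' : X' ⟶ X')) (n : ℕ) :
    ((γ ^ n : End X) : X ⟶ X) ≫ θ = θ ≫ ((γ' ^ n : End X') : X' ⟶ X') := by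
  induction n with
  | zero =>
    rw [pow_zero, pow_zero]
    show 𝟙 X ≫ θ = θ ≫ 𝟙 X'
    rw [Category.id_comp, Category.comp_id]
  | succ n ih =>
    rw [pow_succ, pow_succ, End.mul_def, End.mul_def, Category.assoc, ih, ← Category.assoc, h,
      Category.assoc]

/-- polynomials in intertwined operators are intertwined -/
lemma aeval_intertwine {X X' : 𝒞} (γ : End X) (γ' : End X') (θ : X ⟶ X')
    (h : (γ : X ⟶ X) ≫ θ = θ ≫ (γ' : X' ⟶ X')) (Q : Polynomial k) :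
    ((Polynomial.aeval γ Q : End X) : X ⟶ X) ≫ θ =
      θ ≫ ((Polynomial.aeval γ' Q : End X') : X' ⟶ X') := by
  induction Q using Polynomial.induction_on' with
  | add Q Q' hQ hQ' =>
    rw [map_add, map_add]
    show ((Polynomial.aeval γ Q : X ⟶ X) + (Polynomial.aeval γ Q' : X ⟶ X)) ≫ θ =
      θ ≫ ((Polynomial.aeval γ' Q : X' ⟶ X') + (Polynomial.aeval γ' Q' : X' ⟶ X'))
    rw [Preadditive.add_comp, Preadditive.comp_add, hQ, hQ']
  | monomial n a =>
    rw [Polynomial.aeval_monomial, Polynomial.aeval_monomial, Algebra.algebraMap_eq_smul_one,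
      Algebra.algebraMap_eq_smul_one, smul_mul_assoc, one_mul, smul_mul_assoc, one_mul]
    show (a • ((γ ^ n : End X) : X ⟶ X)) ≫ θ = θ ≫ (a • ((γ' ^ n : End X') : X' ⟶ X'))
    rw [Linear.smul_comp, Linear.comp_smul, pow_intertwine γ γ' θ h]

end General

namespace NormPair

variable {P : NormPair G}

/-! ### `smallMap` is a `k`-linear functor -/

lemma smallMap_id (Z : Rep.{u} k P.H) : smallMap (𝟙 Z) = 𝟙 (P.small Z) := rfl

lemma smallMap_comp {Z Z' Z'' : Rep.{u} k P.H} (φ : Z ⟶ Z') (ψ : Z' ⟶ Z'') :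
    smallMap (φ ≫ ψ) = smallMap φ ≫ smallMap ψ := rfl

lemma smallMap_add {Z Z' : Rep.{u} k P.H} (φ ψ : Z ⟶ Z') :
    smallMap (φ + ψ) = smallMap φ + smallMap ψ := by
  ext f g
  rfl

lemma smallMap_smul {Z Z' : Rep.{u} k P.H} (c : k) (φ : Z ⟶ Z') :
    smallMap (c • φ) = c • smallMap φ := by
  ext f g
  rfl

lemma smallMap_pow {Z : Rep.{u} k P.H} (γ : End Z) (n : ℕ) :
    smallMap ((γ ^ n : End Z) : Z ⟶ Z) = (((End.of (smallMap (γ : Z ⟶ Z)) ^ n :
      End (P.small Z))) : P.small Z ⟶ P.small Z) := by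
  induction n with
  | zero => rfl
  | succ n ih =>
    rw [pow_succ, pow_succ, End.mul_def, End.mul_def, smallMap_comp, ih]

/-- `smallMap` commutes with polynomials in an endomorphism. -/
lemma smallMap_aeval {Z : Rep.{u} k P.H} (γ : End Z) (Q : Polynomial k) :
    smallMap ((Polynomial.aeval γ Q : End Z) : Z ⟶ Z) =
      ((Polynomial.aeval (End.of (smallMap (γ : Z ⟶ Z))) Q : End (P.small Z)) :
        P.small Z ⟶ P.small Z) := by
  induction Q using Polynomial.induction_on' with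
  | add Q Q' hQ hQ' =>
    rw [map_add, map_add]
    show smallMap ((Polynomial.aeval γ Q : Z ⟶ Z) + (Polynomial.aeval γ Q' : Z ⟶ Z)) = _
    rw [smallMap_add, hQ, hQ']
  | monomial n a =>
    rw [Polynomial.aeval_monomial, Polynomial.aeval_monomial, Algebra.algebraMap_eq_smul_one,
      Algebra.algebraMap_eq_smul_one, smul_mul_assoc, one_mul, smul_mul_assoc, one_mul]
    show smallMap (a • ((γ ^ n : End Z) : Z ⟶ Z)) = _
    rw [smallMap_smul, smallMap_pow]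

/-! ### `ind Y = Coind_{H₀}^H Res Y` and its `⋆'`-operators -/

variable (P) in
/-- `Coind_{H₀}^{H} Res_{H₀} Y` as a representation of `H` -/
abbrev ind (Y : Rep.{u} k P.H) : Rep.{u} k P.H := Rep.coind P.incl (P.res₀ Y)

lemma ind_prop (Y : Rep.{u} k P.H) (f : P.ind Y) (s : P.H₀) (h : P.H) :
    f.1 (P.incl s * h) = Y.ρ (P.incl s) (f.1 h) := f.2 s h

lemma ind_ρ_apply (Y : Rep.{u} k P.H) (f : P.ind Y) (x h : P.H) :
    ((P.ind Y).ρ x f).1 h = f.1 (h * x) := rfl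

lemma star'Fun_mem (Y : Rep.{u} k P.H) (n : P.H) (f : P.ind Y) :
    (fun h : P.H => Y.ρ n (f.1 (n⁻¹ * h))) ∈ Representation.coindV P.incl (P.res₀ Y).ρ := by
  intro s h
  show Y.ρ n (f.1 (n⁻¹ * (P.incl s * h))) = Y.ρ (P.incl s) (Y.ρ n (f.1 (n⁻¹ * h)))
  have hmem : (n : G)⁻¹ * (s : G) * (n : G) ∈ P.H₀ := P.conj_mem' n.2 s.2
  have h1 : n⁻¹ * (P.incl s * h) =
      P.incl ⟨(n : G)⁻¹ * (s : G) * (n : G), hmem⟩ * (n⁻¹ * h) := by
    apply Subtype.ext
    simp [mul_assoc]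
  rw [h1, ind_prop]
  have h2 : n * P.incl ⟨(n : G)⁻¹ * (s : G) * (n : G), hmem⟩ = P.incl s * n := by
    apply Subtype.ext
    simp [mul_assoc]
  rw [← Module.End.mul_apply, ← map_mul, h2, map_mul, Module.End.mul_apply]

/-- `n ⋆' -` as a linear endomorphism of `ind Y` -/
def star'Lin (Y : Rep.{u} k P.H) (n : P.H) : P.ind Y →ₗ[k] P.ind Y where
  toFun f := ⟨fun h => Y.ρ n (f.1 (n⁻¹ * h)), star'Fun_mem Y n f⟩
  map_add' f f' := by
    apply Subtype.ext
    funext h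
    show Y.ρ n ((f + f').1 _) = Y.ρ n (f.1 _) + Y.ρ n (f'.1 _)
    rw [← map_add]
    rfl
  map_smul' c f := by
    apply Subtype.ext
    funext h
    show Y.ρ n ((c • f).1 _) = c • Y.ρ n (f.1 _)
    rw [← map_smul]
    rfl

/-- **`n ⋆' -` as an `H`-equivariant endomorphism of `ind Y`.** -/
def star' (Y : Rep.{u} k P.H) (n : P.H) : P.ind Y ⟶ P.ind Y :=
  Rep.ofHom ⟨star'Lin Y n, fun x => by
    ext f h
    show Y.ρ n (((P.ind Y).ρ x f).1 (n⁻¹ * h)) = ((P.ind Y).ρ x (star'Lin Y n f)).1 h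
    rw [ind_ρ_apply, ind_ρ_apply]
    show Y.ρ n (f.1 (n⁻¹ * h * x)) = Y.ρ n (f.1 (n⁻¹ * (h * x)))
    rw [mul_assoc]⟩

@[simp] lemma star'_hom_apply (Y : Rep.{u} k P.H) (n : P.H) (f : P.ind Y) (h : P.H) :
    ((star' Y n).hom f).1 h = Y.ρ n (f.1 (n⁻¹ * h)) := rfl

/-! ### `W_Y ≅ Coind_H^G (ind Y)` -/

/-- the inner function `h ↦ F (h g)` -/
def toIndFun (Y : Rep.{u} k P.H) (F : P.big Y) (g : G) : P.ind Y :=
  ⟨fun h => F.1 ((h : G) * g), fun s h => by
    show F.1 (((P.incl s * h : P.H) : G) * g) = Y.ρ (P.incl s) (F.1 ((h : G) * g))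
    have : ((P.incl s * h : P.H) : G) * g = (s : G) * ((h : G) * g) := by
      simp [mul_assoc]
    rw [this, big_prop]⟩

@[simp] lemma toIndFun_apply (Y : Rep.{u} k P.H) (F : P.big Y) (g : G) (h : P.H) :
    (toIndFun Y F g).1 h = F.1 ((h : G) * g) := rfl

lemma toIndFun_mem (Y : Rep.{u} k P.H) (F : P.big Y) :
    toIndFun Y F ∈ Representation.coindV P.H.subtype (P.ind Y).ρ := by
  intro h' g
  apply Subtype.ext
  funext h
  show F.1 ((h : G) * ((h' : G) * g)) = ((P.ind Y).ρ h' (toIndFun Y F g)).1 h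
  rw [ind_ρ_apply, toIndFun_apply]
  simp [mul_assoc]

/-- `F ↦ (g ↦ (h ↦ F (h g)))` as a linear map `W_Y → Coind_H^G (ind Y)` -/
def toSmallIndLin (Y : Rep.{u} k P.H) : P.big Y →ₗ[k] P.small (P.ind Y) where
  toFun F := ⟨toIndFun Y F, toIndFun_mem Y F⟩
  map_add' F F' := by
    apply Subtype.ext
    funext g
    apply Subtype.ext
    funext h
    rfl
  map_smul' c F := by
    apply Subtype.ext
    funext g
    apply Subtype.ext
    funext h
    rfl

/-- `W_Y ⟶ Coind_H^G (ind Y)` -/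
def toSmallInd (Y : Rep.{u} k P.H) : P.big Y ⟶ P.small (P.ind Y) :=
  Rep.ofHom ⟨toSmallIndLin Y, fun x => by
    ext F g h
    show ((P.big Y).ρ x F).1 ((h : G) * g) = (((P.small (P.ind Y)).ρ x (toSmallIndLin Y F)).1 g).1 h
    rw [big_ρ_apply, small_ρ_apply]
    show F.1 ((h : G) * g * x) = F.1 ((h : G) * (g * x))
    rw [mul_assoc]⟩

@[simp] lemma toSmallInd_hom_apply (Y : Rep.{u} k P.H) (F : P.big Y) (g : G) (h : P.H) :
    (((toSmallInd Y).hom F).1 g).1 h = F.1 ((h : G) * g) := rfl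

lemma ofSmallIndFun_mem (Y : Rep.{u} k P.H) (Φ : P.small (P.ind Y)) :
    (fun g : G => (Φ.1 g).1 1) ∈ Representation.coindV P.H₀.subtype (P.res₀ Y).ρ := by
  intro s g
  show (Φ.1 ((s : G) * g)).1 1 = Y.ρ (P.incl s) ((Φ.1 g).1 1)
  have h1 : Φ.1 (((P.incl s : P.H) : G) * g) = (P.ind Y).ρ (P.incl s) (Φ.1 g) :=
    small_prop (P.ind Y) Φ (P.incl s) g
  have h1' : Φ.1 ((s : G) * g) = (P.ind Y).ρ (P.incl s) (Φ.1 g) := h1
  rw [h1', ind_ρ_apply, one_mul]
  have h2 := ind_prop Y (Φ.1 g) s 1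
  rw [mul_one] at h2
  exact h2

/-- `Φ ↦ (g ↦ Φ g 1)` as a linear map `Coind_H^G (ind Y) → W_Y` -/
def ofSmallIndLin (Y : Rep.{u} k P.H) : P.small (P.ind Y) →ₗ[k] P.big Y where
  toFun Φ := ⟨fun g => (Φ.1 g).1 1, ofSmallIndFun_mem Y Φ⟩
  map_add' Φ Φ' := by
    apply Subtype.ext
    funext g
    rfl
  map_smul' c Φ := by
    apply Subtype.ext
    funext g
    rfl

/-- `Coind_H^G (ind Y) ⟶ W_Y` -/
def ofSmallInd (Y : Rep.{u} k P.H) : P.small (P.ind Y) ⟶ P.big Y :=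
  Rep.ofHom ⟨ofSmallIndLin Y, fun x => by
    ext Φ g
    rfl⟩

@[simp] lemma ofSmallInd_hom_apply (Y : Rep.{u} k P.H) (Φ : P.small (P.ind Y)) (g : G) :
    ((ofSmallInd Y).hom Φ).1 g = (Φ.1 g).1 1 := rfl

lemma toSmallInd_ofSmallInd (Y : Rep.{u} k P.H) : toSmallInd Y ≫ ofSmallInd Y = 𝟙 (P.big Y) := by
  ext F g
  show ((ofSmallInd Y).hom ((toSmallInd Y).hom F)).1 g = F.1 g
  rw [ofSmallInd_hom_apply, toSmallInd_hom_apply]
  simp

lemma ofSmallInd_toSmallInd (Y : Rep.{u} k P.H) :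
    ofSmallInd Y ≫ toSmallInd Y = 𝟙 (P.small (P.ind Y)) := by
  ext Φ g h
  show (((toSmallInd Y).hom ((ofSmallInd Y).hom Φ)).1 g).1 h = (Φ.1 g).1 h
  rw [toSmallInd_hom_apply, ofSmallInd_hom_apply]
  have h1 : Φ.1 ((h : G) * g) = (P.ind Y).ρ h (Φ.1 g) := small_prop (P.ind Y) Φ h g
  rw [h1, ind_ρ_apply, one_mul]

/-- **`W_Y = Coind_{H₀}^G Res Y ≅ Coind_H^G (Coind_{H₀}^H Res Y)`** -/
def bigSmallIso (Y : Rep.{u} k P.H) : P.big Y ≅ P.small (P.ind Y) where
  hom := toSmallInd Y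
  inv := ofSmallInd Y
  hom_inv_id := toSmallInd_ofSmallInd Y
  inv_hom_id := ofSmallInd_toSmallInd Y

/-- the iso intertwines `n ⋆ -` on `W_Y` with `Coind_H^G (n ⋆' -)` -/
theorem bigSmallIso_star (Y : Rep.{u} k P.H) (n : P.H) :
    star Y n ≫ (bigSmallIso Y).hom = (bigSmallIso Y).hom ≫ smallMap (star' Y n) := by
  ext F g h
  show (((toSmallInd Y).hom ((star Y n).hom F)).1 g).1 h =
    (((smallMap (star' Y n)).hom ((toSmallInd Y).hom F)).1 g).1 h
  rw [toSmallInd_hom_apply, star_hom_apply, smallMap_hom_apply, star'_hom_apply,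
    toSmallInd_hom_apply]
  simp [mul_assoc]

/-- the iso intertwines polynomials in `n ⋆ -` with `Coind_H^G` of polynomials in `n ⋆' -` -/
theorem bigSmallIso_starPoly (Y : Rep.{u} k P.H) (n : P.H) (Q : Polynomial k) :
    (starPoly Y (QuotientGroup.mk n : P.C) Q : P.big Y ⟶ P.big Y) ≫ (bigSmallIso Y).hom =
      (bigSmallIso Y).hom ≫
        smallMap ((Polynomial.aeval (End.of (star' Y n)) Q : End (P.ind Y)) :
          P.ind Y ⟶ P.ind Y) := by
  rw [smallMap_aeval]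
  exact aeval_intertwine (starC Y (QuotientGroup.mk n : P.C))
    (End.of (smallMap (star' Y n))) (bigSmallIso Y).hom (bigSmallIso_star Y n) Q

/-- **CORE.** If `Z : Rep k H` is a retract of `ind Y` along the polynomial `Q(n ⋆' -)`, then
`Coind_H^G Z` is a retract of `W_Y` along `starPoly Y (mk n) Q = Q(n ⋆ -)`. -/
theorem small_retract_of_ind_retract (Y : Rep.{u} k P.H) (n : P.H) (Q : Polynomial k)
    (Z : Rep.{u} k P.H) (i₀ : Z ⟶ P.ind Y) (r₀ : P.ind Y ⟶ Z) (hir : i₀ ≫ r₀ = 𝟙 Z)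
    (hri : r₀ ≫ i₀ = ((Polynomial.aeval (End.of (star' Y n)) Q : End (P.ind Y)) :
      P.ind Y ⟶ P.ind Y)) :
    ∃ (i : P.small Z ⟶ P.big Y) (r : P.big Y ⟶ P.small Z), i ≫ r = 𝟙 (P.small Z) ∧
      r ≫ i = (starPoly Y (QuotientGroup.mk n : P.C) Q : P.big Y ⟶ P.big Y) := by
  refine ⟨smallMap i₀ ≫ (bigSmallIso Y).inv, (bigSmallIso Y).hom ≫ smallMap r₀, ?_, ?_⟩
  · rw [Category.assoc, Iso.inv_hom_id_assoc, ← smallMap_comp, hir, smallMap_id]
  · rw [Category.assoc, ← Category.assoc (smallMap r₀), ← smallMap_comp, hri,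
      ← Category.assoc, ← bigSmallIso_starPoly, Category.assoc, Iso.hom_inv_id, Category.comp_id]

end NormPair

end Fermat.Agent.GP.GW.E3
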