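/-
GATE-P / S56 [P-GW] node E3b (helper10): charpoly calculus, part A1.
Multiplicativity of `LinearMap.charpoly` on short exact sequences of
(module, endomorphism) pairs, and the chain form for long exact sequences
over a field.  Mathlib only.
-/
import Mathlib

namespace Fermat.Agent.GP.GW.E3B

open Polynomial Module

section Restrict

variable {R V : Type*} [CommRing R] [AddCommGroup V] [Module R V]
  [Module.Finite R V] [Module.Free R V]
  (W : Submodule R V) [Module.Free R W] [Module.Finite R W] [Module.Free R (V ⧸ W)]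

open Module.Basis in
/-- Characteristic polynomial version of Mathlib's `LinearMap.det_eq_det_mul_det`. -/
theorem charpoly_restrict_mul_mapQ (e : V →ₗ[R] V) (he : W ≤ W.comap e) :
    e.charpoly = (e.restrict he).charpoly * (W.mapQ W e he).charpoly := by
  classical
  let m := Module.Free.ChooseBasisIndex R W
  let bW : Basis m R W := Module.Free.chooseBasis R W
  let n := Module.Free.ChooseBasisIndex R (V ⧸ W)
  let bQ : Basis n R (V ⧸ W) := Module.Free.chooseBasis R (V ⧸ W)
  let b := sumQuot bW bQ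
  let A : Matrix m m R := LinearMap.toMatrix bW bW (e.restrict he)
  let B : Matrix m n R := Matrix.of fun i l ↦
    ((sumQuot bW bQ).repr (e ((sumQuot bW bQ) (Sum.inr l)))) (Sum.inl i)
  let D : Matrix n n R := LinearMap.toMatrix bQ bQ (W.mapQ W e he)
  suffices LinearMap.toMatrix b b e = Matrix.fromBlocks A B 0 D by
    rw [← LinearMap.charpoly_toMatrix e b, this, ← LinearMap.charpoly_toMatrix _ bW,
      ← LinearMap.charpoly_toMatrix _ bQ, Matrix.charpoly_fromBlocks_zero₂₁]
  ext u v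
  cases u with
  | inl i =>
    cases v with
    | inl k =>
      simp only [b, sumQuot_inl, Matrix.fromBlocks_apply₁₁, A, LinearMap.toMatrix_apply]
      apply sumQuot_repr_inl_of_mem
    | inr l => simp [b, LinearMap.toMatrix_apply, Matrix.fromBlocks_apply₁₂, B]
  | inr j =>
    cases v with
    | inl k =>
      suffices W.mkQ (e (bW k)) = 0 by simp [LinearMap.toMatrix_apply, b, this]
      rw [← LinearMap.mem_ker, Submodule.ker_mkQ]
      exact he (Submodule.coe_mem (bW k))
    | inr l =>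
      simp only [LinearMap.toMatrix_apply, sumQuot_repr_inr,
        Matrix.fromBlocks_apply₂₂, b, D]
      rw [← sumQuot_inr bW bQ l, W.mapQ_apply]
      simp

end Restrict

section Exact

variable {R V₁ V₂ V₃ : Type*} [CommRing R]
  [AddCommGroup V₁] [Module R V₁] [Module.Finite R V₁] [Module.Free R V₁]
  [AddCommGroup V₂] [Module R V₂] [Module.Finite R V₂] [Module.Free R V₂]
  [AddCommGroup V₃] [Module R V₃] [Module.Finite R V₃] [Module.Free R V₃]

/-- **A1.** The characteristic polynomial is multiplicative on short exact sequences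
`0 → (V₁,g₁) → (V₂,g₂) → (V₃,g₃) → 0` of free finite modules with endomorphisms. -/
theorem charpoly_of_exact (i : V₁ →ₗ[R] V₂) (π : V₂ →ₗ[R] V₃)
    (hi : Function.Injective i) (hπ : Function.Surjective π) (hex : Function.Exact i π)
    (g₁ : Module.End R V₁) (g₂ : Module.End R V₂) (g₃ : Module.End R V₃)
    (h₁ : ∀ x, i (g₁ x) = g₂ (i x)) (h₂ : ∀ x, π (g₂ x) = g₃ (π x)) :
    g₂.charpoly = g₁.charpoly * g₃.charpoly := by
  classical
  let W : Submodule R V₂ := LinearMap.ker π
  have he : W ≤ W.comap g₂ := by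
    intro x hx
    simp only [W, Submodule.mem_comap, LinearMap.mem_ker] at hx ⊢
    rw [h₂, hx, map_zero]
  let i' : V₁ →ₗ[R] W := i.codRestrict W (fun x => hex.apply_apply_eq_zero x)
  have hi' : Function.Bijective i' := by
    refine ⟨fun x y hxy => hi (by simpa [i'] using congrArg Subtype.val hxy), fun w => ?_⟩
    obtain ⟨x, hx⟩ := (hex w.1).1 w.2
    exact ⟨x, Subtype.ext hx⟩
  let e₁ : V₁ ≃ₗ[R] W := LinearEquiv.ofBijective i' hi'
  let e₃ : (V₂ ⧸ W) ≃ₗ[R] V₃ := π.quotKerEquivOfSurjective hπ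
  have : Module.Free R W := Module.Free.of_equiv e₁
  have : Module.Finite R W := Module.Finite.equiv e₁
  have : Module.Free R (V₂ ⧸ W) := Module.Free.of_equiv e₃.symm
  have hA : (g₂.restrict he).charpoly = g₁.charpoly := by
    rw [← LinearEquiv.charpoly_conj e₁ g₁]
    congr 1
    ext w
    obtain ⟨x, rfl⟩ := e₁.surjective w
    simp [LinearEquiv.conj_apply, e₁, i', h₁]
  have hD : (W.mapQ W g₂ he).charpoly = g₃.charpoly := by
    rw [← LinearEquiv.charpoly_conj e₃.symm g₃]
    congr 1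
    apply LinearMap.ext
    intro q
    obtain ⟨x, rfl⟩ := W.mkQ_surjective q
    apply e₃.injective
    have hq : ∀ y : V₂, e₃ (Submodule.Quotient.mk y) = π y := fun y =>
      LinearMap.quotKerEquivOfSurjective_apply_mk π hπ y
    simp only [LinearEquiv.conj_apply, LinearMap.comp_apply, LinearEquiv.coe_coe,
      LinearEquiv.symm_symm, LinearEquiv.apply_symm_apply, Submodule.mkQ_apply,
      Submodule.mapQ_apply, hq, h₂]
  rw [charpoly_restrict_mul_mapQ W g₂ he, hA, hD]

end Exact

section Chain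

variable {K A B C D : Type*} [Field K]
  [AddCommGroup A] [Module K A] [FiniteDimensional K A]
  [AddCommGroup B] [Module K B] [FiniteDimensional K B]
  [AddCommGroup C] [Module K C] [FiniteDimensional K C]
  [AddCommGroup D] [Module K D] [FiniteDimensional K D]

open Classical in
/-- The characteristic polynomial of `gB` on the image of `f` (`1` if the image is not
stable).  The bookkeeping device for long exact sequences: see `imPoly_mul_of_exact`. -/
noncomputable def imPoly (f : A →ₗ[K] B) (gB : Module.End K B) : K[X] :=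
  if h : ∀ y ∈ LinearMap.range f, gB y ∈ LinearMap.range f then
    (gB.restrict h).charpoly else 1

theorem range_stable_of_comm (f : A →ₗ[K] B) (gA : Module.End K A) (gB : Module.End K B)
    (h : ∀ x, f (gA x) = gB (f x)) : ∀ y ∈ LinearMap.range f, gB y ∈ LinearMap.range f := by
  rintro _ ⟨x, rfl⟩
  exact ⟨gA x, h x⟩

theorem imPoly_eq (f : A →ₗ[K] B) (gB : Module.End K B)
    (h : ∀ y ∈ LinearMap.range f, gB y ∈ LinearMap.range f) :
    imPoly f gB = (gB.restrict h).charpoly := by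
  unfold imPoly
  rw [dif_pos h]

/-- Exactness at `B` of `A → B → C` (equivariant maps): `P_B = imPoly f * imPoly f'`. -/
theorem imPoly_mul_of_exact (f : A →ₗ[K] B) (f' : B →ₗ[K] C) (hex : Function.Exact f f')
    (gA : Module.End K A) (gB : Module.End K B) (gC : Module.End K C)
    (h : ∀ x, f (gA x) = gB (f x)) (h' : ∀ x, f' (gB x) = gC (f' x)) :
    gB.charpoly = imPoly f gB * imPoly f' gC := by
  have hs := range_stable_of_comm f gA gB h
  have hs' := range_stable_of_comm f' gB gC h'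
  rw [imPoly_eq f gB hs, imPoly_eq f' gC hs']
  refine charpoly_of_exact (LinearMap.range f).subtype f'.rangeRestrict
    Subtype.val_injective f'.surjective_rangeRestrict ?_ _ _ _ (fun x => rfl) (fun x => ?_)
  · intro y
    constructor
    · intro hy
      have : f' y = 0 := by simpa using congrArg Subtype.val hy
      obtain ⟨x, hx⟩ := (hex y).1 this
      exact ⟨⟨y, ⟨x, hx⟩⟩, rfl⟩
    · rintro ⟨⟨_, ⟨x, rfl⟩⟩, rfl⟩
      apply Subtype.ext
      simpa using hex.apply_apply_eq_zero x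
  · apply Subtype.ext
    simp [LinearMap.restrict_apply, h']

theorem imPoly_of_injective (f : A →ₗ[K] B) (hf : Function.Injective f)
    (gA : Module.End K A) (gB : Module.End K B) (h : ∀ x, f (gA x) = gB (f x)) :
    imPoly f gB = gA.charpoly := by
  rw [imPoly_eq f gB (range_stable_of_comm f gA gB h)]
  rw [← LinearEquiv.charpoly_conj (LinearEquiv.ofInjective f hf) gA]
  congr 1
  ext w
  obtain ⟨x, rfl⟩ := (LinearEquiv.ofInjective f hf).surjective w
  simp [LinearEquiv.conj_apply, h]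

theorem imPoly_of_surjective (f : A →ₗ[K] B) (hf : Function.Surjective f)
    (gB : Module.End K B) : imPoly f gB = gB.charpoly := by
  have hr : LinearMap.range f = ⊤ := LinearMap.range_eq_top.2 hf
  have hs : ∀ y ∈ LinearMap.range f, gB y ∈ LinearMap.range f := fun y _ => by simp [hr]
  rw [imPoly_eq f gB hs]
  let e : LinearMap.range f ≃ₗ[K] B := (LinearEquiv.ofEq _ _ hr).trans Submodule.topEquiv
  rw [← LinearEquiv.charpoly_conj e (gB.restrict hs)]
  congr 1

theorem charpoly_eq_one_of_subsingleton [Subsingleton B] (gB : Module.End K B) :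
    gB.charpoly = 1 := by
  apply (LinearMap.charpoly_monic gB).natDegree_eq_zero.mp
  rw [LinearMap.charpoly_natDegree, Module.finrank_zero_of_subsingleton]

theorem imPoly_of_range_eq_bot (f : A →ₗ[K] B) (hf : LinearMap.range f = ⊥)
    (gB : Module.End K B) : imPoly f gB = 1 := by
  have hs : ∀ y ∈ LinearMap.range f, gB y ∈ LinearMap.range f := fun y hy => by
    rw [hf, Submodule.mem_bot] at hy ⊢
    rw [hy, map_zero]
  rw [imPoly_eq f gB hs]
  have : Subsingleton (LinearMap.range f) := by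
    rw [hf]; infer_instance
  exact charpoly_eq_one_of_subsingleton _

theorem imPoly_zero (gB : Module.End K B) : imPoly (0 : A →ₗ[K] B) gB = 1 :=
  imPoly_of_range_eq_bot 0 LinearMap.range_zero gB

/-- Four-term exact sequence `0 → A → B → C → D → 0`: `P_A * P_C = P_B * P_D`. -/
theorem charpoly_four_term (f₁ : A →ₗ[K] B) (f₂ : B →ₗ[K] C) (f₃ : C →ₗ[K] D)
    (h₁ : Function.Injective f₁) (h₁₂ : Function.Exact f₁ f₂) (h₂₃ : Function.Exact f₂ f₃)
    (h₃ : Function.Surjective f₃)
    (gA : Module.End K A) (gB : Module.End K B) (gC : Module.End K C) (gD : Module.End K D)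
    (c₁ : ∀ x, f₁ (gA x) = gB (f₁ x)) (c₂ : ∀ x, f₂ (gB x) = gC (f₂ x))
    (c₃ : ∀ x, f₃ (gC x) = gD (f₃ x)) :
    gA.charpoly * gC.charpoly = gB.charpoly * gD.charpoly := by
  rw [imPoly_mul_of_exact f₁ f₂ h₁₂ gA gB gC c₁ c₂, imPoly_mul_of_exact f₂ f₃ h₂₃ gB gC gD c₂ c₃,
    imPoly_of_injective f₁ h₁ gA gB c₁, imPoly_of_surjective f₃ h₃ gD]
  ring

/-- `P_A = charpoly (g_A | ker f) * imPoly f`. -/
theorem charpoly_eq_ker_mul_imPoly (f : A →ₗ[K] B) (gA : Module.End K A) (gB : Module.End K B)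
    (h : ∀ x, f (gA x) = gB (f x))
    (hk : ∀ x ∈ LinearMap.ker f, gA x ∈ LinearMap.ker f :=
      fun x hx => by rw [LinearMap.mem_ker] at hx ⊢; rw [h, hx, map_zero]) :
    gA.charpoly = (gA.restrict hk).charpoly * imPoly f gB := by
  have hex : Function.Exact (LinearMap.ker f).subtype f := fun y =>
    ⟨fun hy => ⟨⟨y, hy⟩, rfl⟩, by rintro ⟨⟨z, hz⟩, rfl⟩; exact hz⟩
  rw [imPoly_mul_of_exact (LinearMap.ker f).subtype f hex (gA.restrict hk) gA gB
    (fun x => rfl) h, imPoly_of_injective (LinearMap.ker f).subtype Subtype.val_injective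
    (gA.restrict hk) gA (fun x => rfl)]

variable {E F : Type*}
  [AddCommGroup E] [Module K E] [FiniteDimensional K E]
  [AddCommGroup F] [Module K F] [FiniteDimensional K F]

/-- Five-term exact sequence `0 → A → B → C → D → E → 0`: `P_A * P_C * P_E = P_B * P_D`. -/
theorem charpoly_five_term (f₁ : A →ₗ[K] B) (f₂ : B →ₗ[K] C) (f₃ : C →ₗ[K] D) (f₄ : D →ₗ[K] E)
    (h₁ : Function.Injective f₁) (h₁₂ : Function.Exact f₁ f₂) (h₂₃ : Function.Exact f₂ f₃)
    (h₃₄ : Function.Exact f₃ f₄) (h₄ : Function.Surjective f₄)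
    (gA : Module.End K A) (gB : Module.End K B) (gC : Module.End K C) (gD : Module.End K D)
    (gE : Module.End K E)
    (c₁ : ∀ x, f₁ (gA x) = gB (f₁ x)) (c₂ : ∀ x, f₂ (gB x) = gC (f₂ x))
    (c₃ : ∀ x, f₃ (gC x) = gD (f₃ x)) (c₄ : ∀ x, f₄ (gD x) = gE (f₄ x)) :
    gA.charpoly * gC.charpoly * gE.charpoly = gB.charpoly * gD.charpoly := by
  rw [imPoly_mul_of_exact f₁ f₂ h₁₂ gA gB gC c₁ c₂, imPoly_mul_of_exact f₂ f₃ h₂₃ gB gC gD c₂ c₃,
    imPoly_mul_of_exact f₃ f₄ h₃₄ gC gD gE c₃ c₄,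
    imPoly_of_injective f₁ h₁ gA gB c₁, imPoly_of_surjective f₄ h₄ gE]
  ring

/-- Six-term exact sequence `0 → A → B → C → D → E → F → 0`:
`P_A * P_C * P_E = P_B * P_D * P_F`. -/
theorem charpoly_six_term (f₁ : A →ₗ[K] B) (f₂ : B →ₗ[K] C) (f₃ : C →ₗ[K] D) (f₄ : D →ₗ[K] E)
    (f₅ : E →ₗ[K] F)
    (h₁ : Function.Injective f₁) (h₁₂ : Function.Exact f₁ f₂) (h₂₃ : Function.Exact f₂ f₃)
    (h₃₄ : Function.Exact f₃ f₄) (h₄₅ : Function.Exact f₄ f₅) (h₅ : Function.Surjective f₅)
    (gA : Module.End K A) (gB : Module.End K B) (gC : Module.End K C) (gD : Module.End K D)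
    (gE : Module.End K E) (gF : Module.End K F)
    (c₁ : ∀ x, f₁ (gA x) = gB (f₁ x)) (c₂ : ∀ x, f₂ (gB x) = gC (f₂ x))
    (c₃ : ∀ x, f₃ (gC x) = gD (f₃ x)) (c₄ : ∀ x, f₄ (gD x) = gE (f₄ x))
    (c₅ : ∀ x, f₅ (gE x) = gF (f₅ x)) :
    gA.charpoly * gC.charpoly * gE.charpoly = gB.charpoly * gD.charpoly * gF.charpoly := by
  rw [imPoly_mul_of_exact f₁ f₂ h₁₂ gA gB gC c₁ c₂, imPoly_mul_of_exact f₂ f₃ h₂₃ gB gC gD c₂ c₃,
    imPoly_mul_of_exact f₃ f₄ h₃₄ gC gD gE c₃ c₄, imPoly_mul_of_exact f₄ f₅ h₄₅ gD gE gF c₄ c₅,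
    imPoly_of_injective f₁ h₁ gA gB c₁, imPoly_of_surjective f₅ h₅ gF]
  ring

end Chain

end Fermat.Agent.GP.GW.E3B
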