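/-
GATE-P / S56 [P-GW] node E3b (helper10): charpoly calculus, parts A2–A4.
Lattices with an endomorphism: reduction mod p, extension of scalars to a
field of characteristic zero, finite-index sublattices, permutation modules.
Mathlib only.
-/
import Fermat.Agent.GP.GW.E3.CharpolyExact

namespace Fermat.Agent.GP.GW.E3B

open Polynomial Module

section Semilinear

variable {R S Λ V ι : Type*} [CommRing R] [CommRing S] [AddCommGroup Λ] [Module R Λ]
  [AddCommGroup V] [Module S V] [Fintype ι] [DecidableEq ι]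
  [Module.Free R Λ] [Module.Finite R Λ] [Module.Free S V] [Module.Finite S V]

/-- **Master lemma.**  `φ : R →+* S`, `j : Λ → V` additive and `φ`-semilinear, carrying an
`R`-basis `b` of `Λ` to an `S`-basis `B` of `V`, intertwining `g` and `gV`.  Then
`charpoly gV = (charpoly g).map φ`. -/
theorem charpoly_map_of_basis (φ : R →+* S) (j : Λ →+ V) (hj : ∀ (r : R) (x : Λ), j (r • x) = φ r • j x)
    (b : Basis ι R Λ) (B : Basis ι S V) (hb : ∀ i, j (b i) = B i)
    (g : Module.End R Λ) (gV : Module.End S V) (h : ∀ x, j (g x) = gV (j x)) :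
    gV.charpoly = g.charpoly.map φ := by
  have hrepr : ∀ (x : Λ) (i : ι), B.repr (j x) i = φ (b.repr x i) := by
    intro x i
    have hx : j x = ∑ k, φ (b.repr x k) • B k := by
      conv_lhs => rw [← b.sum_repr x]
      rw [map_sum]
      exact Finset.sum_congr rfl fun k _ => by rw [hj, hb]
    rw [hx, B.repr_sum_self]
  have hM : LinearMap.toMatrix B B gV = (LinearMap.toMatrix b b g).map φ := by
    ext i k
    rw [Matrix.map_apply, LinearMap.toMatrix_apply, LinearMap.toMatrix_apply, ← hb k, ← h, hrepr]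
  rw [← LinearMap.charpoly_toMatrix gV B, ← LinearMap.charpoly_toMatrix g b, hM,
    Matrix.charpoly_map]

end Semilinear

section ModP

variable {p : ℕ} [Fact p.Prime] {Λ X : Type*} [AddCommGroup Λ] [Module.Free ℤ Λ]
  [Module.Finite ℤ Λ] [AddCommGroup X] [Module (ZMod p) X] [Module.Finite (ZMod p) X]

/-- Additive maps into a `ZMod p`-module are semilinear along `ℤ → ZMod p`. -/
theorem map_zsmul_zmod (π : Λ →+ X) (r : ℤ) (x : Λ) :
    π (r • x) = (Int.castRingHom (ZMod p) r) • π x := by
  rw [map_zsmul, eq_intCast, Int.cast_smul_eq_zsmul]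

/-- **A2.**  `X ≅ Λ / pΛ` (given by a surjective additive `π` with kernel `pΛ`), `gX` induced by
`g`.  Then `charpoly gX` is the reduction mod `p` of `charpoly g`. -/
theorem charpoly_mod_p (π : Λ →+ X) (hπ : Function.Surjective π)
    (hker : ∀ x, π x = 0 → ∃ y, x = (p : ℤ) • y)
    (g : Module.End ℤ Λ) (gX : Module.End (ZMod p) X) (h : ∀ x, π (g x) = gX (π x)) :
    gX.charpoly = g.charpoly.map (Int.castRingHom (ZMod p)) := by
  classical
  let ι := Module.Free.ChooseBasisIndex ℤ Λ
  let b : Basis ι ℤ Λ := Module.Free.chooseBasis ℤ Λ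
  have hli : LinearIndependent (ZMod p) (fun i => π (b i)) := by
    rw [Fintype.linearIndependent_iff]
    intro c hc i
    have h1 : π (∑ k, ((c k).val : ℤ) • b k) = 0 := by
      rw [map_sum, ← hc]
      refine Finset.sum_congr rfl fun k _ => ?_
      rw [map_zsmul_zmod (p := p), eq_intCast, Int.cast_natCast, ZMod.natCast_zmod_val]
    obtain ⟨y, hy⟩ := hker _ h1
    have h2 := congrArg (fun z => b.repr z i) hy
    simp only [map_sum, map_smul, Finsupp.coe_finset_sum, Finsupp.coe_smul, Finset.sum_apply,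
      Pi.smul_apply, Basis.repr_self, Finsupp.single_apply, smul_eq_mul, mul_ite, mul_one,
      mul_zero, Finset.sum_ite_eq', Finset.mem_univ, if_true] at h2
    have h3 : (((c i).val : ℤ) : ZMod p) = 0 := by
      rw [h2]; simp
    simpa using h3
  have hsp : ⊤ ≤ Submodule.span (ZMod p) (Set.range fun i => π (b i)) := by
    intro x _
    obtain ⟨l, rfl⟩ := hπ x
    rw [← b.sum_repr l, map_sum]
    refine Submodule.sum_mem _ fun k _ => ?_
    rw [map_zsmul_zmod (p := p)]
    exact Submodule.smul_mem _ _ (Submodule.subset_span ⟨k, rfl⟩)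
  let B : Basis ι (ZMod p) X := Basis.mk hli hsp
  exact charpoly_map_of_basis (Int.castRingHom (ZMod p)) π (map_zsmul_zmod π) b B
    (fun i => by simp [B]) g gX h

end ModP

section Scalars

variable {K Λ V ι : Type*} [AddCommGroup Λ] [Module.Free ℤ Λ] [Module.Finite ℤ Λ]
  [AddCommGroup V] [Fintype ι] [DecidableEq ι]

theorem map_zsmul_intCast [CommRing K] [Module K V] (j : Λ →+ V) (r : ℤ) (x : Λ) :
    j (r • x) = (Int.castRingHom K r) • j x := by
  rw [map_zsmul, eq_intCast, Int.cast_smul_eq_zsmul]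

/-- **A3.**  A `ℤ`-lattice `Λ` whose `ℤ`-basis is carried to a `K`-basis of `V`
(`K` any commutative ring, e.g. `ℚ`, `ℝ`): `charpoly gV = (charpoly g).map (ℤ → K)`. -/
theorem charpoly_extend_of_basis [CommRing K] [Module K V] [Module.Free K V] [Module.Finite K V]
    (j : Λ →+ V) (b : Basis ι ℤ Λ) (B : Basis ι K V) (hb : ∀ i, j (b i) = B i)
    (g : Module.End ℤ Λ) (gV : Module.End K V) (h : ∀ x, j (g x) = gV (j x)) :
    gV.charpoly = g.charpoly.map (Int.castRingHom K) :=
  charpoly_map_of_basis (Int.castRingHom K) j (map_zsmul_intCast j) b B hb g gV h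

/-- **A3, one-sided.**  If the image of a `ℤ`-basis is only `K`-linearly independent (a discrete
subgroup of a real vector space), then `(charpoly g).map (ℤ → K)` divides `charpoly gV`. -/
theorem charpoly_map_dvd_of_linearIndependent [Field K] [Module K V] [FiniteDimensional K V]
    (j : Λ →+ V) (b : Basis ι ℤ Λ) (hli : LinearIndependent K (fun i => j (b i)))
    (g : Module.End ℤ Λ) (gV : Module.End K V) (h : ∀ x, j (g x) = gV (j x)) :
    g.charpoly.map (Int.castRingHom K) ∣ gV.charpoly := by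
  classical
  set W : Submodule K V := Submodule.span K (Set.range fun i => j (b i)) with hW
  have hjW : ∀ x, j x ∈ W := by
    intro x
    rw [← b.sum_repr x, map_sum]
    refine Submodule.sum_mem _ fun k _ => ?_
    rw [map_zsmul_intCast (K := K)]
    exact Submodule.smul_mem _ _ (Submodule.subset_span ⟨k, rfl⟩)
  have hs : W ≤ W.comap gV := by
    rw [hW, Submodule.span_le]
    rintro _ ⟨i, rfl⟩
    simp only [Submodule.comap_coe, Set.mem_preimage, SetLike.mem_coe]
    rw [← h]
    exact hjW _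
  let B : Basis ι K W := Basis.span hli
  let j' : Λ →+ W := j.codRestrict W.toAddSubgroup hjW
  have hj' : ∀ x, ((j' x : W) : V) = j x := fun x => rfl
  have hB : ∀ i, j' (b i) = B i := fun i => by
    apply Subtype.ext
    rw [hj', Basis.span_apply]
  have h1 : (gV.restrict hs).charpoly = g.charpoly.map (Int.castRingHom K) :=
    charpoly_extend_of_basis j' b B hB g (gV.restrict hs) (fun x => by
      apply Subtype.ext
      rw [LinearMap.restrict_apply]
      simp only [hj', h])
  rw [charpoly_restrict_mul_mapQ W gV hs, h1]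
  exact dvd_mul_right _ _

end Scalars

section Gauss

/-- Divisibility of monic integer polynomials can be tested over any ring into which `ℤ`
injects (`ℚ`, `ℝ`). -/
theorem int_dvd_of_map_dvd_map {K : Type*} [Ring K] [CharZero K] {P Q : ℤ[X]} (hP : P.Monic)
    (h : P.map (Int.castRingHom K) ∣ Q.map (Int.castRingHom K)) : P ∣ Q :=
  (Polynomial.map_dvd_map (Int.castRingHom K) Int.cast_injective hP).1 h

theorem int_eq_of_map_eq_map {K : Type*} [Ring K] [CharZero K] {P Q : ℤ[X]}
    (h : P.map (Int.castRingHom K) = Q.map (Int.castRingHom K)) : P = Q :=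
  Polynomial.map_injective (Int.castRingHom K) Int.cast_injective h

end Gauss

section Sublattice

open TensorProduct

variable {Λ' Λ : Type*} [AddCommGroup Λ'] [Module.Free ℤ Λ'] [Module.Finite ℤ Λ']
  [AddCommGroup Λ] [Module.Free ℤ Λ] [Module.Finite ℤ Λ]

/-- **A4.**  An injective equivariant map between lattices of the same rank (e.g. the inclusion
of a stable sublattice of finite index) preserves the characteristic polynomial. -/
theorem charpoly_eq_of_injective_of_finrank_eq (i : Λ' →ₗ[ℤ] Λ) (hi : Function.Injective i)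
    (hr : finrank ℤ Λ' = finrank ℤ Λ) (g' : Module.End ℤ Λ') (g : Module.End ℤ Λ)
    (h : ∀ x, i (g' x) = g (i x)) : g'.charpoly = g.charpoly := by
  apply Polynomial.map_injective (algebraMap ℤ ℚ) (algebraMap ℤ ℚ).injective_int
  rw [← LinearMap.charpoly_baseChange g' ℚ, ← LinearMap.charpoly_baseChange g ℚ]
  have hinj : Function.Injective (i.baseChange ℚ) :=
    Module.Flat.lTensor_preserves_injective_linearMap (M := ℚ) i hi
  have hfr : finrank ℚ (ℚ ⊗[ℤ] Λ') = finrank ℚ (ℚ ⊗[ℤ] Λ) := by
    rw [Module.finrank_baseChange, Module.finrank_baseChange, hr]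
  have hbij : Function.Bijective (i.baseChange ℚ) :=
    ⟨hinj, (LinearMap.injective_iff_surjective_of_finrank_eq_finrank hfr).1 hinj⟩
  let e : (ℚ ⊗[ℤ] Λ') ≃ₗ[ℚ] (ℚ ⊗[ℤ] Λ) := LinearEquiv.ofBijective (i.baseChange ℚ) hbij
  rw [← LinearEquiv.charpoly_conj e (g'.baseChange ℚ)]
  congr 1
  have hcomm : (i.baseChange ℚ) ∘ₗ (g'.baseChange ℚ) = (g.baseChange ℚ) ∘ₗ (i.baseChange ℚ) := by
    rw [← LinearMap.baseChange_comp, ← LinearMap.baseChange_comp]
    congr 1
    exact LinearMap.ext h
  apply LinearMap.ext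
  intro y
  obtain ⟨x, rfl⟩ := e.surjective y
  simp only [LinearEquiv.conj_apply, LinearMap.comp_apply, LinearEquiv.coe_coe,
    LinearEquiv.symm_apply_apply]
  exact LinearMap.congr_fun hcomm x

/-- **A4, finite-index form.** -/
theorem charpoly_eq_of_injective_of_finite_coker (i : Λ' →ₗ[ℤ] Λ) (hi : Function.Injective i)
    (hfin : Finite (Λ ⧸ LinearMap.range i)) (g' : Module.End ℤ Λ') (g : Module.End ℤ Λ)
    (h : ∀ x, i (g' x) = g (i x)) : g'.charpoly = g.charpoly := by
  refine charpoly_eq_of_injective_of_finrank_eq i hi ?_ g' g h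
  rw [← (Submodule.finiteQuotient_iff (LinearMap.range i)).1 hfin]
  exact (LinearEquiv.ofInjective i hi).finrank_eq

end Sublattice

section Perm

variable {Ω : Type*} [Fintype Ω] [DecidableEq Ω]

/-- The permutation action of `σ` on functions: `(σ • f) ω = f (σ⁻¹ ω)`, i.e. `e_ω ↦ e_{σ ω}`. -/
def permEnd (R : Type*) [CommRing R] (σ : Equiv.Perm Ω) : Module.End R (Ω → R) :=
  LinearMap.funLeft R R σ.symm

@[simp] theorem permEnd_apply (R : Type*) [CommRing R] (σ : Equiv.Perm Ω) (f : Ω → R) (ω : Ω) :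
    permEnd R σ f ω = f (σ.symm ω) := rfl

theorem permEnd_single (R : Type*) [CommRing R] (σ : Equiv.Perm Ω) (ω : Ω) (r : R) :
    permEnd R σ (Pi.single ω r) = Pi.single (σ ω) r := by
  ext τ
  simp only [permEnd_apply, Pi.single_apply]
  by_cases h : τ = σ ω
  · simp [h]
  · have : σ.symm τ ≠ ω := fun h' => h (by rw [← h', Equiv.apply_symm_apply])
    simp [h, this]

/-- The characteristic polynomial of a permutation, over `ℤ`. -/
noncomputable def permPoly (σ : Equiv.Perm Ω) : ℤ[X] := (permEnd ℤ σ).charpoly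

theorem permPoly_monic (σ : Equiv.Perm Ω) : (permPoly σ).Monic := LinearMap.charpoly_monic _

/-- The characteristic polynomial of a permutation module over any commutative ring is the
image of the integral one. -/
theorem charpoly_permEnd (R : Type*) [CommRing R] (σ : Equiv.Perm Ω) :
    (permEnd R σ).charpoly = (permPoly σ).map (Int.castRingHom R) := by
  refine charpoly_map_of_basis (Int.castRingHom R) ((Int.castAddHom R).compLeft Ω) ?_
    (Pi.basisFun ℤ Ω) (Pi.basisFun R Ω) ?_ (permEnd ℤ σ) (permEnd R σ) ?_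
  · intro r x
    ext ω
    simp
  · intro i
    ext ω
    by_cases hω : ω = i <;> simp [Pi.single_apply, hω]
  · intro x
    ext ω
    simp

variable (K : Type*) [Field K]

/-- The sum map `(Ω → K) → K`. -/
def sumMap : (Ω → K) →ₗ[K] K := ∑ ω : Ω, LinearMap.proj ω

omit [DecidableEq Ω] in
@[simp] theorem sumMap_apply (f : Ω → K) : sumMap K f = ∑ ω, f ω := by
  simp [sumMap]

theorem sumMap_permEnd (σ : Equiv.Perm Ω) (f : Ω → K) :
    sumMap K (permEnd K σ f) = sumMap K f := by
  simp only [sumMap_apply, permEnd_apply]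
  exact Equiv.sum_comp σ.symm f

/-- The sum-zero hyperplane of the permutation module. -/
def hyperplane : Submodule K (Ω → K) := LinearMap.ker (sumMap K (Ω := Ω))

theorem hyperplane_stable (σ : Equiv.Perm Ω) :
    ∀ f ∈ hyperplane K (Ω := Ω), permEnd K σ f ∈ hyperplane K (Ω := Ω) := by
  intro f hf
  rw [hyperplane, LinearMap.mem_ker] at hf ⊢
  rw [sumMap_permEnd, hf]

/-- `charpoly (K[Ω]) = charpoly (sum-zero hyperplane) * (X - 1)`. -/
theorem charpoly_hyperplane_mul [Nonempty Ω] (σ : Equiv.Perm Ω) :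
    ((permEnd K σ).restrict (hyperplane_stable K σ)).charpoly * (X - 1) =
      (permEnd K σ).charpoly := by
  have hsurj : Function.Surjective (sumMap K (Ω := Ω)) := by
    intro r
    obtain ⟨ω₀⟩ := ‹Nonempty Ω›
    exact ⟨Pi.single ω₀ r, by simp⟩
  have hex : Function.Exact (hyperplane K (Ω := Ω)).subtype (sumMap K (Ω := Ω)) := fun y =>
    ⟨fun hy => ⟨⟨y, hy⟩, rfl⟩, by rintro ⟨⟨z, hz⟩, rfl⟩; exact hz⟩
  have h1 : (1 : Module.End K K).charpoly = X - 1 := by
    rw [LinearMap.charpoly_one, Module.finrank_self, pow_one]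
  rw [charpoly_of_exact (hyperplane K (Ω := Ω)).subtype (sumMap K (Ω := Ω))
    Subtype.val_injective hsurj hex ((permEnd K σ).restrict (hyperplane_stable K σ))
    (permEnd K σ) 1 (fun x => rfl) (fun x => by rw [sumMap_permEnd]; rfl), h1]

end Perm

section TwoLattices

variable {Λ Λ' V ι ι' K : Type*} [AddCommGroup Λ] [Module.Free ℤ Λ] [Module.Finite ℤ Λ]
  [AddCommGroup Λ'] [Module.Free ℤ Λ'] [Module.Finite ℤ Λ']
  [Fintype ι] [DecidableEq ι] [Fintype ι'] [DecidableEq ι']
  [Field K] [CharZero K] [AddCommGroup V] [Module K V] [FiniteDimensional K V]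

/-- A discrete lattice `Λ` and a full lattice `Λ'` in one representation `(V, gV)`:
`charpoly g ∣ charpoly g'` over `ℤ` (hence mod every `p`). -/
theorem charpoly_dvd_of_common_space (gV : Module.End K V)
    (j : Λ →+ V) (b : Basis ι ℤ Λ) (hli : LinearIndependent K (fun i => j (b i)))
    (g : Module.End ℤ Λ) (h : ∀ x, j (g x) = gV (j x))
    (j' : Λ' →+ V) (b' : Basis ι' ℤ Λ') (B' : Basis ι' K V) (hb' : ∀ i, j' (b' i) = B' i)
    (g' : Module.End ℤ Λ') (h' : ∀ x, j' (g' x) = gV (j' x)) :
    g.charpoly ∣ g'.charpoly := by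
  apply int_dvd_of_map_dvd_map (K := K) g.charpoly_monic
  rw [← charpoly_extend_of_basis j' b' B' hb' g' gV h']
  exact charpoly_map_dvd_of_linearIndependent j b hli g gV h

/-- Two full lattices in one representation have the same characteristic polynomial. -/
theorem charpoly_eq_of_common_space (gV : Module.End K V)
    (j : Λ →+ V) (b : Basis ι ℤ Λ) (B : Basis ι K V) (hb : ∀ i, j (b i) = B i)
    (g : Module.End ℤ Λ) (h : ∀ x, j (g x) = gV (j x))
    (j' : Λ' →+ V) (b' : Basis ι' ℤ Λ') (B' : Basis ι' K V) (hb' : ∀ i, j' (b' i) = B' i)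
    (g' : Module.End ℤ Λ') (h' : ∀ x, j' (g' x) = gV (j' x)) :
    g.charpoly = g'.charpoly := by
  apply int_eq_of_map_eq_map (K := K)
  rw [← charpoly_extend_of_basis j' b' B' hb' g' gV h',
    ← charpoly_extend_of_basis j b B hb g gV h]

end TwoLattices

section Package

variable {Ω Λ ι : Type*} [Fintype Ω] [DecidableEq Ω] [Nonempty Ω]
  [AddCommGroup Λ] [Module.Free ℤ Λ] [Module.Finite ℤ Λ] [Fintype ι] [DecidableEq ι]
  {K : Type*} [Field K] [CharZero K]

/-- **One-sided equivariant Dirichlet, algebraic core.**  A lattice `Λ` with an endomorphism `g`,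
mapped equivariantly into the sum-zero hyperplane of a permutation module `K[Ω]` (`K = ℝ`) with
`K`-linearly independent image of a `ℤ`-basis: then `charpoly g * (X - 1) ∣ permPoly σ` in `ℤ[X]`. -/
theorem charpoly_mul_X_sub_one_dvd_permPoly (σ : Equiv.Perm Ω) (j : Λ →+ (Ω → K))
    (b : Basis ι ℤ Λ) (hli : LinearIndependent K (fun i => j (b i)))
    (hsum : ∀ x, ∑ ω, j x ω = 0) (g : Module.End ℤ Λ)
    (h : ∀ x, j (g x) = permEnd K σ (j x)) :
    g.charpoly * (X - 1) ∣ permPoly σ := by
  have hmem : ∀ x, j x ∈ (hyperplane K (Ω := Ω)).toAddSubgroup := fun x => by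
    change j x ∈ hyperplane K
    rw [hyperplane, LinearMap.mem_ker, sumMap_apply, hsum]
  let jH : Λ →+ hyperplane K (Ω := Ω) := j.codRestrict _ hmem
  have hjH : ∀ x, ((jH x : hyperplane K (Ω := Ω)) : Ω → K) = j x := fun x => rfl
  have hliH : LinearIndependent K (fun i => jH (b i)) :=
    LinearIndependent.of_comp (hyperplane K (Ω := Ω)).subtype hli
  have d := charpoly_map_dvd_of_linearIndependent jH b hliH g
    ((permEnd K σ).restrict (hyperplane_stable K σ)) (fun x => by
      apply Subtype.ext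
      rw [LinearMap.restrict_apply]
      simp only [hjH, h])
  apply int_dvd_of_map_dvd_map (K := K) (g.charpoly_monic.mul (monic_X_sub_C 1))
  rw [← charpoly_permEnd K σ, ← charpoly_hyperplane_mul K σ, Polynomial.map_mul]
  have : ((X : ℤ[X]) - C 1).map (Int.castRingHom K) = X - 1 := by simp
  rw [this]
  exact mul_dvd_mul_right d _

/-- **Two-sided version**: if moreover the image of the `ℤ`-basis is a `K`-basis of the
hyperplane (Dirichlet's unit theorem), then `charpoly g * (X - 1) = permPoly σ`. -/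
theorem charpoly_mul_X_sub_one_eq_permPoly (σ : Equiv.Perm Ω) (j : Λ →+ (Ω → K))
    (b : Basis ι ℤ Λ) (B : Basis ι K (hyperplane K (Ω := Ω)))
    (hB : ∀ i, j (b i) = B i) (g : Module.End ℤ Λ)
    (h : ∀ x, j (g x) = permEnd K σ (j x)) :
    g.charpoly * (X - 1) = permPoly σ := by
  have hmem : ∀ x, j x ∈ (hyperplane K (Ω := Ω)).toAddSubgroup := fun x => by
    change j x ∈ hyperplane K
    rw [← b.sum_repr x, map_sum]
    refine Submodule.sum_mem _ fun k _ => ?_
    rw [map_zsmul_intCast (K := K), hB]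
    exact Submodule.smul_mem _ _ (B k).2
  let jH : Λ →+ hyperplane K (Ω := Ω) := j.codRestrict _ hmem
  have hjH : ∀ x, ((jH x : hyperplane K (Ω := Ω)) : Ω → K) = j x := fun x => rfl
  have e := charpoly_extend_of_basis jH b B (fun i => Subtype.ext (by rw [hjH, hB])) g
    ((permEnd K σ).restrict (hyperplane_stable K σ)) (fun x => by
      apply Subtype.ext
      rw [LinearMap.restrict_apply]
      simp only [hjH, h])
  apply int_eq_of_map_eq_map (K := K)
  rw [← charpoly_permEnd K σ, ← charpoly_hyperplane_mul K σ, Polynomial.map_mul, e]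
  simp

variable {p : ℕ} [Fact p.Prime] {X' : Type*} [AddCommGroup X'] [Module (ZMod p) X']
  [Module.Finite (ZMod p) X']

/-- **Mod `p` form of the one-sided statement**: with `X' ≅ Λ/pΛ`,
`charpoly gX * (X - 1) ∣ charpoly (𝔽_p[Ω])`. -/
theorem charpoly_mod_p_mul_X_sub_one_dvd (σ : Equiv.Perm Ω) (j : Λ →+ (Ω → K))
    (b : Basis ι ℤ Λ) (hli : LinearIndependent K (fun i => j (b i)))
    (hsum : ∀ x, ∑ ω, j x ω = 0) (g : Module.End ℤ Λ)
    (h : ∀ x, j (g x) = permEnd K σ (j x))
    (π : Λ →+ X') (hπ : Function.Surjective π) (hker : ∀ x, π x = 0 → ∃ y, x = (p : ℤ) • y)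
    (gX : Module.End (ZMod p) X') (hX : ∀ x, π (g x) = gX (π x)) :
    gX.charpoly * (X - 1) ∣ (permEnd (ZMod p) σ).charpoly := by
  rw [charpoly_permEnd, charpoly_mod_p π hπ hker g gX hX]
  have := Polynomial.map_dvd (Int.castRingHom (ZMod p))
    (charpoly_mul_X_sub_one_dvd_permPoly σ j b hli hsum g h)
  simpa using this

/-- **Mod `p` form of the two-sided statement.** -/
theorem charpoly_mod_p_mul_X_sub_one_eq (σ : Equiv.Perm Ω) (j : Λ →+ (Ω → K))
    (b : Basis ι ℤ Λ) (B : Basis ι K (hyperplane K (Ω := Ω)))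
    (hB : ∀ i, j (b i) = B i) (g : Module.End ℤ Λ)
    (h : ∀ x, j (g x) = permEnd K σ (j x))
    (π : Λ →+ X') (hπ : Function.Surjective π) (hker : ∀ x, π x = 0 → ∃ y, x = (p : ℤ) • y)
    (gX : Module.End (ZMod p) X') (hX : ∀ x, π (g x) = gX (π x)) :
    gX.charpoly * (X - 1) = (permEnd (ZMod p) σ).charpoly := by
  rw [charpoly_permEnd, charpoly_mod_p π hπ hker g gX hX,
    ← charpoly_mul_X_sub_one_eq_permPoly σ j b B hB g h]
  simp

end Package

end Fermat.Agent.GP.GW.E3B
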