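/-
GATE-P / S56 [P-GW] node E3b (helper10): charpoly calculus, part A6.
From characteristic polynomials back to dimensions of kernels:
`finrank ker f(g) = deg f * multiplicity f (charpoly g)` for `f` irreducible and `g`
semisimple at `f` (e.g. `g ^ n = 1` with `n` invertible).  Mathlib only.
-/
import Fermat.Agent.GP.GW.E3.CharpolyExact

namespace Fermat.Agent.GP.GW.E3B

open Polynomial Module TensorProduct

section Intertwine

variable {K V V' : Type*} [CommRing K] [AddCommGroup V] [Module K V] [AddCommGroup V'] [Module K V']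

/-- Polynomials in intertwined endomorphisms are intertwined. -/
theorem aeval_intertwine (π : V →ₗ[K] V') (g : Module.End K V) (g' : Module.End K V')
    (h : ∀ x, π (g x) = g' (π x)) (q : K[X]) (x : V) :
    π (aeval g q x) = aeval g' q (π x) := by
  induction q using Polynomial.induction_on' generalizing x with
  | add q₁ q₂ h₁ h₂ => simp [map_add, h₁, h₂]
  | monomial n a =>
    simp only [aeval_monomial, Module.End.mul_apply, Module.algebraMap_end_apply, map_smul]
    congr 1
    induction n generalizing x with
    | zero => simp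
    | succ n ih => rw [pow_succ, Module.End.mul_apply, ih, h, ← Module.End.mul_apply, ← pow_succ]

end Intertwine

section Coprime

variable {K V : Type*} [Field K] [AddCommGroup V] [Module K V] [FiniteDimensional K V]

/-- **A6 (i).**  If `f` is irreducible and `f(g)` is injective then `f` is coprime to the
characteristic polynomial of `g`.  (Base change to `K[X]/(f)`, where `f` acquires a root, and the
eigenvalue criterion.) -/
theorem isCoprime_charpoly_of_injective (g : Module.End K V) (f : K[X]) (hf : Irreducible f)
    (hinj : Function.Injective (aeval g f)) : IsCoprime f g.charpoly := by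
  rcases EuclideanDomain.dvd_or_coprime f g.charpoly hf with hdvd | hcop
  · exfalso
    haveI : Fact (Irreducible f) := ⟨hf⟩
    let L := AdjoinRoot f
    let α : L := AdjoinRoot.root f
    let gL : Module.End L (L ⊗[K] V) := g.baseChange L
    have hroot : (gL.charpoly).IsRoot α := by
      rw [LinearMap.charpoly_baseChange]
      obtain ⟨c, hc⟩ := hdvd
      rw [hc, Polynomial.map_mul, IsRoot.def, eval_mul]
      have := AdjoinRoot.isRoot_root f
      rw [IsRoot.def, ← AdjoinRoot.algebraMap_eq] at this
      rw [this, zero_mul]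
    obtain ⟨w, hw⟩ := ((Module.End.hasEigenvalue_iff_isRoot_charpoly gL α).2 hroot).exists_hasEigenvector
    have h1 : aeval gL (f.map (algebraMap K L)) w = 0 := by
      rw [Module.End.aeval_apply_of_hasEigenvector hw]
      have := AdjoinRoot.isRoot_root f
      rw [IsRoot.def, ← AdjoinRoot.algebraMap_eq] at this
      rw [this, zero_smul]
    have h2 : aeval gL (f.map (algebraMap K L)) = (aeval g f).baseChange L := by
      rw [aeval_map_algebraMap]
      exact aeval_algHom_apply (Module.End.baseChangeHom K L V) g f
    rw [h2] at h1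
    have h3 : Function.Injective ((aeval g f).baseChange L) := by
      have := Module.Flat.lTensor_preserves_injective_linearMap (M := L) (aeval g f) hinj
      intro a b hab
      exact this hab
    exact hw.2 (h3 (by rw [h1, map_zero]))
  · exact hcop

/-- If `f(g)` is not injective... contrapositive form: an irreducible factor of the
characteristic polynomial kills a nonzero vector. -/
theorem exists_ne_zero_aeval_eq_zero_of_dvd_charpoly (g : Module.End K V) (q : K[X])
    (hq : Irreducible q) (hdvd : q ∣ g.charpoly) : ∃ w : V, w ≠ 0 ∧ aeval g q w = 0 := by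
  by_contra hcon
  push Not at hcon
  have hinj : Function.Injective (aeval g q) := by
    rw [injective_iff_map_eq_zero]
    intro w hw
    by_contra hne
    exact hcon w hne hw
  have hcop := isCoprime_charpoly_of_injective g q hq hinj
  exact hq.not_isUnit (hcop.isUnit_of_dvd' dvd_rfl hdvd)

/-- If `f(g) = 0` with `f` irreducible then `charpoly g` is, up to a unit, a power of `f`, and
`dim V = deg f * multiplicity`. -/
theorem finrank_eq_of_aeval_eq_zero (g : Module.End K V) (f : K[X]) (hf : Irreducible f)
    (h0 : aeval g f = 0) : finrank K V = f.natDegree * multiplicity f g.charpoly := by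
  set P := g.charpoly with hP
  have hP0 : P ≠ 0 := g.charpoly_monic.ne_zero
  have hfin : FiniteMultiplicity f P := FiniteMultiplicity.of_not_isUnit hf.not_isUnit hP0
  obtain ⟨Q, hQ, hfQ⟩ := hfin.exists_eq_pow_mul_and_not_dvd
  have hQ0 : Q ≠ 0 := by
    rintro rfl
    exact hP0 (by rw [hQ, mul_zero])
  have hQu : IsUnit Q := by
    by_contra hnu
    obtain ⟨q, hq, hqQ⟩ := WfDvdMonoid.exists_irreducible_factor hnu hQ0
    have hqP : q ∣ P := hqQ.trans (Dvd.intro_left _ hQ.symm)
    obtain ⟨w, hw0, hw⟩ := exists_ne_zero_aeval_eq_zero_of_dvd_charpoly g q hq hqP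
    rcases EuclideanDomain.dvd_or_coprime q f hq with hd | hc
    · exact hfQ ((hq.dvd_symm hf hd).trans hqQ)
    · obtain ⟨a, b, hab⟩ := hc
      have : aeval g (a * q + b * f) w = w := by rw [hab]; simp
      rw [map_add, map_mul, map_mul, h0, mul_zero, add_zero, Module.End.mul_apply, hw,
        map_zero] at this
      exact hw0 this.symm
  have hdeg : P.natDegree = multiplicity f P * f.natDegree := by
    conv_lhs => rw [hQ]
    rw [natDegree_mul (pow_ne_zero _ hf.ne_zero) hQ0, natDegree_pow,
      natDegree_eq_zero_of_isUnit hQu, add_zero]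
  rw [← LinearMap.charpoly_natDegree g, ← hP, hdeg, mul_comm]

end Coprime

section KerMult

variable {K V : Type*} [Field K] [AddCommGroup V] [Module K V] [FiniteDimensional K V]

/-- **A6 (ii).**  `f` irreducible, `g` semisimple at `f` (`ker f(g)² ≤ ker f(g)`):
`finrank (ker f(g)) = deg f * multiplicity f (charpoly g)`. -/
theorem finrank_ker_aeval (g : Module.End K V) (f : K[X]) (hf : Irreducible f)
    (hss : ∀ x, aeval g f (aeval g f x) = 0 → aeval g f x = 0) :
    finrank K (LinearMap.ker (aeval g f)) = f.natDegree * multiplicity f g.charpoly := by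
  set φ := aeval g f with hφ
  set W : Submodule K V := LinearMap.ker φ with hW
  have hcomm : ∀ x, g (φ x) = φ (g x) := fun x => aeval_intertwine g g g (fun _ => rfl) f x
  have he : W ≤ W.comap g := by
    intro x hx
    rw [hW, Submodule.mem_comap, LinearMap.mem_ker] at *
    rw [← hcomm, hx, map_zero]
  -- Step 1
  let gW : Module.End K W := g.restrict he
  have h1 : g.charpoly = gW.charpoly * (W.mapQ W g he).charpoly :=
    charpoly_restrict_mul_mapQ W g he
  -- Step 2: `f(ḡ)` injective on the quotient
  have hinj : Function.Injective (aeval (W.mapQ W g he) f) := by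
    rw [injective_iff_map_eq_zero]
    intro y hy
    obtain ⟨x, rfl⟩ := W.mkQ_surjective y
    have hx := aeval_intertwine W.mkQ g (W.mapQ W g he) (fun z => by simp) f x
    rw [hy] at hx
    have hx' : φ x ∈ W := by
      rw [← Submodule.ker_mkQ W, LinearMap.mem_ker]; exact hx
    have hx'' : φ x = 0 := hss x (by rwa [hW, LinearMap.mem_ker] at hx')
    rw [Submodule.mkQ_apply, Submodule.Quotient.mk_eq_zero, hW, LinearMap.mem_ker]
    exact hx''
  -- Step 3
  have hcop := isCoprime_charpoly_of_injective (W.mapQ W g he) f hf hinj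
  have hm0 : multiplicity f (W.mapQ W g he).charpoly = 0 := by
    rw [multiplicity_eq_zero]
    intro hd
    exact hf.not_isUnit (hcop.isUnit_of_dvd' dvd_rfl hd)
  -- Step 4
  have h0 : aeval gW f = 0 := by
    apply LinearMap.ext
    intro w
    apply Subtype.ext
    have := aeval_intertwine W.subtype gW g (fun z => rfl) f w
    rw [Submodule.subtype_apply, Submodule.subtype_apply] at this
    rw [this]
    exact w.2
  have h4 := finrank_eq_of_aeval_eq_zero gW f hf h0
  -- Step 5
  have hfin : FiniteMultiplicity f (gW.charpoly * (W.mapQ W g he).charpoly) :=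
    FiniteMultiplicity.of_not_isUnit hf.not_isUnit
      (mul_ne_zero (LinearMap.charpoly_monic _).ne_zero (LinearMap.charpoly_monic _).ne_zero)
  rw [h4, h1, multiplicity_mul hf.prime hfin, hm0, add_zero]

/-- Semisimplicity at every irreducible `f` from a squarefree annihilating polynomial. -/
theorem ker_sq_le_of_squarefree (g : Module.End K V) (μ : K[X]) (hμ : aeval g μ = 0)
    (hsq : Squarefree μ) (f : K[X]) (hf : Irreducible f) :
    ∀ x, aeval g f (aeval g f x) = 0 → aeval g f x = 0 := by
  intro x hx
  set y := aeval g f x with hy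
  rcases EuclideanDomain.dvd_or_coprime f μ hf with hd | hc
  · obtain ⟨h', rfl⟩ := hd
    have hcop : IsCoprime f h' := by
      rcases EuclideanDomain.dvd_or_coprime f h' hf with hd' | hc'
      · exfalso
        obtain ⟨c, rfl⟩ := hd'
        exact hf.not_isUnit (hsq f ⟨c, by ring⟩)
      · exact hc'
    obtain ⟨a, b, hab⟩ := hcop
    have hh : aeval g h' y = 0 := by
      rw [hy, ← Module.End.mul_apply, ← map_mul, mul_comm, hμ, LinearMap.zero_apply]
    have : aeval g (a * f + b * h') y = y := by rw [hab]; simp
    rw [map_add, map_mul, map_mul, LinearMap.add_apply, Module.End.mul_apply,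
      Module.End.mul_apply, hx, hh, map_zero, map_zero, add_zero] at this
    exact this.symm
  · obtain ⟨a, b, hab⟩ := hc
    have : aeval g (a * f + b * μ) y = y := by rw [hab]; simp
    rw [map_add, map_mul, map_mul, hμ, mul_zero, add_zero, Module.End.mul_apply, hx,
      map_zero] at this
    exact this.symm

/-- **A6 (ii), group form.**  `g ^ n = 1` with `n` invertible in `K`. -/
theorem finrank_ker_aeval_of_pow_eq_one (g : Module.End K V) (n : ℕ) (hn : (n : K) ≠ 0)
    (hg : g ^ n = 1) (f : K[X]) (hf : Irreducible f) :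
    finrank K (LinearMap.ker (aeval g f)) = f.natDegree * multiplicity f g.charpoly := by
  refine finrank_ker_aeval g f hf
    (ker_sq_le_of_squarefree g (X ^ n - C 1) ?_ ?_ f hf)
  · simp [hg]
  · exact (separable_X_pow_sub_C (1 : K) hn one_ne_zero).squarefree

/-- Eigenspace form: for `g ^ n = 1`, `n` invertible, the dimension of the `ζ`-eigenspace is the
root multiplicity of `ζ` in the characteristic polynomial. -/
theorem finrank_eigenspace_of_pow_eq_one (g : Module.End K V) (n : ℕ) (hn : (n : K) ≠ 0)
    (hg : g ^ n = 1) (ζ : K) :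
    finrank K (g.eigenspace ζ) = g.charpoly.rootMultiplicity ζ := by
  classical
  have h := finrank_ker_aeval_of_pow_eq_one g n hn hg (X - C ζ) (irreducible_X_sub_C ζ)
  rw [natDegree_X_sub_C, one_mul] at h
  have hker : LinearMap.ker (aeval g (X - C ζ)) = g.eigenspace ζ := by
    rw [Module.End.eigenspace_def]
    congr 1
    simp [Algebra.algebraMap_eq_smul_one]
  rw [rootMultiplicity_eq_multiplicity, if_neg g.charpoly_monic.ne_zero, ← h, hker]

end KerMult

section Transfer

variable {K : Type*} [Field K]

theorem multiplicity_le_of_dvd {f P Q : K[X]} (hf : Irreducible f) (hQ : Q ≠ 0) (h : P ∣ Q) :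
    multiplicity f P ≤ multiplicity f Q := by
  have hP : P ≠ 0 := fun h0 => hQ (by rw [h0] at h; exact zero_dvd_iff.1 h)
  have hfP : FiniteMultiplicity f P := FiniteMultiplicity.of_not_isUnit hf.not_isUnit hP
  have hfQ : FiniteMultiplicity f Q := FiniteMultiplicity.of_not_isUnit hf.not_isUnit hQ
  rw [hfP.multiplicity_le_multiplicity_iff hfQ]
  exact fun n hn => hn.trans h

theorem multiplicity_mul_of_ne_zero {f P Q : K[X]} (hf : Irreducible f) (hP : P ≠ 0)
    (hQ : Q ≠ 0) : multiplicity f (P * Q) = multiplicity f P + multiplicity f Q :=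
  multiplicity_mul hf.prime (FiniteMultiplicity.of_not_isUnit hf.not_isUnit (mul_ne_zero hP hQ))

variable {V₁ V₂ V₃ : Type*}
  [AddCommGroup V₁] [Module K V₁] [FiniteDimensional K V₁]
  [AddCommGroup V₂] [Module K V₂] [FiniteDimensional K V₂]
  [AddCommGroup V₃] [Module K V₃] [FiniteDimensional K V₃]

/-- Divisibility of characteristic polynomials gives inequalities of isotypic dimensions. -/
theorem finrank_ker_le_of_charpoly_dvd (n : ℕ) (hn : (n : K) ≠ 0)
    (g₁ : Module.End K V₁) (g₂ : Module.End K V₂) (h₁ : g₁ ^ n = 1) (h₂ : g₂ ^ n = 1)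
    (hdvd : g₁.charpoly ∣ g₂.charpoly) (f : K[X]) (hf : Irreducible f) :
    finrank K (LinearMap.ker (aeval g₁ f)) ≤ finrank K (LinearMap.ker (aeval g₂ f)) := by
  rw [finrank_ker_aeval_of_pow_eq_one g₁ n hn h₁ f hf,
    finrank_ker_aeval_of_pow_eq_one g₂ n hn h₂ f hf]
  exact Nat.mul_le_mul_left _ (multiplicity_le_of_dvd hf g₂.charpoly_monic.ne_zero hdvd)

/-- A product identity of characteristic polynomials gives additivity of isotypic dimensions. -/
theorem finrank_ker_add_of_charpoly_mul (n : ℕ) (hn : (n : K) ≠ 0)
    (g₁ : Module.End K V₁) (g₂ : Module.End K V₂) (g₃ : Module.End K V₃)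
    (h₁ : g₁ ^ n = 1) (h₂ : g₂ ^ n = 1) (h₃ : g₃ ^ n = 1)
    (hmul : g₁.charpoly * g₂.charpoly = g₃.charpoly) (f : K[X]) (hf : Irreducible f) :
    finrank K (LinearMap.ker (aeval g₁ f)) + finrank K (LinearMap.ker (aeval g₂ f)) =
      finrank K (LinearMap.ker (aeval g₃ f)) := by
  rw [finrank_ker_aeval_of_pow_eq_one g₁ n hn h₁ f hf,
    finrank_ker_aeval_of_pow_eq_one g₂ n hn h₂ f hf,
    finrank_ker_aeval_of_pow_eq_one g₃ n hn h₃ f hf, ← hmul,
    multiplicity_mul_of_ne_zero hf g₁.charpoly_monic.ne_zero g₂.charpoly_monic.ne_zero, mul_add]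

end Transfer

end Fermat.Agent.GP.GW.E3B
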