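/-
GATE-P / S56 [P-GW] node E3b (helper10): charpoly calculus, part A7 = RANK ⟹ CHARPOLY.
For an operator `g` with `g ^ n = 1` on a `ℚ`-vector space (or a `ℤ`-lattice) the characteristic
polynomial is determined by the numbers `finrank ker (g ^ e - 1)`, `e ∣ n` (ranks of invariants of
the subgroups `⟨g ^ e⟩`).  This is the "rank trick" in charpoly currency: NON-equivariant rank
counts (S-unit theorem / numbers of places of the intermediate fields) determine the equivariant
structure for cyclic groups.  Mathlib only.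
-/
import Fermat.Agent.GP.GW.E3.CharpolyMult
import Fermat.Agent.GP.GW.E3.CharpolyLattice

namespace Fermat.Agent.GP.GW.E3B

open Polynomial Module

section Coprime

variable {K V : Type*} [Field K] [AddCommGroup V] [Module K V] [FiniteDimensional K V]

theorem finrank_ker_aeval_mul_of_coprime (g : Module.End K V) {p q : K[X]} (h : IsCoprime p q) :
    finrank K (LinearMap.ker (aeval g (p * q))) =
      finrank K (LinearMap.ker (aeval g p)) + finrank K (LinearMap.ker (aeval g q)) := by
  rw [← Polynomial.sup_ker_aeval_eq_ker_aeval_mul_of_coprime g h,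
    ← Submodule.finrank_sup_add_finrank_inf_eq,
    (Polynomial.disjoint_ker_aeval_of_isCoprime g h).eq_bot, finrank_bot, add_zero]

theorem finrank_ker_aeval_prod (g : Module.End K V) {ι : Type*} [DecidableEq ι] (s : Finset ι)
    (f : ι → K[X]) (hcop : ∀ i ∈ s, ∀ j ∈ s, i ≠ j → IsCoprime (f i) (f j)) :
    finrank K (LinearMap.ker (aeval g (∏ i ∈ s, f i))) =
      ∑ i ∈ s, finrank K (LinearMap.ker (aeval g (f i))) := by
  induction s using Finset.induction_on with
  | empty =>
    rw [Finset.prod_empty, Finset.sum_empty, map_one,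
      show LinearMap.ker (1 : Module.End K V) = ⊥ from LinearMap.ker_eq_bot.2 fun _ _ h => h,
      finrank_bot]
  | insert a s ha ih =>
    rw [Finset.prod_insert ha, Finset.sum_insert ha]
    have hc : IsCoprime (f a) (∏ i ∈ s, f i) :=
      IsCoprime.prod_right fun i hi =>
        hcop a (Finset.mem_insert_self a s) i (Finset.mem_insert_of_mem hi)
          (fun h => ha (h ▸ hi))
    rw [finrank_ker_aeval_mul_of_coprime g hc,
      ih fun i hi j hj => hcop i (Finset.mem_insert_of_mem hi) j (Finset.mem_insert_of_mem hj)]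

theorem monic_eq_of_multiplicity_eq {P Q : K[X]} (hP : P.Monic) (hQ : Q.Monic)
    (h : ∀ f : K[X], Irreducible f → multiplicity f P = multiplicity f Q) : P = Q := by
  classical
  apply Polynomial.eq_of_monic_of_associated hP hQ
  rw [UniqueFactorizationMonoid.associated_iff_normalizedFactors_eq_normalizedFactors
    hP.ne_zero hQ.ne_zero]
  ext r
  by_cases hr : r ∈ UniqueFactorizationMonoid.normalizedFactors P ∨
      r ∈ UniqueFactorizationMonoid.normalizedFactors Q
  · have hri : Irreducible r := by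
      rcases hr with hr | hr <;>
        exact UniqueFactorizationMonoid.irreducible_of_normalized_factor r hr
    have hrn : normalize r = r := by
      rcases hr with hr | hr <;>
        exact UniqueFactorizationMonoid.normalize_normalized_factor r hr
    have h1 := UniqueFactorizationMonoid.multiplicity_eq_count_normalizedFactors hri hP.ne_zero
    have h2 := UniqueFactorizationMonoid.multiplicity_eq_count_normalizedFactors hri hQ.ne_zero
    rw [hrn] at h1 h2
    rw [← h1, ← h2]
    exact h r hri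
  · rw [not_or] at hr
    rw [Multiset.count_eq_zero_of_notMem hr.1, Multiset.count_eq_zero_of_notMem hr.2]

/-- If `f` is coprime to `X ^ n - 1` and `γ ^ n = 1` then `f(γ)` is injective. -/
theorem aeval_injective_of_coprime_pow_sub_one {W : Type*} [AddCommGroup W] [Module K W]
    (γ : Module.End K W) (n : ℕ) (hγ : γ ^ n = 1) (f : K[X])
    (hcop : IsCoprime f (X ^ n - 1 : K[X])) : Function.Injective (aeval γ f) := by
  obtain ⟨a, b, hab⟩ := hcop
  have h0 : aeval γ (X ^ n - 1 : K[X]) = 0 := by simp [hγ]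
  have h1 : aeval γ a * aeval γ f = 1 := by
    have := congrArg (aeval γ) hab
    rwa [map_add, map_mul, map_mul, h0, mul_zero, add_zero, map_one] at this
  intro x y hxy
  have := congrArg (aeval γ a) hxy
  rwa [← Module.End.mul_apply, ← Module.End.mul_apply, h1] at this

end Coprime

section Rat

variable {V V' : Type*} [AddCommGroup V] [Module ℚ V] [FiniteDimensional ℚ V]
  [AddCommGroup V'] [Module ℚ V'] [FiniteDimensional ℚ V']

/-- `finrank ker (g ^ e - 1) = ∑_{d ∣ e} finrank ker Φ_d(g)`. -/
theorem finrank_ker_pow_sub_one (g : Module.End ℚ V) {e : ℕ} (he : 0 < e) :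
    finrank ℚ (LinearMap.ker (g ^ e - 1)) =
      ∑ d ∈ e.divisors, finrank ℚ (LinearMap.ker (aeval g (cyclotomic d ℚ))) := by
  rw [← finrank_ker_aeval_prod g e.divisors (fun d => cyclotomic d ℚ)
    (fun i _ j _ hij => cyclotomic.isCoprime_rat hij),
    prod_cyclotomic_eq_X_pow_sub_one he ℚ]
  have : aeval g (X ^ e - 1 : ℚ[X]) = g ^ e - 1 := by simp
  rw [this]

/-- The cyclotomic kernel dimensions are determined by the ranks of invariants. -/
theorem finrank_ker_cyclotomic_eq (g : Module.End ℚ V) (g' : Module.End ℚ V') (n : ℕ)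
    (h : ∀ e, e ∣ n → 0 < e →
      finrank ℚ (LinearMap.ker (g ^ e - 1)) = finrank ℚ (LinearMap.ker (g' ^ e - 1))) :
    ∀ d, d ∣ n → 0 < d →
      finrank ℚ (LinearMap.ker (aeval g (cyclotomic d ℚ))) =
        finrank ℚ (LinearMap.ker (aeval g' (cyclotomic d ℚ))) := by
  intro d
  induction d using Nat.strong_induction_on with
  | _ d ih =>
    intro hd hd0
    have h1 := finrank_ker_pow_sub_one g hd0
    have h2 := finrank_ker_pow_sub_one g' hd0
    rw [← Nat.insert_self_properDivisors hd0.ne', Finset.sum_insert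
      Nat.self_notMem_properDivisors] at h1 h2
    have hs : ∑ x ∈ d.properDivisors, finrank ℚ (LinearMap.ker (aeval g (cyclotomic x ℚ))) =
        ∑ x ∈ d.properDivisors, finrank ℚ (LinearMap.ker (aeval g' (cyclotomic x ℚ))) := by
      refine Finset.sum_congr rfl fun x hx => ?_
      rw [Nat.mem_properDivisors] at hx
      exact ih x hx.2 (hx.1.trans hd) (Nat.pos_of_dvd_of_pos hx.1 hd0)
    have := h d hd hd0
    omega

/-- **A7 (rational form).**  `g ^ n = 1`, `g' ^ n = 1`, equal ranks of `ker (g ^ e - 1)` for all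
`e ∣ n` ⟹ equal characteristic polynomials. -/
theorem charpoly_eq_of_finrank_ker_pow_eq_rat (g : Module.End ℚ V) (g' : Module.End ℚ V')
    (n : ℕ) (hn : 0 < n) (hg : g ^ n = 1) (hg' : g' ^ n = 1)
    (h : ∀ e, e ∣ n → 0 < e →
      finrank ℚ (LinearMap.ker (g ^ e - 1)) = finrank ℚ (LinearMap.ker (g' ^ e - 1))) :
    g.charpoly = g'.charpoly := by
  have hnQ : ((n : ℕ) : ℚ) ≠ 0 := by exact_mod_cast hn.ne'
  have hk := finrank_ker_cyclotomic_eq g g' n h
  refine monic_eq_of_multiplicity_eq g.charpoly_monic g'.charpoly_monic fun f hf => ?_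
  by_cases hex : ∃ d ∈ n.divisors, Associated f (cyclotomic d ℚ)
  · obtain ⟨d, hd, hass⟩ := hex
    have hdn : d ∣ n := Nat.dvd_of_mem_divisors hd
    have hd0 : 0 < d := Nat.pos_of_dvd_of_pos hdn hn
    have hirr : Irreducible (cyclotomic d ℚ) := cyclotomic.irreducible_rat hd0
    rw [multiplicity_eq_of_associated_left hass.symm, multiplicity_eq_of_associated_left hass.symm]
    have e1 := finrank_ker_aeval_of_pow_eq_one g n hnQ hg _ hirr
    have e2 := finrank_ker_aeval_of_pow_eq_one g' n hnQ hg' _ hirr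
    rw [hk d hdn hd0, e2, natDegree_cyclotomic] at e1
    exact (Nat.eq_of_mul_eq_mul_left (Nat.totient_pos.2 hd0) e1).symm
  · -- `f` is coprime to `X ^ n - 1`, so `f(g)` and `f(g')` are invertible
    have hcop : IsCoprime f (X ^ n - 1 : ℚ[X]) := by
      rcases EuclideanDomain.dvd_or_coprime f (X ^ n - 1 : ℚ[X]) hf with hd | hc
      · exfalso
        rw [← prod_cyclotomic_eq_X_pow_sub_one hn ℚ] at hd
        obtain ⟨d, hd1, hd2⟩ := (Prime.dvd_finsetProd_iff hf.prime _).1 hd
        have hd0 : 0 < d := Nat.pos_of_dvd_of_pos (Nat.dvd_of_mem_divisors hd1) hn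
        exact hex ⟨d, hd1, hf.associated_of_dvd (cyclotomic.irreducible_rat hd0) hd2⟩
      · exact hc
    have hi := aeval_injective_of_coprime_pow_sub_one g n hg f hcop
    have hi' := aeval_injective_of_coprime_pow_sub_one g' n hg' f hcop
    have m1 : multiplicity f g.charpoly = 0 := by
      rw [multiplicity_eq_zero]
      intro hd
      exact hf.not_isUnit
        ((isCoprime_charpoly_of_injective g f hf hi).isUnit_of_dvd' dvd_rfl hd)
    have m2 : multiplicity f g'.charpoly = 0 := by
      rw [multiplicity_eq_zero]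
      intro hd
      exact hf.not_isUnit
        ((isCoprime_charpoly_of_injective g' f hf hi').isUnit_of_dvd' dvd_rfl hd)
    rw [m1, m2]

end Rat

section Int

open TensorProduct

variable {Λ Λ' : Type*} [AddCommGroup Λ] [Module.Free ℤ Λ] [Module.Finite ℤ Λ]
  [AddCommGroup Λ'] [Module.Free ℤ Λ'] [Module.Finite ℤ Λ']

/-- Kernels commute with the flat base change `ℤ → ℚ`: ranks agree. -/
theorem finrank_ker_baseChange_rat (φ : Module.End ℤ Λ) :
    finrank ℚ (LinearMap.ker (φ.baseChange ℚ)) = finrank ℤ (LinearMap.ker φ) := by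
  rw [← Module.finrank_baseChange (R := ℚ) (S := ℤ) (M' := LinearMap.ker φ)]
  exact (LinearMap.tensorKerEquiv ℚ ℚ φ).symm.finrank_eq

theorem baseChange_pow_sub_one (g : Module.End ℤ Λ) (e : ℕ) :
    (g ^ e - 1).baseChange ℚ = (g.baseChange ℚ) ^ e - 1 := by
  have h := map_sub (Module.End.baseChangeHom ℤ ℚ Λ) (g ^ e) 1
  rw [map_pow, map_one] at h
  exact h

/-- **A7 (lattice form) = RANK ⟹ CHARPOLY.**  Two lattices with automorphisms of order dividing
`n`; if the ranks of the invariants of `g ^ e` agree for all `e ∣ n`, the characteristic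
polynomials (in `ℤ[X]`) agree. -/
theorem charpoly_eq_of_finrank_ker_pow_eq (g : Module.End ℤ Λ) (g' : Module.End ℤ Λ')
    (n : ℕ) (hn : 0 < n) (hg : g ^ n = 1) (hg' : g' ^ n = 1)
    (h : ∀ e, e ∣ n → 0 < e →
      finrank ℤ (LinearMap.ker (g ^ e - 1)) = finrank ℤ (LinearMap.ker (g' ^ e - 1))) :
    g.charpoly = g'.charpoly := by
  apply Polynomial.map_injective (algebraMap ℤ ℚ) (algebraMap ℤ ℚ).injective_int
  rw [← LinearMap.charpoly_baseChange g ℚ, ← LinearMap.charpoly_baseChange g' ℚ]
  refine charpoly_eq_of_finrank_ker_pow_eq_rat (g.baseChange ℚ) (g'.baseChange ℚ) n hn ?_ ?_ ?_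
  · have := baseChange_pow_sub_one g n
    rw [hg, sub_self] at this
    have h0 : (0 : Module.End ℤ Λ).baseChange ℚ = 0 := map_zero (Module.End.baseChangeHom ℤ ℚ Λ)
    rw [h0] at this
    exact (sub_eq_zero.1 this.symm)
  · have := baseChange_pow_sub_one g' n
    rw [hg', sub_self] at this
    have h0 : (0 : Module.End ℤ Λ').baseChange ℚ = 0 := map_zero (Module.End.baseChangeHom ℤ ℚ Λ')
    rw [h0] at this
    exact (sub_eq_zero.1 this.symm)
  · intro e he he0
    rw [← baseChange_pow_sub_one, ← baseChange_pow_sub_one, finrank_ker_baseChange_rat,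
      finrank_ker_baseChange_rat, h e he he0]

end Int

section PermRank

variable {Ω : Type*} [Fintype Ω] [DecidableEq Ω]

theorem permEnd_one (R : Type*) [CommRing R] : permEnd R (1 : Equiv.Perm Ω) = 1 :=
  LinearMap.ext fun _ => funext fun _ => rfl

theorem permEnd_mul (R : Type*) [CommRing R] (σ τ : Equiv.Perm Ω) :
    permEnd R (σ * τ) = permEnd R σ * permEnd R τ :=
  LinearMap.ext fun _ => funext fun _ => rfl

theorem permEnd_pow (R : Type*) [CommRing R] (σ : Equiv.Perm Ω) (e : ℕ) :
    permEnd R (σ ^ e) = permEnd R σ ^ e := by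
  induction e with
  | zero => simp [permEnd_one]
  | succ e ih => rw [pow_succ, pow_succ, permEnd_mul, ih]

theorem apply_zpow_of_mem_ker {R : Type*} [CommRing R] (τ : Equiv.Perm Ω) (f : Ω → R)
    (hf : f ∈ LinearMap.ker (permEnd R τ - 1)) (i : ℤ) (ω : Ω) : f ((τ ^ i) ω) = f ω := by
  have h1 : ∀ ω, f (τ.symm ω) = f ω := by
    intro ω
    have h0 : (permEnd R τ - 1) f = 0 := LinearMap.mem_ker.1 hf
    have h00 : (permEnd R τ - 1) f ω = 0 := by rw [h0]; rfl
    rw [LinearMap.sub_apply, Pi.sub_apply, sub_eq_zero] at h00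
    exact h00
  have h2 : ∀ ω, f (τ ω) = f ω := fun ω => by
    have := h1 (τ ω); rw [Equiv.symm_apply_apply] at this; exact this.symm
  induction i using Int.induction_on generalizing ω with
  | zero => simp
  | succ i ih => rw [zpow_add_one, Equiv.Perm.mul_apply, ih, h2]
  | pred i ih =>
    rw [zpow_sub_one, Equiv.Perm.mul_apply, ih]
    exact h1 ω

/-- The invariants of a permutation module are the functions on the orbit space: for any
surjection `q : Ω → Q` whose fibres are the `τ`-orbits, `rank ker (τ - 1) = #Q`. -/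
theorem finrank_ker_permEnd_sub_one (R : Type*) [CommRing R] [Nontrivial R] (τ : Equiv.Perm Ω)
    {Q : Type*} [Fintype Q] (q : Ω → Q) (hq : Function.Surjective q)
    (hq' : ∀ ω ω', q ω = q ω' ↔ τ.SameCycle ω ω') :
    finrank R (LinearMap.ker (permEnd R τ - 1)) = Fintype.card Q := by
  classical
  let E : (Q → R) ≃ₗ[R] LinearMap.ker (permEnd R τ - 1) :=
    { toFun := fun h => ⟨h ∘ q, by
        rw [LinearMap.mem_ker, LinearMap.sub_apply, sub_eq_zero]
        ext ω
        simp only [permEnd_apply, Function.comp_apply, Module.End.one_apply]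
        congr 1
        rw [hq']
        exact ⟨1, by simp⟩⟩
      map_add' := fun h h' => rfl
      map_smul' := fun r h => rfl
      invFun := fun f x => f.1 (Function.surjInv hq x)
      left_inv := fun h => by
        ext x
        simp [Function.surjInv_eq hq x]
      right_inv := fun f => by
        apply Subtype.ext
        ext ω
        simp only [Function.comp_apply]
        obtain ⟨i, hi⟩ := (hq' _ _).1 (Function.surjInv_eq hq (q ω))
        have := apply_zpow_of_mem_ker τ f.1 f.2 i (Function.surjInv hq (q ω))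
        rw [hi] at this
        exact this.symm }
  rw [← E.finrank_eq, Module.finrank_fintype_fun_eq_card]

end PermRank

section ProdOne

variable {Λ : Type*} [AddCommGroup Λ] [Module.Free ℤ Λ] [Module.Finite ℤ Λ]

theorem prodMap_one_pow (g : Module.End ℤ Λ) (e : ℕ) :
    (g.prodMap (1 : Module.End ℤ ℤ)) ^ e = (g ^ e).prodMap 1 := by
  induction e with
  | zero => rw [pow_zero, pow_zero, LinearMap.prodMap_one]
  | succ e ih => rw [pow_succ, ih, LinearMap.prodMap_mul, mul_one, ← pow_succ]

theorem finrank_ker_prodMap_one_sub_one (a : Module.End ℤ Λ) :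
    finrank ℤ (LinearMap.ker (a.prodMap (1 : Module.End ℤ ℤ) - 1)) =
      finrank ℤ (LinearMap.ker (a - 1)) + 1 := by
  have hmem : ∀ x : Λ × ℤ, x ∈ LinearMap.ker (a.prodMap (1 : Module.End ℤ ℤ) - 1) ↔
      x.1 ∈ LinearMap.ker (a - 1) := by
    intro x
    simp only [LinearMap.mem_ker, LinearMap.sub_apply, LinearMap.prodMap_apply,
      Module.End.one_apply, Prod.ext_iff, Prod.fst_sub, Prod.snd_sub, Prod.fst_zero,
      Prod.snd_zero, sub_self, and_true]
  let E : LinearMap.ker (a.prodMap (1 : Module.End ℤ ℤ) - 1) ≃ₗ[ℤ]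
      LinearMap.ker (a - 1) × ℤ :=
    { toFun := fun x => (⟨x.1.1, (hmem x.1).1 x.2⟩, x.1.2)
      map_add' := fun x y => rfl
      map_smul' := fun r x => rfl
      invFun := fun y => ⟨(y.1.1, y.2), (hmem _).2 y.1.2⟩
      left_inv := fun x => rfl
      right_inv := fun y => rfl }
  rw [E.finrank_eq, Module.finrank_prod, Module.finrank_self]

end ProdOne

section Packaged

variable {Ω Ω' Λ : Type*} [Fintype Ω] [DecidableEq Ω] [Fintype Ω'] [DecidableEq Ω']
  [AddCommGroup Λ] [Module.Free ℤ Λ] [Module.Finite ℤ Λ]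

/-- **Permutation modules of a cyclic group are determined by orbit counts of the subgroups.** -/
theorem permPoly_eq_of_finrank_eq (σ : Equiv.Perm Ω) (σ' : Equiv.Perm Ω') (n : ℕ) (hn : 0 < n)
    (hσ : σ ^ n = 1) (hσ' : σ' ^ n = 1)
    (h : ∀ e, e ∣ n → 0 < e →
      finrank ℤ (LinearMap.ker (permEnd ℤ (σ ^ e) - 1)) =
        finrank ℤ (LinearMap.ker (permEnd ℤ (σ' ^ e) - 1))) :
    permPoly σ = permPoly σ' := by
  unfold permPoly
  refine charpoly_eq_of_finrank_ker_pow_eq (permEnd ℤ σ) (permEnd ℤ σ') n hn ?_ ?_ ?_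
  · rw [← permEnd_pow, hσ, permEnd_one]
  · rw [← permEnd_pow, hσ', permEnd_one]
  · intro e he he0
    rw [← permEnd_pow, ← permEnd_pow]
    exact h e he he0

/-- **Rank form of the equivariant unit theorem.**  A lattice `Λ` with an automorphism `g` of
order dividing `n`, a permutation `σ` of a finite set with `σ ^ n = 1`; if for every `e ∣ n`
`rank Λ^{g^e} + 1 = rank ℤ[Ω]^{σ^e}` (NON-equivariant unit theorem for the intermediate fields),
then `charpoly g * (X - 1) = permPoly σ`. -/
theorem charpoly_mul_X_sub_one_eq_permPoly_of_finrank (g : Module.End ℤ Λ) (σ : Equiv.Perm Ω)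
    (n : ℕ) (hn : 0 < n) (hg : g ^ n = 1) (hσ : σ ^ n = 1)
    (h : ∀ e, e ∣ n → 0 < e →
      finrank ℤ (LinearMap.ker (g ^ e - 1)) + 1 =
        finrank ℤ (LinearMap.ker (permEnd ℤ (σ ^ e) - 1))) :
    g.charpoly * (X - 1) = permPoly σ := by
  have h1 : (1 : Module.End ℤ ℤ).charpoly = X - 1 := by
    rw [LinearMap.charpoly_one, Module.finrank_self, pow_one]
  have key : (g.prodMap (1 : Module.End ℤ ℤ)).charpoly = (permEnd ℤ σ).charpoly := by
    refine charpoly_eq_of_finrank_ker_pow_eq (g.prodMap (1 : Module.End ℤ ℤ)) (permEnd ℤ σ)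
      n hn ?_ ?_ ?_
    · rw [prodMap_one_pow, hg, LinearMap.prodMap_one]
    · rw [← permEnd_pow, hσ, permEnd_one]
    · intro e he he0
      rw [← permEnd_pow, ← h e he he0, prodMap_one_pow, finrank_ker_prodMap_one_sub_one]
  unfold permPoly
  rw [← key, LinearMap.charpoly_prodMap, h1]

variable {p : ℕ} [Fact p.Prime] {X' : Type*} [AddCommGroup X'] [Module (ZMod p) X']
  [Module.Finite (ZMod p) X']

/-- **Mod `p` form**: with `X' ≅ Λ/pΛ` (surjective `π` with kernel `pΛ`) and `gX` induced by `g`,
the rank hypotheses give `charpoly gX * (X - 1) = charpoly (𝔽_p[Ω])`. -/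
theorem charpoly_mod_p_mul_X_sub_one_eq_of_finrank (g : Module.End ℤ Λ) (σ : Equiv.Perm Ω)
    (n : ℕ) (hn : 0 < n) (hg : g ^ n = 1) (hσ : σ ^ n = 1)
    (h : ∀ e, e ∣ n → 0 < e →
      finrank ℤ (LinearMap.ker (g ^ e - 1)) + 1 =
        finrank ℤ (LinearMap.ker (permEnd ℤ (σ ^ e) - 1)))
    (π : Λ →+ X') (hπ : Function.Surjective π) (hker : ∀ x, π x = 0 → ∃ y, x = (p : ℤ) • y)
    (gX : Module.End (ZMod p) X') (hX : ∀ x, π (g x) = gX (π x)) :
    gX.charpoly * (X - 1) = (permEnd (ZMod p) σ).charpoly := by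
  rw [charpoly_permEnd, charpoly_mod_p π hπ hker g gX hX,
    ← charpoly_mul_X_sub_one_eq_permPoly_of_finrank g σ n hn hg hσ h]
  simp

end Packaged

end Fermat.Agent.GP.GW.E3B
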