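/-
GATE-P / S56 [P-GW] ROUTE-R, input (R2)/(R3) of the assembly (helper9): **ranks of invariants on
permutation lattices** (Mathlib only, orphan).

`X` a finite set, `σ` a permutation of `X`, `permEnd σ` the induced operator on the lattice `X → ℤ`
(`δ_x ↦ δ_{σ x}`).  Then `ker ((permEnd σ)^e - 1) ≃ (orbits of ⟨σ^e⟩ → ℤ)`, so
  `finrank ℤ (ker ((permEnd σ)^e - 1)) = #(orbits of ⟨σ^e⟩ on X)`.
Also: the trivial lattice `ℤ` (`finrank ker (1^e - 1) = 1`) and the product rule
`ker ((a × b)^e - 1) = ker (a^e - 1) × ker (b^e - 1)`.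
-/
import Mathlib

set_option autoImplicit false

namespace Fermat.Agent.GP.GW.E3.RankPerm

open Module Function

section Perm

variable {X : Type*}

/-- the operator `δ_x ↦ δ_{σ x}` on `X → ℤ`, i.e. `(permEnd σ f) x = f (σ⁻¹ x)` -/
def permEnd (σ : Equiv.Perm X) : Module.End ℤ (X → ℤ) :=
  LinearMap.funLeft ℤ ℤ σ.symm

@[simp] theorem permEnd_apply (σ : Equiv.Perm X) (f : X → ℤ) (x : X) :
    permEnd σ f x = f (σ.symm x) := rfl

theorem permEnd_one : permEnd (1 : Equiv.Perm X) = 1 := by
  ext f x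
  rfl

theorem permEnd_mul (σ τ : Equiv.Perm X) : permEnd (σ * τ) = permEnd σ * permEnd τ := by
  ext f x
  rfl

theorem permEnd_pow (σ : Equiv.Perm X) (e : ℕ) : permEnd (σ ^ e) = permEnd σ ^ e := by
  induction e with
  | zero => rw [pow_zero, pow_zero, permEnd_one]
  | succ n ih => rw [pow_succ, pow_succ, permEnd_mul, ih]

theorem permEnd_single [DecidableEq X] (σ : Equiv.Perm X) (x : X) :
    permEnd σ (Pi.single x 1) = Pi.single (σ x) 1 := by
  ext y
  rw [permEnd_apply]
  by_cases h : y = σ x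
  · subst h
    simp
  · rw [Pi.single_eq_of_ne h, Pi.single_eq_of_ne]
    intro h'
    apply h
    rw [← h', Equiv.apply_symm_apply]

/-- membership in the kernel: invariance under `σ` -/
theorem mem_ker_permEnd_sub_one (σ : Equiv.Perm X) (f : X → ℤ) :
    f ∈ LinearMap.ker (permEnd σ - 1) ↔ ∀ x, f (σ x) = f x := by
  rw [LinearMap.mem_ker, LinearMap.sub_apply, sub_eq_zero]
  constructor
  · intro h x
    have := congrFun h (σ x)
    rw [permEnd_apply, Equiv.symm_apply_apply] at this
    exact this.symm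
  · intro h
    ext x
    rw [permEnd_apply]
    have := h (σ.symm x)
    rw [Equiv.apply_symm_apply] at this
    exact this.symm

/-- invariant functions are constant on the orbits of the cyclic group generated by `σ` -/
theorem eq_of_orbitRel (σ : Equiv.Perm X) (f : X → ℤ) (hf : ∀ x, f (σ x) = f x) {x y : X}
    (h : MulAction.orbitRel (Subgroup.zpowers σ) X x y) : f x = f y := by
  obtain ⟨⟨τ, hτ⟩, rfl⟩ := h
  obtain ⟨k, rfl⟩ := Subgroup.mem_zpowers_iff.1 hτ
  show f ((σ ^ k) y) = f y
  have hnat : ∀ (n : ℕ) (z : X), f ((σ ^ n) z) = f z := by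
    intro n
    induction n with
    | zero => intro z; simp
    | succ n ih =>
      intro z
      rw [pow_succ', Equiv.Perm.mul_apply, hf, ih]
  have hneg : ∀ (n : ℕ) (z : X), f ((σ ^ n)⁻¹ z) = f z := by
    intro n z
    have := hnat n ((σ ^ n)⁻¹ z)
    rw [← Equiv.Perm.mul_apply, mul_inv_cancel, Equiv.Perm.one_apply] at this
    exact this.symm
  cases k with
  | ofNat n => simpa using hnat n y
  | negSucc n =>
    rw [zpow_negSucc]
    exact hneg (n + 1) y

variable [Finite X]

/-- **the invariants of a permutation lattice**: `(orbits → ℤ) ≃ ker (permEnd σ - 1)` -/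
noncomputable def orbitFunEquiv (σ : Equiv.Perm X) :
    (MulAction.orbitRel.Quotient (Subgroup.zpowers σ) X → ℤ) ≃ₗ[ℤ]
      LinearMap.ker (permEnd σ - 1) :=
  LinearEquiv.ofBijective
    (LinearMap.codRestrict _ (LinearMap.funLeft ℤ ℤ
      (Quotient.mk'' : X → MulAction.orbitRel.Quotient (Subgroup.zpowers σ) X)) (by
        intro c
        rw [mem_ker_permEnd_sub_one]
        intro x
        show c (Quotient.mk'' (σ x)) = c (Quotient.mk'' x)
        congr 1
        apply Quotient.sound'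
        exact ⟨⟨σ, Subgroup.mem_zpowers σ⟩, rfl⟩)) (by
    constructor
    · intro c c' h
      have h1 := congrArg Subtype.val h
      ext q
      obtain ⟨x, rfl⟩ := Quotient.mk''_surjective q
      exact congrFun h1 x
    · intro f
      have hf := (mem_ker_permEnd_sub_one σ f.1).1 f.2
      refine ⟨Quotient.lift f.1 (fun x y h => eq_of_orbitRel σ f.1 hf h), Subtype.ext ?_⟩
      ext x
      rfl)

/-- **rank of the `σ^e`-invariants of `X → ℤ` = number of orbits of `⟨σ^e⟩`** -/
theorem finrank_ker_permEnd_pow_sub_one (σ : Equiv.Perm X) (e : ℕ) :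
    finrank ℤ (LinearMap.ker (permEnd σ ^ e - 1)) =
      Nat.card (MulAction.orbitRel.Quotient (Subgroup.zpowers (σ ^ e)) X) := by
  classical
  rw [← permEnd_pow, ← (orbitFunEquiv (σ ^ e)).finrank_eq]
  have : Fintype (MulAction.orbitRel.Quotient (Subgroup.zpowers (σ ^ e)) X) :=
    Fintype.ofFinite _
  rw [Module.finrank_fintype_fun_eq_card, Nat.card_eq_fintype_card]

end Perm

section Trivial

/-- the trivial lattice -/
theorem finrank_ker_one_pow_sub_one (e : ℕ) :
    finrank ℤ (LinearMap.ker ((1 : Module.End ℤ ℤ) ^ e - 1)) = 1 := by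
  rw [one_pow, sub_self, LinearMap.ker_zero, finrank_top, Module.finrank_self]

end Trivial

section Prod

variable {A B : Type*} [AddCommGroup A] [AddCommGroup B]

theorem prodMap_pow_sub_one (a : Module.End ℤ A) (b : Module.End ℤ B) (e : ℕ) :
    (LinearMap.prodMap a b) ^ e - 1 = LinearMap.prodMap (a ^ e - 1) (b ^ e - 1) := by
  have hpow : ∀ n : ℕ, (LinearMap.prodMap a b) ^ n = LinearMap.prodMap (a ^ n) (b ^ n) := by
    intro n
    induction n with
    | zero =>
      rw [pow_zero, pow_zero, pow_zero]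
      ext x <;> rfl
    | succ n ih =>
      rw [pow_succ, pow_succ, pow_succ, ih]
      ext x <;> rfl
  rw [hpow]
  ext x <;> rfl

theorem mem_ker_prodMap_pow_sub_one (a : Module.End ℤ A) (b : Module.End ℤ B) (e : ℕ)
    (x : A × B) :
    x ∈ LinearMap.ker ((LinearMap.prodMap a b) ^ e - 1) ↔
      x.1 ∈ LinearMap.ker (a ^ e - 1) ∧ x.2 ∈ LinearMap.ker (b ^ e - 1) := by
  rw [prodMap_pow_sub_one, LinearMap.mem_ker, LinearMap.mem_ker, LinearMap.mem_ker,
    LinearMap.prodMap_apply, Prod.mk_eq_zero]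

/-- `ker ((a × b)^e - 1) ≃ ker (a^e - 1) × ker (b^e - 1)` -/
def kerProdEquiv (a : Module.End ℤ A) (b : Module.End ℤ B) (e : ℕ) :
    LinearMap.ker ((LinearMap.prodMap a b) ^ e - 1) ≃ₗ[ℤ]
      (LinearMap.ker (a ^ e - 1) × LinearMap.ker (b ^ e - 1)) where
  toFun x := (⟨x.1.1, ((mem_ker_prodMap_pow_sub_one a b e x.1).1 x.2).1⟩,
    ⟨x.1.2, ((mem_ker_prodMap_pow_sub_one a b e x.1).1 x.2).2⟩)
  invFun y := ⟨(y.1.1, y.2.1), (mem_ker_prodMap_pow_sub_one a b e _).2 ⟨y.1.2, y.2.2⟩⟩
  map_add' _ _ := rfl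
  map_smul' _ _ := rfl
  left_inv _ := rfl
  right_inv _ := rfl

/-- rank is additive on products over `ℤ` (no freeness needed) -/
theorem finrank_prod_int (M M' : Type*) [AddCommGroup M] [AddCommGroup M'] [Module.Finite ℤ M]
    [Module.Finite ℤ M'] : finrank ℤ (M × M') = finrank ℤ M + finrank ℤ M' := by
  have h := Submodule.finrank_quotient_add_finrank (LinearMap.ker (LinearMap.snd ℤ M M'))
  have e1 : finrank ℤ ((M × M') ⧸ LinearMap.ker (LinearMap.snd ℤ M M')) = finrank ℤ M' :=
    ((LinearMap.snd ℤ M M').quotKerEquivOfSurjective LinearMap.snd_surjective).finrank_eq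
  have e2 : finrank ℤ (LinearMap.ker (LinearMap.snd ℤ M M')) = finrank ℤ M := by
    rw [LinearMap.ker_snd]
    exact (LinearEquiv.ofInjective (LinearMap.inl ℤ M M') LinearMap.inl_injective).finrank_eq.symm
  rw [e1, e2] at h
  rw [← h, add_comm]

/-- the product rule for ranks of invariants -/
theorem finrank_ker_prodMap_pow_sub_one [Module.Finite ℤ A] [Module.Finite ℤ B]
    (a : Module.End ℤ A) (b : Module.End ℤ B) (e : ℕ) :
    finrank ℤ (LinearMap.ker ((LinearMap.prodMap a b) ^ e - 1)) =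
      finrank ℤ (LinearMap.ker (a ^ e - 1)) + finrank ℤ (LinearMap.ker (b ^ e - 1)) := by
  rw [(kerProdEquiv a b e).finrank_eq]
  have : Module.Finite ℤ (LinearMap.ker (a ^ e - 1)) := Module.IsNoetherian.finite ℤ _
  have : Module.Finite ℤ (LinearMap.ker (b ^ e - 1)) := Module.IsNoetherian.finite ℤ _
  exact finrank_prod_int _ _

end Prod

end Fermat.Agent.GP.GW.E3.RankPerm
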