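/-
GATE-P / S56 [P-GW] ROUTE-R, input (R2) of the assembly (helper9): **orbits of `⟨g⟩` on `D\G/U` are
the double cosets `D\G/H`, `H = ⟨g⟩·U`** (abstract group theory, `U` normal), and the resulting
rank formula for the permutation lattice `(D\G/U → ℤ)`.
-/
import Fermat.Agent.GP.GW.E3.RankPerm

set_option autoImplicit false

namespace Fermat.Agent.GP.GW.E3.DcOrbit

open Module Function

variable {G : Type*} [Group G] (D U : Subgroup G)

section Normal

variable [hU : U.Normal]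

/-- right translation by `g` on `D\G/U` (well defined because `U` is normal) -/
def rtFun (g : G) :
    DoubleCoset.Quotient (D : Set G) (U : Set G) → DoubleCoset.Quotient (D : Set G) (U : Set G) :=
  Quotient.map' (fun x => x * g) (by
    intro x y h
    have h' := DoubleCoset.rel_iff.1 h
    obtain ⟨d, hd, u, hu, rfl⟩ := h'
    refine DoubleCoset.rel_iff.2 ⟨d, hd, g⁻¹ * u * g, ?_, ?_⟩
    · have := hU.conj_mem u hu g⁻¹
      rwa [inv_inv] at this
    · group)

@[simp] theorem rtFun_mk (g x : G) :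
    rtFun D U g (DoubleCoset.mk D U x) = DoubleCoset.mk D U (x * g) := rfl

/-- right translation by `g` as a permutation of `D\G/U` -/
def rtPerm (g : G) : Equiv.Perm (DoubleCoset.Quotient (D : Set G) (U : Set G)) where
  toFun := rtFun D U g
  invFun := rtFun D U g⁻¹
  left_inv := by
    intro q
    induction q using Quotient.inductionOn' with
    | h x =>
      show rtFun D U g⁻¹ (rtFun D U g (DoubleCoset.mk D U x)) = DoubleCoset.mk D U x
      rw [rtFun_mk, rtFun_mk, mul_inv_cancel_right]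
  right_inv := by
    intro q
    induction q using Quotient.inductionOn' with
    | h x =>
      show rtFun D U g (rtFun D U g⁻¹ (DoubleCoset.mk D U x)) = DoubleCoset.mk D U x
      rw [rtFun_mk, rtFun_mk, inv_mul_cancel_right]

@[simp] theorem rtPerm_mk (g x : G) :
    rtPerm D U g (DoubleCoset.mk D U x) = DoubleCoset.mk D U (x * g) := rfl

theorem rtPerm_one : rtPerm D U (1 : G) = 1 := by
  ext q
  induction q using Quotient.inductionOn' with
  | h x =>
    show rtPerm D U 1 (DoubleCoset.mk D U x) = DoubleCoset.mk D U x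
    rw [rtPerm_mk, mul_one]

/-- `rtPerm` is an anti-homomorphism -/
theorem rtPerm_mul (g h : G) : rtPerm D U (g * h) = rtPerm D U h * rtPerm D U g := by
  ext q
  induction q using Quotient.inductionOn' with
  | h x =>
    show rtPerm D U (g * h) (DoubleCoset.mk D U x) =
      rtPerm D U h (rtPerm D U g (DoubleCoset.mk D U x))
    rw [rtPerm_mk, rtPerm_mk, rtPerm_mk, mul_assoc]

theorem rtPerm_pow (g : G) (e : ℕ) : rtPerm D U g ^ e = rtPerm D U (g ^ e) := by
  induction e with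
  | zero => rw [pow_zero, pow_zero, rtPerm_one]
  | succ n ih => rw [pow_succ, pow_succ', ih, rtPerm_mul]

theorem rtPerm_inv (g : G) : (rtPerm D U g)⁻¹ = rtPerm D U g⁻¹ := by
  apply inv_eq_of_mul_eq_one_right
  rw [← rtPerm_mul, inv_mul_cancel, rtPerm_one]

theorem rtPerm_zpow (g : G) (k : ℤ) : rtPerm D U g ^ k = rtPerm D U (g ^ k) := by
  cases k with
  | ofNat n => simpa using rtPerm_pow D U g n
  | negSucc n => rw [zpow_negSucc, zpow_negSucc, rtPerm_pow, rtPerm_inv]

theorem rtPerm_zpow_mk (g : G) (k : ℤ) (x : G) :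
    (rtPerm D U g ^ k) (DoubleCoset.mk D U x) = DoubleCoset.mk D U (x * g ^ k) := by
  rw [rtPerm_zpow, rtPerm_mk]

end Normal

section Proj

variable {U} (H : Subgroup G)

/-- the projection `D\G/U → D\G/H` for `U ≤ H` -/
def dcProj (hUH : U ≤ H) :
    DoubleCoset.Quotient (D : Set G) (U : Set G) → DoubleCoset.Quotient (D : Set G) (H : Set G) :=
  Quotient.map' id (by
    intro x y h
    obtain ⟨d, hd, u, hu, rfl⟩ := DoubleCoset.rel_iff.1 h
    exact DoubleCoset.rel_iff.2 ⟨d, hd, u, hUH hu, rfl⟩)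

@[simp] theorem dcProj_mk (hUH : U ≤ H) (x : G) :
    dcProj D H hUH (DoubleCoset.mk D U x) = DoubleCoset.mk D H x := rfl

theorem dcProj_surjective (hUH : U ≤ H) : Surjective (dcProj D H hUH) := by
  intro q
  induction q using Quotient.inductionOn' with
  | h x => exact ⟨DoubleCoset.mk D U x, rfl⟩

variable [hU : U.Normal]

/-- the fibres of `D\G/U → D\G/H` are the orbits of `⟨g⟩`, if `H = ⟨g⟩·U` -/
theorem dcProj_eq_iff (hUH : U ≤ H) (g : G) (hg : g ∈ H)
    (hH : ∀ h ∈ H, ∃ k : ℤ, ∃ u ∈ U, h = g ^ k * u)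
    (q q' : DoubleCoset.Quotient (D : Set G) (U : Set G)) :
    dcProj D H hUH q = dcProj D H hUH q' ↔
      MulAction.orbitRel (Subgroup.zpowers (rtPerm D U g)) _ q q' := by
  induction q using Quotient.inductionOn' with
  | h x =>
  induction q' using Quotient.inductionOn' with
  | h y =>
  show dcProj D H hUH (DoubleCoset.mk D U x) = dcProj D H hUH (DoubleCoset.mk D U y) ↔
    MulAction.orbitRel (Subgroup.zpowers (rtPerm D U g)) _ (DoubleCoset.mk D U x)
      (DoubleCoset.mk D U y)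
  rw [dcProj_mk, dcProj_mk, DoubleCoset.eq, MulAction.orbitRel_apply, MulAction.mem_orbit_iff]
  constructor
  · rintro ⟨d, hd, h, hh, rfl⟩
    obtain ⟨k, u, hu, rfl⟩ := hH h hh
    -- `mk x = τ • mk (d x g^k u)` with `τ = (rtPerm g)^(-k)`
    refine ⟨⟨rtPerm D U g ^ (-k), Subgroup.zpow_mem_zpowers _ _⟩, ?_⟩
    show (rtPerm D U g ^ (-k)) (DoubleCoset.mk D U (d * x * (g ^ k * u))) = DoubleCoset.mk D U x
    rw [rtPerm_zpow_mk, DoubleCoset.eq]
    refine ⟨d⁻¹, D.inv_mem hd, g ^ k * u⁻¹ * g ^ (-k), ?_, ?_⟩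
    · have := hU.conj_mem u⁻¹ (U.inv_mem hu) (g ^ k)
      rwa [← zpow_neg] at this
    · rw [zpow_neg]
      group
  · rintro ⟨⟨τ, hτ⟩, hτq⟩
    obtain ⟨k, rfl⟩ := Subgroup.mem_zpowers_iff.1 hτ
    have h1 : (rtPerm D U g ^ k) (DoubleCoset.mk D U y) = DoubleCoset.mk D U x := hτq
    rw [rtPerm_zpow_mk, DoubleCoset.eq] at h1
    obtain ⟨d, hd, u, hu, hx⟩ := h1
    -- `x = d * (y * g^k) * u`, so `y = d⁻¹ * x * (u⁻¹ * g^(-k))`
    refine ⟨d⁻¹, D.inv_mem hd, u⁻¹ * g ^ (-k), ?_, ?_⟩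
    · exact H.mul_mem (hUH (U.inv_mem hu)) (H.zpow_mem hg _)
    · rw [hx, zpow_neg]
      group

/-- **orbits of `⟨g⟩` on `D\G/U` ≃ `D\G/H`** for `H = ⟨g⟩·U` -/
noncomputable def orbitEquivDc (hUH : U ≤ H) (g : G) (hg : g ∈ H)
    (hH : ∀ h ∈ H, ∃ k : ℤ, ∃ u ∈ U, h = g ^ k * u) :
    MulAction.orbitRel.Quotient (Subgroup.zpowers (rtPerm D U g))
        (DoubleCoset.Quotient (D : Set G) (U : Set G)) ≃
      DoubleCoset.Quotient (D : Set G) (H : Set G) :=
  Equiv.ofBijective
    (Quotient.lift (dcProj D H hUH) (fun q q' h =>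
      (dcProj_eq_iff D H hUH g hg hH q q').2 h)) (by
    constructor
    · intro a b
      induction a using Quotient.inductionOn' with
      | h q =>
      induction b using Quotient.inductionOn' with
      | h q' =>
      intro h
      exact Quotient.sound' ((dcProj_eq_iff D H hUH g hg hH q q').1 h)
    · intro c
      obtain ⟨q, rfl⟩ := dcProj_surjective D H hUH c
      exact ⟨Quotient.mk'' q, rfl⟩)

theorem card_orbits_rtPerm (hUH : U ≤ H) (g : G) (hg : g ∈ H)
    (hH : ∀ h ∈ H, ∃ k : ℤ, ∃ u ∈ U, h = g ^ k * u) :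
    Nat.card (MulAction.orbitRel.Quotient (Subgroup.zpowers (rtPerm D U g))
        (DoubleCoset.Quotient (D : Set G) (U : Set G))) =
      Nat.card (DoubleCoset.Quotient (D : Set G) (H : Set G)) :=
  Nat.card_congr (orbitEquivDc D H hUH g hg hH)

/-- **the rank of the `g^e`-invariants of the permutation lattice on `D\G/U`** is
`#(D\G/H_e)`, for any subgroup `H_e = ⟨g^e⟩·U` -/
theorem finrank_ker_rtPerm_pow_sub_one [Finite (DoubleCoset.Quotient (D : Set G) (U : Set G))]
    (g : G) (e : ℕ) (hUH : U ≤ H) (hg : g ^ e ∈ H)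
    (hH : ∀ h ∈ H, ∃ k : ℤ, ∃ u ∈ U, h = (g ^ e) ^ k * u) :
    finrank ℤ (LinearMap.ker (RankPerm.permEnd (rtPerm D U g) ^ e - 1)) =
      Nat.card (DoubleCoset.Quotient (D : Set G) (H : Set G)) := by
  rw [RankPerm.finrank_ker_permEnd_pow_sub_one, rtPerm_pow,
    card_orbits_rtPerm D H hUH (g ^ e) hg hH]

end Proj

section Sup

variable {U} [hU : U.Normal]

/-- the canonical `H = ⟨a⟩·U` -/
theorem mem_zpowers_sup_normal (a : G) (h : G) (hh : h ∈ Subgroup.zpowers a ⊔ U) :
    ∃ k : ℤ, ∃ u ∈ U, h = a ^ k * u := by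
  have := Subgroup.mul_normal (Subgroup.zpowers a) U
  have hm : h ∈ ((Subgroup.zpowers a ⊔ U : Subgroup G) : Set G) := hh
  rw [this, Set.mem_mul] at hm
  obtain ⟨x, hx, u, hu, rfl⟩ := hm
  obtain ⟨k, rfl⟩ := Subgroup.mem_zpowers_iff.1 hx
  exact ⟨k, u, hu, rfl⟩

/-- the rank formula with the canonical `H_e = ⟨g^e⟩ ⊔ U` -/
theorem finrank_ker_rtPerm_pow_sub_one_sup
    [Finite (DoubleCoset.Quotient (D : Set G) (U : Set G))] (g : G) (e : ℕ) :
    finrank ℤ (LinearMap.ker (RankPerm.permEnd (rtPerm D U g) ^ e - 1)) =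
      Nat.card (DoubleCoset.Quotient (D : Set G) ((Subgroup.zpowers (g ^ e) ⊔ U : Subgroup G) : Set G)) :=
  finrank_ker_rtPerm_pow_sub_one D _ g e le_sup_right
    (le_sup_left (a := Subgroup.zpowers (g ^ e)) (Subgroup.mem_zpowers _))
    (mem_zpowers_sup_normal (g ^ e))

end Sup

end Fermat.Agent.GP.GW.E3.DcOrbit
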