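/-
GATE-P / S56 [P-GW] ROUTE-R (helper9): ranks of invariants on permutation lattices over a **disjoint
union** of permutation sets (`Sum` and `Sigma`), so that `P = ⊕_v (X_v → ℤ)` can be taken to be ONE
permutation lattice `(Σ v, X_v) → ℤ`.  Mathlib only (through `RankPerm`).
-/
import Fermat.Agent.GP.GW.E3.RankPerm

set_option autoImplicit false

namespace Fermat.Agent.GP.GW.E3.RankPerm

open Module Function

/-- invariance under `σ^e`, pointwise form -/
theorem mem_ker_permEnd_pow_sub_one {X : Type*} (σ : Equiv.Perm X) (e : ℕ) (f : X → ℤ) :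
    f ∈ LinearMap.ker (permEnd σ ^ e - 1) ↔ ∀ x, f ((σ ^ e) x) = f x := by
  rw [← permEnd_pow, mem_ker_permEnd_sub_one]

instance free_ker_permEnd_pow_sub_one {X : Type*} [Finite X] (σ : Equiv.Perm X) (e : ℕ) :
    Module.Free ℤ (LinearMap.ker (permEnd σ ^ e - 1)) := by
  rw [← permEnd_pow]
  exact Module.Free.of_equiv (orbitFunEquiv (σ ^ e))

instance finite_ker_permEnd_pow_sub_one {X : Type*} [Finite X] (σ : Equiv.Perm X) (e : ℕ) :
    Module.Finite ℤ (LinearMap.ker (permEnd σ ^ e - 1)) :=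
  Module.IsNoetherian.finite ℤ _

section Sum

variable {X Y : Type*}

theorem sumCongr_pow (σ : Equiv.Perm X) (τ : Equiv.Perm Y) (e : ℕ) :
    (Equiv.sumCongr σ τ : Equiv.Perm (X ⊕ Y)) ^ e = Equiv.sumCongr (σ ^ e) (τ ^ e) :=
  (map_pow (Equiv.Perm.sumCongrHom X Y) (σ, τ) e).symm

/-- invariants on a disjoint union of two permutation sets -/
def kerSumEquiv (σ : Equiv.Perm X) (τ : Equiv.Perm Y) (e : ℕ) :
    LinearMap.ker (permEnd (Equiv.sumCongr σ τ : Equiv.Perm (X ⊕ Y)) ^ e - 1) ≃ₗ[ℤ]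
      (LinearMap.ker (permEnd σ ^ e - 1) × LinearMap.ker (permEnd τ ^ e - 1)) where
  toFun f :=
    (⟨fun x => f.1 (Sum.inl x), (mem_ker_permEnd_pow_sub_one σ e _).2 (fun x => by
        have := (mem_ker_permEnd_pow_sub_one _ e f.1).1 f.2 (Sum.inl x)
        rwa [sumCongr_pow] at this)⟩,
     ⟨fun y => f.1 (Sum.inr y), (mem_ker_permEnd_pow_sub_one τ e _).2 (fun y => by
        have := (mem_ker_permEnd_pow_sub_one _ e f.1).1 f.2 (Sum.inr y)
        rwa [sumCongr_pow] at this)⟩)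
  invFun p := ⟨Sum.elim p.1.1 p.2.1, (mem_ker_permEnd_pow_sub_one _ e _).2 (by
    rw [sumCongr_pow]
    rintro (x | y)
    · exact (mem_ker_permEnd_pow_sub_one σ e p.1.1).1 p.1.2 x
    · exact (mem_ker_permEnd_pow_sub_one τ e p.2.1).1 p.2.2 y)⟩
  map_add' _ _ := rfl
  map_smul' _ _ := rfl
  left_inv f := by
    apply Subtype.ext
    funext z
    cases z <;> rfl
  right_inv p := rfl

/-- **rank of invariants on `X ⊕ Y`** -/
theorem finrank_ker_permEnd_sum [Finite X] [Finite Y] (σ : Equiv.Perm X) (τ : Equiv.Perm Y)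
    (e : ℕ) :
    finrank ℤ (LinearMap.ker (permEnd (Equiv.sumCongr σ τ : Equiv.Perm (X ⊕ Y)) ^ e - 1)) =
      finrank ℤ (LinearMap.ker (permEnd σ ^ e - 1)) +
        finrank ℤ (LinearMap.ker (permEnd τ ^ e - 1)) := by
  rw [(kerSumEquiv σ τ e).finrank_eq]
  exact finrank_prod_int _ _

end Sum

section Sigma

variable {ι : Type*} {X : ι → Type*}

theorem sigmaCongrRight_pow (σ : ∀ v, Equiv.Perm (X v)) (e : ℕ) :
    (Equiv.sigmaCongrRight σ : Equiv.Perm (Σ v, X v)) ^ e =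
      Equiv.sigmaCongrRight (fun v => σ v ^ e) :=
  (map_pow (Equiv.Perm.sigmaCongrRightHom X) σ e).symm

/-- invariants on a disjoint union of a family of permutation sets -/
def kerSigmaEquiv (σ : ∀ v, Equiv.Perm (X v)) (e : ℕ) :
    LinearMap.ker (permEnd (Equiv.sigmaCongrRight σ : Equiv.Perm (Σ v, X v)) ^ e - 1) ≃ₗ[ℤ]
      (∀ v, LinearMap.ker (permEnd (σ v) ^ e - 1)) where
  toFun f v :=
    ⟨fun x => f.1 ⟨v, x⟩, (mem_ker_permEnd_pow_sub_one (σ v) e _).2 (fun x => by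
        have := (mem_ker_permEnd_pow_sub_one _ e f.1).1 f.2 ⟨v, x⟩
        rwa [sigmaCongrRight_pow] at this)⟩
  invFun p := ⟨fun z => (p z.1).1 z.2, (mem_ker_permEnd_pow_sub_one _ e _).2 (by
    rw [sigmaCongrRight_pow]
    rintro ⟨v, x⟩
    exact (mem_ker_permEnd_pow_sub_one (σ v) e (p v).1).1 (p v).2 x)⟩
  map_add' _ _ := rfl
  map_smul' _ _ := rfl
  left_inv f := rfl
  right_inv p := rfl

/-- **rank of invariants on `Σ v, X v`** -/
theorem finrank_ker_permEnd_sigma [Fintype ι] [∀ v, Finite (X v)] (σ : ∀ v, Equiv.Perm (X v))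
    (e : ℕ) :
    finrank ℤ (LinearMap.ker
        (permEnd (Equiv.sigmaCongrRight σ : Equiv.Perm (Σ v, X v)) ^ e - 1)) =
      ∑ v, finrank ℤ (LinearMap.ker (permEnd (σ v) ^ e - 1)) := by
  rw [(kerSigmaEquiv σ e).finrank_eq, Module.finrank_pi_fintype]

end Sigma

end Fermat.Agent.GP.GW.E3.RankPerm
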