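/-
GATE-P / S56 [P-GW] ROUTE-R (helper9): the **packaged (R2)**: for a finite family of subgroups
`D q` (`q : ι`, the decomposition groups at `S`) and one more subgroup `Dinf` (`⟨c⟩`), the permutation
set `X = (Σ q, D q\G/U) ⊕ Dinf\G/U` with `g` acting by right translation has
`rank ker (π_g^e − 1) = Σ_q #(D q\G/H_e) + #(Dinf\G/H_e)` on the lattice `X → ℤ`, for `H_e = ⟨g^e⟩·U`.
-/
import Fermat.Agent.GP.GW.E3.DcOrbit
import Fermat.Agent.GP.GW.E3.RankPermSum

set_option autoImplicit false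

namespace Fermat.Agent.GP.GW.E3.DcOrbit

open Module Function

variable {G : Type*} [Group G] {ι : Type*} (D : ι → Subgroup G) (Dinf : Subgroup G)
  (U : Subgroup G) [hU : U.Normal]

/-- the set of "places of `F`": `(Σ q, D q\G/U) ⊕ Dinf\G/U` -/
abbrev PlaceSet : Type _ :=
  (Σ q : ι, DoubleCoset.Quotient (D q : Set G) (U : Set G)) ⊕
    DoubleCoset.Quotient (Dinf : Set G) (U : Set G)

/-- right translation by `g` on the set of places -/
def placePerm (g : G) : Equiv.Perm (PlaceSet D Dinf U) :=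
  Equiv.sumCongr (Equiv.sigmaCongrRight fun q => rtPerm (D q) U g) (rtPerm Dinf U g)

@[simp] theorem placePerm_inl (g : G) (q : ι) (x : G) :
    placePerm D Dinf U g (Sum.inl ⟨q, DoubleCoset.mk (D q) U x⟩) =
      Sum.inl ⟨q, DoubleCoset.mk (D q) U (x * g)⟩ := rfl

@[simp] theorem placePerm_inr (g : G) (x : G) :
    placePerm D Dinf U g (Sum.inr (DoubleCoset.mk Dinf U x)) =
      Sum.inr (DoubleCoset.mk Dinf U (x * g)) := rfl

/-- **packaged (R2)** -/
theorem finrank_ker_placePerm_pow_sub_one [Fintype ι]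
    [∀ q, Finite (DoubleCoset.Quotient (D q : Set G) (U : Set G))]
    [Finite (DoubleCoset.Quotient (Dinf : Set G) (U : Set G))]
    (H : Subgroup G) (g : G) (e : ℕ) (hUH : U ≤ H) (hg : g ^ e ∈ H)
    (hH : ∀ h ∈ H, ∃ k : ℤ, ∃ u ∈ U, h = (g ^ e) ^ k * u) :
    finrank ℤ (LinearMap.ker (RankPerm.permEnd (placePerm D Dinf U g) ^ e - 1)) =
      (∑ q, Nat.card (DoubleCoset.Quotient (D q : Set G) (H : Set G))) +
        Nat.card (DoubleCoset.Quotient (Dinf : Set G) (H : Set G)) := by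
  unfold placePerm
  rw [RankPerm.finrank_ker_permEnd_sum, RankPerm.finrank_ker_permEnd_sigma,
    finrank_ker_rtPerm_pow_sub_one Dinf H g e hUH hg hH]
  congr 1
  exact Finset.sum_congr rfl fun q _ => finrank_ker_rtPerm_pow_sub_one (D q) H g e hUH hg hH

/-- packaged (R2) with the canonical `H_e = ⟨g^e⟩ ⊔ U` -/
theorem finrank_ker_placePerm_pow_sub_one_sup [Fintype ι]
    [∀ q, Finite (DoubleCoset.Quotient (D q : Set G) (U : Set G))]
    [Finite (DoubleCoset.Quotient (Dinf : Set G) (U : Set G))] (g : G) (e : ℕ) :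
    finrank ℤ (LinearMap.ker (RankPerm.permEnd (placePerm D Dinf U g) ^ e - 1)) =
      (∑ q, Nat.card (DoubleCoset.Quotient (D q : Set G)
          ((Subgroup.zpowers (g ^ e) ⊔ U : Subgroup G) : Set G))) +
        Nat.card (DoubleCoset.Quotient (Dinf : Set G)
          ((Subgroup.zpowers (g ^ e) ⊔ U : Subgroup G) : Set G)) :=
  finrank_ker_placePerm_pow_sub_one D Dinf U _ g e le_sup_right
    (le_sup_left (a := Subgroup.zpowers (g ^ e)) (Subgroup.mem_zpowers _))
    (mem_zpowers_sup_normal (g ^ e))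

end Fermat.Agent.GP.GW.E3.DcOrbit
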