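/-
GATE-P (S56) / [P-GW] / E3 (M-DUAL), part 2 (helper74): the `H⁰`-terms of the DUAL of a retract.

`T = Phi U (chiRep χ)`, `γ = star_n`, `(N, i, r)` a retract of `T` with `r ≫ i = P(γ)`, `D ≤ G` any
subgroup.  Then
  `dim (N.dualTwist χ)^D = dim range P(τ_n)`  on  `Map(U\G/D, k)`,  `(τ_n f)(U x D) = f(U n x D)`.
Also: `P(τ)` and `P(τ⁻¹)` have the same rank on a finite permutation module (self-duality).
-/
import Mathlib
import Fermat.Agent.GP.GW.E3.DualPerm

set_option autoImplicit false

open CategoryTheory Polynomial Module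

noncomputable section

namespace Fermat.Agent.GP.GW.E3.DualPermInv

/-! ### Linear algebra: polynomials in intertwined operators -/

section LinAlg

variable {k : Type*} [CommRing k] {V W : Type*} [AddCommGroup V] [Module k V]
  [AddCommGroup W] [Module k W]

theorem pow_intertwine (a : Module.End k V) (b : Module.End k W) (f : V →ₗ[k] W)
    (h : f ∘ₗ a = b ∘ₗ f) (m : ℕ) : f ∘ₗ (a ^ m) = (b ^ m) ∘ₗ f := by
  induction m with
  | zero => rfl
  | succ m ih =>
    rw [pow_succ, pow_succ, Module.End.mul_eq_comp, Module.End.mul_eq_comp, ← LinearMap.comp_assoc,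
      ih, LinearMap.comp_assoc, h, LinearMap.comp_assoc]

/-- polynomials in intertwined operators are intertwined -/
theorem aeval_intertwine (a : Module.End k V) (b : Module.End k W) (f : V →ₗ[k] W)
    (h : f ∘ₗ a = b ∘ₗ f) (P : k[X]) : f ∘ₗ aeval a P = aeval b P ∘ₗ f := by
  induction P using Polynomial.induction_on' with
  | add P Q hP hQ =>
    rw [map_add, map_add, LinearMap.comp_add, LinearMap.add_comp, hP, hQ]
  | monomial m c =>
    rw [aeval_monomial, aeval_monomial, Algebra.algebraMap_eq_smul_one,
      Algebra.algebraMap_eq_smul_one, smul_mul_assoc, one_mul, smul_mul_assoc, one_mul,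
      LinearMap.comp_smul, LinearMap.smul_comp, pow_intertwine a b f h]

theorem aeval_intertwine_apply (a : Module.End k V) (b : Module.End k W) (f : V →ₗ[k] W)
    (h : f ∘ₗ a = b ∘ₗ f) (P : k[X]) (v : V) : f (aeval a P v) = aeval b P (f v) :=
  LinearMap.congr_fun (aeval_intertwine a b f h P) v

/-- transposition commutes with polynomials -/
theorem transpose_aeval (a : Module.End k V) (P : k[X]) :
    Module.Dual.transpose (R := k) (aeval a P) =
      aeval (Module.Dual.transpose (R := k) a : Module.End k (Module.Dual k V)) P := by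
  have hpow : ∀ m : ℕ, Module.Dual.transpose (R := k) (a ^ m) =
      (Module.Dual.transpose (R := k) a : Module.End k (Module.Dual k V)) ^ m := by
    intro m
    induction m with
    | zero => rfl
    | succ m ih =>
      rw [pow_succ', pow_succ, Module.End.mul_eq_comp, Module.Dual.transpose_comp, ih]
      rfl
  induction P using Polynomial.induction_on' with
  | add P Q hP hQ => rw [map_add, map_add, map_add, hP, hQ]
  | monomial m c =>
    rw [aeval_monomial, aeval_monomial, Algebra.algebraMap_eq_smul_one,
      Algebra.algebraMap_eq_smul_one, smul_mul_assoc, one_mul, smul_mul_assoc, one_mul,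
      map_smul, hpow]

end LinAlg

/-! ### Permutation modules are self-contragredient -/

section Perm

variable {k : Type*} [Field k] {Ω : Type*} [Finite Ω]

/-- `rank P(f ↦ f ∘ τ) = rank P(f ↦ f ∘ τ⁻¹)` on `Map(Ω, k)`, `Ω` finite. -/
theorem finrank_range_aeval_funLeft_symm (τ τ' : Ω → Ω) (h1 : ∀ w, τ (τ' w) = w)
    (h2 : ∀ w, τ' (τ w) = w) (P : k[X]) :
    finrank k (LinearMap.range (aeval (LinearMap.funLeft k k τ' : Module.End k (Ω → k)) P)) =
      finrank k (LinearMap.range (aeval (LinearMap.funLeft k k τ : Module.End k (Ω → k)) P)) := by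
  classical
  have := Fintype.ofFinite Ω
  set A : Module.End k (Ω → k) := LinearMap.funLeft k k τ with hA
  set A' : Module.End k (Ω → k) := LinearMap.funLeft k k τ' with hA'
  let e : Ω ≃ Ω := ⟨τ, τ', h2, h1⟩
  let θ : (Ω → k) ≃ₗ[k] Module.Dual k (Ω → k) := dotProductEquiv k Ω
  have h : θ.toLinearMap ∘ₗ A' = (Module.Dual.transpose (R := k) A) ∘ₗ θ.toLinearMap := by
    apply LinearMap.ext
    intro g
    apply LinearMap.ext
    intro f
    show (fun w => g (τ' w)) ⬝ᵥ f = g ⬝ᵥ (fun w => f (τ w))
    unfold dotProduct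
    rw [← Equiv.sum_comp e (fun w => g (τ' w) * f w)]
    refine Finset.sum_congr rfl fun w _ => ?_
    show g (τ' (τ w)) * f (τ w) = g w * f (τ w)
    rw [h2]
  have h' := aeval_intertwine A' (Module.Dual.transpose (R := k) A) θ.toLinearMap h P
  rw [← transpose_aeval] at h'
  have e1 : finrank k (LinearMap.range (aeval A' P)) =
      finrank k (Submodule.map θ.toLinearMap (LinearMap.range (aeval A' P))) :=
    (LinearEquiv.finrank_map_eq θ _).symm
  rw [e1, ← LinearMap.range_comp, h',
    LinearMap.range_comp_of_range_eq_top _ (LinearEquiv.range θ)]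
  exact LinearMap.finrank_range_dualMap_eq_finrank_range (aeval A P)

end Perm

/-! ### Invariants of a retract -/

section Retract

variable {k : Type*} [CommRing k] {D : Type*} [Group D] {A V : Type*} [AddCommGroup A] [Module k A]
  [AddCommGroup V] [Module k V] (ρA : Representation k D A) (ρV : Representation k D V)

/-- the invariants of a retract `(A, s, t)` of `V` are the image of the invariants of `V` under the
idempotent `s ∘ t`. -/
theorem map_invariants_retract (s : A →ₗ[k] V) (t : V →ₗ[k] A) (hts : ∀ a, t (s a) = a)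
    (hs : ∀ d a, s (ρA d a) = ρV d (s a)) (ht : ∀ d v, t (ρV d v) = ρA d (t v)) :
    Submodule.map s ρA.invariants = Submodule.map (s ∘ₗ t) ρV.invariants := by
  ext x
  constructor
  · rintro ⟨a, ha, rfl⟩
    refine ⟨s a, ?_, ?_⟩
    · intro d
      rw [← hs, ha d]
    · show s (t (s a)) = s a
      rw [hts]
  · rintro ⟨v, hv, rfl⟩
    refine ⟨t v, ?_, rfl⟩
    intro d
    rw [← ht, hv d]

theorem finrank_invariants_retract (s : A →ₗ[k] V) (t : V →ₗ[k] A) (hts : ∀ a, t (s a) = a)
    (hs : ∀ d a, s (ρA d a) = ρV d (s a)) (ht : ∀ d v, t (ρV d v) = ρA d (t v)) :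
    finrank k ρA.invariants = finrank k (Submodule.map (s ∘ₗ t) ρV.invariants) := by
  rw [← map_invariants_retract ρA ρV s t hts hs ht]
  have hinj : Function.Injective s := fun a b hab => by rw [← hts a, ← hts b, hab]
  exact (Submodule.equivMapOfInjective s hinj ρA.invariants).finrank_eq

end Retract

/-! ### Endomorphisms of a representation as linear endomorphisms -/

section EndLin

universe u

variable {k G : Type u} [CommRing k] [Group G]

/-- `End T → End_k T`. -/
def endLin (T : Rep.{u} k G) : End T →ₐ[k] Module.End k T.V where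
  toFun f := (f : T ⟶ T).hom.toLinearMap
  map_one' := rfl
  map_mul' _ _ := rfl
  map_zero' := rfl
  map_add' _ _ := rfl
  commutes' c := by
    rw [Algebra.algebraMap_eq_smul_one, Algebra.algebraMap_eq_smul_one]
    rfl

theorem endLin_apply (T : Rep.{u} k G) (f : End T) : endLin T f = (f : T ⟶ T).hom.toLinearMap := rfl

theorem aeval_hom_toLinearMap (T : Rep.{u} k G) (γ : End T) (P : k[X]) :
    ((aeval γ P : End T) : T ⟶ T).hom.toLinearMap = aeval ((γ : T ⟶ T).hom.toLinearMap) P := by
  rw [← endLin_apply, ← endLin_apply, aeval_algHom_apply]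

end EndLin

/-! ### The permutation side: functions on double cosets -/

section DC

open Fermat.Agent.GC.Prof Fermat.Agent.GP.GW.Euler.StarRes Fermat.Agent.GP.GW.E3.DualPerm

universe u

variable {k G : Type u} [CommRing k] [Group G] (U D : Subgroup G)

/-- the double cosets `U \ G / D` -/
abbrev DCq : Type u := DoubleCoset.Quotient (U : Set G) (D : Set G)

/-- left translation by a normalising element on `U \ G / D`: `U x D ↦ U n x D`. -/
def dcTransl {n : G} (hn' : Norm U n⁻¹) : DCq U D → DCq U D :=
  Quotient.map' (fun x => n * x) (by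
    intro x y hxy
    obtain ⟨a, ha, b, hb, rfl⟩ := DoubleCoset.rel_iff.mp hxy
    refine DoubleCoset.rel_iff.mpr ⟨n * a * n⁻¹, by simpa using hn' a ha, b, hb, ?_⟩
    simp [mul_assoc])

theorem dcTransl_mk {n : G} (hn' : Norm U n⁻¹) (x : G) :
    dcTransl U D hn' (DoubleCoset.mk U D x) = DoubleCoset.mk U D (n * x) := rfl

/-- the operator `τ_n` on `Map(U \ G / D, k)`: `(τ_n f)(U x D) = f(U n x D)`. -/
def translEnd {n : G} (hn' : Norm U n⁻¹) : Module.End k (DCq U D → k) :=
  LinearMap.funLeft k k (dcTransl U D hn')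

theorem translEnd_apply {n : G} (hn' : Norm U n⁻¹) (f : DCq U D → k) (x : G) :
    translEnd U D hn' f (DoubleCoset.mk U D x) = f (DoubleCoset.mk U D (n * x)) := rfl

/-- inflation of a function on `U \ G / D` to an element of `Coind_U Res_U k`. -/
def inflDC : (DCq U D → k) →ₗ[k] (Phi U (Rep.trivial k G k)).V where
  toFun f := ⟨fun x => f (DoubleCoset.mk U D x), by
    intro s x
    show f (DoubleCoset.mk U D ((s : G) * x)) = f (DoubleCoset.mk U D x)
    congr 1
    refine (DoubleCoset.eq U D _ _).mpr ⟨(s : G)⁻¹, U.inv_mem s.2, 1, D.one_mem, ?_⟩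
    simp⟩
  map_add' _ _ := rfl
  map_smul' _ _ := rfl

theorem inflDC_apply (f : DCq U D → k) (x : G) : (inflDC U D f).1 x = f (DoubleCoset.mk U D x) := rfl

theorem inflDC_injective : Function.Injective (inflDC (k := k) U D) := by
  intro f g hfg
  funext q
  induction q using Quotient.inductionOn with | h x => ?_
  exact congrArg (fun F : (Phi U (Rep.trivial k G k)).V => F.1 x) hfg

/-- the image of inflation is the space of `D`-invariants. -/
theorem range_inflDC :
    LinearMap.range (inflDC (k := k) U D) =
      Representation.invariants ((Phi U (Rep.trivial k G k)).ρ.comp D.subtype) := by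
  ext a
  constructor
  · rintro ⟨f, rfl⟩
    intro d
    apply Subtype.ext
    funext x
    show f (DoubleCoset.mk U D (x * (d : G))) = f (DoubleCoset.mk U D x)
    congr 1
    refine (DoubleCoset.eq U D _ _).mpr ⟨1, U.one_mem, (d : G)⁻¹, D.inv_mem d.2, ?_⟩
    simp
  · intro ha
    have hrel : ∀ x y : G, (DoubleCoset.setoid (U : Set G) (D : Set G)) x y → a.1 x = a.1 y := by
      intro x y hxy
      obtain ⟨u, hu, d, hd, rfl⟩ := DoubleCoset.rel_iff.mp hxy
      have h1 : a.1 (u * x * d) = a.1 (x * d) := by
        rw [mul_assoc]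
        exact a.2 ⟨u, hu⟩ (x * d)
      have h2 : a.1 (x * d) = a.1 x :=
        congrArg (fun F : (Phi U (Rep.trivial k G k)).V => F.1 x) (ha ⟨d, hd⟩)
      rw [h1, h2]
    refine ⟨Quotient.lift a.1 hrel, ?_⟩
    apply Subtype.ext
    funext x
    rfl

/-- inflation intertwines `τ_n` with `star_{n⁻¹}`. -/
theorem star_inflDC {n : G} (hn' : Norm U n⁻¹) (f : DCq U D → k) :
    (star (Rep.trivial k G k) hn').hom (inflDC U D f) = inflDC U D (translEnd U D hn' f) := by
  apply Subtype.ext
  funext y
  rw [star_trivial_apply]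
  rfl

/-- `U \\ G / D` is finite when `U` has finite index. -/
instance finite_DCq [U.FiniteIndex] : Finite (DCq U D) := by
  have : Finite (Quotient (QuotientGroup.rightRel U)) :=
    Finite.of_equiv _ (QuotientGroup.quotientRightRelEquivQuotientLeftRel U).symm
  refine Finite.of_surjective
    (Quotient.map' (s₁ := QuotientGroup.rightRel U) (s₂ := DoubleCoset.setoid (U : Set G) (D : Set G))
      id ?_) ?_
  · rintro _ y ⟨s, rfl⟩
    exact DoubleCoset.rel_iff.mpr ⟨(s : G)⁻¹, U.inv_mem s.2, 1, D.one_mem, by
      simp [Subgroup.smul_def]⟩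
  · intro q
    induction q using Quotient.inductionOn with | h x => ?_
    exact ⟨Quotient.mk'' x, rfl⟩

/-- **self-contragredience**: `P(τ_n)` and `P(τ_{n⁻¹})` have the same rank on `Map(U\\G/D, k)`. -/
theorem finrank_range_aeval_translEnd_inv {k : Type u} [Field k] [Finite (DCq U D)] {n m : G}
    (hn' : Norm U n⁻¹) (hm' : Norm U m⁻¹) (hmn : m * n = 1) (P : k[X]) :
    finrank k (LinearMap.range (aeval (translEnd (k := k) U D hm') P)) =
      finrank k (LinearMap.range (aeval (translEnd (k := k) U D hn') P)) := by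
  have hnm : n * m = 1 := by
    have h := mul_eq_one_iff_eq_inv.mp hmn
    rw [h, mul_inv_cancel]
  refine finrank_range_aeval_funLeft_symm (dcTransl U D hn') (dcTransl U D hm') ?_ ?_ P
  · intro q
    induction q using Quotient.inductionOn with | h x => ?_
    show DoubleCoset.mk U D (n * (m * x)) = DoubleCoset.mk U D x
    rw [← mul_assoc, hnm, one_mul]
  · intro q
    induction q using Quotient.inductionOn with | h x => ?_
    show DoubleCoset.mk U D (m * (n * x)) = DoubleCoset.mk U D x
    rw [← mul_assoc, hmn, one_mul]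

end DC

/-! ### The main statement -/

section Main

open Fermat.Agent.GC.Prof Fermat.Agent.GP.GW.Euler.StarRes Fermat.Agent.GP.GW.E3.DualPerm

universe u

variable {k G : Type u} [CommRing k] [Group G]

/-- an isomorphism of representations maps `D`-invariants onto `D`-invariants. -/
theorem map_invariants_iso {M M' : Rep.{u} k G} (e : M ≅ M') (D : Subgroup G) :
    Submodule.map e.hom.hom.toLinearMap (Representation.invariants (M.ρ.comp D.subtype)) =
      Representation.invariants (M'.ρ.comp D.subtype) := by
  ext x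
  constructor
  · rintro ⟨m, hm, rfl⟩
    intro d
    show M'.ρ (d : G) (e.hom.hom m) = e.hom.hom m
    rw [← Rep.hom_comm_apply]
    exact congrArg _ (hm d)
  · intro hx
    refine ⟨e.inv.hom x, ?_, Rep.hom_inv_apply (e := e) (x := x)⟩
    intro d
    show M.ρ (d : G) (e.inv.hom x) = e.inv.hom x
    rw [← Rep.hom_comm_apply]
    exact congrArg _ (hx d)

theorem iso_hom_injective {M M' : Rep.{u} k G} (e : M ≅ M') :
    Function.Injective e.hom.hom.toLinearMap := by
  intro x y hxy
  have hx := Rep.inv_hom_apply (e := e) (x := x)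
  have hy := Rep.inv_hom_apply (e := e) (x := y)
  rw [← hx, ← hy]
  exact congrArg e.inv.hom hxy

/-- `P(star_n)` as an endomorphism of `Phi U B` (polynomial in the `k`-algebra `End (Phi U B)`). -/
def starPolyEnd (U : Subgroup G) (B : Rep.{u} k G) {n : G} (hn : Norm U n) (P : k[X]) :
    Phi U B ⟶ Phi U B :=
  let γ : End (Phi U B) := star B hn
  (aeval γ P : End (Phi U B))

theorem starPolyEnd_eq (U : Subgroup G) (B : Rep.{u} k G) {n : G} (hn : Norm U n) (P : k[X]) :
    (show End (Phi U B) from starPolyEnd U B hn P) =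
      aeval (show End (Phi U B) from star B hn) P := rfl

theorem starPolyEnd_hom_toLinearMap (U : Subgroup G) (B : Rep.{u} k G) {n : G} (hn : Norm U n)
    (P : k[X]) :
    (starPolyEnd U B hn P).hom.toLinearMap = aeval ((star B hn).hom.toLinearMap) P :=
  aeval_hom_toLinearMap (Phi U B) (star B hn : End (Phi U B)) P

variable (U : Subgroup G) [U.FiniteIndex] (χ : G →* kˣ)

/-- **`H⁰(D, T*)` with the operator `P(γ*)`** is `Map(U\G/D, k)` with `P(τ_n)`:
`dim P(γ*) (T*)^D = dim range P(τ_n)`. -/
theorem finrank_map_aeval_dualTwist {n : G} (hn : Norm U n) (hn' : Norm U n⁻¹) (P : k[X])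
    (D : Subgroup G) :
    finrank k (Submodule.map
        (aeval ((dualTwistMap χ (star (chiRep χ) hn)).hom.toLinearMap :
          Module.End k ((Phi U (chiRep χ)).dualTwist χ).V) P)
        (Representation.invariants (((Phi U (chiRep χ)).dualTwist χ).ρ.comp D.subtype))) =
      finrank k (LinearMap.range (aeval (translEnd (k := k) U D hn') P)) := by
  set γ' : Module.End k ((Phi U (chiRep χ)).dualTwist χ).V :=
    (dualTwistMap χ (star (chiRep χ) hn)).hom.toLinearMap with hγ'
  set σ : Module.End k (Phi U (Rep.trivial k G k)).V :=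
    (star (Rep.trivial k G k) hn').hom.toLinearMap with hσ
  set Ψ : ((Phi U (chiRep χ)).dualTwist χ).V →ₗ[k] (Phi U (Rep.trivial k G k)).V :=
    (dualPermIso U χ).hom.hom.toLinearMap with hΨ
  have hΨinj : Function.Injective Ψ := iso_hom_injective (dualPermIso U χ)
  have h1 : Ψ ∘ₗ γ' = σ ∘ₗ Ψ := by
    have := dualTwistMap_star_dualPermIso U χ hn hn'
    exact congrArg (fun f : (Phi U (chiRep χ)).dualTwist χ ⟶ Phi U (Rep.trivial k G k) =>
      f.hom.toLinearMap) this
  have h2 : inflDC (k := k) U D ∘ₗ translEnd U D hn' = σ ∘ₗ inflDC U D := by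
    apply LinearMap.ext
    intro f
    exact (star_inflDC U D hn' f).symm
  -- transport along `Ψ`
  have e1 := (Submodule.equivMapOfInjective Ψ hΨinj
    (Submodule.map (aeval γ' P)
      (Representation.invariants (((Phi U (chiRep χ)).dualTwist χ).ρ.comp D.subtype)))).finrank_eq
  rw [e1, ← Submodule.map_comp, aeval_intertwine γ' σ Ψ h1 P, Submodule.map_comp,
    map_invariants_iso (dualPermIso U χ) D, ← range_inflDC, ← LinearMap.range_comp,
    ← aeval_intertwine _ σ (inflDC U D) h2 P, LinearMap.range_comp]
  exact ((Submodule.equivMapOfInjective (inflDC U D) (inflDC_injective U D) _).finrank_eq).symm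

/-- **M-DUAL, final form.**  For a retract `(N, i, r)` of `T = Coind_U Res_U k(χ)` along
`P(star_n)` and any subgroup `D`: `dim (N*)^D = dim range P(τ_n)` on `Map(U\G/D, k)`. -/
theorem finrank_invariants_dualTwist_retract {n : G} (hn : Norm U n) (hn' : Norm U n⁻¹) (P : k[X])
    {N : Rep.{u} k G} (i : N ⟶ Phi U (chiRep χ)) (r : Phi U (chiRep χ) ⟶ N)
    (hir : i ≫ r = 𝟙 N)
    (hri : r ≫ i = starPolyEnd U (chiRep χ) hn P)
    (D : Subgroup G) :
    finrank k (Representation.invariants ((N.dualTwist χ).ρ.comp D.subtype)) =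
      finrank k (LinearMap.range (aeval (translEnd (k := k) U D hn') P)) := by
  rw [← finrank_map_aeval_dualTwist U χ hn hn' P D]
  have hts : ∀ a, (dualTwistMap χ i).hom.toLinearMap ((dualTwistMap χ r).hom.toLinearMap a) = a := by
    intro a
    have h : dualTwistMap χ r ≫ dualTwistMap χ i = 𝟙 (N.dualTwist χ) := by
      rw [← dualTwistMap_comp, hir, dualTwistMap_id]
    exact congrArg (fun f : N.dualTwist χ ⟶ N.dualTwist χ => f.hom a) h
  have hst : (dualTwistMap χ r).hom.toLinearMap ∘ₗ (dualTwistMap χ i).hom.toLinearMap =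
      aeval ((dualTwistMap χ (star (chiRep χ) hn)).hom.toLinearMap :
          Module.End k ((Phi U (chiRep χ)).dualTwist χ).V) P := by
    have h : (dualTwistMap χ (r ≫ i)).hom.toLinearMap =
        Module.Dual.transpose (R := k) (r ≫ i).hom.toLinearMap := rfl
    have h' : (dualTwistMap χ r).hom.toLinearMap ∘ₗ (dualTwistMap χ i).hom.toLinearMap =
        (dualTwistMap χ (r ≫ i)).hom.toLinearMap := rfl
    rw [h', h, hri, starPolyEnd_hom_toLinearMap, transpose_aeval]
    rfl
  rw [← hst]
  exact finrank_invariants_retract _ _ _ _ hts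
    (fun d a => Rep.hom_comm_apply (dualTwistMap χ r) (d : G) a)
    (fun d v => Rep.hom_comm_apply (dualTwistMap χ i) (d : G) v)

end Main

end Fermat.Agent.GP.GW.E3.DualPermInv
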