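/-
GATE-P / S56 [P-GW] leaf S56-GW-EQDICT (helper95), the `ψ` SIDE of (UNITq) (helper54 4455):

`F ⊂ ℚ̄` normal over `ℚ`, `n ∈ G_ℚ`, `σ_n = n|_F`, `ζ ∈ F` a `p`-th root of unity.  Then
  `σ_n ζ = ζ ^ m`   with `m := cycloExp p n`,   `(m : ZMod p) = (cycloChar p n : ZMod p)`,
so that the factor `X - C (m : ZMod p)` of helper54's `UnitCharpoly.unit_charpoly` IS the factor
`X - C ψ`, `ψ = χ_cyc(n)`, of helper78's `BaseKey.keyCP_of_leaves` / `KeyCPQ`
(`unit_charpoly_cycloChar`: the charpoly identity (UNIT) for `L = F`, `K = ℚ`, `σ = n|_F` with the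
`ψ`-factor in that spelling).  Also: `ζ_p ∈ F` as soon as `G_F ≤ ker χ_cyc`.
-/
import Fermat.Agent.GP.GW.EqSUnits.UnitCharpoly
import Fermat.Prelude.Def_ExtCitation_KummerBridge

set_option autoImplicit false
set_option linter.unusedSectionVars false

open Polynomial NumberField IsDedekindDomain

namespace Fermat.Agent.GP.GW.E3.EqDict

open ExtCitation Fermat.Agent.GP.GW.EqSUnits Fermat.Agent.GP.GW.HerbrandAdd
  Fermat.Agent.GP.GW.CharpolyAddFun Fermat.Agent.GC.SUnitHQ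

local notation "Qb" => AlgebraicClosure ℚ
local notation "GQ" => (AlgebraicClosure ℚ ≃ₐ[ℚ] AlgebraicClosure ℚ)

local instance isAlgebraicQbar_eqd : Algebra.IsAlgebraic ℚ (AlgebraicClosure ℚ) :=
  AlgebraicClosure.isAlgebraic ℚ
local instance isAlgClosureQbar_eqd : IsAlgClosure ℚ (AlgebraicClosure ℚ) :=
  ⟨inferInstance, inferInstance⟩
local instance normalQbar_eqd : Normal ℚ (AlgebraicClosure ℚ) :=
  IsAlgClosure.normal ℚ (AlgebraicClosure ℚ)
local instance isGaloisQbar_eqd : IsGalois ℚ (AlgebraicClosure ℚ) := ⟨⟩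

variable (p : ℕ) [Fact p.Prime]

/-- `σ μ = μ ^ cycloExp p σ` for every `p`-th root of unity `μ ∈ ℚ̄`. -/
theorem apply_root_eq_pow (n : GQ) (μ : Qb) (hμ : μ ^ p = 1) : n μ = μ ^ cycloExp p n := by
  haveI : NeZero p := ⟨(Fact.out : p.Prime).ne_zero⟩
  have hμ0 : μ ≠ 0 := by
    rintro rfl
    rw [zero_pow (NeZero.ne p)] at hμ
    exact zero_ne_one hμ
  have ht : Units.mk0 μ hμ0 ∈ rootsOfUnity p Qb := by
    rw [mem_rootsOfUnity]
    apply Units.ext
    rw [Units.val_pow_eq_pow_val, Units.val_one]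
    exact hμ
  exact modularCyclotomicCharacter.spec Qb (card_rootsOfUnity_eq_self p) (n : Qb ≃+* Qb) ht

/-- the value of the frozen `cycloChar` in `ZMod p` is the class of `cycloExp`. -/
theorem natCast_cycloExp (n : GQ) :
    ((cycloExp p n : ℕ) : ZMod p) = ((cycloChar p n : (ZMod p)ˣ) : ZMod p) :=
  (coe_cycloChar p n).symm

variable (F : IntermediateField ℚ Qb) [Normal ℚ F]

/-- **the `ψ` side**: `n|_F` raises the `p`-th roots of unity of `F` to the power `cycloExp p n`. -/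
theorem restrictNormal_root_eq_pow (n : GQ) (μ : F) (hμ : μ ^ p = 1) :
    AlgEquiv.restrictNormal n F μ = μ ^ cycloExp p n := by
  apply (algebraMap F Qb).injective
  rw [AlgEquiv.restrictNormal_commutes, map_pow]
  refine apply_root_eq_pow p n _ ?_
  rw [← map_pow, hμ, map_one]

/-- the same, as an existence statement in the spelling of `unit_charpoly`. -/
theorem exists_restrictNormal_zeta_pow (n : GQ) {ζ : F} (hζ : IsPrimitiveRoot ζ p) :
    ∃ m : ℕ, AlgEquiv.restrictNormal n F ζ = ζ ^ m ∧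
      (m : ZMod p) = ((cycloChar p n : (ZMod p)ˣ) : ZMod p) :=
  ⟨cycloExp p n, restrictNormal_root_eq_pow p F n ζ hζ.pow_eq_one, natCast_cycloExp p n⟩

/-- `X - C m = X - C ψ`. -/
theorem X_sub_C_cycloExp (n : GQ) :
    (X - C ((cycloExp p n : ℕ) : ZMod p) : (ZMod p)[X]) =
      X - C ((cycloChar p n : (ZMod p)ˣ) : ZMod p) := by
  rw [natCast_cycloExp]

/-- `ζ_p ∈ F` when `G_F ≤ ker χ_cyc`. -/
theorem root_mem_of_fixingSubgroup_le
    (hχ : ∀ u ∈ F.fixingSubgroup, cycloChar p u = 1) (μ : Qb) (hμ : μ ^ p = 1) : μ ∈ F := by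
  rw [← InfiniteGalois.fixedField_fixingSubgroup F, IntermediateField.mem_fixedField_iff]
  intro u hu
  have h1 : ((cycloExp p u : ℕ) : ZMod p) = 1 := by
    rw [natCast_cycloExp, hχ u hu]
    rfl
  have h2 := apply_root_eq_pow p u μ hμ
  rw [h2]
  -- `μ ^ cycloExp = μ` since `cycloExp ≡ 1 mod p`
  have h3 : cycloExp p u ≡ 1 [MOD p] := by
    rw [← ZMod.natCast_eq_natCast_iff, h1, Nat.cast_one]
  have h4 : μ ^ cycloExp p u = μ ^ 1 := by
    have hp : 0 < p := (Fact.out : p.Prime).pos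
    rw [← Nat.mod_add_div (cycloExp p u) p, pow_add, pow_mul, hμ, one_pow, mul_one]
    have h5 : cycloExp p u % p = 1 % p := h3
    rw [h5, Nat.mod_eq_of_lt (Fact.out : p.Prime).one_lt]
  rw [h4, pow_one]

/-- a primitive `p`-th root of unity of `F`, when `G_F ≤ ker χ_cyc`. -/
theorem exists_primitiveRoot_of_fixingSubgroup_le
    (hχ : ∀ u ∈ F.fixingSubgroup, cycloChar p u = 1) : ∃ ζ : F, IsPrimitiveRoot ζ p := by
  haveI : NeZero p := ⟨(Fact.out : p.Prime).ne_zero⟩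
  haveI : NeZero (p : Qb) := ⟨Nat.cast_ne_zero.mpr (NeZero.ne p)⟩
  obtain ⟨ζ, hζ⟩ := HasEnoughRootsOfUnity.exists_primitiveRoot Qb p
  have hmem : ζ ∈ F := root_mem_of_fixingSubgroup_le p F hχ ζ hζ.pow_eq_one
  refine ⟨⟨ζ, hmem⟩, ?_⟩
  exact IsPrimitiveRoot.of_map_of_injective (f := algebraMap F Qb) hζ (algebraMap F Qb).injective

variable [NumberField F]

/-- **(UNIT) with the `ψ`-factor in helper78's spelling**: helper54's `unit_charpoly` for `K = ℚ`,
`L = F`, `σ = n|_F`, with `X - C ψ`, `ψ = χ_cyc(n)`. -/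
theorem unit_charpoly_cycloChar {ζ : F} (hζ : IsPrimitiveRoot ζ p)
    (S : Set (HeightOneSpectrum (𝓞 ℚ))) [Finite (above (L := F) S)] (n : GQ)
    [Module (ZMod p) (quo (R := MonoidAlgebra ℤ (F ≃ₐ[ℚ] F)) p
      (sUnitsRepr (L := F) S).asModule)] :
    (smulEnd p (MonoidAlgebra.of ℤ (F ≃ₐ[ℚ] F) (AlgEquiv.restrictNormal n F))
        (quo (R := MonoidAlgebra ℤ (F ≃ₐ[ℚ] F)) p (sUnitsRepr (L := F) S).asModule)).charpoly *
        (X - 1) =
      (X - C ((cycloChar p n : (ZMod p)ˣ) : ZMod p)) *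
        (LinearMap.funLeft (ZMod p) (ZMod p)
          (pullAbove (L := F) S (AlgEquiv.restrictNormal n F))).charpoly *
        (LinearMap.funLeft (ZMod p) (ZMod p)
          (fun w : InfinitePlace F => (AlgEquiv.restrictNormal n F)⁻¹ • w)).charpoly := by
  rw [← X_sub_C_cycloExp]
  exact unit_charpoly hζ S (AlgEquiv.restrictNormal n F) (cycloExp p n)
    (restrictNormal_root_eq_pow p F n ζ hζ.pow_eq_one)

end Fermat.Agent.GP.GW.E3.EqDict
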