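/-
GATE-P (S56) / [P-GW] / E3, leaf **H2-C0 = (H0*)** (helper51; named by helper59 4423 (3) /
helper78 4433): the `H⁰` factor on the DUAL side of helper18's (H2)-abs
(`PTTailCharpoly.charpoly_H2_of_sha_two_eq_bot_prod`).

`U ≤ G` of finite index, `χ : G →* kˣ`, `T'' := Phi U (chiRep χ) = Coind_U^G Res_U k(χ)`, `n`
normalising `U`, `φ := ⋆n : T'' ⟶ T''`, `φ* := dualTwistMap χ φ` its transpose on
`T''* = T''.dualTwist χ`.  Then `H⁰(G, T''*) ≃ k` (helper74's `dualPermIso : T''* ≅ Coind_U Res_U k`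
+ helper12's `ev0` at the trivial representation: the constants) and `H⁰(φ*)` is the identity, so

  `charpoly (H⁰(φ*)) = X − 1`.

* `HlcMap_star_trivial_zero`      : `⋆n` is the identity on `Hlc⁰(G, Coind_U Res_U k)`;
* `HlcMap_dualTwistMap_star_zero` : `H⁰(φ*) = id`;
* `finrank_Hlc_zero_dual`, `finiteDimensional_Hlc_zero_dual` : `dim H⁰(G, T''*) = 1`;
* `charpoly_HlcMap_dualTwistMap_star_zero` : the generic statement (`StarRes` spelling,
  `GC.Prof.dualTwistMap`), `charpoly_triples` (the same with `GC.PT.Triples.dualTwistMap`);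
* `charpoly_star`, `charpoly_starC` : helper86's `NormPair` spelling
  (`A := P.chiRes χ`, `φ := NormPair.star A n` resp. `starC A c`), the form of the missing line
  (H0*) of (H2q) in helper78's 4433.
The only instance binders are those of helper18's theorem (`IsDiscrete` of the dual,
`FiniteDimensional` of its `Hlc⁰`) and `[U.FiniteIndex]`.
-/
import Mathlib
import Fermat.Agent.GP.GW.E3.DualPerm
import Fermat.Agent.GP.GW.Euler.H0Chi
import Fermat.Agent.GP.GW.Euler.StarBridge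
import Fermat.Agent.GP.GW.ChiAdd
import Fermat.Agent.GP.GW.E3.BaseAll

set_option autoImplicit false

open CategoryTheory

noncomputable section

namespace Fermat.Agent.GP.GW.E3.H2C0

open Fermat.Agent.GC.Prof Fermat.Agent.GP.GW.Euler.StarRes Fermat.Agent.GP.GW.Euler.PhiKum
  Fermat.Agent.GP.GW.E3.DualPerm Fermat.Agent.GP.GW.ChiAdd Polynomial Module

universe u

/-! ### The trivial representation: `⋆n` is the identity on `Hlc⁰(G, Coind_U Res_U k)` -/

section Triv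

variable {k G : Type u} [CommRing k] [Group G] (𝒰 : LevelSystem G) (U : Subgroup G)
  [IsDiscrete 𝒰 (Phi U (Rep.trivial k G k))]

/-- every element of the trivial representation is invariant -/
theorem mem_invariants_res_trivial (a : k) :
    a ∈ (Rep.res U.subtype (Rep.trivial k G k)).ρ.invariants := fun _ => rfl

/-- `(Res_U k)^U ≃ k`. -/
def trivInvEquiv : (Rep.res U.subtype (Rep.trivial k G k)).ρ.invariants ≃ₗ[k] k where
  toFun a := a.1
  map_add' _ _ := rfl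
  map_smul' _ _ := rfl
  invFun a := ⟨a, mem_invariants_res_trivial U a⟩
  left_inv _ := rfl
  right_inv _ := rfl

/-- `Hlc⁰(G, Coind_U Res_U k) ≃ k` (the constants). -/
def ev0Triv : Hlc 𝒰 (Phi U (Rep.trivial k G k)) 0 ≃ₗ[k] k :=
  (ev0 U (Rep.trivial k G k) 𝒰).trans (trivInvEquiv U)

variable {U}

/-- **`⋆n` is the identity on `Hlc⁰(G, Coind_U Res_U k)`.** -/
theorem HlcMap_star_trivial_zero {n : G} (hn : Norm U n)
    (x : Hlc 𝒰 (Phi U (Rep.trivial k G k)) 0) :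
    HlcMap 𝒰 (star (Rep.trivial k G k) hn) 0 x = x := by
  apply (ev0 U (Rep.trivial k G k) 𝒰).injective
  rw [ev0_star]
  apply Subtype.ext
  rfl

end Triv

/-! ### The dual side: `H⁰(G, T''*)` is a line on which `(⋆n)*` acts trivially -/

section Dual

variable {k G : Type u} [Field k] [Group G] (𝒰 : LevelSystem G) (U : Subgroup G) [U.FiniteIndex]
  (χ : G →* kˣ) [hd : IsDiscrete 𝒰 ((Phi U (chiRep χ)).dualTwist χ)]

include hd in
/-- the permutation module is discrete as soon as the twisted dual is (helper74's `dualPermIso`) -/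
theorem isDiscrete_perm : IsDiscrete 𝒰 (Phi U (Rep.trivial k G k)) :=
  IsDiscrete.of_iso (dualPermIso U χ)

/-- **`H⁰(φ*) = id`** for `φ = ⋆n` on `T'' = Coind_U Res_U k(χ)`. -/
theorem HlcMap_dualTwistMap_star_zero {n : G} (hn : Norm U n) (hn' : Norm U n⁻¹)
    (x : Hlc 𝒰 ((Phi U (chiRep χ)).dualTwist χ) 0) :
    HlcMap 𝒰 (dualTwistMap χ (star (chiRep χ) hn)) 0 x = x := by
  have := isDiscrete_perm 𝒰 U χ
  apply (HlcCongr 𝒰 (dualPermIso U χ) 0).injective
  show HlcMap 𝒰 (dualPermIso U χ).hom 0 (HlcMap 𝒰 (dualTwistMap χ (star (chiRep χ) hn)) 0 x) =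
    HlcMap 𝒰 (dualPermIso U χ).hom 0 x
  rw [← HlcMap_comp_apply, dualTwistMap_star_dualPermIso U χ hn hn', HlcMap_comp_apply,
    HlcMap_star_trivial_zero]

/-- `H⁰(G, T''*) ≃ k`. -/
def ev0Dual : Hlc 𝒰 ((Phi U (chiRep χ)).dualTwist χ) 0 ≃ₗ[k] k :=
  haveI := isDiscrete_perm 𝒰 U χ
  (HlcCongr 𝒰 (dualPermIso U χ) 0).trans (ev0Triv 𝒰 U)

/-- `dim H⁰(G, T''*) = 1`. -/
theorem finrank_Hlc_zero_dual : finrank k (Hlc 𝒰 ((Phi U (chiRep χ)).dualTwist χ) 0) = 1 := by
  rw [(ev0Dual 𝒰 U χ).finrank_eq, finrank_self]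

/-- `H⁰(G, T''*)` is finite-dimensional (to discharge the instance binder below). -/
theorem finiteDimensional_Hlc_zero_dual :
    FiniteDimensional k (Hlc 𝒰 ((Phi U (chiRep χ)).dualTwist χ) 0) :=
  Module.Finite.equiv (ev0Dual 𝒰 U χ).symm

variable [FiniteDimensional k (Hlc 𝒰 ((Phi U (chiRep χ)).dualTwist χ) 0)]

/-- **H2-C0 = (H0\*), generic form**: `charpoly (H⁰((⋆n)*)) = X − 1`. -/
theorem charpoly_HlcMap_dualTwistMap_star_zero {n : G} (hn : Norm U n) (hn' : Norm U n⁻¹) :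
    (HlcMap 𝒰 (dualTwistMap χ (star (chiRep χ) hn)) 0).hom.charpoly = X - 1 := by
  have h : (HlcMap 𝒰 (dualTwistMap χ (star (chiRep χ) hn)) 0).hom = 1 :=
    LinearMap.ext fun x => HlcMap_dualTwistMap_star_zero 𝒰 U χ hn hn' x
  rw [h, LinearMap.charpoly_one, finrank_Hlc_zero_dual, pow_one]

/-- The same with the transpose spelled `GC.PT.Triples.dualTwistMap` (helper18's
`PTTailCharpoly.charpoly_H2_of_sha_two_eq_bot_prod`). -/
theorem charpoly_triples {n : G} (hn : Norm U n) (hn' : Norm U n⁻¹) :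
    (HlcMap 𝒰 (Fermat.Agent.GC.PT.Triples.dualTwistMap χ (star (chiRep χ) hn)) 0).hom.charpoly =
      X - 1 :=
  charpoly_HlcMap_dualTwistMap_star_zero 𝒰 U χ hn hn'

end Dual

/-! ### helper86's `NormPair` spelling -/

section Pair

open Fermat.Agent.GP.GW.E3.NormPair Fermat.Agent.GP.GW.Euler.StarBridge

variable {k G : Type u} [Field k] [Group G] (𝒰 : LevelSystem G) (P : NormPair G)

/-- `n⁻¹` normalises `H₀` -/
theorem norm_coe_inv (n : P.H) : Norm P.H₀ ((n : G)⁻¹) := norm_coe P n⁻¹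

variable [P.H₀.FiniteIndex] (χ : G →* kˣ)
  [hd : IsDiscrete 𝒰 ((P.big (P.chiRes χ)).dualTwist χ)]

/-- `H⁰(G, φ*)` itself is the identity (`φ = NormPair.star A n`). -/
theorem HlcMap_star_apply (n : P.H) (x : Hlc 𝒰 ((P.big (P.chiRes χ)).dualTwist χ) 0) :
    HlcMap 𝒰 (Fermat.Agent.GC.PT.Triples.dualTwistMap χ (NormPair.star (P.chiRes χ) n)) 0 x = x := by
  have hd' : IsDiscrete 𝒰 ((Phi P.H₀ (chiRep χ)).dualTwist χ) := hd
  exact HlcMap_dualTwistMap_star_zero 𝒰 P.H₀ χ (norm_coe P n) (norm_coe_inv P n) x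

/-- `dim H⁰(G, (P.big A)*) = 1`. -/
theorem finrank_Hlc_zero_dual_big :
    finrank k (Hlc 𝒰 ((P.big (P.chiRes χ)).dualTwist χ) 0) = 1 := by
  have hd' : IsDiscrete 𝒰 ((Phi P.H₀ (chiRep χ)).dualTwist χ) := hd
  exact finrank_Hlc_zero_dual 𝒰 P.H₀ χ

/-- `H⁰(G, (P.big A)*)` is finite-dimensional (to discharge the instance binder below). -/
theorem finiteDimensional_Hlc_zero_dual_big :
    FiniteDimensional k (Hlc 𝒰 ((P.big (P.chiRes χ)).dualTwist χ) 0) := by
  have hd' : IsDiscrete 𝒰 ((Phi P.H₀ (chiRep χ)).dualTwist χ) := hd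
  exact finiteDimensional_Hlc_zero_dual 𝒰 P.H₀ χ

variable [hf : FiniteDimensional k (Hlc 𝒰 ((P.big (P.chiRes χ)).dualTwist χ) 0)]

/-- **H2-C0 = (H0\*)** for `T'' = P.big A`, `A = k(χ)|_H`, `φ = NormPair.star A n`:
`charpoly (H⁰(G, φ*)) = X − 1`. -/
theorem charpoly_star (n : P.H) :
    (HlcMap 𝒰 (Fermat.Agent.GC.PT.Triples.dualTwistMap χ
      (NormPair.star (P.chiRes χ) n)) 0).hom.charpoly = X - 1 := by
  have hd' : IsDiscrete 𝒰 ((Phi P.H₀ (chiRep χ)).dualTwist χ) := hd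
  have hf' : FiniteDimensional k (Hlc 𝒰 ((Phi P.H₀ (chiRep χ)).dualTwist χ) 0) := hf
  exact charpoly_triples 𝒰 P.H₀ χ (norm_coe P n) (norm_coe_inv P n)

/-- **H2-C0 = (H0\*)** for `φ = starC A c`, `c : C = H ⧸ H₀`. -/
theorem charpoly_starC (c : P.C) :
    (HlcMap 𝒰 (Fermat.Agent.GC.PT.Triples.dualTwistMap χ
      (starC (P.chiRes χ) c : P.big (P.chiRes χ) ⟶ P.big (P.chiRes χ))) 0).hom.charpoly = X - 1 := by
  induction c using QuotientGroup.induction_on with
  | H n => exact charpoly_star 𝒰 P χ n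

end Pair

end Fermat.Agent.GP.GW.E3.H2C0
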