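/-
GATE-P (S56) / [P-GW] / E3 (helper59): **the leaf (H2q) of (KEY-CP), in the pinned spelling.**

`S ∋ p` (`p` odd), `U ⊴ G_ℚ` of finite index, `U ≤ H`, `P = normPairQ U H`, `A = 𝔽_p(χ_cyc)|_H`,
`T'' = W_A = P.big A = Coind_U 𝔽_p(χ_cyc)`, `n : H`, `γ = n ⋆ -`.  If `Ш²(G_{ℚ,S}, T'') = 0` then

  `charpoly ([n] | Hlc²(G_{ℚ,S}, T'')) * (X - 1) = ∏_{v ∈ S} charpoly (f ↦ f ∘ (n • ·) | Map(D_v\G_ℚ/U, 𝔽_p))`.

Assembly of: helper18 `PTTailCharpoly.charpoly_H2_of_sha_two_eq_bot_prod` (PT tail, equivariant),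
helper19 `H30Local.h30Right_ev` (GW-1c, unconditional), helper83
`Mackey.charpoly_hloc_dualStar_smul` / `Mackey.charpoly_hlc_dualStar` (the `H⁰` factors through
helper74's `dualPermIso`), helper12 `StarBridge` (the two `⋆` formalisms agree by `rfl`).
The right-hand side is `∏ v, PermPoly.dcPoly (decQ v) n` (`GP/GW/E3/PermPoly.lean`).
-/
import Mathlib
import Fermat.Agent.GP.GW.E3.PermPoly
import Fermat.Agent.GP.GW.E3.MackeyCharpoly
import Fermat.Agent.GP.GW.E3.PTTailCharpoly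
import Fermat.Agent.GP.GW.E3.BaseQ
import Fermat.Agent.GP.GW.Euler.StarBridge
import Fermat.Agent.GP.GW.H30Local
import Fermat.Agent.GP.GW.PTData
import Fermat.Agent.GP.GW.LocFin

set_option autoImplicit false
set_option linter.style.haveILetI false

open CategoryTheory Module Polynomial

noncomputable section

namespace Fermat.Agent.GP.GW.E3.H2Inst

open Fermat.Agent.GC.Prof Fermat.Agent.GC.Prof.Cone Fermat.Agent.GC.C0 Fermat.Agent.GC.PT
  Fermat.Agent.GC.PT.LocDataQ ExtCitation Fermat.Agent.GP.GW Fermat.Agent.GP.GW.E3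
  Fermat.Agent.GP.GW.E3.NormPair Fermat.Agent.GP.GW.E3.Mackey
  Fermat.Agent.GP.GW.Euler.StarRes Fermat.Agent.GP.GW.Euler.StarBridge

variable {p : ℕ} [Fact p.Prime] (S : Finset Nat.Primes) (U : Subgroup GQ) [U.Normal]
  [U.FiniteIndex] (H : Subgroup GQ) (hUH : U ≤ H)

omit [U.FiniteIndex] in
include hUH in
/-- `U ⊴ H` in helper83's vocabulary. -/
theorem normalIn_of_normal : NormalIn U H :=
  ⟨hUH, fun n _ s hs => Subgroup.Normal.conj_mem ‹U.Normal› s hs n⟩

set_option maxHeartbeats 1000000 in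
/-- **(H2q), `dcRight` form** (the spelling of helper83 `Mackey.charpoly_hloc_dualStar`):
`charpoly ([n] | Hlc²(T'')) * (X - 1) = ∏_{v ∈ S} charpoly (f ↦ f ∘ (· n⁻¹) | Map(D_v\G_ℚ/U, 𝔽_p))`,
provided `Ш²(G_{ℚ,S}, T'') = 0`. -/
theorem h2q_dcRight (hp2 : p ≠ 2) (hpS : pPrime p ∈ S)
    [IsDiscrete (levelS S)
      ((normPairQ U H hUH).big ((normPairQ U H hUH).chiRes (cycloChar p)))]
    [FiniteDimensional (ZMod p)
      (hlcStarRep (levelS S) ((normPairQ U H hUH).chiRes (cycloChar p)) 2)]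
    (hsha : LinearMap.ker (locRes (locDataQ S)
      ((normPairQ U H hUH).big ((normPairQ U H hUH).chiRes (cycloChar p))) 2) = ⊥)
    (n : (normPairQ U H hUH).H) (hn' : Norm U (n : GQ)⁻¹) :
    ((hlcStarRep (levelS S) ((normPairQ U H hUH).chiRes (cycloChar p)) 2).ρ
        (QuotientGroup.mk n : (normPairQ U H hUH).C)).charpoly * (X - 1) =
      ∏ v : (locDataQ S).ι, (LinearMap.funLeft (ZMod p) (ZMod p)
        (dcRight (decQ (idxPrime S v)) U hn')).charpoly := by
  haveI : IsDiscrete (levelS S) (TChi p) := isDiscrete_TChi S hpS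
  obtain ⟨Δ⟩ := nonempty_ptData hp2 S hpS
  -- the module `T''` in helper12 / helper83's spelling
  let N : Rep (ZMod p) GQ := Phi U (chiRep (cycloChar p))
  haveI iN : IsDiscrete (levelS S) N := ‹_›
  haveI fN : FiniteDimensional (ZMod p) N :=
    Fermat.Agent.GC.PT.RepDevissage.finiteDimensional_coind U _
  haveI iNd : IsDiscrete (levelS S) (N.dualTwist (cycloChar p)) := NineTermQ.isDiscrete_dual hpS N
  haveI fNd : FiniteDimensional (ZMod p) (N.dualTwist (cycloChar p)) :=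
    NineTermQ.finiteDimensional_dual (p := p) N
  haveI iWk : IsDiscrete (levelS S) (Phi U (Rep.trivial (ZMod p) GQ (ZMod p))) :=
    Fermat.Agent.GP.GW.Euler.isDiscrete_of_iso S (DualPerm.dualPermIso U (cycloChar p))
  haveI f2 : FiniteDimensional (ZMod p) (Hlc (levelS S) N 2) := ‹_›
  haveI f0 : FiniteDimensional (ZMod p) (Hlc (levelS S) (N.dualTwist (cycloChar p)) 0) :=
    NineTerm.fdH0 (𝒰 := levelS S) (N.dualTwist (cycloChar p))
  haveI fv : ∀ v, FiniteDimensional (ZMod p) (Hlc ((locDataQ S).𝒰v v)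
      (Rep.res ((locDataQ S).r v) (N.dualTwist (cycloChar p))) 0) :=
    fun v => Fermat.Agent.GP.GW.LocFin.locDataQ_finiteDimensional_hlc S
      (N.dualTwist (cycloChar p)) v 0 (by omega)
  have hnorm : Norm U (n : GQ) := norm_coe (normPairQ U H hUH) n
  -- the endomorphism `γ = n ⋆ -`
  let φ : N ⟶ N := Fermat.Agent.GP.GW.Euler.StarRes.star (chiRep (cycloChar p)) hnorm
  have hφ : ((hlcStarRep (levelS S) ((normPairQ U H hUH).chiRes (cycloChar p)) 2).ρ
      (QuotientGroup.mk n : (normPairQ U H hUH).C)) = (HlcMap (levelS S) φ 2).hom := rfl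
  have h30 := H30Local.h30Right_ev Δ hpS N
  have key := PTTailCharpoly.charpoly_H2_of_sha_two_eq_bot_prod Δ hpS N φ h30 hsha
  have hglob : (HlcMap (levelS S) (Triples.dualTwistMap (cycloChar p) φ) 0).hom.charpoly = X - 1 :=
    charpoly_hlc_dualStar (levelS S) U (cycloChar p) hnorm hn'
  have hloc : ∀ v : (locDataQ S).ι, (HlcMap ((locDataQ S).𝒰v v)
        ((Rep.resFunctor ((locDataQ S).r v)).map (Triples.dualTwistMap (cycloChar p) φ)) 0).hom.charpoly =
      (LinearMap.funLeft (ZMod p) (ZMod p) (dcRight (decQ (idxPrime S v)) U hn')).charpoly :=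
    fun v => charpoly_hloc_dualStar S U (cycloChar p) v hnorm hn'
  calc ((hlcStarRep (levelS S) ((normPairQ U H hUH).chiRes (cycloChar p)) 2).ρ
          (QuotientGroup.mk n : (normPairQ U H hUH).C)).charpoly * (X - 1)
      = (HlcMap (levelS S) φ 2).hom.charpoly *
          (HlcMap (levelS S) (Triples.dualTwistMap (cycloChar p) φ) 0).hom.charpoly := by
        rw [hglob]; rfl
    _ = ∏ v, (HlcMap ((locDataQ S).𝒰v v) ((Rep.resFunctor ((locDataQ S).r v)).map
          (Triples.dualTwistMap (cycloChar p) φ)) 0).hom.charpoly := key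
    _ = _ := Finset.prod_congr rfl fun v _ => hloc v

/-- **(H2q), `n • ·` form** (`MackeyAbs` action `n • [s] = [s n⁻¹]`; the factor at `v` is
`PermPoly.dcPoly (decQ v) n`). -/
theorem h2q (hp2 : p ≠ 2) (hpS : pPrime p ∈ S)
    [IsDiscrete (levelS S)
      ((normPairQ U H hUH).big ((normPairQ U H hUH).chiRes (cycloChar p)))]
    [FiniteDimensional (ZMod p)
      (hlcStarRep (levelS S) ((normPairQ U H hUH).chiRes (cycloChar p)) 2)]
    (hsha : LinearMap.ker (locRes (locDataQ S)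
      ((normPairQ U H hUH).big ((normPairQ U H hUH).chiRes (cycloChar p))) 2) = ⊥)
    (n : H) :
    haveI : NormalIn U H := normalIn_of_normal U H hUH
    ((hlcStarRep (levelS S) ((normPairQ U H hUH).chiRes (cycloChar p)) 2).ρ
        (QuotientGroup.mk (n : (normPairQ U H hUH).H) : (normPairQ U H hUH).C)).charpoly *
        (X - 1) =
      ∏ v : (locDataQ S).ι, (LinearMap.funLeft (ZMod p) (ZMod p)
        (fun w : DC (decQ (idxPrime S v)) U => n • w)).charpoly := by
  haveI : NormalIn U H := normalIn_of_normal U H hUH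
  rw [h2q_dcRight S U H hUH hp2 hpS hsha n (norm_inv_of_normalIn U H n)]
  refine Finset.prod_congr rfl fun v _ => ?_
  rw [dcRight_inv_eq_smul' (decQ (idxPrime S v)) U H n (norm_inv_of_normalIn U H n)]

end Fermat.Agent.GP.GW.E3.H2Inst
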