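/-
GATE-P / S56 [P-GW] E3 — REGADAPTER part 1 (helper86): idempotent polynomials modulo `X ^ n - 1`.

For a field `k` with `(n : k) ≠ 0` the polynomial `X ^ n - 1` is squarefree, hence every ideal of
`k[X] / (X ^ n - 1)` is generated by an idempotent: for every `P` there are `e u` with
`e² ≡ e`, `e ≡ P u`, `P ≡ e P` modulo `X ^ n - 1`.  Consequently, for every element `γ` of a
`k`-algebra with `γ ^ n = 1`, `e(γ)` is an idempotent with `e(γ) = P(γ) u(γ)` and
`P(γ) = e(γ) P(γ)` (so "range `e(γ)` = range `P(γ)`" in every module).  Mathlib only.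
-/
import Mathlib

namespace Fermat.Agent.GP.GW.E3.IdemPoly

open Polynomial

variable {k : Type*} [Field k]

lemma squarefree_X_pow_sub_one (n : ℕ) (hn : (n : k) ≠ 0) : Squarefree (X ^ n - 1 : k[X]) := by
  have h : (X ^ n - C (1 : k)).Separable := separable_X_pow_sub_C (1 : k) hn one_ne_zero
  have h' := h.squarefree
  simpa using h'

/-- Idempotent generator of the ideal `(P)` of `k[X] / (X ^ n - 1)`, `n` invertible in `k`. -/
theorem exists_idem_poly (n : ℕ) (hn : (n : k) ≠ 0) (P : k[X]) :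
    ∃ e u : k[X], (X ^ n - 1 : k[X]) ∣ e * e - e ∧ (X ^ n - 1 : k[X]) ∣ e - P * u ∧
      (X ^ n - 1 : k[X]) ∣ P - e * P := by
  classical
  obtain ⟨D', hD'⟩ : EuclideanDomain.gcd P (X ^ n - 1 : k[X]) ∣ (X ^ n - 1 : k[X]) :=
    EuclideanDomain.gcd_dvd_right _ _
  obtain ⟨P1, hP1⟩ : EuclideanDomain.gcd P (X ^ n - 1 : k[X]) ∣ P :=
    EuclideanDomain.gcd_dvd_left _ _
  have hbez := EuclideanDomain.gcd_eq_gcd_ab P (X ^ n - 1 : k[X])
  set D := EuclideanDomain.gcd P (X ^ n - 1 : k[X]) with hD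
  set x := EuclideanDomain.gcdA P (X ^ n - 1 : k[X])
  set y := EuclideanDomain.gcdB P (X ^ n - 1 : k[X])
  have hsq : Squarefree (D * D') := hD' ▸ squarefree_X_pow_sub_one n hn
  have hcop : IsCoprime D D' := ((squarefree_mul_iff.1 hsq).1).isCoprime
  obtain ⟨a, b, hab⟩ := hcop
  refine ⟨a * D, a * x, ⟨-(a * b), ?_⟩, ⟨a * y, ?_⟩, ⟨P1 * b, ?_⟩⟩
  · rw [hD']
    linear_combination (a * D) * hab
  · linear_combination a * hbez
  · rw [hD']
    linear_combination (-P1 * D) * hab + (1 - a * D) * hP1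

section Algebra

variable {A : Type*} [Ring A] [Algebra k A]

lemma aeval_eq_zero_of_dvd {γ : A} {n : ℕ} (hγ : γ ^ n = 1) {Q : k[X]}
    (h : (X ^ n - 1 : k[X]) ∣ Q) : aeval γ Q = 0 := by
  obtain ⟨R, rfl⟩ := h
  simp [hγ]

/-- For `γ ^ n = 1`, `n` invertible in `k`: an idempotent polynomial `e` in `γ` generating the same
two-sided "ideal" as `P(γ)`. -/
theorem exists_idem_aeval (n : ℕ) (hn : (n : k) ≠ 0) (P : k[X]) :
    ∃ e u : k[X], ∀ (A : Type*) [Ring A] [Algebra k A] (γ : A), γ ^ n = 1 →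
      aeval γ e * aeval γ e = aeval γ e ∧ aeval γ e = aeval γ P * aeval γ u ∧
        aeval γ P = aeval γ e * aeval γ P := by
  obtain ⟨e, u, h1, h2, h3⟩ := exists_idem_poly n hn P
  refine ⟨e, u, fun A _ _ γ hγ => ⟨?_, ?_, ?_⟩⟩
  · have := aeval_eq_zero_of_dvd hγ h1
    rw [map_sub, map_mul, sub_eq_zero] at this
    exact this
  · have := aeval_eq_zero_of_dvd hγ h2
    rw [map_sub, map_mul, sub_eq_zero] at this
    exact this
  · have := aeval_eq_zero_of_dvd hγ h3
    rw [map_sub, map_mul, sub_eq_zero] at this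
    exact this

end Algebra

end Fermat.Agent.GP.GW.E3.IdemPoly
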