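/-
GATE-P / S56 [P-GW] leaf E3f (helper83), FILE 8: the leaf (H2q) of `KeyCPQ.KeyLeavesQ` with `PS` in
the `dcRight` spelling of `MackeyCharpoly.charpoly_hloc_dualStar` (the one helper54's `UnitQ.lean`
and helper78 announced):

  `cp([n] | Hlc²(G_S, W_A)) * (X - 1) = ∏_{v ∈ T} cp(funLeft (dcRight (D_v) G_F hn'))`,
  `hn' : Norm G_F n⁻¹`.

(`MackeyH2Q.h2q_dcPoly` is the same statement with `PS = ∏ PermPoly.dcPoly`.)
-/
import Fermat.Agent.GP.GW.E3.MackeyH2Q

set_option autoImplicit false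
set_option linter.unusedSectionVars false

open Module CategoryTheory Polynomial

noncomputable section

namespace Fermat.Agent.GP.GW.E3.Mackey

open Fermat.Agent.GC.Prof Fermat.Agent.GC.Prof.Cone Fermat.Agent.GC.PT
  Fermat.Agent.GC.PT.LocDataQ ExtCitation Fermat.Agent.GC.C0 Fermat.Agent.GC.Places
  Fermat.Agent.GC.KumH Fermat.Agent.GC.KBInst
  Fermat.Agent.GP.GW Fermat.Agent.GP.GW.Euler Fermat.Agent.GP.GW.Euler.StarRes
  Fermat.Agent.GP.GW.E3 Fermat.Agent.GP.GW.E3.NormPair Fermat.Agent.GP.GW.Euler.StarBridge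
  Fermat.Agent.GP.GW.E3.PermPoly Fermat.Agent.GC.Local.KR

local notation "Qb" => AlgebraicClosure ℚ

variable {p : ℕ} [Fact p.Prime]

/-- **(H2q)** of `KeyCPQ.KeyLeavesQ` for every `n : H` and every proof `hn' : Norm G_F n⁻¹`, with
`PS = ∏_{v ∈ T} cp(funLeft (dcRight (D_v) G_F hn'))`. -/
theorem h2q_dcRight (hp2 : p ≠ 2) (F : IntermediateField ℚ Qb) [FiniteDimensional ℚ F]
    [F.fixingSubgroup.Normal] [F.fixingSubgroup.FiniteIndex] (T : Finset Nat.Primes)
    (hpT : pPrime p ∈ T) (hχ : ∀ g ∈ F.fixingSubgroup, cycloChar p g = 1)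
    (hFT : F.IsUnramifiedOutside T)
    (hX : ∀ x : Hlc (levelK T F) (sUnitsK T F) 1, x = 0)
    (H : Subgroup GQ) (hUH : F.fixingSubgroup ≤ H)
    [IsDiscrete (levelS T) ((normPairQ F.fixingSubgroup H hUH).big
      ((normPairQ F.fixingSubgroup H hUH).chiRes (cycloChar p)))]
    [FiniteDimensional (ZMod p)
      (hlcStarRep (levelS T) ((normPairQ F.fixingSubgroup H hUH).chiRes (cycloChar p)) 2)]
    (n : (normPairQ F.fixingSubgroup H hUH).H) (hn' : Norm F.fixingSubgroup ((n : GQ)⁻¹)) :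
    ((hlcStarRep (levelS T) ((normPairQ F.fixingSubgroup H hUH).chiRes (cycloChar p)) 2).ρ
        (QuotientGroup.mk n : (normPairQ F.fixingSubgroup H hUH).C)).charpoly * (X - 1) =
      ∏ v : (locDataQ T).ι, (LinearMap.funLeft (ZMod p) (ZMod p)
        (dcRight (decQ (idxPrime T v)) F.fixingSubgroup hn')).charpoly := by
  have hsub : Subsingleton (Hlc (levelK T F) (sUnitsK T F) 1) :=
    ⟨fun x y => (hX x).trans (hX y).symm⟩
  have hd : IsDiscrete (levelS T) (Phi F.fixingSubgroup (chiRep (k := ZMod p) (cycloChar p))) :=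
    ‹IsDiscrete (levelS T) ((normPairQ F.fixingSubgroup H hUH).big
      ((normPairQ F.fixingSubgroup H hUH).chiRes (cycloChar p)))›
  have hfd : FiniteDimensional (ZMod p)
      (Hlc (levelS T) (Phi F.fixingSubgroup (chiRep (k := ZMod p) (cycloChar p))) 2) :=
    ‹FiniteDimensional (ZMod p)
      (hlcStarRep (levelS T) ((normPairQ F.fixingSubgroup H hUH).chiRes (cycloChar p)) 2)›
  have hsha := K2Big.ker_locRes_two_phi_chiRep_eq_bot hp2 T hpT F hFT hχ
  have hU : F.fixingSubgroup ∈ (levelS T).sets := (mem_levelS_iff T _).2 ⟨F, hFT, rfl⟩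
  exact charpoly_H2_phi_of_mem hp2 hpT F.fixingSubgroup hU hχ hsha
    (norm_coe (normPairQ F.fixingSubgroup H hUH) n) hn'

/-- The two spellings of `PS` agree. -/
theorem prod_dcRight_eq_prod_dcPoly (F : IntermediateField ℚ Qb) (T : Finset Nat.Primes)
    (H : Subgroup GQ) (hUH : F.fixingSubgroup ≤ H) [F.fixingSubgroup.Normal]
    [F.fixingSubgroup.FiniteIndex]
    [∀ v : (locDataQ T).ι,
      Finite (DC (decQ (idxPrime T v)) (normPairQ F.fixingSubgroup H hUH).H₀)]
    (n : (normPairQ F.fixingSubgroup H hUH).H) (hn' : Norm F.fixingSubgroup ((n : GQ)⁻¹)) :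
    ∏ v : (locDataQ T).ι, (LinearMap.funLeft (ZMod p) (ZMod p)
        (dcRight (decQ (idxPrime T v)) F.fixingSubgroup hn')).charpoly =
      ∏ v : (locDataQ T).ι,
        dcPoly (ZMod p) (normPairQ F.fixingSubgroup H hUH) (decQ (idxPrime T v)) n := by
  have hnorm : NormalIn F.fixingSubgroup H :=
    normalIn_normPair (normPairQ F.fixingSubgroup H hUH)
  refine Finset.prod_congr rfl fun v _ => ?_
  unfold dcPoly permCharpoly
  rw [dcRight_inv_eq_smul' (decQ (idxPrime T v)) F.fixingSubgroup H n]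
  rfl

end Fermat.Agent.GP.GW.E3.Mackey

end
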