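/-
GATE-P / S56 [P-GW] ROUTE-R assembly (helper69), FILE 5: the `(UNITq)` leaf of
`KeyCPQLeaves.KeyLeavesQ` from `UnitR.unit_charpoly` (rank trick, GC objects only).

* Mathlib only: `charpoly_funLeft_congr`, `charpoly_funLeft_sum`, `charpoly_funLeft_sigma`
  (the permutation characteristic polynomial of a fibrewise self-map of a finite disjoint union is
  the product over the fibres), `charpoly_funLeft_symm` (a permutation and its inverse have the
  same permutation characteristic polynomial);
* `unit_charpoly_split` : `unit_charpoly` with the place polynomial split as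
  `(∏_{q ∈ S} permTw (D_q) G_F k n⁻¹) * permTw ⟨c⟩ G_F k n` in helper83's `MackeyStar.permTw` spelling
  (`permTw … hn φ w = φ (w · n)`);
* `unitq_fieldPair`, `unitq_normPairQ` : the `(UNITq)` line of `KeyLeavesQ`, with
  `PS = ∏ q : ↥S, (permTw (decAt S (some q)) G_F k hn⁻¹).charpoly` and the archimedean factor in
  helper78's `bigFixRep … complexConjugation` spelling (`ArchPerm.charpoly_bigFixRep_triv₀`);
* `keyLeavesQ_of_H2` : `KeyLeavesQ S G_F` from the `(H2q)` leaf alone.
-/
import Fermat.Agent.GP.GW.E3.UnitRCharpoly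
import Fermat.Agent.GP.GW.E3.MackeyStar
import Fermat.Agent.GP.GW.E3.ArchPerm
import Fermat.Agent.GP.GW.Euler.StarBridge
import Fermat.Agent.GP.GW.E3.KeyCPQ

set_option autoImplicit false
set_option linter.unusedSectionVars false
set_option linter.style.haveILetI false

open Polynomial Module

noncomputable section

namespace Fermat.Agent.GP.GW.E3.UnitR

/-! ### Permutation characteristic polynomials (Mathlib only) -/

section PermCharpoly

universe u v w

variable (k : Type w) [Field k]

/-- Conjugate self-maps of finite sets have the same permutation characteristic polynomial. -/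
theorem charpoly_funLeft_congr {Ω Ω' : Type*} [Finite Ω] [Finite Ω'] (e : Ω ≃ Ω') (σ : Ω → Ω)
    (σ' : Ω' → Ω') (h : ∀ x, e (σ x) = σ' (e x)) :
    (LinearMap.funLeft k k σ).charpoly = (LinearMap.funLeft k k σ').charpoly := by
  have hc : (LinearEquiv.funCongrLeft k k e).conj (LinearMap.funLeft k k σ') =
      LinearMap.funLeft k k σ := by
    apply LinearMap.ext
    intro f
    funext x
    rw [LinearEquiv.conj_apply_apply]
    show f (e.symm (σ' (e x))) = f (σ x)
    rw [← h, e.symm_apply_apply]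
  rw [← hc, LinearEquiv.charpoly_conj]

/-- Disjoint union: the permutation characteristic polynomial is multiplicative. -/
theorem charpoly_funLeft_sum {Ω₁ Ω₂ : Type*} [Finite Ω₁] [Finite Ω₂] (σ₁ : Ω₁ → Ω₁)
    (σ₂ : Ω₂ → Ω₂) :
    (LinearMap.funLeft k k (Sum.map σ₁ σ₂)).charpoly =
      (LinearMap.funLeft k k σ₁).charpoly * (LinearMap.funLeft k k σ₂).charpoly := by
  have hc : (LinearEquiv.sumArrowLequivProdArrow Ω₁ Ω₂ k k).conj
      (LinearMap.funLeft k k (Sum.map σ₁ σ₂)) =
      (LinearMap.funLeft k k σ₁).prodMap (LinearMap.funLeft k k σ₂) := by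
    apply LinearMap.ext
    intro f
    rw [LinearEquiv.conj_apply_apply]
    rfl
  rw [← LinearMap.charpoly_prodMap, ← hc, LinearEquiv.charpoly_conj]

/-- `Σ i : Option α, Ω i ≃ Ω none ⊕ Σ a, Ω (some a)`. -/
def sigmaOptionSum {α : Type*} (Ω : Option α → Type*) :
    (Σ i, Ω i) ≃ Ω none ⊕ Σ a, Ω (some a) where
  toFun x := match x with
    | ⟨none, y⟩ => Sum.inl y
    | ⟨some a, y⟩ => Sum.inr ⟨a, y⟩
  invFun x := match x with
    | Sum.inl y => ⟨none, y⟩
    | Sum.inr ⟨a, y⟩ => ⟨some a, y⟩
  left_inv x := by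
    rcases x with ⟨_ | a, y⟩ <;> rfl
  right_inv x := by
    rcases x with y | ⟨a, y⟩ <;> rfl

theorem charpoly_funLeft_sigma_aux (ι : Type u) [Fintype ι] :
    ∀ (Ω : ι → Type v) [∀ i, Finite (Ω i)] (σ : ∀ i, Ω i → Ω i),
    (LinearMap.funLeft k k (Sigma.map id σ)).charpoly =
      ∏ i, (LinearMap.funLeft k k (σ i)).charpoly := by
  refine Fintype.induction_empty_option
    (P := fun (ι : Type u) [Fintype ι] => ∀ (Ω : ι → Type v) [∀ i, Finite (Ω i)]
      (σ : ∀ i, Ω i → Ω i), (LinearMap.funLeft k k (Sigma.map id σ)).charpoly =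
        ∏ i, (LinearMap.funLeft k k (σ i)).charpoly) ?_ ?_ ?_ ι
  · -- invariance under equivalence
    intro α β _ e hα Ω _ σ
    letI : Fintype α := Fintype.ofEquiv β e.symm
    have h1 := hα (fun a => Ω (e a)) (fun a => σ (e a))
    rw [← Fintype.prod_equiv e (fun a => (LinearMap.funLeft k k (σ (e a))).charpoly)
      (fun b => (LinearMap.funLeft k k (σ b)).charpoly) (fun a => rfl), ← h1]
    refine (charpoly_funLeft_congr k (Equiv.sigmaCongrLeft (β := Ω) e) _ _ ?_).symm
    rintro ⟨a, x⟩
    rfl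
  · -- the empty type
    intro Ω _ σ
    rw [Finset.univ_eq_empty, Finset.prod_empty]
    apply (LinearMap.charpoly_monic _).natDegree_eq_zero.mp
    rw [LinearMap.charpoly_natDegree, Module.finrank_zero_of_subsingleton]
  · -- `Option α`
    intro α _ hα Ω _ σ
    rw [Fintype.prod_option, ← hα (fun a => Ω (some a)) (fun a => σ (some a)),
      ← charpoly_funLeft_sum]
    refine charpoly_funLeft_congr k (sigmaOptionSum Ω) _ _ ?_
    rintro ⟨_ | a, x⟩ <;> rfl

/-- **The permutation characteristic polynomial of a fibrewise self-map of a finite disjoint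
union is the product over the fibres.** -/
theorem charpoly_funLeft_sigma {ι : Type u} [Fintype ι] (Ω : ι → Type v) [∀ i, Finite (Ω i)]
    (σ : ∀ i, Ω i → Ω i) :
    (LinearMap.funLeft k k (Sigma.map id σ)).charpoly =
      ∏ i, (LinearMap.funLeft k k (σ i)).charpoly :=
  charpoly_funLeft_sigma_aux k ι Ω σ

/-- **Flip**: a permutation and its inverse have the same permutation characteristic polynomial
(the permutation matrices are transposes of each other). -/
theorem charpoly_funLeft_symm {Ω : Type*} [Finite Ω] (σ : Equiv.Perm Ω) :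
    (LinearMap.funLeft k k σ).charpoly = (LinearMap.funLeft k k σ.symm).charpoly := by
  classical
  have := Fintype.ofFinite Ω
  rw [← LinearMap.charpoly_toMatrix (LinearMap.funLeft k k σ) (Pi.basisFun k Ω),
    ← LinearMap.charpoly_toMatrix (LinearMap.funLeft k k σ.symm) (Pi.basisFun k Ω),
    ← Matrix.charpoly_transpose]
  congr 1
  ext i j
  rw [Matrix.transpose_apply, LinearMap.toMatrix_apply, LinearMap.toMatrix_apply,
    Pi.basisFun_repr, Pi.basisFun_repr, Pi.basisFun_apply, Pi.basisFun_apply,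
    LinearMap.funLeft_apply, LinearMap.funLeft_apply, Pi.single_apply, Pi.single_apply]
  by_cases h : σ j = i
  · rw [if_pos h, if_pos (by rw [← h, Equiv.symm_apply_apply])]
  · rw [if_neg h, if_neg (fun h' => h (by rw [← h', Equiv.apply_symm_apply]))]

/-- Transfer of the characteristic polynomial along an additive equivalence of `𝔽_p`-spaces. -/
theorem charpoly_eq_of_addEquiv {p : ℕ} [Fact p.Prime] {V W : Type*} [AddCommGroup V]
    [Module (ZMod p) V] [AddCommGroup W] [Module (ZMod p) W] [Module.Finite (ZMod p) V]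
    [Module.Finite (ZMod p) W] (e : V ≃+ W) (f : V →+ V) (g : Module.End (ZMod p) W)
    (h : ∀ x, e (f x) = g (e x)) : (f.toZModLinearMap p).charpoly = g.charpoly := by
  let e' : V ≃ₗ[ZMod p] W :=
    LinearEquiv.ofBijective (e.toAddMonoidHom.toZModLinearMap p) e.bijective
  have hc : e'.conj (f.toZModLinearMap p) = g := by
    apply LinearMap.ext
    intro y
    rw [LinearEquiv.conj_apply_apply]
    show e (f (e'.symm y)) = g y
    rw [h]
    congr 1
    exact e'.apply_symm_apply y
  rw [← hc, LinearEquiv.charpoly_conj]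

end PermCharpoly

open Fermat.Agent.GC.Prof Fermat.Agent.GC.C0 Fermat.Agent.GC.Places Fermat.Agent.GC.KumH
  Fermat.Agent.GP.GW.E3.Mackey Fermat.Agent.GP.GW.Euler.StarRes Fermat.Agent.GP.GW.Euler.PhiKum
  Fermat.Agent.GP.GW.Euler.KumQuot ExtCitation

local notation "Qb" => AlgebraicClosure ℚ
local notation "GQ" => (AlgebraicClosure ℚ ≃ₐ[ℚ] AlgebraicClosure ℚ)

local instance factPrimes_us (q : Nat.Primes) : Fact (q : ℕ).Prime := ⟨q.2⟩

/-! ### `funLeft` of a translation is helper83's `permTw` at the trivial coefficients -/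

section PermTw

universe u

variable {k G : Type u} [Field k] [Group G] (U : Subgroup G) [hU : U.Normal] (D : Subgroup G)

/-- `f ↦ f ∘ (x • ·)` is `permTw` of right translation by `x⁻¹`. -/
theorem funLeft_smul_eq_permTw (x : G) (hx' : Norm U x⁻¹) :
    LinearMap.funLeft k k
        (fun w : DC D U => (⟨x, Subgroup.mem_top x⟩ : (⊤ : Subgroup G)) • w) =
      permTw D U (Rep.trivial k G k) hx' := by
  apply LinearMap.ext
  intro φ
  funext w
  obtain ⟨s, rfl⟩ := dcMk_surjective D U w
  rfl

/-- `f ↦ f ∘ (x⁻¹ • ·)` is `permTw` of right translation by `x`. -/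
theorem funLeft_inv_smul_eq_permTw (x : G) (hx : Norm U x) :
    LinearMap.funLeft k k
        (fun w : DC D U => (⟨x, Subgroup.mem_top x⟩ : (⊤ : Subgroup G))⁻¹ • w) =
      permTw D U (Rep.trivial k G k) hx := by
  apply LinearMap.ext
  intro φ
  funext w
  show φ ((⟨x, Subgroup.mem_top x⟩ : (⊤ : Subgroup G))⁻¹ • w) =
    φ (dcRight D U hx w)
  rw [dcRight_eq_inv_smul D U ⊤ (⟨x, Subgroup.mem_top x⟩ : (⊤ : Subgroup G)) hx w]

/-- both orientations have the same characteristic polynomial -/
theorem charpoly_permTw_inv [Finite (DC D U)] (x : G) (hx : Norm U x) (hx' : Norm U x⁻¹) :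
    (permTw D U (Rep.trivial k G k) hx').charpoly =
      (permTw D U (Rep.trivial k G k) hx).charpoly := by
  rw [← funLeft_smul_eq_permTw U D x hx', ← funLeft_inv_smul_eq_permTw U D x hx]
  exact charpoly_funLeft_symm k
    (MulAction.toPerm (⟨x, Subgroup.mem_top x⟩ : (⊤ : Subgroup G)) : Equiv.Perm (DC D U))

end PermTw

/-! ### `unit_charpoly`, split over `S ∪ {∞}` -/

section Split

variable {p : ℕ} [hp : Fact p.Prime] {S : Finset Nat.Primes} {F : IntermediateField ℚ Qb}

/-- the place polynomial of `unit_charpoly`, split over `v ∈ S ∪ {∞}` -/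
theorem charpoly_funLeft_tr (hF : F.IsUnramifiedOutside S) [hN : F.fixingSubgroup.Normal]
    (g : GQ) :
    haveI := finiteIndex_fixingSubgroup hF
    (LinearMap.funLeft (ZMod p) (ZMod p) (tr F.fixingSubgroup (decAt S) g)).charpoly =
      ∏ v : Option ↥S, (LinearMap.funLeft (ZMod p) (ZMod p)
        (fun w : DC (decAt S v) F.fixingSubgroup =>
          (⟨g, Subgroup.mem_top g⟩ : (⊤ : Subgroup GQ)) • w)).charpoly := by
  haveI := finiteIndex_fixingSubgroup hF
  exact charpoly_funLeft_sigma (ZMod p) (fun v : Option ↥S => DC (decAt S v) F.fixingSubgroup)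
    (fun v w => (⟨g, Subgroup.mem_top g⟩ : (⊤ : Subgroup GQ)) • w)

/-- **(UNIT) by ROUTE-R, split**: the place polynomial is
`(∏_{q ∈ S} permTw (D_q) G_F k g⁻¹) * permTw ⟨c⟩ G_F k g` (helper83's `permTw … hn φ w = φ (w·n)`). -/
theorem unit_charpoly_split (hpS : (⟨p, hp.1⟩ : Nat.Primes) ∈ S) (hF : F.IsUnramifiedOutside S)
    [hN : F.fixingSubgroup.Normal] (hχ : ∀ s ∈ F.fixingSubgroup, cycloChar p s = 1)
    {g : GQ} (hg : Norm F.fixingSubgroup g) (hg' : Norm F.fixingSubgroup g⁻¹)
    [Module (ZMod p) ((sUnitsK S F).ρ.invariants ⧸ pPow S F p)] :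
    haveI := finite_unitQuot (p := p) hF
    haveI := finiteIndex_fixingSubgroup hF
    ((actQuot S (p := p) hg).toZModLinearMap p).charpoly * (X - 1) =
      (X - C ((cycloChar p g : (ZMod p)ˣ) : ZMod p)) *
        (∏ q : ↥S, (permTw (decAt S (some q)) F.fixingSubgroup
          (Rep.trivial (ZMod p) GQ (ZMod p)) hg').charpoly) *
        (permTw (Subgroup.zpowers complexConjugation) F.fixingSubgroup
          (Rep.trivial (ZMod p) GQ (ZMod p)) hg).charpoly := by
  haveI := finite_unitQuot (p := p) hF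
  haveI := finiteIndex_fixingSubgroup hF
  have h1 := unit_charpoly hpS hF hχ hg
  have h2 := charpoly_funLeft_tr (p := p) hF g
  have h3 := Fintype.prod_option (fun v : Option ↥S => (LinearMap.funLeft (ZMod p) (ZMod p)
        (fun w : DC (decAt S v) F.fixingSubgroup =>
          (⟨g, Subgroup.mem_top g⟩ : (⊤ : Subgroup GQ)) • w)).charpoly)
  have h4 : ∀ q : ↥S, (LinearMap.funLeft (ZMod p) (ZMod p)
        (fun w : DC (decAt S (some q)) F.fixingSubgroup =>
          (⟨g, Subgroup.mem_top g⟩ : (⊤ : Subgroup GQ)) • w)).charpoly =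
      (permTw (decAt S (some q)) F.fixingSubgroup
          (Rep.trivial (ZMod p) GQ (ZMod p)) hg').charpoly := fun q => by
    rw [funLeft_smul_eq_permTw F.fixingSubgroup (decAt S (some q)) g hg']
  have h5 : (LinearMap.funLeft (ZMod p) (ZMod p)
        (fun w : DC (decAt S none) F.fixingSubgroup =>
          (⟨g, Subgroup.mem_top g⟩ : (⊤ : Subgroup GQ)) • w)).charpoly =
      (permTw (Subgroup.zpowers complexConjugation) F.fixingSubgroup
          (Rep.trivial (ZMod p) GQ (ZMod p)) hg).charpoly := by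
    rw [funLeft_smul_eq_permTw F.fixingSubgroup (decAt S none) g hg']
    exact charpoly_permTw_inv F.fixingSubgroup (Subgroup.zpowers complexConjugation) g hg hg'
  rw [h1, h2, h3, h5, Finset.prod_congr rfl (fun q _ => h4 q), mul_assoc,
    mul_comm (LinearMap.charpoly _)]

end Split

/-! ### The `(UNITq)` leaf -/

section UnitQ

open Fermat.Agent.GP.GW.Euler.StarBridge Fermat.Agent.GP.GW.E3.NormPair
  Fermat.Agent.GC.KumH.MuChi CategoryTheory

variable (S : Finset Nat.Primes) {p : ℕ} [hp : Fact p.Prime] (F : IntermediateField ℚ Qb)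

/-- `(O_S^×)^{G_F} / p` is killed by `p` -/
theorem nsmul_unitQuot (x : (sUnitsK S F).ρ.invariants ⧸ pPow S F p) : p • x = 0 := by
  induction x using QuotientAddGroup.induction_on with
  | H a =>
    rw [← QuotientAddGroup.mk_nsmul]
    exact (QuotientAddGroup.eq_zero_iff _).2 ⟨a, natCast_zsmul a p⟩

variable (hpS : (⟨p, hp.1⟩ : Nat.Primes) ∈ S) (hF : F.IsUnramifiedOutside S)
  (H : Subgroup GQ) (hle : F.fixingSubgroup ≤ H)
  (hcm : ∀ n ∈ H, ∀ s ∈ F.fixingSubgroup, n * s * n⁻¹ ∈ F.fixingSubgroup)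
  (hX : ∀ x : Hlc (levelK S F) (sUnitsK S F) 1, x = 0)

include hpS hF hX in
/-- **`(K1)` in characteristic polynomial form, GC spelling**: `charpoly ([n] | Hlc¹(G_{ℚ,S}, W_A))`
is `charpoly (n | (O_S^×)^{G_F} / p)` (helper12's `kappaStar`, `kappaStar_act`). -/
theorem charpoly_hlcStar_one_eq_actQuot (n : (fieldPair F H hle hcm).H)
    [hd : IsDiscrete (levelS S)
      ((fieldPair F H hle hcm).big (resH (fieldPair F H hle hcm) (MuChi.chiQ p)))]
    [hfd : FiniteDimensional (ZMod p)
      (hlcStarRep (levelS S) (resH (fieldPair F H hle hcm) (MuChi.chiQ p)) 1)]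
    [Module (ZMod p) ((sUnitsK S F).ρ.invariants ⧸ pPow S F p)] :
    haveI := finite_unitQuot (p := p) hF
    ((hlcStarRep (levelS S) (resH (fieldPair F H hle hcm) (MuChi.chiQ p)) 1).ρ
        (QuotientGroup.mk n : (fieldPair F H hle hcm).C)).charpoly =
      ((actQuot S (p := p) (norm_coe (fieldPair F H hle hcm) n)).toZModLinearMap p).charpoly := by
  haveI := finite_unitQuot (p := p) hF
  have key := kappaStar_act S F hpS hF H hle hcm hX n (norm_coe (fieldPair F H hle hcm) n)
  exact (charpoly_eq_of_addEquiv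
    (W := hlcStarRep (levelS S) (resH (fieldPair F H hle hcm) (MuChi.chiQ p)) 1)
    (kappaStar S F hpS hF H hle hcm hX)
    (actQuot S (p := p) (norm_coe (fieldPair F H hle hcm) n))
    ((hlcStarRep (levelS S) (resH (fieldPair F H hle hcm) (MuChi.chiQ p)) 1).ρ
        (QuotientGroup.mk n : (fieldPair F H hle hcm).C))
    (fun x => key x)).symm

include hpS hF hX in
/-- **`(UNITq)` for `fieldPair`, by ROUTE-R.** -/
theorem unitq_fieldPair [hN : F.fixingSubgroup.Normal]
    (hχ : ∀ s ∈ F.fixingSubgroup, cycloChar p s = 1) (n : (fieldPair F H hle hcm).H)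
    (hn' : Norm F.fixingSubgroup (n : GQ)⁻¹)
    [hd : IsDiscrete (levelS S)
      ((fieldPair F H hle hcm).big (resH (fieldPair F H hle hcm) (MuChi.chiQ p)))]
    [hfd : FiniteDimensional (ZMod p)
      (hlcStarRep (levelS S) (resH (fieldPair F H hle hcm) (MuChi.chiQ p)) 1)]
    [hfW : FiniteDimensional (ZMod p)
      ((fieldPair F H hle hcm).big ((fieldPair F H hle hcm).triv₀ (k := ZMod p)))] :
    haveI := finiteIndex_fixingSubgroup hF
    ((hlcStarRep (levelS S) (resH (fieldPair F H hle hcm) (MuChi.chiQ p)) 1).ρ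
        (QuotientGroup.mk n : (fieldPair F H hle hcm).C)).charpoly * (X - 1) =
      (X - C ((cycloChar p (n : GQ) : (ZMod p)ˣ) : ZMod p)) *
        (∏ q : ↥S, (permTw (decAt S (some q)) F.fixingSubgroup
          (Rep.trivial (ZMod p) GQ (ZMod p)) hn').charpoly) *
        ((bigFixRep ((fieldPair F H hle hcm).triv₀ (k := ZMod p)) complexConjugation).ρ
          (QuotientGroup.mk n : (fieldPair F H hle hcm).C)).charpoly := by
  haveI := finiteIndex_fixingSubgroup hF
  letI : Module (ZMod p) ((sUnitsK S F).ρ.invariants ⧸ pPow S F p) :=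
    AddCommGroup.zmodModule (nsmul_unitQuot S F)
  haveI : Finite (DC (Subgroup.zpowers complexConjugation) (fieldPair F H hle hcm).H₀) :=
    inferInstanceAs (Finite (DC (Subgroup.zpowers complexConjugation) F.fixingSubgroup))
  rw [charpoly_hlcStar_one_eq_actQuot S F hpS hF H hle hcm hX n,
    NormPair.charpoly_bigFixRep_triv₀ (P := fieldPair F H hle hcm) complexConjugation n]
  exact unit_charpoly_split hpS hF hχ (norm_coe (fieldPair F H hle hcm) n) hn'

end UnitQ

/-! ### helper78's `normPairQ` spelling and `KeyLeavesQ` -/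

section PlugQ

open Fermat.Agent.GP.GW.Euler.StarBridge Fermat.Agent.GP.GW.E3.NormPair
  Fermat.Agent.GC.KumH.MuChi CategoryTheory Fermat.Agent.GP.GW.E3.KeyCPQLeaves

variable (S : Finset Nat.Primes) {p : ℕ} [hp : Fact p.Prime] (F : IntermediateField ℚ Qb)
  [hN : F.fixingSubgroup.Normal]

/-- every element normalises the normal subgroup `G_F` -/
theorem norm_of_normal (x : GQ) : Norm F.fixingSubgroup x := fun s hs => by
  have h := hN.conj_mem s hs x⁻¹
  rwa [inv_inv] at h

variable (hpS : (⟨p, hp.1⟩ : Nat.Primes) ∈ S) (hF : F.IsUnramifiedOutside S)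
  (hχ : ∀ s ∈ F.fixingSubgroup, cycloChar p s = 1)
  (hX : ∀ x : Hlc (levelK S F) (sUnitsK S F) 1, x = 0)

/-- The common polynomial `PS` of `(H2q)` and `(UNITq)`:
`∏_{q ∈ S} charpoly (φ ↦ φ (· n⁻¹) | Map(D_q \ G_ℚ / G_F, 𝔽_p))`. -/
def placePolyS (n : GQ) : (ZMod p)[X] :=
  haveI := finiteIndex_fixingSubgroup hF
  ∏ q : ↥S, (permTw (decAt S (some q)) F.fixingSubgroup
    (Rep.trivial (ZMod p) GQ (ZMod p)) (norm_of_normal F n⁻¹)).charpoly

/-- unfolding, any proof of the normalising condition -/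
theorem placePolyS_eq (n : GQ) (hn' : Norm F.fixingSubgroup n⁻¹) :
    haveI := finiteIndex_fixingSubgroup hF
    placePolyS (p := p) S F hF n =
      ∏ q : ↥S, (permTw (decAt S (some q)) F.fixingSubgroup
        (Rep.trivial (ZMod p) GQ (ZMod p)) hn').charpoly := rfl

/-- the same in the spelling of helper83's `MackeyStar.hlocZeroPhiEquiv_star` (product over the
index type of `locDataQ S`, `D_v = decQ (idxPrime S v)`) -/
theorem placePolyS_eq_locDataQ (n : GQ) (hn' : Norm F.fixingSubgroup n⁻¹) :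
    haveI := finiteIndex_fixingSubgroup hF
    placePolyS (p := p) S F hF n =
      ∏ v : (Fermat.Agent.GC.PT.LocDataQ.locDataQ S).ι,
        (permTw (Fermat.Agent.GP.GW.E3.Mackey.decQ (Fermat.Agent.GP.GW.E3.Mackey.idxPrime S v))
          F.fixingSubgroup (Rep.trivial (ZMod p) GQ (ZMod p)) hn').charpoly := rfl

include hpS hF hχ hX in
/-- **`(UNITq)`, the second line of `KeyLeavesQ S G_F`, by ROUTE-R** (objects of `KeyCPQ S G_F`:
`P = normPairQ G_F H`, `A = P.chiRes (cycloChar p)`). -/
theorem unitq_normPairQ (H : Subgroup GQ) (hUH : F.fixingSubgroup ≤ H)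
    (n : (normPairQ F.fixingSubgroup H hUH).H)
    [hd : IsDiscrete (levelS S) ((normPairQ F.fixingSubgroup H hUH).big
      ((normPairQ F.fixingSubgroup H hUH).chiRes (cycloChar p)))]
    [hfd : FiniteDimensional (ZMod p) (hlcStarRep (levelS S)
      ((normPairQ F.fixingSubgroup H hUH).chiRes (cycloChar p)) 1)]
    [hfW : FiniteDimensional (ZMod p) ((normPairQ F.fixingSubgroup H hUH).big
      ((normPairQ F.fixingSubgroup H hUH).triv₀ (k := ZMod p)))] :
    ((hlcStarRep (levelS S) ((normPairQ F.fixingSubgroup H hUH).chiRes (cycloChar p)) 1).ρ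
        (QuotientGroup.mk n : (normPairQ F.fixingSubgroup H hUH).C)).charpoly * (X - 1) =
      (X - C ((cycloChar p (n : GQ) : (ZMod p)ˣ) : ZMod p)) * placePolyS (p := p) S F hF (n : GQ) *
        ((bigFixRep ((normPairQ F.fixingSubgroup H hUH).triv₀ (k := ZMod p))
          complexConjugation).ρ
          (QuotientGroup.mk n : (normPairQ F.fixingSubgroup H hUH).C)).charpoly :=
  unitq_fieldPair S F hpS hF H hUH (normPairQ F.fixingSubgroup H hUH).conj_mem hX hχ n
    (norm_of_normal F (n : GQ)⁻¹) (hd := hd) (hfd := hfd) (hfW := hfW)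

include hpS hF hχ hX in
/-- **`KeyLeavesQ S G_F` from the `(H2q)` leaf alone** (with `PS = placePolyS S F n`). -/
theorem keyLeavesQ_of_H2
    (hH2 : ∀ (H : Subgroup GQ) (hUH : F.fixingSubgroup ≤ H)
      [IsDiscrete (levelS S) ((normPairQ F.fixingSubgroup H hUH).big
        ((normPairQ F.fixingSubgroup H hUH).chiRes (cycloChar p)))]
      [FiniteDimensional (ZMod p) (hlcStarRep (levelS S)
        ((normPairQ F.fixingSubgroup H hUH).chiRes (cycloChar p)) 2)]
      (n : (normPairQ F.fixingSubgroup H hUH).H),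
      ((hlcStarRep (levelS S) ((normPairQ F.fixingSubgroup H hUH).chiRes (cycloChar p)) 2).ρ
          (QuotientGroup.mk n : (normPairQ F.fixingSubgroup H hUH).C)).charpoly * (X - 1) =
        placePolyS (p := p) S F hF (n : GQ)) :
    KeyLeavesQ (p := p) S F.fixingSubgroup := by
  intro H hUH hcyc _ hd hfd1 hfd2 hfW
  obtain ⟨c, hc⟩ := hcyc.exists_generator
  obtain ⟨n, rfl⟩ := QuotientGroup.mk_surjective c
  exact ⟨n, hc, placePolyS (p := p) S F hF (n : GQ), hH2 H hUH n,
    unitq_normPairQ S F hpS hF hχ hX H hUH n⟩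

end PlugQ

end Fermat.Agent.GP.GW.E3.UnitR
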