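/-
GATE-P / S56 [P-GW] R1 line, FINAL PLUG by ROUTE-R (helper69): **`KeyLeavesHyp p` is a theorem**,
hence `R1Wrap.BaseHyp p` and R1 in final form are unconditional (`p` odd).

* (H2q)  = helper83 `Mackey.h2q_dcRight` (`MackeyH2R`),
* (UNITq) = `UnitR.unitq_normPairQ` (`UnitRSplit`, rank trick on GC objects + helper12 `kappaStar`),
  with the common `PS = ∏_{v ∈ T} cp(funLeft (dcRight (D_v) G_F hn'))`, `hn' : Norm G_F n⁻¹`;
* `keyLeavesHyp (hp2 : p ≠ 2) : KeyLeavesHyp p`;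
* `baseHyp (hp2 : p ≠ 2) : R1Wrap.BaseHyp p`;
* `exists_sigma_htate_adBar_final` : R1 (`∃ Σ ⊇ S₀ ∪ S, ∀ S' ⊇ Σ, TateLe S' (ad⁰ρ̄)^*(1)`).
-/
import Fermat.Agent.GP.GW.E3.UnitRSplit
import Fermat.Agent.GP.GW.E3.MackeyH2R
import Fermat.Agent.GP.GW.Euler.BaseHypOfLeaves

set_option autoImplicit false

open Polynomial Module

noncomputable section

namespace Fermat.Agent.GP.GW.E3.KeyLeavesHypR

open Fermat.Agent.GC.Prof Fermat.Agent.GC.C0 Fermat.Agent.GC.Places Fermat.Agent.GC.KumH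
  Fermat.Agent.GC.PT.LocDataQ ExtCitation Fermat.Agent.GP.GW Fermat.Agent.GP.GW.Euler
  Fermat.Agent.GP.GW.Euler.StarRes Fermat.Agent.GP.GW.E3 Fermat.Agent.GP.GW.E3.Mackey
  Fermat.Agent.GP.GW.E3.UnitR Fermat.Agent.GP.GW.E3.KeyCPQLeaves
  Fermat.Agent.GP.GW.Euler.R1Wrap Fermat.Agent.GP.GW.Euler.BaseHypOfLeaves
  Fermat.Agent.GP.Bridge.Ad0 Fermat.Agent.S53_helper35

local notation "Qb" => AlgebraicClosure ℚ
local notation "GQ" => (AlgebraicClosure ℚ ≃ₐ[ℚ] AlgebraicClosure ℚ)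

variable {p : ℕ} [hp : Fact p.Prime]

/-- the `PS` of ROUTE-R is the `PS` of helper83's `h2q_dcRight` -/
theorem placePolyS_eq_dcRight (T : Finset Nat.Primes) (F : IntermediateField ℚ Qb)
    [F.fixingSubgroup.Normal] [F.fixingSubgroup.FiniteIndex] (hFT : F.IsUnramifiedOutside T)
    (n : GQ) (hn' : Norm F.fixingSubgroup n⁻¹) :
    placePolyS (p := p) T F hFT n =
      ∏ v : (locDataQ T).ι, (LinearMap.funLeft (ZMod p) (ZMod p)
        (dcRight (decQ (idxPrime T v)) F.fixingSubgroup hn')).charpoly := rfl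

/-- **`KeyLeavesHyp p`** (`p` odd): the two leaves (H2q) ∧ (UNITq) for every pair `(F, T)`. -/
theorem keyLeavesHyp (hp2 : p ≠ 2) : KeyLeavesHyp p := by
  intro F _ _ T hpT hχ hFT hX _
  haveI := finiteIndex_fixingSubgroup hFT
  refine keyLeavesQ_of_H2 T F hpT hFT hχ hX ?_
  intro H hUH _ _ n
  rw [placePolyS_eq_dcRight T F hFT (n : GQ) (norm_of_normal F (n : GQ)⁻¹)]
  exact h2q_dcRight hp2 F T hpT hχ hFT hX H hUH n (norm_of_normal F (n : GQ)⁻¹)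

/-- **`R1Wrap.BaseHyp p`** (`p` odd): the E3 base case for every pair `(F, T)`. -/
theorem baseHyp (hp2 : p ≠ 2) : BaseHyp p := baseHyp_of_keyLeaves hp2 (keyLeavesHyp hp2)

variable {k : Type} [Field k] [Algebra (ZMod p) k] [Finite k]
variable (ρbar : ResidualGaloisRep k) (b : Module.Basis (Fin 2) k ρbar.V)

/-- **R1, unconditional**: `∃ Σ ⊇ S₀ ∪ S` with `(TATE)` for `(ad⁰ρ̄)^*(1)` at every level
`S' ⊇ Σ`. -/
theorem exists_sigma_htate_adBar_final (hp2 : p ≠ 2) (S₀ : Finset Nat.Primes)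
    (hpS₀ : pPrime p ∈ S₀) (hur : ∀ q : Nat.Primes, q ∉ S₀ → ρbar.IsUnramifiedAt (q : ℕ))
    (S : Finset Nat.Primes) :
    ∃ Sig : Finset Nat.Primes, S₀ ∪ S ⊆ Sig ∧
      ∀ (S' : Finset Nat.Primes)
        [IsDiscrete (levelS S') ((adBar p ρbar b).dualTwist (cycloChar p))],
        Sig ⊆ S' → TateLe S' ((adBar p ρbar b).dualTwist (cycloChar p)) :=
  exists_sigma_htate_adBar_of_keyLeaves ρbar b hp2 S₀ hpS₀ hur S (keyLeavesHyp hp2)

end Fermat.Agent.GP.GW.E3.KeyLeavesHypR
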