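/-
GATE-P / S56 [P-GW] leaf E3f (helper83), FILE 9: **`KeyLeavesHyp p` from the (UNITq) half alone.**

`BaseHypOfLeaves.KeyLeavesHyp p` (helper66) asks, for every pair `(F, T)`, for a lift `n` of a
generator of `C = H ⧸ G_F` and a polynomial `PS` with (H2q) ∧ (UNITq).  `MackeyH2R.h2q_dcRight`
proves (H2q) for EVERY `n`, with `PS = ∏_{v ∈ T} cp(funLeft (dcRight (D_v) G_F hn'))`.  So:

* `UnitQHyp p` : (UNITq) for every `n : H` with THIS `PS` (binders of `KeyLeavesHyp`);
* `keyLeavesHyp_of_unitq (hp2 : p ≠ 2) : UnitQHyp p → KeyLeavesHyp p`.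
-/
import Fermat.Agent.GP.GW.Euler.BaseHypOfLeaves
import Fermat.Agent.GP.GW.E3.MackeyH2R

set_option autoImplicit false

open Module CategoryTheory Polynomial

noncomputable section

namespace Fermat.Agent.GP.GW.E3.Mackey

open Fermat.Agent.GC.Prof Fermat.Agent.GC.Prof.Cone Fermat.Agent.GC.PT
  Fermat.Agent.GC.PT.LocDataQ ExtCitation Fermat.Agent.GC.C0 Fermat.Agent.GC.Places
  Fermat.Agent.GC.KumH Fermat.Agent.GC.KBInst
  Fermat.Agent.GP.GW Fermat.Agent.GP.GW.Euler Fermat.Agent.GP.GW.Euler.StarRes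
  Fermat.Agent.GP.GW.E3 Fermat.Agent.GP.GW.E3.NormPair Fermat.Agent.GP.GW.Euler.StarBridge
  Fermat.Agent.GP.GW.E3.PermPoly Fermat.Agent.GC.Local.KR
  Fermat.Agent.GP.GW.E3.KeyCPQLeaves Fermat.Agent.GP.GW.Euler.BaseHypOfLeaves

local notation "Qb" => AlgebraicClosure ℚ

variable {p : ℕ} [Fact p.Prime]

/-- the (UNITq) half in the PS of `h2q_dcRight`, as a hypothesis -/
def UnitQHyp (p : ℕ) [Fact p.Prime] : Prop :=
  ∀ (F : IntermediateField ℚ Qb) [FiniteDimensional ℚ F] [F.fixingSubgroup.Normal]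
    [F.fixingSubgroup.FiniteIndex] (T : Finset Nat.Primes),
    pPrime p ∈ T → (∀ g ∈ F.fixingSubgroup, cycloChar p g = 1) →
    ∀ _hFT : F.IsUnramifiedOutside T,
      (∀ x : Hlc (levelK T F) (sUnitsK T F) 1, x = 0) →
      ∀ (H : Subgroup GQ) (hUH : F.fixingSubgroup ≤ H)
        [IsDiscrete (levelS T) ((normPairQ F.fixingSubgroup H hUH).big
          ((normPairQ F.fixingSubgroup H hUH).chiRes (cycloChar p)))]
        [FiniteDimensional (ZMod p)
          (hlcStarRep (levelS T) ((normPairQ F.fixingSubgroup H hUH).chiRes (cycloChar p)) 1)]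
        [FiniteDimensional (ZMod p)
          ((normPairQ F.fixingSubgroup H hUH).big
            ((normPairQ F.fixingSubgroup H hUH).triv₀ (k := ZMod p)))]
        (n : (normPairQ F.fixingSubgroup H hUH).H)
        (hn' : Norm F.fixingSubgroup ((n : GQ)⁻¹)),
        ((hlcStarRep (levelS T) ((normPairQ F.fixingSubgroup H hUH).chiRes (cycloChar p)) 1).ρ
            (QuotientGroup.mk n : (normPairQ F.fixingSubgroup H hUH).C)).charpoly * (X - 1) =
          (X - C ((cycloChar p (n : GQ) : (ZMod p)ˣ) : ZMod p)) *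
            (∏ v : (locDataQ T).ι, (LinearMap.funLeft (ZMod p) (ZMod p)
              (dcRight (decQ (idxPrime T v)) F.fixingSubgroup hn')).charpoly) *
            ((bigFixRep ((normPairQ F.fixingSubgroup H hUH).triv₀ (k := ZMod p))
              complexConjugation).ρ
              (QuotientGroup.mk n : (normPairQ F.fixingSubgroup H hUH).C)).charpoly

theorem keyLeavesHyp_of_unitq (hp2 : p ≠ 2) (hunit : UnitQHyp p) : KeyLeavesHyp p := by
  intro F _ _ T hpT hχ hFT hX _ H hUH hcyc _ _ _ _ _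
  have hU : F.fixingSubgroup ∈ (levelS T).sets := (mem_levelS_iff T _).2 ⟨F, hFT, rfl⟩
  have hfinU : F.fixingSubgroup.FiniteIndex := (levelS T).finiteIndex_of_mem hU
  obtain ⟨c, hc⟩ := hcyc.exists_generator
  obtain ⟨n, rfl⟩ := QuotientGroup.mk_surjective c
  have hnorm : NormalIn F.fixingSubgroup H :=
    normalIn_normPair (normPairQ F.fixingSubgroup H hUH)
  refine ⟨n, hc, _, h2q_dcRight hp2 F T hpT hχ hFT hX H hUH n
    (norm_inv_of_normalIn F.fixingSubgroup H n), ?_⟩
  exact hunit F T hpT hχ hFT hX H hUH n _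

end Fermat.Agent.GP.GW.E3.Mackey

end
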