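/-
GATE-P (S56) / node [P-GW], leaf E3e of helper59's graph 4002 / helper74's E3 GRAPH v1 4198 §1
(helper18): **the Poitou–Tate TAIL formula (R2)**

  `h²(N) + h⁰(N*) = dim Ш²(N) + dim P⁰(N*)`,     `dim Ш²(N) = dim Ш¹(N*)`

for EVERY finite-dimensional discrete `N`, from `Δ : PTData S` (full compact-support duality) and
the exact tail `H²(N) → P²(N) → H³_c(N) → 0` of the cone sequence.  Built on helper19's
nine-term bookkeeping (`GP/GW/NineTerm{,Q,Final}.lean`): `goodPair`, `finrank_Ploc_two`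
(`p²(N) = p⁰(N*)`, local perfectness of `lam20`), `finrank_HlcC_three` (`h³_c(N) = h⁰(N*)`),
`cupSymm20` (GW-1a, landed).  The ONLY named hypothesis is

* `H30Right Δ.D N N* ev _` : `h30` right non-degenerate (node GW-1c, helper2's `GP/GW/H30.lean`).

`Hⁱ(N) = Hlc (levelS S) N i`, `Pⁱ(N) = Ploc (locDataQ S) N i = ∀ v, Hlc (levelQ v) (res N) i`,
`N* = N.dualTwist χ`, `χ = cycloChar p`, `Шⁱ(N) = ker (locRes (locDataQ S) N i)`; everything
`ZMod p`-linear.

Also exported (no binder at all): `H³(N) = 0`, finiteness of `H²(N)`, `P²(N)`,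
`h²(N) + h³_c(N) = dim Ш²(N) + p²(N)`, `dim Ш²(N) = dim Ш¹(N*)`; `Шⁿ` passes to retracts; the
φ-EQUIVARIANCE of every map in the tail (`φ : N ⟶ N` any endomorphism of the coefficients) and
the adjointness of `h30`, `h21`, `h12`, `lam20`, `lam11`, `lam02` with respect to
`(φ, φ* = dualTwistMap χ φ)` — what an isotypic / characteristic-polynomial / rank-trick
refinement (E3g) needs.
-/
import Mathlib
import Fermat.Agent.GP.GW.NineTermFinal
import Fermat.Agent.GP.GW.ChiAdd
import Fermat.Agent.GC.Prof.ConeLCNat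

set_option autoImplicit false

noncomputable section

namespace Fermat.Agent.GP.GW.E3.PTTail

open Fermat.Agent.GC.Prof Fermat.Agent.GC.Prof.Cone Fermat.Agent.GC.PT
  Fermat.Agent.GC.PT.Triples Fermat.Agent.GC.PT.LocDataQ Fermat.Agent.GC.PT.MainInst
  groupCohomology CategoryTheory ExtCitation Module Fermat.Agent.GC.C0 Fermat.Agent.GP.GW
  Fermat.Agent.GP.GW.NineTerm Fermat.Agent.GP.GW.NineTermQ Fermat.Agent.GP.GW.NineTermFinal

/-! ### Linear-algebra core (Mathlib only) -/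

section Lin

variable {k : Type*} [Field k]
variable {A P Z P' H' : Type*} [AddCommGroup A] [Module k A] [AddCommGroup P] [Module k P]
  [AddCommGroup Z] [Module k Z] [AddCommGroup P'] [Module k P'] [AddCommGroup H'] [Module k H']

/-- A perfect pairing (left map bijective onto the dual of a finite-dimensional space) has
sides of equal dimension. -/
theorem finrank_eq_of_bijective_pairing [FiniteDimensional k P'] (lam : P →ₗ[k] P' →ₗ[k] k)
    (hlam : Function.Bijective lam) : finrank k P = finrank k P' := by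
  rw [(LinearEquiv.ofBijective lam hlam).finrank_eq]
  exact Subspace.dual_finrank_eq

/-- **Tail count.**  `A --loc--> P --bd--> Z → 0` exact, `P` perfectly paired with `P'`, `Z` with
`H'`:  `dim A + dim H' = dim ker loc + dim P'`. -/
theorem finrank_tail [FiniteDimensional k A] [FiniteDimensional k P'] [FiniteDimensional k H']
    (loc : A →ₗ[k] P) (bd : P →ₗ[k] Z) (hex : Function.Exact loc bd)
    (hbd : Function.Surjective bd)
    (lam : P →ₗ[k] P' →ₗ[k] k) (hlam : Function.Bijective lam)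
    (h30 : Z →ₗ[k] H' →ₗ[k] k) (hh30 : Function.Bijective h30) :
    finrank k A + finrank k H' = finrank k (LinearMap.ker loc) + finrank k P' := by
  have hP : FiniteDimensional k P :=
    (LinearEquiv.ofBijective lam hlam).symm.finiteDimensional
  have h1 := LinearMap.finrank_range_add_finrank_ker loc
  have h2 := LinearMap.finrank_range_add_finrank_ker bd
  rw [LinearMap.exact_iff.1 hex] at h2
  rw [LinearMap.range_eq_top.2 hbd, finrank_top] at h2
  have h3 := finrank_eq_of_bijective_pairing lam hlam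
  have h4 := finrank_eq_of_bijective_pairing h30 hh30
  omega

/-- **Exact tail count.**  `A --loc--> P --bd--> Z → 0` exact:
`dim A + dim Z = dim ker loc + dim P`. -/
theorem finrank_tail_exact [FiniteDimensional k A] [FiniteDimensional k P]
    (loc : A →ₗ[k] P) (bd : P →ₗ[k] Z) (hex : Function.Exact loc bd)
    (hbd : Function.Surjective bd) :
    finrank k A + finrank k Z = finrank k (LinearMap.ker loc) + finrank k P := by
  have h1 := LinearMap.finrank_range_add_finrank_ker loc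
  have h2 := LinearMap.finrank_range_add_finrank_ker bd
  rw [LinearMap.exact_iff.1 hex] at h2
  rw [LinearMap.range_eq_top.2 hbd, finrank_top] at h2
  omega

end Lin


/-! ### The instance: `(G_ℚ, levelS S, locDataQ S, cycloChar p)` with `Δ : PTData S` -/

variable {p : ℕ} [Fact p.Prime] {S : Finset Nat.Primes}

section Main

variable [IsDiscrete (levelS S) (TChi p)] (Δ : PTData (p := p) S) (hpS : pPrime p ∈ S)
  (N : Rep (ZMod p) GQ) [FiniteDimensional (ZMod p) N] [IsDiscrete (levelS S) N]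
  [IsDiscrete (levelS S) (N.dualTwist (cycloChar p))]

include Δ hpS in
/-- `H³(G_S, N) = 0` for every finite-dimensional discrete `N`. -/
theorem isZero_Hlc_three : Limits.IsZero (Hlc (levelS S) N 3) :=
  (goodPair Δ hpS N).zero3

include Δ hpS in
/-- `∂ : P²(N) → H³_c(N)` is onto. -/
theorem surjective_bdry_two : Function.Surjective (HlcCBdry (locDataQ S) N 2) :=
  surjective_HlcCBdry_two N (isZero_Hlc_three Δ hpS N)

include Δ hpS in
/-- `H²(G_S, N)` is finite-dimensional. -/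
theorem finiteDimensional_Hlc_two : FiniteDimensional (ZMod p) (Hlc (levelS S) N 2) := by
  have := finiteDimensional_dual (p := p) N
  exact (goodPair Δ hpS N).fdH2

include Δ hpS in
/-- `P²(N)` is finite-dimensional. -/
theorem finiteDimensional_Ploc_two :
    FiniteDimensional (ZMod p) (Ploc (locDataQ S) N 2) := by
  have := finiteDimensional_dual (p := p) N
  exact (goodPair Δ hpS N).fdP2

include Δ hpS in
/-- **The exact tail, unconditionally**:  `h²(N) + h³_c(N) = dim Ш²(N) + p²(N)`. -/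
theorem finrank_H2_add_HlcC3 :
    finrank (ZMod p) (Hlc (levelS S) N 2) + finrank (ZMod p) (HlcC (locDataQ S) N 3) =
      finrank (ZMod p) (LinearMap.ker (locRes (locDataQ S) N 2)) +
        finrank (ZMod p) (Ploc (locDataQ S) N 2) := by
  have f2 := finiteDimensional_Hlc_two Δ hpS N
  have fP := finiteDimensional_Ploc_two Δ hpS N
  exact finrank_tail_exact (locRes (locDataQ S) N 2) (HlcCBdry (locDataQ S) N 2)
    (exact_locRes_HlcCBdry (locDataQ S) N 2) (surjective_bdry_two Δ hpS N)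

include Δ hpS in
/-- **E3e / (R2), first form.**  With `h30` right non-degenerate (GW-1c, helper2's `H30Right`):
`h²(N) + h⁰(N*) = dim Ш²(N) + dim P⁰(N*)`. -/
theorem finrank_H2_add_H0
    (h30 : H30Right Δ.D N (N.dualTwist (cycloChar p)) (evB (cycloChar p) N)
      (isChiPairing_evB (cycloChar p) N)) :
    finrank (ZMod p) (Hlc (levelS S) N 2) +
        finrank (ZMod p) (Hlc (levelS S) (N.dualTwist (cycloChar p)) 0) =
      finrank (ZMod p) (LinearMap.ker (locRes (locDataQ S) N 2)) +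
        finrank (ZMod p) (Ploc (locDataQ S) (N.dualTwist (cycloChar p)) 0) := by
  have := finiteDimensional_dual (p := p) N
  have hg := goodPair Δ hpS N
  have h1 := finrank_H2_add_HlcC3 Δ hpS N
  rw [NineTerm.finrank_HlcC_three hg h30,
    NineTerm.finrank_Ploc_two Δ.E hg (cupSymm20 Δ N _ _ _) h30] at h1
  exact h1

include Δ hpS in
/-- `Ш²(N)` and `Ш¹(N*)` are finite-dimensional of the same dimension (S55-type statement,
for EVERY finite-dimensional discrete `N`, straight from `PTData`; no binder). -/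
theorem finrank_sha_two_eq_sha_one :
    FiniteDimensional (ZMod p) (LinearMap.ker (locRes (locDataQ S) N 2)) ∧
      FiniteDimensional (ZMod p)
        (LinearMap.ker (locRes (locDataQ S) (N.dualTwist (cycloChar p)) 1)) ∧
      finrank (ZMod p) (LinearMap.ker (locRes (locDataQ S) N 2)) =
        finrank (ZMod p) (LinearMap.ker (locRes (locDataQ S) (N.dualTwist (cycloChar p)) 1)) := by
  have := finiteDimensional_dual (p := p) N
  have hg := goodPair Δ hpS N
  have : FiniteDimensional (ZMod p) (Hlc (levelS S) (N.dualTwist (cycloChar p)) 1) := hg.fin1'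
  have := fdP0 (L := locDataQ S) (N.dualTwist (cycloChar p))
  exact Final.finrank_ker_eq_of_duality
    (HlcCToH (locDataQ S) N 2).hom (locRes (locDataQ S) N 2)
    (exact_HlcCToH_locRes (locDataQ S) N 2)
    (HlcCBdry (locDataQ S) (N.dualTwist (cycloChar p)) 0)
    (HlcCToH (locDataQ S) (N.dualTwist (cycloChar p)) 1).hom
    (locRes (locDataQ S) (N.dualTwist (cycloChar p)) 1)
    (exact_HlcCBdry_HlcCToH (locDataQ S) (N.dualTwist (cycloChar p)) 0)
    (exact_HlcCToH_locRes (locDataQ S) (N.dualTwist (cycloChar p)) 1)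
    (g21 Δ.D N (N.dualTwist (cycloChar p)) (evB (cycloChar p) N)
      (isChiPairing_evB (cycloChar p) N)) hg.g21_bijective
    (g12 Δ.D (N.dualTwist (cycloChar p)) N (evB (cycloChar p) N).flip
      (isChiPairing_evB (cycloChar p) N).flip) hg.flip.g12_bijective
    Δ.D.s Δ.D.s_ne
    (fun x x' => g_swap Δ.D N (N.dualTwist (cycloChar p)) (evB (cycloChar p) N)
      (isChiPairing_evB (cycloChar p) N) x x')

include Δ hpS in
/-- **E3e / (R2), final form**:  `h²(N) + h⁰(N*) = dim Ш¹(N*) + dim P⁰(N*)`, i.e.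
`h²(N) = dim Ш¹(N*) + Σ_v h⁰(G_v, N*) − h⁰(N*)`. -/
theorem finrank_H2_eq
    (h30 : H30Right Δ.D N (N.dualTwist (cycloChar p)) (evB (cycloChar p) N)
      (isChiPairing_evB (cycloChar p) N)) :
    finrank (ZMod p) (Hlc (levelS S) N 2) +
        finrank (ZMod p) (Hlc (levelS S) (N.dualTwist (cycloChar p)) 0) =
      finrank (ZMod p)
          (LinearMap.ker (locRes (locDataQ S) (N.dualTwist (cycloChar p)) 1)) +
        finrank (ZMod p) (Ploc (locDataQ S) (N.dualTwist (cycloChar p)) 0) := by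
  rw [← (finrank_sha_two_eq_sha_one Δ hpS N).2.2]
  exact finrank_H2_add_H0 Δ hpS N h30

include Δ hpS in
/-- **Consumer form for the E3 base case** (helper74 4198 §1 / helper71 4028 (2) / helper8 4080
(b)): if `Ш²(N) = 0` then `h²(N) + h⁰(N*) = dim P⁰(N*) = Σ_v h⁰(G_v, N*)`. -/
theorem finrank_H2_of_sha_two_eq_bot
    (h30 : H30Right Δ.D N (N.dualTwist (cycloChar p)) (evB (cycloChar p) N)
      (isChiPairing_evB (cycloChar p) N))
    (hsha : LinearMap.ker (locRes (locDataQ S) N 2) = ⊥) :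
    finrank (ZMod p) (Hlc (levelS S) N 2) +
        finrank (ZMod p) (Hlc (levelS S) (N.dualTwist (cycloChar p)) 0) =
      finrank (ZMod p) (Ploc (locDataQ S) (N.dualTwist (cycloChar p)) 0) := by
  have h := finrank_H2_add_H0 Δ hpS N h30
  rw [hsha, finrank_bot, zero_add] at h
  exact h

include Δ hpS in
/-- Same with the hypothesis on the dual side: if `Ш¹(N*) = 0` then
`h²(N) + h⁰(N*) = dim P⁰(N*)`. -/
theorem finrank_H2_of_sha_one_eq_bot
    (h30 : H30Right Δ.D N (N.dualTwist (cycloChar p)) (evB (cycloChar p) N)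
      (isChiPairing_evB (cycloChar p) N))
    (hsha : LinearMap.ker (locRes (locDataQ S) (N.dualTwist (cycloChar p)) 1) = ⊥) :
    finrank (ZMod p) (Hlc (levelS S) N 2) +
        finrank (ZMod p) (Hlc (levelS S) (N.dualTwist (cycloChar p)) 0) =
      finrank (ZMod p) (Ploc (locDataQ S) (N.dualTwist (cycloChar p)) 0) := by
  have h := finrank_H2_eq Δ hpS N h30
  rw [hsha, finrank_bot, zero_add] at h
  exact h

include Δ hpS in
/-- `Ш²(N) = 0 ↔ Ш¹(N*) = 0`. -/
theorem sha_two_eq_bot_iff :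
    LinearMap.ker (locRes (locDataQ S) N 2) = ⊥ ↔
      LinearMap.ker (locRes (locDataQ S) (N.dualTwist (cycloChar p)) 1) = ⊥ := by
  obtain ⟨f2, f1, h⟩ := finrank_sha_two_eq_sha_one Δ hpS N
  rw [← Submodule.finrank_eq_zero, ← Submodule.finrank_eq_zero (S := LinearMap.ker
    (locRes (locDataQ S) (N.dualTwist (cycloChar p)) 1)), h]

end Main


/-! ### Equivariance of the tail under an endomorphism `φ` of the coefficients -/

section Equivariant

universe u

variable {k G : Type u} [Field k] [Group G] {𝒰 : LevelSystem G} (L : LocalData 𝒰)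
variable {M M₁ : Rep.{u} k G} [IsDiscrete 𝒰 M] [IsDiscrete 𝒰 M₁]

/-- The map induced on the local terms `Pⁿ(·) = ∏_v Hlcⁿ(G_v, ·)` by a morphism of coefficients. -/
def locEnd (φ : M ⟶ M₁) (n : ℕ) :
    (∀ v, Hlc (L.𝒰v v) (Rep.res (L.r v) M) n) →ₗ[k]
      ∀ v, Hlc (L.𝒰v v) (Rep.res (L.r v) M₁) n :=
  LinearMap.pi fun v =>
    (HlcMap (L.𝒰v v) ((Rep.resFunctor (L.r v)).map φ) n).hom ∘ₗ LinearMap.proj v

@[simp]
theorem locEnd_apply (φ : M ⟶ M₁) (n : ℕ) (b : ∀ v, Hlc (L.𝒰v v) (Rep.res (L.r v) M) n)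
    (v : L.ι) :
    locEnd L φ n b v = HlcMap (L.𝒰v v) ((Rep.resFunctor (L.r v)).map φ) n (b v) := rfl

/-- `loc ∘ φ_* = φ_* ∘ loc`. -/
theorem locRes_locEnd (φ : M ⟶ M₁) (n : ℕ) (x : Hlc 𝒰 M n) :
    locRes L M₁ n (HlcMap 𝒰 φ n x) = locEnd L φ n (locRes L M n x) := by
  funext v
  rw [locEnd_apply]
  exact Fermat.Agent.GC.Prof.Cone.locRes_HlcMap L φ n x v

/-- `∂ ∘ φ_* = φ_* ∘ ∂`. -/
theorem bdry_locEnd (φ : M ⟶ M₁) (n : ℕ) (b : ∀ v, Hlc (L.𝒰v v) (Rep.res (L.r v) M) n) :
    HlcCBdry L M₁ n (locEnd L φ n b) = HlcCMap L φ (n + 1) (HlcCBdry L M n b) :=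
  (HlcCMap_HlcCBdry L φ n b).symm

/-- `φ_*` preserves `Шⁿ = ker locⁿ`. -/
theorem HlcMap_mem_ker_locRes (φ : M ⟶ M₁) (n : ℕ) {x : Hlc 𝒰 M n}
    (hx : x ∈ LinearMap.ker (locRes L M n)) :
    (HlcMap 𝒰 φ n).hom x ∈ LinearMap.ker (locRes L M₁ n) := by
  rw [LinearMap.mem_ker] at hx ⊢
  have h := locRes_locEnd L φ n x
  rw [hx, map_zero] at h
  exact h

/-- `Шⁿ` passes to retracts: if `M` is a retract of `M₁` and `Шⁿ(M₁) = 0` then `Шⁿ(M) = 0`. -/
theorem ker_locRes_eq_bot_of_retract (i : M ⟶ M₁) (r : M₁ ⟶ M) (hir : i ≫ r = 𝟙 M) (n : ℕ)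
    (h₁ : LinearMap.ker (locRes L M₁ n) = ⊥) : LinearMap.ker (locRes L M n) = ⊥ := by
  rw [eq_bot_iff]
  intro x hx
  have h2 := HlcMap_mem_ker_locRes L i n hx
  rw [h₁, Submodule.mem_bot] at h2
  have h3 : (HlcMap 𝒰 r n).hom ((HlcMap 𝒰 i n).hom x) = x := by
    have h := congr($(HlcMap_comp 𝒰 i r n) x)
    rw [hir, HlcMap_id] at h
    simpa using h.symm
  rw [Submodule.mem_bot, ← h3, h2, map_zero]

/-- finrank version: `dim Шⁿ(M) ≤ dim Шⁿ(M₁)` for a retract `M` of `M₁`. -/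
theorem finrank_ker_locRes_le_of_retract (i : M ⟶ M₁) (r : M₁ ⟶ M) (hir : i ≫ r = 𝟙 M) (n : ℕ)
    [FiniteDimensional k (LinearMap.ker (locRes L M₁ n))] :
    finrank k (LinearMap.ker (locRes L M n)) ≤ finrank k (LinearMap.ker (locRes L M₁ n)) := by
  let f : LinearMap.ker (locRes L M n) →ₗ[k] LinearMap.ker (locRes L M₁ n) :=
    ((HlcMap 𝒰 i n).hom.comp (LinearMap.ker (locRes L M n)).subtype).codRestrict _
      (fun x => HlcMap_mem_ker_locRes L i n x.2)
  have hf : Function.Injective f := by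
    intro x y hxy
    have h1 : (HlcMap 𝒰 i n).hom x.1 = (HlcMap 𝒰 i n).hom y.1 := congrArg Subtype.val hxy
    have h3 : ∀ z : Hlc 𝒰 M n, (HlcMap 𝒰 r n).hom ((HlcMap 𝒰 i n).hom z) = z := by
      intro z
      have h := congr($(HlcMap_comp 𝒰 i r n) z)
      rw [hir, HlcMap_id] at h
      simpa using h.symm
    apply Subtype.ext
    rw [← h3 x.1, ← h3 y.1, h1]
  exact LinearMap.finrank_le_finrank_of_injective hf

end Equivariant

section CupAdjoint

universe u

open Fermat.Agent.GC.Prof.Cup (Equivariant)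

variable {k H : Type u} [CommRing k] [Group H] (𝒱 : LevelSystem H)
variable {M N P : Rep.{u} k H} [IsDiscrete 𝒱 M] [IsDiscrete 𝒱 N] [IsDiscrete 𝒱 P]

/-- If `φ` on the left and `ψ` on the right are adjoint for the coefficient pairing `B`, they are
adjoint for the cup product: `(φ_* x) ∪ y = x ∪ (ψ_* y)`. -/
theorem HlcCup_adjoint {B : M →ₗ[k] N →ₗ[k] P} (hB : Equivariant M.ρ N.ρ P.ρ B)
    (φ : M ⟶ M) (ψ : N ⟶ N) (hadj : ∀ m n, B (φ.hom m) n = B m (ψ.hom n))
    {i j n : ℕ} (h : i + j = n) (x : Hlc 𝒱 M i) (y : Hlc 𝒱 N j) :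
    HlcCup 𝒱 B hB h (HlcMap 𝒱 φ i x) y = HlcCup 𝒱 B hB h x (HlcMap 𝒱 ψ j y) := by
  let B₁ : M →ₗ[k] N →ₗ[k] P := B.comp φ.hom.toLinearMap
  have hB₁ : Equivariant M.ρ N.ρ P.ρ B₁ := by
    intro g m n
    show B (φ.hom (M.ρ g m)) (N.ρ g n) = P.ρ g (B (φ.hom m) n)
    rw [Rep.hom_comm_apply]
    exact hB g (φ.hom m) n
  have h1 := HlcCup_map 𝒱 hB₁ hB φ (𝟙 N) (𝟙 P) (fun m n => rfl) h x y
  have h2 := HlcCup_map 𝒱 hB₁ hB (𝟙 M) ψ (𝟙 P) (fun m n => hadj m n) h x y
  rw [HlcMap_id_apply] at h1 h2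
  rw [HlcMap_id_apply] at h1 h2
  rw [← h1, h2]

end CupAdjoint

section Adjoint

variable [IsDiscrete (levelS S) (TChi p)] (Δ : PTData (p := p) S)
  (N : Rep (ZMod p) GQ) [IsDiscrete (levelS S) N]
  [dN : IsDiscrete (levelS S) (N.dualTwist (cycloChar p))] (φ : N ⟶ N)

/-- The adjointness of the cone pairing of `(N, N*, ev)` with respect to `(φ, φ*)`. -/
theorem adjoint_pair :
    Adjoint
      (Δ.D.pair N (N.dualTwist (cycloChar p)) (Fermat.Agent.GC.PT.Triples.evB (cycloChar p) N)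
        (isChiPairing_evB (cycloChar p) N))
      (Δ.D.pair N (N.dualTwist (cycloChar p)) (Fermat.Agent.GC.PT.Triples.evB (cycloChar p) N)
        (isChiPairing_evB (cycloChar p) N))
      (coneCMap (locDataQ S) φ)
      (lcMap (levelS S) (Fermat.Agent.GC.PT.Triples.dualTwistMap (cycloChar p) φ)) :=
  Δ.D.adjoint N (N.dualTwist (cycloChar p)) N (N.dualTwist (cycloChar p))
    (Fermat.Agent.GC.PT.Triples.evB (cycloChar p) N) (isChiPairing_evB (cycloChar p) N)
    (Fermat.Agent.GC.PT.Triples.evB (cycloChar p) N) (isChiPairing_evB (cycloChar p) N)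
    φ (Fermat.Agent.GC.PT.Triples.dualTwistMap (cycloChar p) φ) (fun _ _ => rfl)

/-- `h30 (φ_* x) y = h30 x (φ*_* y)` on `H³_c(N) × H⁰(N*)`. -/
theorem h30_adjoint (x : HlcC (locDataQ S) N 3) (y : Hlc (levelS S) (N.dualTwist (cycloChar p)) 0) :
    (Δ.D.pair N (N.dualTwist (cycloChar p)) (Fermat.Agent.GC.PT.Triples.evB (cycloChar p) N)
        (isChiPairing_evB (cycloChar p) N)).h30 (HlcCMap (locDataQ S) φ 3 x) y =
      (Δ.D.pair N (N.dualTwist (cycloChar p)) (Fermat.Agent.GC.PT.Triples.evB (cycloChar p) N)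
        (isChiPairing_evB (cycloChar p) N)).h30 x
        (HlcMap (levelS S) (Fermat.Agent.GC.PT.Triples.dualTwistMap (cycloChar p) φ) 0 y) :=
  (adjoint_pair Δ N φ).h30 x y

/-- `h21 (φ_* x) y = h21 x (φ*_* y)` on `H²_c(N) × H¹(N*)`. -/
theorem h21_adjoint (x : HlcC (locDataQ S) N 2) (y : Hlc (levelS S) (N.dualTwist (cycloChar p)) 1) :
    (Δ.D.pair N (N.dualTwist (cycloChar p)) (Fermat.Agent.GC.PT.Triples.evB (cycloChar p) N)
        (isChiPairing_evB (cycloChar p) N)).h21 (HlcCMap (locDataQ S) φ 2 x) y =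
      (Δ.D.pair N (N.dualTwist (cycloChar p)) (Fermat.Agent.GC.PT.Triples.evB (cycloChar p) N)
        (isChiPairing_evB (cycloChar p) N)).h21 x
        (HlcMap (levelS S) (Fermat.Agent.GC.PT.Triples.dualTwistMap (cycloChar p) φ) 1 y) :=
  (adjoint_pair Δ N φ).h21 x y

/-- `h12 (φ_* x) y = h12 x (φ*_* y)` on `H¹_c(N) × H²(N*)`. -/
theorem h12_adjoint (x : HlcC (locDataQ S) N 1) (y : Hlc (levelS S) (N.dualTwist (cycloChar p)) 2) :
    (Δ.D.pair N (N.dualTwist (cycloChar p)) (Fermat.Agent.GC.PT.Triples.evB (cycloChar p) N)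
        (isChiPairing_evB (cycloChar p) N)).h12 (HlcCMap (locDataQ S) φ 1 x) y =
      (Δ.D.pair N (N.dualTwist (cycloChar p)) (Fermat.Agent.GC.PT.Triples.evB (cycloChar p) N)
        (isChiPairing_evB (cycloChar p) N)).h12 x
        (HlcMap (levelS S) (Fermat.Agent.GC.PT.Triples.dualTwistMap (cycloChar p) φ) 2 y) :=
  (adjoint_pair Δ N φ).h12 x y

/-- `lam20 (φ_* b) c = lam20 b (φ*_* c)` on `P²(N) × P⁰(N*)`. -/
theorem lam20_adjoint (b : ∀ v, Hlc ((locDataQ S).𝒰v v) (Rep.res ((locDataQ S).r v) N) 2)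
    (c : ∀ v, Hlc ((locDataQ S).𝒰v v)
      (Rep.res ((locDataQ S).r v) (N.dualTwist (cycloChar p))) 0) :
    Δ.E.lam20 N (N.dualTwist (cycloChar p)) (Fermat.Agent.GC.PT.Triples.evB (cycloChar p) N)
        (isChiPairing_evB (cycloChar p) N) (locEnd (locDataQ S) φ 2 b) c =
      Δ.E.lam20 N (N.dualTwist (cycloChar p)) (Fermat.Agent.GC.PT.Triples.evB (cycloChar p) N)
        (isChiPairing_evB (cycloChar p) N) b
        (locEnd (locDataQ S) (Fermat.Agent.GC.PT.Triples.dualTwistMap (cycloChar p) φ) 0 c) := by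
  rw [Δ.hLam.2.2, Δ.hLam.2.2]
  congr 1
  funext v
  exact HlcCup_adjoint ((locDataQ S).𝒰v v) _ _ _ (fun _ _ => rfl) _ (b v) (c v)

/-- `lam11 (φ_* b) c = lam11 b (φ*_* c)` on `P¹(N) × P¹(N*)`. -/
theorem lam11_adjoint (b : ∀ v, Hlc ((locDataQ S).𝒰v v) (Rep.res ((locDataQ S).r v) N) 1)
    (c : ∀ v, Hlc ((locDataQ S).𝒰v v)
      (Rep.res ((locDataQ S).r v) (N.dualTwist (cycloChar p))) 1) :
    Δ.E.lam11 N (N.dualTwist (cycloChar p)) (Fermat.Agent.GC.PT.Triples.evB (cycloChar p) N)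
        (isChiPairing_evB (cycloChar p) N) (locEnd (locDataQ S) φ 1 b) c =
      Δ.E.lam11 N (N.dualTwist (cycloChar p)) (Fermat.Agent.GC.PT.Triples.evB (cycloChar p) N)
        (isChiPairing_evB (cycloChar p) N) b
        (locEnd (locDataQ S) (Fermat.Agent.GC.PT.Triples.dualTwistMap (cycloChar p) φ) 1 c) := by
  rw [Δ.hLam.2.1, Δ.hLam.2.1]
  congr 1
  funext v
  exact HlcCup_adjoint ((locDataQ S).𝒰v v) _ _ _ (fun _ _ => rfl) _ (b v) (c v)

/-- `lam02 (φ_* b) c = lam02 b (φ*_* c)` on `P⁰(N) × P²(N*)`. -/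
theorem lam02_adjoint (b : ∀ v, Hlc ((locDataQ S).𝒰v v) (Rep.res ((locDataQ S).r v) N) 0)
    (c : ∀ v, Hlc ((locDataQ S).𝒰v v)
      (Rep.res ((locDataQ S).r v) (N.dualTwist (cycloChar p))) 2) :
    Δ.E.lam02 N (N.dualTwist (cycloChar p)) (Fermat.Agent.GC.PT.Triples.evB (cycloChar p) N)
        (isChiPairing_evB (cycloChar p) N) (locEnd (locDataQ S) φ 0 b) c =
      Δ.E.lam02 N (N.dualTwist (cycloChar p)) (Fermat.Agent.GC.PT.Triples.evB (cycloChar p) N)
        (isChiPairing_evB (cycloChar p) N) b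
        (locEnd (locDataQ S) (Fermat.Agent.GC.PT.Triples.dualTwistMap (cycloChar p) φ) 2 c) := by
  rw [Δ.hLam.1, Δ.hLam.1]
  congr 1
  funext v
  exact HlcCup_adjoint ((locDataQ S).𝒰v v) _ _ _ (fun _ _ => rfl) _ (b v) (c v)

end Adjoint

end Fermat.Agent.GP.GW.E3.PTTail
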