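/-
GATE-P (S56) / node [P-GW], leaf E3e, part 2 (helper18) = **(H2)-abs of helper78's 4329**:
the Poitou–Tate TAIL in CHARACTERISTIC-POLYNOMIAL form, for an ARBITRARY endomorphism
`φ : N ⟶ N` of the coefficients.

With `φ* = dualTwistMap χ φ : N* ⟶ N*` (the transpose), `Hⁱ(φ) = HlcMap (levelS S) φ i`,
`Pⁱ(φ) = locEnd (locDataQ S) φ i` (placewise `HlcMap` of the restriction):

  `charpoly (H²(φ)) * charpoly (H⁰(φ*)) = charpoly (H²(φ) | Ш²(N)) * charpoly (P⁰(φ*))`,
  `charpoly (P⁰(φ*)) = ∏_v charpoly (H⁰(G_v, φ*))`,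

and for `Ш²(N) = 0`:  `charpoly (H²(φ)) * charpoly (H⁰(φ*)) = ∏_v charpoly (H⁰(G_v, φ*))`.

Proof: the tail `0 → Ш²(N) → H²(N) → P²(N) → H³_c(N) → 0` is `φ`-equivariant
(`PTTail.locRes_locEnd`, `PTTail.bdry_locEnd`), helper10's `E3B.charpoly_four_term`, and the two
perfect pairings `P²(N) × P⁰(N*)`, `H³_c(N) × H⁰(N*)` are `(φ, φ*)`-adjoint
(`PTTail.lam20_adjoint`, `PTTail.h30_adjoint`), so the characteristic polynomials transpose.
The only named hypothesis is `H30Right` (GW-1c, helper2).
-/
import Mathlib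
import Fermat.Agent.GP.GW.E3.PTTail
import Fermat.Agent.GP.GW.E3.CharpolyExact

set_option autoImplicit false

noncomputable section

namespace Fermat.Agent.GP.GW.E3.PTTailCharpoly

open Fermat.Agent.GC.Prof Fermat.Agent.GC.Prof.Cone Fermat.Agent.GC.PT
  Fermat.Agent.GC.PT.Triples Fermat.Agent.GC.PT.LocDataQ Fermat.Agent.GC.PT.MainInst
  groupCohomology CategoryTheory ExtCitation Module Fermat.Agent.GC.C0 Fermat.Agent.GP.GW
  Fermat.Agent.GP.GW.NineTerm Fermat.Agent.GP.GW.NineTermQ Fermat.Agent.GP.GW.NineTermFinal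
  Fermat.Agent.GP.GW.NineTermAbs Fermat.Agent.GP.GW.E3.PTTail Fermat.Agent.GP.GW.E3B Polynomial

/-! ### Linear algebra (Mathlib only) -/

section Lin

variable {k : Type*} [Field k]

/-- The transpose has the same characteristic polynomial. -/
theorem charpoly_dualMap {V : Type*} [AddCommGroup V] [Module k V] [FiniteDimensional k V]
    (g : Module.End k V) : (LinearMap.dualMap g).charpoly = g.charpoly := by
  classical
  have : Fintype (Module.Free.ChooseBasisIndex k V) := Module.Free.ChooseBasisIndex.fintype k V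
  set b := Module.Free.chooseBasis k V
  rw [← LinearMap.charpoly_toMatrix g b, ← LinearMap.charpoly_toMatrix (LinearMap.dualMap g)
    b.dualBasis, LinearMap.dualMap_def, LinearMap.toMatrix_transpose, Matrix.charpoly_transpose]

/-- **Adjoint endomorphisms for a perfect pairing have the same characteristic polynomial.** -/
theorem charpoly_eq_of_adjoint {V W : Type*} [AddCommGroup V] [Module k V]
    [AddCommGroup W] [Module k W] [FiniteDimensional k V] [FiniteDimensional k W]
    (B : V →ₗ[k] W →ₗ[k] k) (hl : Function.Injective B) (hr : Function.Injective B.flip)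
    (f : Module.End k V) (g : Module.End k W) (hadj : ∀ v w, B (f v) w = B v (g w)) :
    f.charpoly = g.charpoly := by
  have hb : Function.Bijective B := bijective_of_injective_flip B hl hr
  let e : V ≃ₗ[k] Module.Dual k W := LinearEquiv.ofBijective B hb
  have h : e.conj f = LinearMap.dualMap g := by
    apply LinearMap.ext
    intro ψ
    obtain ⟨v, rfl⟩ := e.surjective ψ
    apply LinearMap.ext
    intro w
    rw [LinearEquiv.conj_apply_apply, LinearEquiv.symm_apply_apply, LinearMap.dualMap_apply]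
    exact hadj v w
  rw [← LinearEquiv.charpoly_conj e f, h, charpoly_dualMap]

/-- The diagonal endomorphism of a finite product. -/
def piEnd {ι : Type*} {V : ι → Type*} [∀ i, AddCommGroup (V i)] [∀ i, Module k (V i)]
    (f : ∀ i, Module.End k (V i)) : Module.End k (∀ i, V i) :=
  LinearMap.pi fun i => f i ∘ₗ LinearMap.proj i

@[simp]
theorem piEnd_apply {ι : Type*} {V : ι → Type*} [∀ i, AddCommGroup (V i)] [∀ i, Module k (V i)]
    (f : ∀ i, Module.End k (V i)) (x : ∀ i, V i) (i : ι) : piEnd f x i = f i (x i) := rfl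

/-- **The characteristic polynomial of a diagonal endomorphism of a finite product is the product
of the characteristic polynomials.** -/
theorem charpoly_piEnd : ∀ (n : ℕ) {ι : Type*} [Fintype ι] {V : ι → Type*}
    [∀ i, AddCommGroup (V i)] [∀ i, Module k (V i)] [∀ i, FiniteDimensional k (V i)]
    (f : ∀ i, Module.End k (V i)), Fintype.card ι = n →
    (piEnd f).charpoly = ∏ i, (f i).charpoly := by
  classical
  intro n
  induction n with
  | zero =>
    intro ι _ V _ _ _ f hcard
    have : IsEmpty ι := Fintype.card_eq_zero_iff.1 hcard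
    rw [Finset.univ_eq_empty, Finset.prod_empty]
    exact charpoly_eq_one_of_subsingleton _
  | succ n ih =>
    intro ι _ V _ _ _ f hcard
    have hne : Nonempty ι := by
      rw [← Fintype.card_pos_iff, hcard]
      exact Nat.succ_pos n
    obtain ⟨v₀⟩ := hne
    -- the complementary index type
    let ι' := {v : ι // v ≠ v₀}
    have hcard' : Fintype.card ι' = n := by
      rw [Fintype.card_subtype_compl, Fintype.card_subtype_eq, hcard]
      rfl
    let f' : ∀ w : ι', Module.End k (V w.1) := fun w => f w.1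
    have ih' := ih (ι := ι') (V := fun w => V w.1) f' hcard'
    -- exact sequence `0 → V v₀ → ∏ V → ∏' V → 0`
    let i₀ : V v₀ →ₗ[k] (∀ i, V i) := LinearMap.single k V v₀
    let π : (∀ i, V i) →ₗ[k] (∀ w : ι', V w.1) := LinearMap.pi fun w => LinearMap.proj w.1
    have hi₀ : Function.Injective i₀ := fun a b hab => by
      have h := congrFun hab v₀
      simpa [i₀] using h
    have hπ : Function.Surjective π := by
      intro y
      refine ⟨fun i => if h : i = v₀ then 0 else y ⟨i, h⟩, ?_⟩
      funext w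
      show (if h : w.1 = v₀ then 0 else y ⟨w.1, h⟩) = y w
      rw [dif_neg w.2]
    have hex : Function.Exact i₀ π := by
      intro x
      constructor
      · intro hx
        refine ⟨x v₀, ?_⟩
        funext i
        by_cases h : i = v₀
        · subst h
          simp [i₀]
        · have h1 := congrFun hx ⟨i, h⟩
          have h2 : x i = 0 := h1
          rw [h2]
          show (LinearMap.single k V v₀ (x v₀)) i = 0
          rw [LinearMap.coe_single, Pi.single_eq_of_ne h]
      · rintro ⟨a, rfl⟩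
        funext w
        show (LinearMap.single k V v₀ a) w.1 = 0
        rw [LinearMap.coe_single, Pi.single_eq_of_ne w.2]
    have h := charpoly_of_exact i₀ π hi₀ hπ hex (f v₀) (piEnd f) (piEnd f') ?_ ?_
    · rw [h, ih', ← Fintype.prod_subtype_mul_prod_subtype (fun i => i = v₀)
        (fun i => (f i).charpoly)]
      congr 1
      refine Eq.symm ?_
      refine Finset.prod_eq_single (f := fun i : {x // x = v₀} => (f i.1).charpoly)
        ⟨v₀, rfl⟩ (fun y _ hy => ?_) (fun h => ?_)
      · exact absurd (Subtype.ext y.2) hy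
      · exact absurd (@Finset.mem_univ _ (Subtype.fintype fun i => i = v₀) _) h
    · intro a
      funext i
      by_cases h : i = v₀
      · subst h
        simp [i₀]
      · show (LinearMap.single k V v₀ (f v₀ a)) i = f i ((LinearMap.single k V v₀ a) i)
        rw [LinearMap.coe_single, Pi.single_eq_of_ne h, Pi.single_eq_of_ne h, map_zero]
    · intro x
      rfl

/-- `charpoly_piEnd` without the cardinality bookkeeping. -/
theorem charpoly_piEnd' {ι : Type*} [Fintype ι] {V : ι → Type*}
    [∀ i, AddCommGroup (V i)] [∀ i, Module k (V i)] [∀ i, FiniteDimensional k (V i)]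
    (f : ∀ i, Module.End k (V i)) : (piEnd f).charpoly = ∏ i, (f i).charpoly :=
  charpoly_piEnd (Fintype.card ι) f rfl

end Lin

/-! ### The local term: `charpoly (Pⁿ(ψ)) = ∏_v charpoly (Hⁿ(G_v, ψ))` -/

section Loc

universe u

variable {k G : Type u} [Field k] [Group G] {𝒰 : LevelSystem G} (L : LocalData 𝒰) [Fintype L.ι]
  {M : Rep.{u} k G} [IsDiscrete 𝒰 M]

theorem charpoly_locEnd (ψ : M ⟶ M) (n : ℕ)
    [∀ v, FiniteDimensional k (Hlc (L.𝒰v v) (Rep.res (L.r v) M) n)] :
    (locEnd L ψ n).charpoly =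
      ∏ v, (HlcMap (L.𝒰v v) ((Rep.resFunctor (L.r v)).map ψ) n).hom.charpoly :=
  charpoly_piEnd' fun v => (HlcMap (L.𝒰v v) ((Rep.resFunctor (L.r v)).map ψ) n).hom

end Loc

/-! ### The instance `(G_ℚ, levelS S, locDataQ S, cycloChar p)` with `Δ : PTData S` -/

variable {p : ℕ} [Fact p.Prime] {S : Finset Nat.Primes}

section Main

variable [IsDiscrete (levelS S) (TChi p)] (Δ : PTData (p := p) S) (hpS : pPrime p ∈ S)
  (N : Rep (ZMod p) GQ) [FiniteDimensional (ZMod p) N] [IsDiscrete (levelS S) N]
  [IsDiscrete (levelS S) (N.dualTwist (cycloChar p))] (φ : N ⟶ N)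

omit [IsDiscrete (levelS S) (TChi p)] [FiniteDimensional (ZMod p) N]
  [IsDiscrete (levelS S) (N.dualTwist (cycloChar p))] in
/-- `Ш²(N)` is stable under `H²(φ)`. -/
theorem sha_two_stable : ∀ x ∈ LinearMap.ker (locRes (locDataQ S) N 2),
    (HlcMap (levelS S) φ 2).hom x ∈ LinearMap.ker (locRes (locDataQ S) N 2) :=
  fun _ hx => HlcMap_mem_ker_locRes (locDataQ S) φ 2 hx

/-- The endomorphism of `Ш²(N)` induced by `φ`. -/
def shaEnd : Module.End (ZMod p) (LinearMap.ker (locRes (locDataQ S) N 2)) :=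
  (HlcMap (levelS S) φ 2).hom.restrict (sha_two_stable (S := S) N φ)

include Δ hpS in
/-- **(H2)-abs, general form.**  For every endomorphism `φ` of `N`, with `φ*` its transpose on
`N*`:  `charpoly (H²(φ)) * charpoly (H⁰(φ*)) = charpoly (φ | Ш²(N)) * charpoly (P⁰(φ*))`. -/
theorem charpoly_H2_mul_H0
    [FiniteDimensional (ZMod p) (Hlc (levelS S) N 2)]
    [FiniteDimensional (ZMod p) (Hlc (levelS S) (N.dualTwist (cycloChar p)) 0)]
    [FiniteDimensional (ZMod p) (Ploc (locDataQ S) (N.dualTwist (cycloChar p)) 0)]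
    (h30 : H30Right Δ.D N (N.dualTwist (cycloChar p)) (evB (cycloChar p) N)
      (isChiPairing_evB (cycloChar p) N)) :
    (HlcMap (levelS S) φ 2).hom.charpoly *
        (HlcMap (levelS S) (Triples.dualTwistMap (cycloChar p) φ) 0).hom.charpoly =
      (shaEnd (S := S) N φ).charpoly *
        (locEnd (locDataQ S) (Triples.dualTwistMap (cycloChar p) φ) 0).charpoly := by
  have := finiteDimensional_dual (p := p) N
  have hg := goodPair Δ hpS N
  have fP2 : FiniteDimensional (ZMod p) (Ploc (locDataQ S) N 2) := hg.fdP2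
  have fC3 : FiniteDimensional (ZMod p) (HlcC (locDataQ S) N 3) := hg.fdC3
  -- the `φ`-equivariant four-term exact sequence `0 → Ш² → H² → P² → H³_c → 0`
  have h4 := charpoly_four_term (LinearMap.ker (locRes (locDataQ S) N 2)).subtype
    (locRes (locDataQ S) N 2) (HlcCBdry (locDataQ S) N 2) Subtype.val_injective
    (LinearMap.exact_subtype_ker_map _) (exact_locRes_HlcCBdry (locDataQ S) N 2)
    (surjective_bdry_two Δ hpS N)
    (shaEnd (S := S) N φ) (HlcMap (levelS S) φ 2).hom (locEnd (locDataQ S) φ 2)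
    (HlcCMap (locDataQ S) φ 3).hom
    (fun _ => rfl) (fun x => locRes_locEnd (locDataQ S) φ 2 x)
    (fun b => bdry_locEnd (locDataQ S) φ 2 b)
  -- the two transpositions
  have hl := NineTerm.lam20_perfect Δ.E hg (cupSymm20 Δ N _ _ _) h30
  have e1 : (locEnd (locDataQ S) φ 2).charpoly =
      (locEnd (locDataQ S) (Triples.dualTwistMap (cycloChar p) φ) 0).charpoly :=
    charpoly_eq_of_adjoint (Δ.E.lam20 N (N.dualTwist (cycloChar p)) (evB (cycloChar p) N)
      (isChiPairing_evB (cycloChar p) N)) hl.1 hl.2 _ _ (fun b c => lam20_adjoint Δ N φ b c)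
  have e2 : (HlcCMap (locDataQ S) φ 3).hom.charpoly =
      (HlcMap (levelS S) (Triples.dualTwistMap (cycloChar p) φ) 0).hom.charpoly :=
    charpoly_eq_of_adjoint (g30 Δ.D N (N.dualTwist (cycloChar p)) (evB (cycloChar p) N)
      (isChiPairing_evB (cycloChar p) N)) hg.g30_injective h30 _ _
      (fun x y => h30_adjoint Δ N φ x y)
  rw [← e2, ← e1, ← h4]

include Δ hpS in
/-- **(H2)-abs for `Ш²(N) = 0`** (helper78 4329 (H2), with helper71's `ShaVanish`):
`charpoly (H²(φ)) * charpoly (H⁰(φ*)) = charpoly (P⁰(φ*))`. -/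
theorem charpoly_H2_of_sha_two_eq_bot
    [FiniteDimensional (ZMod p) (Hlc (levelS S) N 2)]
    [FiniteDimensional (ZMod p) (Hlc (levelS S) (N.dualTwist (cycloChar p)) 0)]
    [FiniteDimensional (ZMod p) (Ploc (locDataQ S) (N.dualTwist (cycloChar p)) 0)]
    (h30 : H30Right Δ.D N (N.dualTwist (cycloChar p)) (evB (cycloChar p) N)
      (isChiPairing_evB (cycloChar p) N))
    (hsha : LinearMap.ker (locRes (locDataQ S) N 2) = ⊥) :
    (HlcMap (levelS S) φ 2).hom.charpoly *
        (HlcMap (levelS S) (Triples.dualTwistMap (cycloChar p) φ) 0).hom.charpoly =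
      (locEnd (locDataQ S) (Triples.dualTwistMap (cycloChar p) φ) 0).charpoly := by
  have h := charpoly_H2_mul_H0 Δ hpS N φ h30
  have hs : Subsingleton (LinearMap.ker (locRes (locDataQ S) N 2)) := by
    rw [hsha]
    infer_instance
  rw [charpoly_eq_one_of_subsingleton (shaEnd (S := S) N φ), one_mul] at h
  exact h

include Δ hpS in
/-- **(H2)-abs for `Ш²(N) = 0`, product form**:
`charpoly (H²(φ)) * charpoly (H⁰(φ*)) = ∏_{v ∈ S} charpoly (H⁰(G_v, φ*))`. -/
theorem charpoly_H2_of_sha_two_eq_bot_prod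
    [FiniteDimensional (ZMod p) (Hlc (levelS S) N 2)]
    [FiniteDimensional (ZMod p) (Hlc (levelS S) (N.dualTwist (cycloChar p)) 0)]
    [∀ v, FiniteDimensional (ZMod p) (Hlc ((locDataQ S).𝒰v v)
      (Rep.res ((locDataQ S).r v) (N.dualTwist (cycloChar p))) 0)]
    (h30 : H30Right Δ.D N (N.dualTwist (cycloChar p)) (evB (cycloChar p) N)
      (isChiPairing_evB (cycloChar p) N))
    (hsha : LinearMap.ker (locRes (locDataQ S) N 2) = ⊥) :
    (HlcMap (levelS S) φ 2).hom.charpoly *
        (HlcMap (levelS S) (Triples.dualTwistMap (cycloChar p) φ) 0).hom.charpoly =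
      ∏ v, (HlcMap ((locDataQ S).𝒰v v)
        ((Rep.resFunctor ((locDataQ S).r v)).map (Triples.dualTwistMap (cycloChar p) φ)) 0).hom.charpoly := by
  rw [← charpoly_locEnd (locDataQ S) (Triples.dualTwistMap (cycloChar p) φ) 0]
  exact charpoly_H2_of_sha_two_eq_bot Δ hpS N φ h30 hsha

end Main

end Fermat.Agent.GP.GW.E3.PTTailCharpoly
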