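/-
GATE-P (S56) / [P-GW] E3-RANKTRICK, second seat (helper17; node of helper74's GW-E3 GRAPH v1,
board 4198 (S2)).  Mathlib only.

**Rank trick.**  Two finitely generated `ℤ`-modules `A`, `B` with automorphisms of order dividing
`n`, `B` torsion-free, such that `rank ker (a^e - 1) = rank ker (b^e - 1)` for every `e ∣ n`, admit
an equivariant map `A → B` with finite kernel and finite cokernel.

Core over `ℚ`: two finite-dimensional `ℚ`-vector spaces with endomorphisms `γ^n = 1` and equal
`dim ker (γ^e - 1)` (`e ∣ n`) are equivariantly isomorphic (cyclotomic decomposition; each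
`ker Φ_d(γ)` is a vector space over the field `ℚ[X]/Φ_d`).
-/
import Mathlib

set_option autoImplicit false

namespace Fermat.Agent.GP.GW.E3.RankTrickB

open Polynomial Module

noncomputable section

/-! ### Part 1: modules over `k[X]` killed by a product of pairwise coprime irreducibles -/

section PolyModule

variable {k : Type*} [Field k]
variable {M N : Type*} [AddCommGroup M] [AddCommGroup N]
  [Module k[X] M] [Module k[X] N] [Module k M] [Module k N]
  [IsScalarTower k k[X] M] [IsScalarTower k k[X] N]
  [Module.Finite k M] [Module.Finite k N]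

/-- The `q`-torsion parts of two `k[X]`-modules, finite-dimensional over `k`, are isomorphic as soon
as they have the same `k`-dimension (`q` irreducible: both are vector spaces over `k[X]/(q)`). -/
theorem nonempty_linearEquiv_torsionBy (q : k[X]) (hq : Irreducible q)
    (h : finrank k (Submodule.torsionBy k[X] M q) = finrank k (Submodule.torsionBy k[X] N q)) :
    Nonempty (Submodule.torsionBy k[X] M q ≃ₗ[k[X]] Submodule.torsionBy k[X] N q) := by
  have hmax : Ideal.IsMaximal (Ideal.span {q}) :=
    PrincipalIdealRing.isMaximal_of_irreducible hq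
  let _ : Field (k[X] ⧸ Ideal.span {q}) := Ideal.Quotient.field _
  have i2 : IsScalarTower k (k[X] ⧸ Ideal.span {q}) (Submodule.torsionBy k[X] M q) := inferInstance
  have i3 : IsScalarTower k[X] (k[X] ⧸ Ideal.span {q}) (Submodule.torsionBy k[X] M q) := inferInstance
  have i4 : Module.Finite k (Submodule.torsionBy k[X] M q) :=
    inferInstanceAs (Module.Finite k ((Submodule.torsionBy k[X] M q).restrictScalars k))
  have i4' : Module.Finite k (Submodule.torsionBy k[X] N q) :=
    inferInstanceAs (Module.Finite k ((Submodule.torsionBy k[X] N q).restrictScalars k))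
  have i5 : Module.Finite (k[X] ⧸ Ideal.span {q}) (Submodule.torsionBy k[X] M q) :=
    Module.Finite.of_restrictScalars_finite k _ _
  have i5' : Module.Finite (k[X] ⧸ Ideal.span {q}) (Submodule.torsionBy k[X] N q) :=
    Module.Finite.of_restrictScalars_finite k _ _
  have i6 : Module.Finite k (k[X] ⧸ Ideal.span {q}) := by
    have : Module.Finite k (AdjoinRoot q) := (AdjoinRoot.powerBasis hq.ne_zero).finite
    exact this
  have hpos : 0 < finrank k (k[X] ⧸ Ideal.span {q}) := Module.finrank_pos
  have e1 := Module.finrank_mul_finrank k (k[X] ⧸ Ideal.span {q}) (Submodule.torsionBy k[X] M q)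
  have e2 := Module.finrank_mul_finrank k (k[X] ⧸ Ideal.span {q}) (Submodule.torsionBy k[X] N q)
  have hK : finrank (k[X] ⧸ Ideal.span {q}) (Submodule.torsionBy k[X] M q) =
      finrank (k[X] ⧸ Ideal.span {q}) (Submodule.torsionBy k[X] N q) := by
    rw [← e2] at h
    rw [← e1] at h
    exact Nat.eq_of_mul_eq_mul_left hpos h
  obtain ⟨e⟩ := FiniteDimensional.nonempty_linearEquiv_of_finrank_eq hK
  exact ⟨e.restrictScalars k[X]⟩

open scoped Function in
/-- Two `k[X]`-modules, finite-dimensional over `k` and killed by a product of pairwise coprime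
irreducibles `q i`, are isomorphic as soon as their `q i`-torsion parts have equal dimensions. -/
theorem nonempty_linearEquiv_of_finrank_torsionBy_eq
    {ι : Type*} [DecidableEq ι] (S : Finset ι) (q : ι → k[X])
    (hirr : ∀ i ∈ S, Irreducible (q i)) (hcop : (S : Set ι).Pairwise (IsCoprime on q))
    (hM : Module.IsTorsionBy k[X] M (∏ i ∈ S, q i))
    (hN : Module.IsTorsionBy k[X] N (∏ i ∈ S, q i))
    (hrank : ∀ i ∈ S, finrank k (Submodule.torsionBy k[X] M (q i)) =
      finrank k (Submodule.torsionBy k[X] N (q i))) :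
    Nonempty (M ≃ₗ[k[X]] N) := by
  have hMi := Submodule.torsionBy_isInternal hcop hM
  have hNi := Submodule.torsionBy_isInternal hcop hN
  let eM := LinearEquiv.ofBijective
    (DirectSum.coeLinearMap fun i : S => Submodule.torsionBy k[X] M (q i)) hMi
  let eN := LinearEquiv.ofBijective
    (DirectSum.coeLinearMap fun i : S => Submodule.torsionBy k[X] N (q i)) hNi
  choose e _ using fun i : S =>
    (nonempty_linearEquiv_torsionBy (M := M) (N := N) (q i) (hirr i i.2) (hrank i i.2)).elim
      (fun e => (⟨e, trivial⟩ : ∃ _ : Submodule.torsionBy k[X] M (q i) ≃ₗ[k[X]]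
        Submodule.torsionBy k[X] N (q i), True))
  exact ⟨eM.symm.trans ((DFinsupp.mapRange.linearEquiv e).trans eN)⟩

end PolyModule

/-! ### Part 2: endomorphisms of finite order of `ℚ`-vector spaces -/

section Endo

variable {k : Type*} [Field k] {V : Type*} [AddCommGroup V] [Module k V]

open scoped Function in
/-- `dim ker (∏ q_i)(γ) = ∑ dim ker q_i(γ)` for pairwise coprime `q_i`. -/
theorem finrank_ker_aeval_prod [FiniteDimensional k V] (γ : Module.End k V) {ι : Type*} [DecidableEq ι] (s : Finset ι)
    (q : ι → k[X]) (hcop : (s : Set ι).Pairwise (IsCoprime on q)) :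
    finrank k (LinearMap.ker (aeval γ (∏ i ∈ s, q i))) =
      ∑ i ∈ s, finrank k (LinearMap.ker (aeval γ (q i))) := by
  induction s using Finset.induction_on with
  | empty =>
    rw [Finset.prod_empty, Finset.sum_empty]
    have : LinearMap.ker (aeval γ (1 : k[X])) = ⊥ := by
      rw [map_one]
      exact LinearMap.ker_id
    rw [this, finrank_bot]
  | insert a s ha ih =>
    rw [Finset.prod_insert ha, Finset.sum_insert ha]
    have hcop' : (s : Set ι).Pairwise (IsCoprime on q) :=
      hcop.mono (by simp)
    have hc : IsCoprime (q a) (∏ i ∈ s, q i) := by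
      refine IsCoprime.prod_right fun i hi => ?_
      refine hcop (by simp) (by simp [hi]) ?_
      rintro rfl
      exact ha hi
    rw [← ih hcop', ← sup_ker_aeval_eq_ker_aeval_mul_of_coprime γ hc]
    have hd := disjoint_ker_aeval_of_isCoprime γ hc
    have := Submodule.finrank_sup_add_finrank_inf_eq (LinearMap.ker (aeval γ (q a)))
      (LinearMap.ker (aeval γ (∏ i ∈ s, q i)))
    rw [hd.eq_bot, finrank_bot, add_zero] at this
    exact this

/-- The `p`-torsion of `AEval' γ` is `ker p(γ)`. -/
theorem finrank_torsionBy_aeval (γ : Module.End k V) (p : k[X]) :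
    finrank k (Submodule.torsionBy k[X] (AEval' γ) p) = finrank k (LinearMap.ker (aeval γ p)) := by
  symm
  refine LinearEquiv.finrank_eq
    { toFun := fun x => ⟨AEval'.of γ x.1, ?_⟩
      invFun := fun y => ⟨(AEval'.of γ).symm y.1, ?_⟩
      map_add' := fun _ _ => rfl
      map_smul' := fun _ _ => rfl
      left_inv := fun _ => rfl
      right_inv := fun _ => rfl }
  · rw [Submodule.mem_torsionBy_iff, ← AEval.of_aeval_smul]
    have := x.2
    rw [LinearMap.mem_ker] at this
    change AEval'.of γ ((aeval γ p) x.1) = 0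
    rw [this, map_zero]
  · have := y.2
    rw [Submodule.mem_torsionBy_iff] at this
    rw [LinearMap.mem_ker]
    have h2 := congrArg (AEval'.of γ).symm this
    rw [AEval.of_symm_smul, map_zero] at h2
    exact h2
end Endo

section EndoQ

variable {V W : Type*} [AddCommGroup V] [AddCommGroup W] [Module ℚ V] [Module ℚ W]

/-- `dim ker (γ^e - 1) = ∑_{d ∣ e} dim ker Φ_d(γ)`. -/
theorem finrank_ker_pow_sub_one [FiniteDimensional ℚ V] (γ : Module.End ℚ V) {e : ℕ} (he : 0 < e) :
    finrank ℚ (LinearMap.ker (γ ^ e - 1)) =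
      ∑ d ∈ e.divisors, finrank ℚ (LinearMap.ker (aeval γ (cyclotomic d ℚ))) := by
  rw [← finrank_ker_aeval_prod γ e.divisors (fun d => cyclotomic d ℚ)
    (fun i _ j _ hij => cyclotomic.isCoprime_rat hij),
    prod_cyclotomic_eq_X_pow_sub_one he ℚ]
  have : aeval γ (X ^ e - 1 : ℚ[X]) = γ ^ e - 1 := by
    simp only [map_sub, map_pow, aeval_X, map_one]
  rw [this]

theorem isTorsionBy_aeval_of_pow_eq_one (γ : Module.End ℚ V) {n : ℕ} (hn : 0 < n)
    (hγ : γ ^ n = 1) :
    Module.IsTorsionBy ℚ[X] (AEval' γ) (∏ d ∈ n.divisors, cyclotomic d ℚ) := by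
  intro m
  rw [prod_cyclotomic_eq_X_pow_sub_one hn ℚ]
  apply (AEval'.of γ).symm.injective
  rw [AEval.of_symm_smul, map_zero]
  simp only [map_sub, map_pow, aeval_X, map_one, hγ, sub_self]
  rfl

/-- **Core of the rank trick over `ℚ`.** -/
theorem exists_equivariant_linearEquiv [FiniteDimensional ℚ V] [FiniteDimensional ℚ W] (γV : Module.End ℚ V) (γW : Module.End ℚ W) (n : ℕ)
    (hn : 0 < n) (hV : γV ^ n = 1) (hW : γW ^ n = 1)
    (hrank : ∀ e, e ∣ n → finrank ℚ (LinearMap.ker (γV ^ e - 1)) =
      finrank ℚ (LinearMap.ker (γW ^ e - 1))) :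
    ∃ φ : V ≃ₗ[ℚ] W, ∀ v, φ (γV v) = γW (φ v) := by
  classical
  -- equality of the cyclotomic multiplicities
  have key : ∀ e, e ∣ n → finrank ℚ (LinearMap.ker (aeval γV (cyclotomic e ℚ))) =
      finrank ℚ (LinearMap.ker (aeval γW (cyclotomic e ℚ))) := by
    intro e
    induction e using Nat.strong_induction_on with
    | _ e ih =>
      intro hen
      have he : 0 < e := Nat.pos_of_dvd_of_pos hen hn
      have h1 := hrank e hen
      rw [finrank_ker_pow_sub_one γV he, finrank_ker_pow_sub_one γW he,
        ← Nat.insert_self_properDivisors he.ne', Finset.sum_insert Nat.self_notMem_properDivisors,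
        Finset.sum_insert Nat.self_notMem_properDivisors] at h1
      have h2 : ∑ d ∈ e.properDivisors, finrank ℚ (LinearMap.ker (aeval γV (cyclotomic d ℚ))) =
          ∑ d ∈ e.properDivisors, finrank ℚ (LinearMap.ker (aeval γW (cyclotomic d ℚ))) := by
        refine Finset.sum_congr rfl fun d hd => ?_
        rw [Nat.mem_properDivisors] at hd
        exact ih d hd.2 (hd.1.trans hen)
      omega
  -- the `ℚ[X]`-modules
  obtain ⟨e⟩ := nonempty_linearEquiv_of_finrank_torsionBy_eq (k := ℚ) (M := AEval' γV)
    (N := AEval' γW) n.divisors (fun d => cyclotomic d ℚ)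
    (fun d hd => cyclotomic.irreducible_rat (Nat.pos_of_mem_divisors hd))
    (fun i _ j _ hij => cyclotomic.isCoprime_rat hij) (isTorsionBy_aeval_of_pow_eq_one γV hn hV) (isTorsionBy_aeval_of_pow_eq_one γW hn hW)
    (fun d hd => by
      rw [finrank_torsionBy_aeval, finrank_torsionBy_aeval]
      exact key d (Nat.dvd_of_mem_divisors hd))
  refine ⟨(AEval'.of γV).trans ((e.restrictScalars ℚ).trans (AEval'.of γW).symm), fun v => ?_⟩
  change (AEval'.of γW).symm (e (AEval'.of γV (γV v))) = γW ((AEval'.of γW).symm (e (AEval'.of γV v)))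
  have h1 : AEval'.of γV (γV v) = (X : ℚ[X]) • AEval'.of γV v := (AEval.X_smul_of γV v).symm
  rw [h1, map_smul, AEval.of_symm_X_smul]
  rfl

end EndoQ

end

end Fermat.Agent.GP.GW.E3.RankTrickB
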