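/-
GATE-P (S56) / [P-GW] E3-RANKTRICK (ROUTE-R hedge of helper74's GW-E3 GRAPH v1, board 4198/4232),
helper17, part 2: **the rank trick for finitely generated abelian groups.**

`A`, `B` finitely generated abelian groups with endomorphisms `a`, `b`, `a^n = 1 = b^n`, `B`
torsion-free, and `rank ker (a^e - 1) = rank ker (b^e - 1)` for every `e ∣ n`.  Then there is an
equivariant `f : A → B` with FINITE kernel and `m • B ⊆ range f` for some `m > 0` — exactly the
input of `GP/GW/E3/Unit.lean` (`phi_quo_of_finite_ker`, `phi_unit_addFun`, helper9).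

Proof: `RankTrickB.exists_equivariant_linearEquiv` (core over `ℚ`) on `ℚ ⊗ A`, `ℚ ⊗ B`
(`ker` commutes with the flat base change `ℤ → ℚ`), then clear denominators
(`RatIsoEmbed.exists_common_denominator`, helper9).
-/
import Mathlib
import Fermat.Agent.GP.GW.E3.RankTrickB
import Fermat.Agent.GP.GW.RatIsoEmbed
import Fermat.Agent.GP.GW.HerbrandRat

set_option autoImplicit false

namespace Fermat.Agent.GP.GW.E3.RankTrickZ

open TensorProduct Module Function Fermat.Agent.GP.GW.RatIsoEmbed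

/-- `ker` commutes with the base change `ℤ → ℚ`, on ranks. -/
theorem finrank_ker_baseChange {A : Type*} [AddCommGroup A] (g : A →ₗ[ℤ] A) :
    finrank ℚ (LinearMap.ker (LinearMap.baseChange ℚ g)) = finrank ℤ (LinearMap.ker g) := by
  have e := LinearMap.tensorKerEquiv ℚ ℚ g
  have h1 : finrank ℚ (LinearMap.ker (LinearMap.baseChange ℚ g)) =
      finrank ℚ (ℚ ⊗[ℤ] LinearMap.ker g) := (LinearEquiv.finrank_eq e).symm
  rw [h1]
  exact (TensorProduct.isBaseChange ℤ (LinearMap.ker g) ℚ).finrank_eq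

section Core

variable {Λ₁ Λ₂ V₁ V₂ : Type*} [AddCommGroup Λ₁] [AddCommGroup Λ₂]
  [AddCommGroup V₁] [Module ℚ V₁] [AddCommGroup V₂] [Module ℚ V₂]
  [AddGroup.FG Λ₁] [AddGroup.FG Λ₂] (ι₁ : Λ₁ →+ V₁) (ι₂ : Λ₂ →+ V₂)

/-- Variant of `RatIsoEmbed.exists_embedding_of_rat_iso` without injectivity of `ι₁`
(`Λ₁` may have torsion): the kernel of `f` is the kernel of `ι₁`. -/
theorem exists_map_of_rat_iso (hι₂ : Injective ι₂)
    (hspan₁ : ∀ v : V₁, ∃ n : ℕ, 0 < n ∧ n • v ∈ ι₁.range)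
    (hspan₂ : ∀ v : V₂, ∃ n : ℕ, 0 < n ∧ n • v ∈ ι₂.range)
    (e : V₁ ≃ₗ[ℚ] V₂) :
    ∃ (f : Λ₁ →+ Λ₂) (d m : ℕ), 0 < d ∧ 0 < m ∧ (∀ x, f x = 0 ↔ ι₁ x = 0) ∧
      (∀ x, ι₂ (f x) = d • e (ι₁ x)) ∧ (∀ y : Λ₂, ∃ x, f x = m • y) := by
  classical
  obtain ⟨d, hd0, hd⟩ := exists_common_denominator
    ((e : V₁ →ₗ[ℚ] V₂).toAddMonoidHom.comp ι₁) ι₂.range hspan₂
  obtain ⟨d', hd'0, hd'⟩ := exists_common_denominator
    ((e.symm : V₂ →ₗ[ℚ] V₁).toAddMonoidHom.comp ι₂) ι₁.range hspan₁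
  choose f hf using hd
  have hf' : ∀ x, ι₂ (f x) = d • e (ι₁ x) := hf
  choose b hb using hd'
  have hb' : ∀ y, ι₁ (b y) = d' • e.symm (ι₂ y) := hb
  have hdQ : (d : ℚ) ≠ 0 := by exact_mod_cast hd0.ne'
  let F : Λ₁ →+ Λ₂ :=
    { toFun := f
      map_zero' := hι₂ (by rw [hf', map_zero, map_zero, map_zero, smul_zero])
      map_add' := fun x y => hι₂ (by
        rw [map_add, hf', hf', hf', map_add, map_add, smul_add]) }
  refine ⟨F, d, d * d', hd0, Nat.mul_pos hd0 hd'0, fun x => ⟨fun hx => ?_, fun hx => ?_⟩, hf', ?_⟩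
  · have h0 : d • e (ι₁ x) = 0 := by
      rw [← hf']
      show ι₂ (F x) = 0
      rw [hx, map_zero]
    rw [← Nat.cast_smul_eq_nsmul ℚ, smul_eq_zero] at h0
    rcases h0 with h0 | h0
    · exact absurd h0 hdQ
    · exact e.map_eq_zero_iff.1 h0
  · apply hι₂
    show ι₂ (f x) = ι₂ 0
    rw [hf', hx, map_zero, smul_zero, map_zero]
  · intro y
    refine ⟨b y, hι₂ ?_⟩
    show ι₂ (f (b y)) = _
    rw [hf', hb', map_nsmul, e.apply_symm_apply, map_nsmul, mul_smul]

end Core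

/-- `1 ⊗ x = 0` in `ℚ ⊗ Λ` iff `x` is torsion. -/
theorem toRat_eq_zero_iff {Λ : Type*} [AddCommGroup Λ] (x : Λ) :
    toRat Λ x = 0 ↔ ∃ n : ℕ, 0 < n ∧ n • x = 0 := by
  constructor
  · intro hx
    have hx' : (TensorProduct.mk ℤ ℚ Λ 1) x = 0 := hx
    obtain ⟨⟨a, ha⟩, h0⟩ := (IsLocalizedModule.eq_zero_iff (nonZeroDivisors ℤ)
      (TensorProduct.mk ℤ ℚ Λ 1)).1 hx'
    have ha0 : a ≠ 0 := nonZeroDivisors.ne_zero ha
    have h0' : a • x = 0 := h0
    refine ⟨a.natAbs, Int.natAbs_pos.2 ha0, ?_⟩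
    rcases natAbs_nsmul_eq a x with h | h
    · rw [h, h0']
    · rw [h, h0', neg_zero]
  · rintro ⟨n, hn, hx⟩
    have h1 : (n : ℚ) • toRat Λ x = 0 := by
      rw [Nat.cast_smul_eq_nsmul, ← map_nsmul, hx, map_zero]
    rcases smul_eq_zero.1 h1 with h | h
    · exact absurd h (by exact_mod_cast hn.ne')
    · exact h

/-- A finitely generated abelian group all of whose elements are torsion is finite. -/
theorem finite_of_fg_of_forall_torsion {K : Type*} [AddCommGroup K] [AddGroup.FG K]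
    (h : ∀ x : K, ∃ n : ℕ, 0 < n ∧ n • x = 0) : Finite K := by
  apply AddCommGroup.finite_of_fg_isAddTorsion
  intro x
  obtain ⟨n, hn, hx⟩ := h x
  exact isOfFinAddOrder_iff_nsmul_eq_zero.2 ⟨n, hn, hx⟩

/-- **The rank trick** (helper74 4198 (S2)).  Finitely generated abelian groups `A`, `B` with
endomorphisms `a`, `b` of order dividing `n`, `B` torsion-free, with equal ranks of
`ker (a^e - 1)` and `ker (b^e - 1)` for all `e ∣ n`: there is an equivariant `f : A → B` with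
finite kernel and `m • B ⊆ range f`. -/
theorem exists_equivariant_map {A B : Type*} [AddCommGroup A] [AddCommGroup B]
    [AddGroup.FG A] [AddGroup.FG B]
    (htfB : ∀ (n : ℕ) (y : B), 0 < n → n • y = 0 → y = 0)
    (a : Module.End ℤ A) (b : Module.End ℤ B) (n : ℕ) (hn : 0 < n)
    (ha : a ^ n = 1) (hb : b ^ n = 1)
    (hrank : ∀ e, e ∣ n → finrank ℤ (LinearMap.ker (a ^ e - 1)) =
      finrank ℤ (LinearMap.ker (b ^ e - 1))) :
    ∃ (f : A →ₗ[ℤ] B) (m : ℕ), 0 < m ∧ Finite (LinearMap.ker f) ∧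
      (∀ x, f (a x) = b (f x)) ∧ ∀ y : B, ∃ x, f x = m • y := by
  have : Module.Finite ℤ A := Module.Finite.iff_addGroup_fg.2 inferInstance
  have : Module.Finite ℤ B := Module.Finite.iff_addGroup_fg.2 inferInstance
  -- the rational endomorphisms
  set γA : Module.End ℚ (ℚ ⊗[ℤ] A) := Module.End.baseChangeHom ℤ ℚ A a with hγA
  set γB : Module.End ℚ (ℚ ⊗[ℤ] B) := Module.End.baseChangeHom ℤ ℚ B b with hγB
  have hA : γA ^ n = 1 := by rw [hγA, ← map_pow, ha, map_one]
  have hB : γB ^ n = 1 := by rw [hγB, ← map_pow, hb, map_one]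
  have hkerA : ∀ e : ℕ, finrank ℚ (LinearMap.ker (γA ^ e - 1)) =
      finrank ℤ (LinearMap.ker (a ^ e - 1)) := by
    intro e
    have : γA ^ e - 1 = LinearMap.baseChange ℚ (a ^ e - 1) := by
      rw [hγA, ← map_pow, ← map_one (Module.End.baseChangeHom ℤ ℚ A), ← map_sub]
      rfl
    rw [this]
    exact finrank_ker_baseChange _
  have hkerB : ∀ e : ℕ, finrank ℚ (LinearMap.ker (γB ^ e - 1)) =
      finrank ℤ (LinearMap.ker (b ^ e - 1)) := by
    intro e
    have : γB ^ e - 1 = LinearMap.baseChange ℚ (b ^ e - 1) := by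
      rw [hγB, ← map_pow, ← map_one (Module.End.baseChangeHom ℤ ℚ B), ← map_sub]
      rfl
    rw [this]
    exact finrank_ker_baseChange _
  obtain ⟨φ, hφ⟩ := RankTrickB.exists_equivariant_linearEquiv γA γB n hn hA hB
    (fun e he => by rw [hkerA, hkerB]; exact hrank e he)
  -- clear denominators
  have hinjB : Injective (toRat B) := toRat_injective htfB
  obtain ⟨f, d, m, hd, hm, hker, hf, hsurj⟩ :=
    exists_map_of_rat_iso (toRat A) (toRat B) hinjB toRat_span toRat_span φ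
  refine ⟨f.toIntLinearMap, m, hm, ?_, fun x => ?_, hsurj⟩
  · -- the kernel is the torsion subgroup of `A`
    have : AddGroup.FG (LinearMap.ker f.toIntLinearMap) :=
      Fermat.Agent.GP.GW.HerbrandAdd.fg_submodule (R := ℤ) _
    apply finite_of_fg_of_forall_torsion
    rintro ⟨x, hx⟩
    have hx' : f x = 0 := hx
    obtain ⟨k, hk, hkx⟩ := (toRat_eq_zero_iff x).1 ((hker x).1 hx')
    exact ⟨k, hk, Subtype.ext hkx⟩
  · exact map_comm_of_formula (toRat A) (toRat B) hinjB φ hf a b.toAddMonoidHom γA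
      γB.toAddMonoidHom (fun x => rfl) (fun y => rfl) hφ x

/-- **The rank trick, `ℤ[X]`-linear form**: `A`, `B` as `ℤ[X]`-modules through `a`, `b`
(`Module.AEval'`); output in the input shape of `Unit.phi_quo_of_finite_ker` with `R := ℤ[X]`. -/
theorem exists_linearMap_aeval {A B : Type*} [AddCommGroup A] [AddCommGroup B]
    [AddGroup.FG A] [AddGroup.FG B]
    (htfB : ∀ (n : ℕ) (y : B), 0 < n → n • y = 0 → y = 0)
    (a : Module.End ℤ A) (b : Module.End ℤ B) (n : ℕ) (hn : 0 < n)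
    (ha : a ^ n = 1) (hb : b ^ n = 1)
    (hrank : ∀ e, e ∣ n → finrank ℤ (LinearMap.ker (a ^ e - 1)) =
      finrank ℤ (LinearMap.ker (b ^ e - 1))) :
    ∃ (F : AEval' a →ₗ[Polynomial ℤ] AEval' b) (m : ℕ), 0 < m ∧ Finite (LinearMap.ker F) ∧
      ∀ y : AEval' b, ∃ x, F x = m • y := by
  obtain ⟨f, m, hm, hfin, hcomm, hsurj⟩ := exists_equivariant_map htfB a b n hn ha hb hrank
  let f' : A →ₗ[ℤ] AEval' b := (AEval'.of b).toLinearMap ∘ₗ f
  have hf' : ∀ x : A, f' (a • x) = (Polynomial.X : Polynomial ℤ) • f' x := by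
    intro x
    show AEval'.of b (f (a x)) = (Polynomial.X : Polynomial ℤ) • AEval'.of b (f x)
    rw [hcomm, AEval.X_smul_of]
    rfl
  refine ⟨LinearMap.ofAEval a f' hf', m, hm, ?_, fun y => ?_⟩
  · have hinj : Injective fun x : LinearMap.ker (LinearMap.ofAEval a f' hf') =>
        (⟨(AEval'.of a).symm x.1, by
          have := x.2
          rw [LinearMap.mem_ker] at this ⊢
          exact (AEval'.of b).injective (by rw [map_zero]; exact this)⟩ : LinearMap.ker f) := by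
      intro x y hxy
      apply Subtype.ext
      exact (AEval'.of a).symm.injective (congrArg Subtype.val hxy)
    exact Finite.of_injective _ hinj
  · obtain ⟨x, hx⟩ := hsurj ((AEval'.of b).symm y)
    refine ⟨AEval'.of a x, ?_⟩
    show AEval'.of b (f x) = m • y
    rw [hx, map_nsmul, LinearEquiv.apply_symm_apply]

end Fermat.Agent.GP.GW.E3.RankTrickZ
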