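/-
GATE-P / S56 [P-GW] node E3-UNIT of helper74's GW-E3 GRAPH v1 (helper9).

**The unit count for additive functions.**  `R` any ring (`ℤ[x]/(xⁿ - 1)`, `ℤ[C]`, …), `p > 0`,
`φ` an additive function on finite `p`-killed `R`-modules (`LatticeRed.IsAddFun`, or
`HerbrandAdd.AddFun`).  Let `U`, `N`, `P` be `R`-modules, finitely generated as abelian groups,
`N` and `P` without `p`-torsion, and `f : U × N →ₗ[R] P` with FINITE KERNEL and `m • P ⊆ range f`
for some `m > 0` (this is exactly the output of the RANK TRICK for `A = U × N`, `B = P`).  Then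
  `φ (U/p) + φ (N/p) = φ (U[p]) + φ (P/p)`.
With `U = 𝓞_{F,S}ˣ`, `N = ℤ`, `P = ℤ[places of F over S ∪ ∞]`:
  `φ (𝓞_Sˣ/p) + φ (𝔽_p) = φ (μ_p) + φ (𝔽_p[places])`      — (S2) of the graph.
Proof: Herbrand additivity `q = φ(·/p) - φ(·[p])` (`HerbrandAdd`): `q (U × N) = q (ker f) + q (range f)
= 0 + q P` (finite kernel, finite index), `q (U × N) = q U + q N`.
-/
import Fermat.Agent.GP.GW.LatticeRed
import Fermat.Agent.GP.GW.TorsionQuot
import Fermat.Agent.GP.GW.HerbrandAdd
import Fermat.Agent.GP.GW.HerbrandRat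

set_option autoImplicit false

namespace Fermat.Agent.GP.GW.E3.Unit

open Function Fermat.Agent.GP.GW.LatticeRed Fermat.Agent.GP.GW.TorsionQuot
  Fermat.Agent.GP.GW.HerbrandAdd

universe u v w

variable {R : Type v} [Ring R] {p : ℕ} {Z : Type w} [AddCommGroup Z]

/-! ### the count in the `HerbrandAdd.AddFun` currency -/

section AddFunForm

variable (Φ : AddFun.{u} R p Z)

/-- single-module form: `f : A → P` with finite kernel and `m • P ⊆ range f`, `P` without
`p`-torsion: `φ (A/p) = φ (A[p]) + φ (P/p)`. -/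
theorem phi_quo_of_finite_ker (hp : 0 < p) {A P : Type u} [AddCommGroup A] [Module R A]
    [AddCommGroup P] [Module R P] [AddGroup.FG A] [AddGroup.FG P]
    (htfP : ∀ x : P, p • x = 0 → x = 0)
    (f : A →ₗ[R] P) (hker : Finite (LinearMap.ker f)) (m : ℕ) (hm : 0 < m)
    (h : ∀ y : P, ∃ x, f x = m • y) :
    Φ.φ (quo (R := R) p A) = Φ.φ (tors (R := R) p A) + Φ.φ (quo (R := R) p P) := by
  have hK : HQFin R p (LinearMap.ker f) := HQFin.of_finite
  have := fg_submodule (LinearMap.range f)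
  have hW : HQFin R p (LinearMap.range f) := HQFin.of_fg hp
  have hex : Exact (LinearMap.ker f).subtype f.rangeRestrict := by
    intro x
    constructor
    · intro hx
      exact ⟨⟨x, congrArg Subtype.val hx⟩, rfl⟩
    · rintro ⟨y, rfl⟩
      exact Subtype.ext y.2
  have h1 := Φ.q_add hK hW (f := (LinearMap.ker f).subtype) (g := f.rangeRestrict)
    (Submodule.injective_subtype _) f.surjective_rangeRestrict hex
  rw [Φ.q_finite (A := LinearMap.ker f), zero_add] at h1
  have : Finite (P ⧸ LinearMap.range f) :=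
    finite_quotient_of_nsmul_mem _ m hm fun y => by
      obtain ⟨x, hx⟩ := h y
      exact ⟨x, hx⟩
  have h2 := Φ.q_of_finite_quotient (LinearMap.range f) hW
  rw [Φ.q_torsionFree htfP] at h2
  have hq : Φ.q A = Φ.φ (quo (R := R) p A) - Φ.φ (tors (R := R) p A) := rfl
  rw [hq, ← h2] at h1
  rw [← h1]
  abel

/-- **E3-UNIT**, `AddFun` currency. -/
theorem phi_unit_addFun (hp : 0 < p) {U N P : Type u} [AddCommGroup U] [Module R U]
    [AddCommGroup N] [Module R N] [AddCommGroup P] [Module R P]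
    [AddGroup.FG U] [AddGroup.FG N] [AddGroup.FG P]
    (htfN : ∀ x : N, p • x = 0 → x = 0) (htfP : ∀ x : P, p • x = 0 → x = 0)
    (f : (U × N) →ₗ[R] P) (hker : Finite (LinearMap.ker f)) (m : ℕ) (hm : 0 < m)
    (h : ∀ y : P, ∃ x, f x = m • y) :
    Φ.φ (quo (R := R) p U) + Φ.φ (quo (R := R) p N) =
      Φ.φ (tors (R := R) p U) + Φ.φ (quo (R := R) p P) := by
  have hA : AddGroup.FG (U × N) := inferInstance
  have hU : HQFin R p U := HQFin.of_fg hp
  have hN : HQFin R p N := HQFin.of_fg hp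
  have hAq : HQFin R p (U × N) := HQFin.of_fg hp
  have h1 := phi_quo_of_finite_ker Φ hp htfP f hker m hm h
  obtain ⟨-, hprod⟩ := Φ.q_prod hU hN
  rw [Φ.q_torsionFree htfN] at hprod
  have hq : Φ.q (U × N) =
      Φ.φ (quo (R := R) p (U × N)) - Φ.φ (tors (R := R) p (U × N)) := rfl
  have hqU : Φ.q U = Φ.φ (quo (R := R) p U) - Φ.φ (tors (R := R) p U) := rfl
  rw [hq, h1, hqU] at hprod
  -- hprod : φ(tors (U×N)) + φ(quo P) - φ(tors (U×N)) = φ(quo U) - φ(tors U) + φ(quo N)
  have : Φ.φ (quo (R := R) p P) =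
      Φ.φ (quo (R := R) p U) - Φ.φ (tors (R := R) p U) + Φ.φ (quo (R := R) p N) := by
    rw [← hprod]
    abel
  rw [this]
  abel

end AddFunForm

/-! ### bridges `LatticeRed.IsAddFun` ⟶ `HerbrandAdd.AddFun`, `quo ≃ Red`, `tors = pTors` -/

section Bridge

variable {φ : ∀ (A : Type u) [AddCommGroup A] [Module R A], Z}

/-- an `IsAddFun` is an `AddFun` -/
def addFunOfIsAddFun (hφ : IsAddFun (R := R) p φ) : AddFun.{u} R p Z where
  φ := φ
  iso _ e := hφ.iso _ _ e
  add {M} _ _ hfin hk W :=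
    hφ.add W M (M ⧸ W) W.subtype W.mkQ (Submodule.injective_subtype _)
      (Submodule.mkQ_surjective _) (LinearMap.exact_subtype_mkQ _) hfin hk

@[simp] theorem addFunOfIsAddFun_phi (hφ : IsAddFun (R := R) p φ) (A : Type u) [AddCommGroup A]
    [Module R A] : (addFunOfIsAddFun hφ).φ A = φ A := rfl

theorem pRange_eq_pSub (A : Type u) [AddCommGroup A] [Module R A] :
    pRange (R := R) p A = pSub (R := R) p A := by
  ext x
  rw [mem_pRange, mem_pSub]

theorem tors_eq_pTors (A : Type u) [AddCommGroup A] [Module R A] :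
    HerbrandAdd.tors (R := R) p A = pTors (R := R) p A := by
  ext x
  rw [HerbrandAdd.mem_tors, mem_pTors]

/-- `A ⧸ pRange = A ⧸ pSub` -/
def quoEquivRed (A : Type u) [AddCommGroup A] [Module R A] :
    quo (R := R) p A ≃ₗ[R] Red (R := R) p A :=
  Submodule.quotEquivOfEq _ _ (pRange_eq_pSub A)

/-- `tors ≃ pTors` -/
def torsEquivPTors (A : Type u) [AddCommGroup A] [Module R A] :
    HerbrandAdd.tors (R := R) p A ≃ₗ[R] pTors (R := R) p A :=
  LinearEquiv.ofEq _ _ (tors_eq_pTors A)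

theorem phi_quo_eq_phi_red (hφ : IsAddFun (R := R) p φ) (A : Type u) [AddCommGroup A]
    [Module R A] : φ (quo (R := R) p A) = φ (Red (R := R) p A) :=
  hφ.iso _ _ (quoEquivRed A)

theorem phi_tors_eq_phi_pTors (hφ : IsAddFun (R := R) p φ) (A : Type u) [AddCommGroup A]
    [Module R A] : φ (HerbrandAdd.tors (R := R) p A) = φ (pTors (R := R) p A) :=
  hφ.iso _ _ (torsEquivPTors A)

end Bridge

/-! ### E3-UNIT in the `IsAddFun / Red / pTors` currency -/

section Main

variable {φ : ∀ (A : Type u) [AddCommGroup A] [Module R A], Z}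

/-- single-module form -/
theorem phi_red_of_finite_ker (hφ : IsAddFun (R := R) p φ) (hp : 0 < p)
    {A P : Type u} [AddCommGroup A] [Module R A] [AddCommGroup P] [Module R P]
    [AddGroup.FG A] [AddGroup.FG P] (htfP : ∀ x : P, p • x = 0 → x = 0)
    (f : A →ₗ[R] P) (hker : Finite (LinearMap.ker f)) (m : ℕ) (hm : 0 < m)
    (h : ∀ y : P, ∃ x, f x = m • y) :
    φ (Red (R := R) p A) = φ (pTors (R := R) p A) + φ (Red (R := R) p P) := by
  have := phi_quo_of_finite_ker (addFunOfIsAddFun hφ) hp htfP f hker m hm h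
  simp only [addFunOfIsAddFun_phi] at this
  rw [← phi_quo_eq_phi_red hφ, ← phi_quo_eq_phi_red hφ, ← phi_tors_eq_phi_pTors hφ]
  exact this

/-- **E3-UNIT** (`(S2)` of helper74's GW-E3 GRAPH v1): from the RANK TRICK output
`f : U × N →ₗ[R] P` (finite kernel, `m • P ⊆ range f`):
`φ (U/p) + φ (N/p) = φ (U[p]) + φ (P/p)` for every additive `φ`. -/
theorem phi_unit (hφ : IsAddFun (R := R) p φ) (hp : 0 < p)
    {U N P : Type u} [AddCommGroup U] [Module R U] [AddCommGroup N] [Module R N]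
    [AddCommGroup P] [Module R P] [AddGroup.FG U] [AddGroup.FG N] [AddGroup.FG P]
    (htfN : ∀ x : N, p • x = 0 → x = 0) (htfP : ∀ x : P, p • x = 0 → x = 0)
    (f : (U × N) →ₗ[R] P) (hker : Finite (LinearMap.ker f)) (m : ℕ) (hm : 0 < m)
    (h : ∀ y : P, ∃ x, f x = m • y) :
    φ (Red (R := R) p U) + φ (Red (R := R) p N) =
      φ (pTors (R := R) p U) + φ (Red (R := R) p P) := by
  have := phi_unit_addFun (addFunOfIsAddFun hφ) hp htfN htfP f hker m hm h
  simp only [addFunOfIsAddFun_phi] at this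
  rw [← phi_quo_eq_phi_red hφ, ← phi_quo_eq_phi_red hφ, ← phi_quo_eq_phi_red hφ,
    ← phi_tors_eq_phi_pTors hφ]
  exact this

/-- the same with `U`'s torsion named: `T ≤ U` finite with `U/T` without `p`-torsion, so that
`U[p] = T[p]` (`T = μ(F)`, `T[p] = μ_p`). -/
theorem phi_unit_torsion (hφ : IsAddFun (R := R) p φ) (hp : 0 < p)
    {U N P : Type u} [AddCommGroup U] [Module R U] [AddCommGroup N] [Module R N]
    [AddCommGroup P] [Module R P] [AddGroup.FG U] [AddGroup.FG N] [AddGroup.FG P]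
    (T : Submodule R U) [Finite T] (htfT : ∀ x : U ⧸ T, p • x = 0 → x = 0)
    (htfN : ∀ x : N, p • x = 0 → x = 0) (htfP : ∀ x : P, p • x = 0 → x = 0)
    (f : (U × N) →ₗ[R] P) (hker : Finite (LinearMap.ker f)) (m : ℕ) (hm : 0 < m)
    (h : ∀ y : P, ∃ x, f x = m • y) :
    φ (Red (R := R) p U) + φ (Red (R := R) p N) =
      φ (pTors (R := R) p T) + φ (Red (R := R) p P) := by
  rw [phi_unit hφ hp htfN htfP f hker m hm h]
  congr 1
  -- `U[p] ≅ T[p]`
  have hbij : Bijective (torsMap (R := R) p T.subtype) := by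
    refine ⟨torsMap_injective p (Submodule.injective_subtype _), ?_⟩
    intro x
    have hx : (x : U) ∈ T := by
      rw [← Submodule.Quotient.mk_eq_zero]
      apply htfT
      rw [← Submodule.Quotient.mk_smul, (HerbrandAdd.mem_tors p).1 x.2,
        Submodule.Quotient.mk_zero]
    refine ⟨⟨⟨x, hx⟩, ?_⟩, Subtype.ext rfl⟩
    rw [HerbrandAdd.mem_tors]
    apply Subtype.ext
    rw [Submodule.coe_smul_of_tower]
    exact (HerbrandAdd.mem_tors p).1 x.2
  rw [← phi_tors_eq_phi_pTors hφ, ← phi_tors_eq_phi_pTors hφ]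
  exact (hφ.iso _ _ (LinearEquiv.ofBijective _ hbij)).symm

end Main

end Fermat.Agent.GP.GW.E3.Unit
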