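/-
GATE-P (S56) / [P-GW] ROUTE-R plug (helper17): **rank trick ∘ E3-UNIT.**
`RankTrickZ.exists_linearMap_aeval` (helper17) composed with `Unit.phi_quo_of_finite_ker` (helper9):
for every additive function `Φ` on finite `p`-killed `ℤ[X]`-modules, and finitely generated abelian
groups `A`, `B` with endomorphisms `a`, `b` of order dividing `n`, `B` torsion-free, with equal ranks
of `ker (a^e - 1)` and `ker (b^e - 1)` for all `e ∣ n`:
  `Φ (A/p) = Φ (A[p]) + Φ (B/p)`   (`A`, `B` as `ℤ[X]`-modules through `a`, `b`).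
-/
import Mathlib
import Fermat.Agent.GP.GW.E3.RankTrickZ
import Fermat.Agent.GP.GW.E3.Unit

set_option autoImplicit false

namespace Fermat.Agent.GP.GW.E3.RankTrickUnit

open Module Fermat.Agent.GP.GW.E3 Fermat.Agent.GP.GW.HerbrandAdd

universe u w

theorem phi_quo_of_ranks {p : ℕ} {Z : Type w} [AddCommGroup Z]
    (Φ : AddFun.{u} (Polynomial ℤ) p Z) (hp : 0 < p)
    {A B : Type u} [AddCommGroup A] [AddCommGroup B] [AddGroup.FG A] [AddGroup.FG B]
    (htfB : ∀ (n : ℕ) (y : B), 0 < n → n • y = 0 → y = 0)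
    (a : Module.End ℤ A) (b : Module.End ℤ B) (n : ℕ) (hn : 0 < n)
    (ha : a ^ n = 1) (hb : b ^ n = 1)
    (hrank : ∀ e, e ∣ n → finrank ℤ (LinearMap.ker (a ^ e - 1)) =
      finrank ℤ (LinearMap.ker (b ^ e - 1))) :
    Φ.φ (quo (R := Polynomial ℤ) p (AEval' a)) =
      Φ.φ (tors (R := Polynomial ℤ) p (AEval' a)) +
        Φ.φ (quo (R := Polynomial ℤ) p (AEval' b)) := by
  obtain ⟨F, m, hm, hfin, hsurj⟩ := RankTrickZ.exists_linearMap_aeval htfB a b n hn ha hb hrank
  have : AddGroup.FG (AEval' a) := inferInstanceAs (AddGroup.FG A)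
  have : AddGroup.FG (AEval' b) := inferInstanceAs (AddGroup.FG B)
  exact Unit.phi_quo_of_finite_ker Φ hp (fun x hx => htfB p x hp hx) F hfin m hm hsurj

end Fermat.Agent.GP.GW.E3.RankTrickUnit
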