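/-
GATE-P (S56) / [P-GW] / E3-RANKS, archimedean part (helper74).

For a number field `K ⊂ ℚ̄` the double cosets `⟨c⟩ \ G_ℚ / G_K` (`c` = the Prelude's complex
conjugation) are in bijection with the infinite places of `K`:
`s ↦` the place of `K → ℚ̄ --s--> ℚ̄ → ℂ`.  Mathlib + Prelude only.
-/
import Mathlib
import Fermat.Prelude.Def_GaloisRep_ComplexConjugation

set_option autoImplicit false

open NumberField

noncomputable section

namespace Fermat.Agent.GP.GW.E3.RanksArch

local notation "Qb" => AlgebraicClosure ℚ
local notation "GQ" => (AlgebraicClosure ℚ ≃ₐ[ℚ] AlgebraicClosure ℚ)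

local instance isAlgebraicQbar_ra : Algebra.IsAlgebraic ℚ (AlgebraicClosure ℚ) :=
  AlgebraicClosure.isAlgebraic ℚ
local instance isAlgClosureQbar_ra : IsAlgClosure ℚ (AlgebraicClosure ℚ) :=
  ⟨inferInstance, inferInstance⟩
local instance normalQbar_ra : Normal ℚ (AlgebraicClosure ℚ) :=
  IsAlgClosure.normal ℚ (AlgebraicClosure ℚ)
local instance isGaloisQbar_ra : IsGalois ℚ (AlgebraicClosure ℚ) := ⟨⟩

variable (K : IntermediateField ℚ Qb)

/-- the complex embedding of `K` attached to `s ∈ G_ℚ` -/
def embOf (s : GQ) : K →+* ℂ :=
  (complexEmbedding : Qb →+* ℂ).comp (((s : Qb ≃ₐ[ℚ] Qb) : Qb →+* Qb).comp (algebraMap K Qb))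

lemma embOf_apply (s : GQ) (x : K) : embOf K s x = complexEmbedding (s (x : Qb)) := rfl

lemma embOf_eq_iff (s s' : GQ) : embOf K s = embOf K s' ↔ s⁻¹ * s' ∈ K.fixingSubgroup := by
  rw [IntermediateField.mem_fixingSubgroup_iff]
  constructor
  · intro h x hx
    have h1 := congrArg (fun φ : K →+* ℂ => φ ⟨x, hx⟩) h
    simp only [embOf_apply] at h1
    have h2 : s x = s' x := (complexEmbedding : Qb →+* ℂ).injective h1
    show (s⁻¹ * s') x = x
    rw [AlgEquiv.mul_apply, ← h2]
    exact s.symm_apply_apply x
  · intro h
    ext x
    rw [embOf_apply, embOf_apply]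
    have h1 := h (x : Qb) x.2
    have h2 : (s⁻¹ * s') (x : Qb) = s.symm (s' (x : Qb)) := rfl
    rw [h2] at h1
    have h3 : s (x : Qb) = s' (x : Qb) := by
      conv_lhs => rw [← h1]
      exact s.apply_symm_apply _
    rw [h3]

/-- the induced map on cosets -/
def embQuot : GQ ⧸ K.fixingSubgroup → (K →+* ℂ) :=
  Quotient.lift (embOf K) (by
    intro a b hab
    rw [embOf_eq_iff]
    exact QuotientGroup.leftRel_apply.1 hab)

lemma embQuot_mk (s : GQ) : embQuot K (QuotientGroup.mk s) = embOf K s := rfl

lemma embQuot_injective : Function.Injective (embQuot K) := by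
  intro a b
  induction a using QuotientGroup.induction_on with
  | H s =>
    induction b using QuotientGroup.induction_on with
    | H s' =>
      intro h
      rw [embQuot_mk, embQuot_mk, embOf_eq_iff] at h
      exact QuotientGroup.eq.2 h

variable [FiniteDimensional ℚ K]

lemma embOf_surjective : Function.Surjective (embOf K) := by
  have : NumberField K := ⟨⟩
  have hcard : Nat.card (K →+* ℂ) ≤ Nat.card (GQ ⧸ K.fixingSubgroup) := by
    rw [Nat.card_eq_fintype_card, NumberField.Embeddings.card K ℂ]
    have h1 : Nat.card (GQ ⧸ K.fixingSubgroup) = K.fixingSubgroup.index := rfl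
    rw [h1, ← IntermediateField.finrank_eq_fixingSubgroup_index]
  have hb := (embQuot_injective K).bijective_of_nat_card_le hcard
  intro φ
  obtain ⟨a, ha⟩ := hb.2 φ
  induction a using QuotientGroup.induction_on with
  | H s => exact ⟨s, ha⟩

omit [FiniteDimensional ℚ K] in
lemma embOf_conj (s : GQ) :
    embOf K (complexConjugation * s) = (starRingEnd ℂ).comp (embOf K s) := by
  ext x
  rw [RingHom.comp_apply, embOf_apply, embOf_apply, AlgEquiv.mul_apply,
    complexEmbedding_complexConjugation]

/-- the infinite place of `K` attached to `s` -/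
def placeOf (s : GQ) : InfinitePlace K := InfinitePlace.mk (embOf K s)

lemma placeOf_surjective : Function.Surjective (placeOf K) := by
  intro w
  obtain ⟨s, hs⟩ := embOf_surjective K w.embedding
  exact ⟨s, by rw [placeOf, hs, InfinitePlace.mk_embedding]⟩

lemma mem_zpowers_conj (h : GQ) :
    h ∈ Subgroup.zpowers complexConjugation ↔ h = 1 ∨ h = complexConjugation := by
  constructor
  · rintro ⟨n, rfl⟩
    dsimp only
    rcases Int.even_or_odd n with ⟨m, rfl⟩ | ⟨m, rfl⟩
    · left
      rw [← two_mul, zpow_mul, zpow_ofNat, complexConjugation_sq, one_zpow]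
    · right
      rw [zpow_add, zpow_mul, zpow_ofNat, complexConjugation_sq, one_zpow, one_mul, zpow_one]
  · rintro (rfl | rfl)
    · exact Subgroup.one_mem _
    · exact Subgroup.mem_zpowers _

omit [FiniteDimensional ℚ K] in
lemma placeOf_eq_iff (s s' : GQ) :
    placeOf K s = placeOf K s' ↔
      DoubleCoset.mk (Subgroup.zpowers complexConjugation) K.fixingSubgroup s =
        DoubleCoset.mk (Subgroup.zpowers complexConjugation) K.fixingSubgroup s' := by
  rw [placeOf, placeOf, InfinitePlace.mk_eq_iff, DoubleCoset.eq]
  constructor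
  · rintro (h | h)
    · have h1 := (embOf_eq_iff K s s').1 h
      exact ⟨1, Subgroup.one_mem _, s⁻¹ * s', h1, by group⟩
    · have h2 : embOf K (complexConjugation * s) = embOf K s' := by
        rw [embOf_conj]
        ext x
        have := congrArg (fun φ : K →+* ℂ => φ x) h
        simpa [ComplexEmbedding.conjugate_coe_eq] using this
      have h1 := (embOf_eq_iff K _ s').1 h2
      exact ⟨complexConjugation, Subgroup.mem_zpowers _, (complexConjugation * s)⁻¹ * s', h1,
        by group⟩
  · rintro ⟨h, hh, k, hk, rfl⟩
    rcases (mem_zpowers_conj h).1 hh with rfl | rfl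
    · left
      rw [embOf_eq_iff]
      have : s⁻¹ * (1 * s * k) = k := by group
      rw [this]
      exact hk
    · right
      have h2 : embOf K (complexConjugation * s) = embOf K (complexConjugation * s * k) := by
        rw [embOf_eq_iff]
        have : (complexConjugation * s)⁻¹ * (complexConjugation * s * k) = k := by group
        rw [this]
        exact hk
      rw [← h2, embOf_conj]
      ext x
      simp [ComplexEmbedding.conjugate_coe_eq]

/-- `⟨c⟩ \ G_ℚ / G_K ≃` the infinite places of `K`. -/
def dcEquivPlaces :
    DoubleCoset.Quotient (Subgroup.zpowers complexConjugation : Set GQ)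
      (K.fixingSubgroup : Set GQ) ≃ InfinitePlace K :=
  Equiv.ofBijective
    (Quotient.lift (placeOf K) (by
      intro a b hab
      rw [placeOf_eq_iff]
      exact Quotient.sound hab))
    (by
      constructor
      · intro a b
        induction a using Quotient.inductionOn with
        | h s =>
          induction b using Quotient.inductionOn with
          | h s' =>
            intro h
            exact (placeOf_eq_iff K s s').1 h
      · intro w
        obtain ⟨s, hs⟩ := placeOf_surjective K w
        exact ⟨Quotient.mk _ s, hs⟩)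

theorem natCard_dc_arch :
    Nat.card (DoubleCoset.Quotient (Subgroup.zpowers complexConjugation : Set GQ)
      (K.fixingSubgroup : Set GQ)) = Nat.card (InfinitePlace K) :=
  Nat.card_congr (dcEquivPlaces K)

end Fermat.Agent.GP.GW.E3.RanksArch
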