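/-
GATE-P (S56) / [P-GW] / E3-RANKS (helper74): the NON-equivariant rank count behind the rank trick.

For `K ⊂ ℚ_S` a number field, in the GC model:
  `rank_ℤ (O_S^×)^{G_K} + 1 = Σ_{q ∈ S} #(D_q \ G_ℚ / G_K) + #(⟨c⟩ \ G_ℚ / G_K)`,
i.e. Dirichlet's `S`-unit theorem (`SUnitHQ.finrank_unit_finset` + Mathlib's `Units.rank`) read
through `sUnitsInv` (units), `PlaceCount.card_primesAbove_eq_sum` (finite places) and
`RanksArch.natCard_dc_arch` (infinite places).
-/
import Mathlib
import Fermat.Agent.GC.Kummer.H0Count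
import Fermat.Agent.GC.SUnitHQ.Rank
import Fermat.Agent.GC.Places.PlaceCount
import Fermat.Agent.GP.GW.E3.RanksArch

set_option autoImplicit false

open NumberField IsDedekindDomain Module

noncomputable section

namespace Fermat.Agent.GP.GW.E3.Ranks

open Fermat.Agent.GC.Prof Fermat.Agent.GC.C0 Fermat.Agent.GC.Places Fermat.Agent.GC.KumH
  Fermat.Agent.GC.Global.Adapter

local notation "Qb" => AlgebraicClosure ℚ
local notation "GQ" => (AlgebraicClosure ℚ ≃ₐ[ℚ] AlgebraicClosure ℚ)

variable {S : Finset Nat.Primes} {K : IntermediateField ℚ Qb} [NumberField K]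

/-- Dirichlet, `Set.unit` form over `sPlaces`. -/
theorem finrank_sPlaces_unit :
    finrank ℤ (Additive ((sPlaces S K).unit K)) + 1 =
      (primesAbove ↥K S).card + Nat.card (InfinitePlace K) := by
  have h := Fermat.Agent.GC.SUnitHQ.finrank_unit_finset (K := ↥K) (primesAbove ↥K S)
  rw [← Fermat.Agent.GC.KumXF.sPlaces_eq_primesAbove] at h
  rw [h, NumberField.Units.rank, Nat.card_eq_fintype_card]
  have hpos : 0 < Fintype.card (InfinitePlace ↥K) := Fintype.card_pos
  omega

/-- the invariants `(O_S^×)^{G_K}` have the rank of the `S`-units of `K`. -/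
theorem finrank_invariants_sUnitsK (hK : K.IsUnramifiedOutside S) :
    finrank ℤ ((sUnitsK S K).ρ.invariants) = finrank ℤ (Additive ((sPlaces S K).unit K)) := by
  let e : Additive ((sPlaces S K).unit K) ≃+ (sUnitsK S K).ρ.invariants :=
    AddEquiv.ofBijective (sUnitsInv hK) ⟨sUnitsInv_injective hK, sUnitsInv_surjective hK⟩
  exact (e.toIntLinearEquiv.finrank_eq).symm

/-- **E3-RANKS**: `rank (O_S^×)^{G_K} + 1 = Σ_{q∈S} #(D_q\G_ℚ/G_K) + #(⟨c⟩\G_ℚ/G_K)`. -/
theorem finrank_invariants_add_one [FiniteDimensional ℚ K] (hK : K.IsUnramifiedOutside S) :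
    finrank ℤ ((sUnitsK S K).ρ.invariants) + 1 =
      (∑ q : ↥S, Nat.card (placeIdx ((q : Nat.Primes) : ℕ) K)) +
        Nat.card (DoubleCoset.Quotient (Subgroup.zpowers complexConjugation : Set GQ)
          (K.fixingSubgroup : Set GQ)) := by
  rw [finrank_invariants_sUnitsK hK, finrank_sPlaces_unit,
    Fermat.Agent.GC.Places.PlaceCount.card_primesAbove_eq_sum,
    Fermat.Agent.GP.GW.E3.RanksArch.natCard_dc_arch]

end Fermat.Agent.GP.GW.E3.Ranks
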