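/-
GATE-P / S56 [P-GW] ROUTE-R (helper9): the **`hrank` input of RANKTRICK in the GC model**.

`F ⊂ Qb` with `U = F.fixingSubgroup` normal, `g : GQ`, `PlacesF S F = (Σ_{q∈S} D_q\GQ/U) ⊕ ⟨c⟩\GQ/U`
with `g` acting by right translation (`placePermF`).  For every `e` and every number field `K` with
`K.fixingSubgroup = ⟨g^e⟩ ⊔ U` (i.e. `K = F^{⟨g^e⟩}`), unramified outside `S`:
  `rank (O_S^×)^{G_K} + 1 = rank ker (π_g^e − 1)` on the lattice `PlacesF S F → ℤ`
(helper74's `Ranks.finrank_invariants_add_one` + `DcOrbit.finrank_ker_placePerm_pow_sub_one`).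
-/
import Mathlib
import Fermat.Agent.GP.GW.E3.Ranks
import Fermat.Agent.GP.GW.E3.DcOrbitSum

set_option autoImplicit false

open NumberField IsDedekindDomain Module

noncomputable section

namespace Fermat.Agent.GP.GW.E3.RanksPerm

open Fermat.Agent.GC.Prof Fermat.Agent.GC.C0 Fermat.Agent.GC.Places Fermat.Agent.GC.KumH
  Fermat.Agent.GC.Global.Adapter Fermat.Agent.GP.GW.E3

local notation "Qb" => AlgebraicClosure ℚ
local notation "GQ" => (AlgebraicClosure ℚ ≃ₐ[ℚ] AlgebraicClosure ℚ)

variable (S : Finset Nat.Primes) (F : IntermediateField ℚ Qb)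

/-- the decomposition group at `q ∈ S` (the left factor of `placeIdx q K`) -/
abbrev decomp (q : ↥S) : Subgroup GQ :=
  (padicPlace ((q : Nat.Primes) : ℕ)).decompositionSubgroup ℚ

/-- `⟨c⟩` -/
abbrev conjGrp : Subgroup GQ := Subgroup.zpowers complexConjugation

/-- the places of `F` above `S ∪ {∞}`, as double cosets -/
abbrev PlacesF : Type :=
  DcOrbit.PlaceSet (fun q : ↥S => decomp S q) conjGrp F.fixingSubgroup

theorem placeIdx_eq (q : ↥S) (K : IntermediateField ℚ Qb) :
    placeIdx ((q : Nat.Primes) : ℕ) K =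
      DoubleCoset.Quotient (decomp S q : Set GQ) (K.fixingSubgroup : Set GQ) := rfl

instance finite_placesF [FiniteDimensional ℚ F] : Finite (PlacesF S F) := by
  have : ∀ q : ↥S, Finite (DoubleCoset.Quotient (decomp S q : Set GQ) (F.fixingSubgroup : Set GQ)) :=
    fun q => finite_placeIdx ((q : Nat.Primes) : ℕ) F
  have : Finite (DoubleCoset.Quotient (conjGrp : Set GQ) (F.fixingSubgroup : Set GQ)) := by
    have : NumberField F := { to_charZero := inferInstance, to_finiteDimensional := inferInstance }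
    exact Finite.of_equiv _ (RanksArch.dcEquivPlaces F).symm
  infer_instance

variable [hU : F.fixingSubgroup.Normal]

/-- right translation by `g` on the places of `F` -/
def placePermF (g : GQ) : Equiv.Perm (PlacesF S F) :=
  DcOrbit.placePerm (fun q : ↥S => decomp S q) conjGrp F.fixingSubgroup g

theorem placePermF_pow_order (g : GQ) (n : ℕ) (hn : g ^ n ∈ F.fixingSubgroup) :
    placePermF S F g ^ n = 1 := by
  unfold placePermF DcOrbit.placePerm
  rw [RankPerm.sumCongr_pow, RankPerm.sigmaCongrRight_pow]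
  have key : ∀ D : Subgroup GQ, DcOrbit.rtPerm D F.fixingSubgroup g ^ n = 1 := by
    intro D
    rw [DcOrbit.rtPerm_pow]
    ext w
    induction w using Quotient.inductionOn' with
    | h x =>
      show DcOrbit.rtPerm D F.fixingSubgroup (g ^ n) (DoubleCoset.mk D _ x) = DoubleCoset.mk D _ x
      rw [DcOrbit.rtPerm_mk, eq_comm, DoubleCoset.eq]
      exact ⟨1, D.one_mem, g ^ n, hn, by rw [one_mul]⟩
  rw [key]
  simp only [key]
  ext w
  rcases w with ⟨q, w⟩ | w <;> rfl

/-- **the P-side of `hrank`**: `rank ker (π_g^e − 1) = Σ_q #placeIdx q K + #(⟨c⟩\GQ/G_K)` whenever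
`G_K = ⟨g^e⟩ ⊔ G_F`. -/
theorem finrank_ker_placePermF [FiniteDimensional ℚ F] (g : GQ) (e : ℕ)
    (K : IntermediateField ℚ Qb)
    (hK : K.fixingSubgroup = Subgroup.zpowers (g ^ e) ⊔ F.fixingSubgroup) :
    finrank ℤ (LinearMap.ker (RankPerm.permEnd (placePermF S F g) ^ e - 1)) =
      (∑ q : ↥S, Nat.card (placeIdx ((q : Nat.Primes) : ℕ) K)) +
        Nat.card (DoubleCoset.Quotient (Subgroup.zpowers complexConjugation : Set GQ)
          (K.fixingSubgroup : Set GQ)) := by
  have : ∀ q : ↥S, Finite (DoubleCoset.Quotient (decomp S q : Set GQ) (F.fixingSubgroup : Set GQ)) :=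
    fun q => finite_placeIdx ((q : Nat.Primes) : ℕ) F
  have : Finite (DoubleCoset.Quotient (conjGrp : Set GQ) (F.fixingSubgroup : Set GQ)) := by
    have : NumberField F := { to_charZero := inferInstance, to_finiteDimensional := inferInstance }
    exact Finite.of_equiv _ (RanksArch.dcEquivPlaces F).symm
  have h := DcOrbit.finrank_ker_placePerm_pow_sub_one (fun q : ↥S => decomp S q) conjGrp
    F.fixingSubgroup K.fixingSubgroup g e (by rw [hK]; exact le_sup_right)
    (by rw [hK]; exact le_sup_left (a := Subgroup.zpowers (g ^ e)) (Subgroup.mem_zpowers _))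
    (by rw [hK]; exact DcOrbit.mem_zpowers_sup_normal (g ^ e))
  exact h

/-- **`hrank` of RANKTRICK in the GC model**: for `K = F^{⟨g^e⟩}` (a number field unramified
outside `S`), `rank (O_S^×)^{G_K} + 1 = rank ker (π_g^e − 1)`. -/
theorem finrank_invariants_add_one_eq [FiniteDimensional ℚ F] (g : GQ) (e : ℕ)
    (K : IntermediateField ℚ Qb) [NumberField K] [FiniteDimensional ℚ K]
    (hKS : K.IsUnramifiedOutside S)
    (hK : K.fixingSubgroup = Subgroup.zpowers (g ^ e) ⊔ F.fixingSubgroup) :
    finrank ℤ ((sUnitsK S K).ρ.invariants) + 1 =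
      finrank ℤ (LinearMap.ker (RankPerm.permEnd (placePermF S F g) ^ e - 1)) := by
  rw [Ranks.finrank_invariants_add_one hKS, finrank_ker_placePermF S F g e K hK]

end Fermat.Agent.GP.GW.E3.RanksPerm
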