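/-
GATE-P / S56 [P-GW] E3 — REGADAPTER part 3 (helper86): the regular representation of `C₁ ≅ H/H₀`
inside `W_Y` for a rank one `Y`.

`P : NormPair G` (`H₀ ≤ H ≤ G`, `H₀` normalised by `H`), `Y : Rep k H` of rank one on which `H` acts
through the character `ψ` (trivial on `H₀`), `φ : H →* C₁` surjective with kernel `H₀`, `C₁`
commutative and finite.  Then (`RegData`)
* `regHom / regInv : Res_φ (leftRegular k C₁) ≅ ind Y = Coind_{H₀}^H Res Y`
  (`a ↦ (h ↦ a((φ h)⁻¹) • v₀)`), and `n ⋆' -` corresponds to `ψ(n) • ρ_reg((φ n)⁻¹)`;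
* **`small_retract_of_sub_regular`** (`k` a field, `|C₁| ≠ 0` in `k`): for every subrepresentation
  `i : N ↪ leftRegular k C₁` whose range is the range of a polynomial `Q(ρ_reg((φ n)⁻¹))`,
  `Coind_H^G (Res_φ N)` is a retract of `W_Y` along `starPoly Y (mk n) Q'` for some polynomial `Q'`.
This is the adapter between CYC-RED (helper30) and the E3 base case for retracts (helper78).
-/
import Fermat.Agent.GP.GW.E3.BigSmallInd
import Fermat.Agent.GP.GW.E3.IdemPoly

set_option autoImplicit false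

open CategoryTheory

noncomputable section

namespace Fermat.Agent.GP.GW.E3

universe u

/-! ### The forgetful algebra homomorphism `End X → Module.End k X` -/

section Forget

variable {k Γ : Type u} [CommRing k] [Group Γ]

/-- the underlying linear endomorphism of an endomorphism of a representation, as an algebra
homomorphism -/
def endToLin (X : Rep.{u} k Γ) : End X →ₐ[k] Module.End k X :=
  AlgHom.ofLinearMap
    { toFun := fun f => (f : X ⟶ X).hom.toLinearMap
      map_add' := fun _ _ => rfl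
      map_smul' := fun _ _ => rfl }
    rfl (fun _ _ => rfl)

@[simp] lemma endToLin_apply (X : Rep.{u} k Γ) (f : End X) :
    endToLin X f = (f : X ⟶ X).hom.toLinearMap := rfl

lemma endToLin_aeval (X : Rep.{u} k Γ) (γ : End X) (Q : Polynomial k) :
    ((Polynomial.aeval γ Q : End X) : X ⟶ X).hom.toLinearMap =
      Polynomial.aeval ((γ : X ⟶ X).hom.toLinearMap : Module.End k X) Q :=
  (Polynomial.aeval_algHom_apply (endToLin X) γ Q).symm

end Forget

variable {k G : Type u} [CommRing k] [Group G]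

namespace NormPair

/-- Rank one coefficients `Y` (character `ψ`, trivial on `H₀`) and an identification
`φ : H/H₀ ≅ C₁`. -/
structure RegData (P : NormPair G) (Y : Rep.{u} k P.H) (C₁ : Type u) [CommGroup C₁] where
  /-- the trivialisation of the rank one module -/
  e : Y ≃ₗ[k] k
  /-- the character through which `H` acts on `Y` -/
  ψ : P.H →* kˣ
  he : ∀ (h : P.H) (y : Y), e (Y.ρ h y) = (ψ h : k) * e y
  hψ : ∀ h : P.H, (h : G) ∈ P.H₀ → ψ h = 1
  /-- the identification of `H/H₀` with `C₁` -/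
  φ : P.H →* C₁
  hφ : Function.Surjective φ
  mem_of_φ : ∀ h : P.H, φ h = 1 → (h : G) ∈ P.H₀
  φ_of_mem : ∀ h : P.H, (h : G) ∈ P.H₀ → φ h = 1

namespace RegData

variable {P : NormPair G} {Y : Rep.{u} k P.H} {C₁ : Type u} [CommGroup C₁] (D : RegData P Y C₁)

/-- the basis vector of `Y` -/
def v₀ : Y := D.e.symm 1

lemma e_v₀ : D.e D.v₀ = 1 := D.e.apply_symm_apply 1

lemma eq_smul_v₀ (y : Y) : y = D.e y • D.v₀ := by
  apply D.e.injective
  rw [map_smul, e_v₀, smul_eq_mul, mul_one]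

lemma ρ_v₀ (h : P.H) : Y.ρ h D.v₀ = (D.ψ h : k) • D.v₀ := by
  apply D.e.injective
  rw [D.he, map_smul, e_v₀, smul_eq_mul]

lemma ρ_smul_v₀ (h : P.H) (c : k) : Y.ρ h (c • D.v₀) = ((D.ψ h : k) * c) • D.v₀ := by
  rw [map_smul, ρ_v₀, smul_smul, mul_comm]

lemma ρ_v₀_of_mem (h : P.H) (hh : (h : G) ∈ P.H₀) : Y.ρ h D.v₀ = D.v₀ := by
  rw [ρ_v₀, D.hψ h hh, Units.val_one, one_smul]

/-- `Res_φ (leftRegular k C₁)` -/
abbrev regRep : Rep.{u} k P.H := Rep.res D.φ (Rep.leftRegular k C₁)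

lemma regRep_ρ_coeff (x : P.H) (a : MonoidAlgebra k C₁) (c : C₁) :
    ((D.regRep).ρ x a).coeff c = a.coeff ((D.φ x)⁻¹ * c) :=
  Representation.coeff_ofMulAction (D.φ x) a c

lemma leftRegular_ρ_coeff (x : C₁) (a : MonoidAlgebra k C₁) (c : C₁) :
    ((Rep.leftRegular k C₁).ρ x a).coeff c = a.coeff (x⁻¹ * c) :=
  Representation.coeff_ofMulAction x a c

lemma regFun_mem (a : MonoidAlgebra k C₁) :
    (fun h : P.H => a.coeff (D.φ h)⁻¹ • D.v₀) ∈
      Representation.coindV P.incl (P.res₀ Y).ρ := by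
  intro s h
  show a.coeff (D.φ (P.incl s * h))⁻¹ • D.v₀ = Y.ρ (P.incl s) (a.coeff (D.φ h)⁻¹ • D.v₀)
  rw [map_smul, D.ρ_v₀_of_mem (P.incl s) s.2, map_mul, D.φ_of_mem (P.incl s) s.2, one_mul]

/-- `a ↦ (h ↦ a((φ h)⁻¹) • v₀)` -/
def regLin : MonoidAlgebra k C₁ →ₗ[k] P.ind Y where
  toFun a := ⟨fun h => a.coeff (D.φ h)⁻¹ • D.v₀, D.regFun_mem a⟩
  map_add' a a' := by
    apply Subtype.ext
    funext h
    show (a + a').coeff (D.φ h)⁻¹ • D.v₀ = a.coeff (D.φ h)⁻¹ • D.v₀ + a'.coeff (D.φ h)⁻¹ • D.v₀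
    rw [MonoidAlgebra.coeff_add, Finsupp.add_apply, add_smul]
  map_smul' c a := by
    apply Subtype.ext
    funext h
    show (c • a).coeff (D.φ h)⁻¹ • D.v₀ = c • (a.coeff (D.φ h)⁻¹ • D.v₀)
    rw [MonoidAlgebra.coeff_smul, Finsupp.smul_apply, smul_assoc]

@[simp] lemma regLin_apply (a : MonoidAlgebra k C₁) (h : P.H) :
    (D.regLin a).1 h = a.coeff (D.φ h)⁻¹ • D.v₀ := rfl

/-- `Res_φ (leftRegular k C₁) ⟶ ind Y` -/
def regHom : D.regRep ⟶ P.ind Y :=
  Rep.ofHom ⟨D.regLin, fun x => by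
    refine LinearMap.ext fun a => Subtype.ext (funext fun h => ?_)
    show (D.regLin ((D.regRep).ρ x a)).1 h = ((P.ind Y).ρ x (D.regLin a)).1 h
    have key : (D.φ (h * x))⁻¹ = (D.φ x)⁻¹ * (D.φ h)⁻¹ := by
      rw [MonoidHom.map_mul, mul_inv_rev]
    rw [ind_ρ_apply, regLin_apply, regLin_apply, regRep_ρ_coeff, key]⟩

@[simp] lemma regHom_hom_apply (a : MonoidAlgebra k C₁) (h : P.H) :
    ((D.regHom).hom a).1 h = a.coeff (D.φ h)⁻¹ • D.v₀ := rfl

section Inv

variable [Finite C₁]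

/-- a set-theoretic section of `φ` -/
def sec (c : C₁) : P.H := Function.surjInv D.hφ c

omit [Finite C₁] in
lemma φ_sec (c : C₁) : D.φ (D.sec c) = c := Function.surjInv_eq D.hφ c

/-- `f ↦ ∑_c e(f(sec c⁻¹)) [c]` -/
def regInvLin : P.ind Y →ₗ[k] MonoidAlgebra k C₁ where
  toFun f := MonoidAlgebra.ofCoeff (Finsupp.equivFunOnFinite.symm (fun c => D.e (f.1 (D.sec c⁻¹))))
  map_add' f f' := by
    apply MonoidAlgebra.coeff_injective
    ext c
    show D.e ((f + f').1 (D.sec c⁻¹)) = D.e (f.1 (D.sec c⁻¹)) + D.e (f'.1 (D.sec c⁻¹))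
    rw [← map_add]
    rfl
  map_smul' a f := by
    apply MonoidAlgebra.coeff_injective
    ext c
    show D.e ((a • f).1 (D.sec c⁻¹)) = a • D.e (f.1 (D.sec c⁻¹))
    rw [← map_smul]
    rfl

@[simp] lemma regInvLin_coeff (f : P.ind Y) (c : C₁) :
    (D.regInvLin f).coeff c = D.e (f.1 (D.sec c⁻¹)) := rfl

omit [Finite C₁] in
/-- the value of `e ∘ f` only depends on the image under `φ` -/
lemma e_apply_eq_of_φ_eq (f : P.ind Y) {h h' : P.H} (hh : D.φ h = D.φ h') :
    D.e (f.1 h) = D.e (f.1 h') := by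
  have hmem : ((h * h'⁻¹ : P.H) : G) ∈ P.H₀ := D.mem_of_φ _ (by rw [map_mul, map_inv, hh, mul_inv_cancel])
  have h1 : h = P.incl ⟨((h * h'⁻¹ : P.H) : G), hmem⟩ * h' := by
    apply Subtype.ext
    simp
  have h2 := ind_prop Y f ⟨((h * h'⁻¹ : P.H) : G), hmem⟩ h'
  rw [← h1] at h2
  rw [h2, D.he, D.hψ (P.incl ⟨((h * h'⁻¹ : P.H) : G), hmem⟩) hmem, Units.val_one, one_mul]

lemma regLin_regInvLin (f : P.ind Y) : D.regLin (D.regInvLin f) = f := by
  apply Subtype.ext
  funext h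
  rw [regLin_apply, regInvLin_coeff, inv_inv]
  rw [D.e_apply_eq_of_φ_eq f (D.φ_sec (D.φ h))]
  exact (D.eq_smul_v₀ (f.1 h)).symm

lemma regInvLin_regLin (a : MonoidAlgebra k C₁) : D.regInvLin (D.regLin a) = a := by
  apply MonoidAlgebra.coeff_injective
  ext c
  rw [regInvLin_coeff, regLin_apply, map_smul, e_v₀, smul_eq_mul, mul_one, φ_sec, inv_inv]

/-- `ind Y ⟶ Res_φ (leftRegular k C₁)` -/
def regInv : P.ind Y ⟶ D.regRep :=
  Rep.ofHom ⟨D.regInvLin, fun x => by
    refine LinearMap.ext fun f => ?_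
    show D.regInvLin ((P.ind Y).ρ x f) = (D.regRep).ρ x (D.regInvLin f)
    have h1 : (P.ind Y).ρ x f = D.regLin ((D.regRep).ρ x (D.regInvLin f)) := by
      have h2 : D.regLin ((D.regRep).ρ x (D.regInvLin f)) =
          (P.ind Y).ρ x (D.regLin (D.regInvLin f)) :=
        Rep.hom_comm_apply D.regHom x (D.regInvLin f)
      rw [h2, regLin_regInvLin]
    rw [h1, regInvLin_regLin]⟩

@[simp] lemma regInv_hom_apply (f : P.ind Y) : (D.regInv).hom f = D.regInvLin f := rfl

lemma regHom_regInv : D.regHom ≫ D.regInv = 𝟙 D.regRep :=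
  Rep.hom_ext (Representation.IntertwiningMap.ext (LinearMap.ext fun a => D.regInvLin_regLin a))

lemma regInv_regHom : D.regInv ≫ D.regHom = 𝟙 (P.ind Y) :=
  Rep.hom_ext (Representation.IntertwiningMap.ext (LinearMap.ext fun f => D.regLin_regInvLin f))

end Inv

/-- `ρ_reg(c)` as an endomorphism of the representation `Res_φ (leftRegular k C₁)`
(`C₁` is commutative) -/
def regGamma (c : C₁) : D.regRep ⟶ D.regRep :=
  Rep.ofHom ⟨(Rep.leftRegular k C₁).ρ c, fun x => by
    refine LinearMap.ext fun a => ?_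
    show (Rep.leftRegular k C₁).ρ c ((Rep.leftRegular k C₁).ρ (D.φ x) a) =
      (Rep.leftRegular k C₁).ρ (D.φ x) ((Rep.leftRegular k C₁).ρ c a)
    rw [← Module.End.mul_apply, ← Module.End.mul_apply, ← map_mul, ← map_mul, mul_comm]⟩

@[simp] lemma regGamma_hom_toLinearMap (c : C₁) :
    (D.regGamma c).hom.toLinearMap = (Rep.leftRegular k C₁).ρ c := rfl

/-- under `regHom`, the operator `n ⋆' -` is `ψ(n) • ρ_reg((φ n)⁻¹)` -/
theorem regHom_star' (n : P.H) :
    ((D.ψ n : k) • D.regGamma (D.φ n)⁻¹) ≫ D.regHom = D.regHom ≫ star' Y n := by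
  refine Rep.hom_ext (Representation.IntertwiningMap.ext (LinearMap.ext fun a =>
    Subtype.ext (funext fun h => ?_)))
  show ((D.regHom).hom ((D.ψ n : k) • (Rep.leftRegular k C₁).ρ (D.φ n)⁻¹ a)).1 h =
    ((star' Y n).hom ((D.regHom).hom a)).1 h
  have key : (D.φ (n⁻¹ * h))⁻¹ = ((D.φ n)⁻¹)⁻¹ * (D.φ h)⁻¹ := by
    rw [MonoidHom.map_mul, MonoidHom.map_inv, mul_inv_rev, mul_comm]
  rw [star'_hom_apply, regHom_hom_apply, regHom_hom_apply, MonoidAlgebra.coeff_smul,
    Finsupp.smul_apply, leftRegular_ρ_coeff, ρ_smul_v₀, smul_eq_mul, key]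

/-! ### Polynomials: from `ρ_reg((φ n)⁻¹)` to `n ⋆' -` -/

/-- the operator on `Res_φ (leftRegular k C₁)` corresponding to `n ⋆' -` -/
def regStar (n : P.H) : End D.regRep := End.of ((D.ψ n : k) • D.regGamma (D.φ n)⁻¹)

/-- polynomials in `regStar n` correspond to polynomials in `n ⋆' -` -/
lemma regStar_intertwine (n : P.H) (R : Polynomial k) :
    ((Polynomial.aeval (D.regStar n) R : End D.regRep) : D.regRep ⟶ D.regRep) ≫ D.regHom =
      D.regHom ≫ ((Polynomial.aeval (End.of (star' Y n)) R : End (P.ind Y)) :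
        P.ind Y ⟶ P.ind Y) :=
  aeval_intertwine (D.regStar n) (End.of (star' Y n)) D.regHom (D.regHom_star' n) R

/-- `R(ψ(n)⁻¹ X)` -/
def twistPoly (n : P.H) (R : Polynomial k) : Polynomial k :=
  R.comp (Polynomial.C (((D.ψ n)⁻¹ : kˣ) : k) * Polynomial.X)

lemma aeval_regStar_twistPoly (n : P.H) (R : Polynomial k) :
    Polynomial.aeval (D.regStar n) (D.twistPoly n R) =
      Polynomial.aeval (End.of (D.regGamma (D.φ n)⁻¹)) R := by
  unfold twistPoly
  have key : (((D.ψ n)⁻¹ : kˣ) : k) • D.regStar n = End.of (D.regGamma (D.φ n)⁻¹) := by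
    show (((D.ψ n)⁻¹ : kˣ) : k) • ((D.ψ n : k) • D.regGamma (D.φ n)⁻¹) = D.regGamma (D.φ n)⁻¹
    rw [smul_smul, Units.inv_mul, one_smul]
  rw [Polynomial.aeval_comp, map_mul, Polynomial.aeval_C, Polynomial.aeval_X, ← Algebra.smul_def,
    key]

/-- the underlying linear map of a polynomial in `regGamma c` -/
lemma aeval_regGamma_toLinearMap (c : C₁) (R : Polynomial k) :
    ((Polynomial.aeval (End.of (D.regGamma c)) R : End D.regRep) :
      D.regRep ⟶ D.regRep).hom.toLinearMap =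
      Polynomial.aeval ((Rep.leftRegular k C₁).ρ c) R :=
  endToLin_aeval D.regRep (End.of (D.regGamma c)) R

section Retract

variable [Finite C₁]

/-- **Adapter, idempotent form** (`k` any commutative ring).  If `R(ρ_reg((φ n)⁻¹))` is an
idempotent of `k[C₁]` and `i : N ↪ leftRegular k C₁` has the same range, then `Res_φ N` is a retract
of `ind Y` along `R'(n ⋆' -)`, `R' = R(ψ(n)⁻¹ X)`. -/
theorem ind_retract_of_sub_regular (n : P.H) (R : Polynomial k) (N : Rep.{u} k C₁)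
    (i : N ⟶ Rep.leftRegular k C₁) (hi : Function.Injective i.hom)
    (hidem : Polynomial.aeval ((Rep.leftRegular k C₁).ρ (D.φ n)⁻¹) R *
      Polynomial.aeval ((Rep.leftRegular k C₁).ρ (D.φ n)⁻¹) R =
        Polynomial.aeval ((Rep.leftRegular k C₁).ρ (D.φ n)⁻¹) R)
    (hrange : LinearMap.range i.hom.toLinearMap =
      LinearMap.range (Polynomial.aeval ((Rep.leftRegular k C₁).ρ (D.φ n)⁻¹) R)) :
    ∃ (i₀ : Rep.res D.φ N ⟶ P.ind Y) (r₀ : P.ind Y ⟶ Rep.res D.φ N),
      i₀ ≫ r₀ = 𝟙 (Rep.res D.φ N) ∧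
      r₀ ≫ i₀ = ((Polynomial.aeval (End.of (star' Y n)) (D.twistPoly n R) : End (P.ind Y)) :
        P.ind Y ⟶ P.ind Y) := by
  classical
  set E : Module.End k (MonoidAlgebra k C₁) :=
    Polynomial.aeval ((Rep.leftRegular k C₁).ρ (D.φ n)⁻¹) R with hE
  -- the Rep-level idempotent
  set ER : D.regRep ⟶ D.regRep :=
    ((Polynomial.aeval (End.of (D.regGamma (D.φ n)⁻¹)) R : End D.regRep) :
      D.regRep ⟶ D.regRep) with hER
  have hERlin : ∀ a : MonoidAlgebra k C₁, ER.hom a = E a := fun a =>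
    congr($(D.aeval_regGamma_toLinearMap (D.φ n)⁻¹ R) a)
  -- `E` lands in the range of `i` and fixes it
  have hEmem : ∀ a : MonoidAlgebra k C₁, ∃ y : N, i.hom y = E a := fun a => by
    have : E a ∈ LinearMap.range i.hom.toLinearMap := by
      rw [hrange]
      exact ⟨a, rfl⟩
    exact this
  have hEfix : ∀ y : N, E (i.hom y) = i.hom y := fun y => by
    have : i.hom y ∈ LinearMap.range E := by
      rw [hE, ← hrange]
      exact ⟨y, rfl⟩
    obtain ⟨w, hw⟩ := this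
    rw [← hw, ← Module.End.mul_apply, hidem]
  -- the retraction, as a function
  let rf : MonoidAlgebra k C₁ → N := fun a => (hEmem a).choose
  have hrf : ∀ a, i.hom (rf a) = E a := fun a => (hEmem a).choose_spec
  let r₁ : MonoidAlgebra k C₁ →ₗ[k] N :=
    { toFun := rf
      map_add' := fun a b => hi (by rw [map_add, hrf, hrf, hrf, map_add])
      map_smul' := fun c a => hi (by rw [map_smul, hrf, hrf, map_smul, RingHom.id_apply]) }
  have hr₁ : ∀ a, i.hom (r₁ a) = E a := hrf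
  let iRes : Rep.res D.φ N ⟶ D.regRep := (Rep.resFunctor D.φ).map i
  have hiRes : ∀ y : N, iRes.hom y = i.hom y := fun y => rfl
  let rRes : D.regRep ⟶ Rep.res D.φ N :=
    Rep.ofHom ⟨r₁, fun x => LinearMap.ext fun a => hi (by
      show i.hom (r₁ ((D.regRep).ρ x a)) = i.hom ((Rep.res D.φ N).ρ x (r₁ a))
      have h1 : i.hom ((Rep.res D.φ N).ρ x (r₁ a)) = (D.regRep).ρ x (i.hom (r₁ a)) :=
        Rep.hom_comm_apply iRes x (r₁ a)
      rw [h1, hr₁, hr₁, ← hERlin, ← hERlin]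
      exact Rep.hom_comm_apply ER x a)⟩
  have hrRes : ∀ a : MonoidAlgebra k C₁, rRes.hom a = r₁ a := fun a => rfl
  have h_ir : iRes ≫ rRes = 𝟙 (Rep.res D.φ N) :=
    Rep.hom_ext (Representation.IntertwiningMap.ext (LinearMap.ext fun y => hi (by
      show i.hom (r₁ (i.hom y)) = i.hom y
      rw [hr₁, hEfix])))
  have h_ri : rRes ≫ iRes = ER :=
    Rep.hom_ext (Representation.IntertwiningMap.ext (LinearMap.ext fun a => by
      show i.hom (r₁ a) = ER.hom a
      rw [hr₁, hERlin]))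
  refine ⟨iRes ≫ D.regHom, D.regInv ≫ rRes, ?_, ?_⟩
  · rw [Category.assoc, ← Category.assoc D.regHom, D.regHom_regInv, Category.id_comp, h_ir]
  · rw [Category.assoc, ← Category.assoc rRes, h_ri, hER, ← D.aeval_regStar_twistPoly,
      D.regStar_intertwine, ← Category.assoc, D.regInv_regHom, Category.id_comp]

end Retract

end RegData

/-! ### The adapter over a field -/

section Field

variable {F G : Type u} [Field F] [Group G] {P : NormPair G} {Y : Rep.{u} F P.H} {C₁ : Type u}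
  [CommGroup C₁] [Finite C₁]

/-- **ADAPTER** (CYC-RED ⟶ E3 base case).  `F` a field in which `|C₁|` is invertible, `Y` of rank
one with `W_Y = Coind_{H₀}^G Res Y`, `φ : H ↠ C₁` with kernel `H₀`.  For every subrepresentation
`i : N ↪ leftRegular F C₁` whose range is the range of a polynomial `Q` in `ρ_reg((φ n)⁻¹)`, the
representation `Coind_H^G (Res_φ N)` is a retract of `W_Y` along `starPoly Y (mk n) Q'`
(a polynomial in `γ = n ⋆ -`) for some polynomial `Q'`. -/
theorem RegData.small_retract_of_sub_regular (D : RegData P Y C₁) (hcard : (Nat.card C₁ : F) ≠ 0)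
    (n : P.H) (Q : Polynomial F) (N : Rep.{u} F C₁) (i : N ⟶ Rep.leftRegular F C₁)
    (hi : Function.Injective i.hom)
    (hrange : LinearMap.range i.hom.toLinearMap =
      LinearMap.range (Polynomial.aeval ((Rep.leftRegular F C₁).ρ (D.φ n)⁻¹) Q)) :
    ∃ (Q' : Polynomial F) (i' : P.small (Rep.res D.φ N) ⟶ P.big Y)
      (r' : P.big Y ⟶ P.small (Rep.res D.φ N)),
      i' ≫ r' = 𝟙 (P.small (Rep.res D.φ N)) ∧
      r' ≫ i' = (starPoly Y (QuotientGroup.mk n : P.C) Q' : P.big Y ⟶ P.big Y) := by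
  have hγ : ((Rep.leftRegular F C₁).ρ (D.φ n)⁻¹) ^ Nat.card C₁ = 1 := by
    rw [← map_pow, pow_card_eq_one', map_one]
  obtain ⟨eQ, uQ, h⟩ := IdemPoly.exists_idem_aeval (Nat.card C₁) hcard Q
  obtain ⟨h1, h2, h3⟩ := h (Module.End F (MonoidAlgebra F C₁))
    ((Rep.leftRegular F C₁).ρ (D.φ n)⁻¹) hγ
  have hr : LinearMap.range (Polynomial.aeval ((Rep.leftRegular F C₁).ρ (D.φ n)⁻¹) eQ) =
      LinearMap.range (Polynomial.aeval ((Rep.leftRegular F C₁).ρ (D.φ n)⁻¹) Q) := by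
    apply le_antisymm
    · rintro _ ⟨x, rfl⟩
      rw [h2]
      exact ⟨_, rfl⟩
    · rintro _ ⟨x, rfl⟩
      rw [h3]
      exact ⟨_, rfl⟩
  obtain ⟨i₀, r₀, hir, hri⟩ :=
    D.ind_retract_of_sub_regular n eQ N i hi h1 (hrange.trans hr.symm)
  obtain ⟨i', r', h', h''⟩ :=
    small_retract_of_ind_retract Y n (D.twistPoly n eQ) (Rep.res D.φ N) i₀ r₀ hir hri
  exact ⟨_, i', r', h', h''⟩

/-- the same with `Mono i` -/
theorem RegData.small_retract_of_sub_regular' (D : RegData P Y C₁) (hcard : (Nat.card C₁ : F) ≠ 0)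
    (n : P.H) (Q : Polynomial F) (N : Rep.{u} F C₁) (i : N ⟶ Rep.leftRegular F C₁) [Mono i]
    (hrange : LinearMap.range i.hom.toLinearMap =
      LinearMap.range (Polynomial.aeval ((Rep.leftRegular F C₁).ρ (D.φ n)⁻¹) Q)) :
    ∃ (Q' : Polynomial F) (i' : P.small (Rep.res D.φ N) ⟶ P.big Y)
      (r' : P.big Y ⟶ P.small (Rep.res D.φ N)),
      i' ≫ r' = 𝟙 (P.small (Rep.res D.φ N)) ∧
      r' ≫ i' = (starPoly Y (QuotientGroup.mk n : P.C) Q' : P.big Y ⟶ P.big Y) :=
  D.small_retract_of_sub_regular hcard n Q N i ((Rep.mono_iff_injective i).1 inferInstance) hrange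

end Field

end NormPair

end Fermat.Agent.GP.GW.E3
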