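/-
GATE-P / S56 [P-GW] E3 — leaf G2 of helper78's E3G (helper86): every finite-dimensional
representation is a matrix twist of a rank one representation.

`A : Rep k Γ` of rank one on which `Γ` acts through the character `ψ`; `Y : Rep k Γ` with a basis
`b` indexed by `J`.  Then `Y ≅ twistRep A a` for the matrix representation
`a h = ψ(h)⁻¹ • [Y.ρ h]_b`.  If `Y` and `ψ` are trivial on a subgroup, so is `a`.
`exists_twist_iso` is the statement for a `NormPair` in the binder form asked for by helper78 (4329).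
Mathlib + Twist.lean only.
-/
import Fermat.Agent.GP.GW.E3.Twist

set_option autoImplicit false

open CategoryTheory Module

noncomputable section

namespace Fermat.Agent.GP.GW.E3

universe u

section General

variable {k Γ : Type u} [CommRing k] [Group Γ] {J : Type} [Fintype J] [DecidableEq J]
  (A : Rep.{u} k Γ) (e : A ≃ₗ[k] k) (ψ : Γ →* kˣ) (Y : Rep.{u} k Γ) (b : Basis J k Y)

/-- the matrix representation `h ↦ ψ(h)⁻¹ • [Y.ρ h]_b` -/
def twistMatrix : Γ →* Matrix J J k where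
  toFun h := (((ψ h)⁻¹ : kˣ) : k) • LinearMap.toMatrix b b (Y.ρ h)
  map_one' := by
    rw [map_one, map_one, inv_one, Units.val_one, one_smul]
    exact LinearMap.toMatrix_one b
  map_mul' h h' := by
    rw [map_mul, map_mul, mul_inv_rev, mul_comm (ψ h')⁻¹, Units.val_mul, smul_mul_smul_comm]
    congr 1
    exact LinearMap.toMatrix_mul b (Y.ρ h) (Y.ρ h')

lemma twistMatrix_apply (h : Γ) (i j : J) :
    twistMatrix ψ Y b h i j = (((ψ h)⁻¹ : kˣ) : k) * LinearMap.toMatrix b b (Y.ρ h) i j := rfl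

lemma twistMatrix_eq_one (h : Γ) (hψ : ψ h = 1) (hY : Y.ρ h = 1) : twistMatrix ψ Y b h = 1 := by
  show (((ψ h)⁻¹ : kˣ) : k) • LinearMap.toMatrix b b (Y.ρ h) = 1
  rw [hψ, hY, inv_one, Units.val_one, one_smul]
  exact LinearMap.toMatrix_one b

/-- the coordinate isomorphism `Y ≃ (J → A)`, `y ↦ (i ↦ e⁻¹ (yᵢ))` -/
def twistCoord : Y ≃ₗ[k] (J → A) :=
  b.equivFun.trans (LinearEquiv.piCongrRight fun _ => e.symm)

omit [DecidableEq J] in
lemma twistCoord_apply (y : Y) (i : J) : twistCoord A e Y b y i = e.symm (b.repr y i) := rfl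

variable (hψ : ∀ (h : Γ) (y : A), A.ρ h y = (ψ h : k) • y)

include hψ in
lemma twistCoord_equivariant (h : Γ) :
    (twistCoord A e Y b).toLinearMap ∘ₗ Y.ρ h =
      twistRepresentation A (twistMatrix ψ Y b) h ∘ₗ (twistCoord A e Y b).toLinearMap := by
  refine LinearMap.ext fun y => funext fun i => ?_
  show e.symm (b.repr (Y.ρ h y) i) =
    ∑ j, twistMatrix ψ Y b h i j • A.ρ h (e.symm (b.repr y j))
  have h1 : b.repr (Y.ρ h y) i = ∑ j, LinearMap.toMatrix b b (Y.ρ h) i j * b.repr y j := by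
    have := congrFun (LinearMap.toMatrix_mulVec_repr b b (Y.ρ h) y) i
    rw [← this]
    rfl
  rw [h1, map_sum]
  refine Finset.sum_congr rfl fun j _ => ?_
  rw [hψ, twistMatrix_apply, smul_smul, mul_assoc, mul_comm _ ((ψ h : kˣ) : k), ← mul_assoc,
    Units.inv_mul, one_mul, ← smul_eq_mul, map_smul]

/-- **`Y ≅ A ⊗ a`** for `a = ψ⁻¹ • [Y.ρ]_b` -/
def twistIso : Y ≅ twistRep A (twistMatrix ψ Y b) :=
  Rep.mkIso (Representation.Equiv.mk (twistCoord A e Y b) (twistCoord_equivariant A e ψ Y b hψ))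

end General

namespace NormPair

variable {k G : Type u} [Field k] [Group G] {P : NormPair G}

/-- **G2 (helper78 4329).**  For rank one `A` (character `ψ`, trivial on `H₀`) every
finite-dimensional `Y : Rep k H` trivial on `H₀` is a matrix twist `A ⊗ a` with `a` trivial
on `H₀`. -/
theorem exists_twist_iso (A : Rep.{u} k P.H) (e : A ≃ₗ[k] k) (ψ : P.H →* kˣ)
    (hψ : ∀ (h : P.H) (y : A), A.ρ h y = (ψ h : k) • y) (Y : Rep.{u} k P.H)
    [FiniteDimensional k Y] (hY : ∀ s : P.H, (s : G) ∈ P.H₀ → Y.ρ s = 1)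
    (hψ₀ : ∀ s : P.H, (s : G) ∈ P.H₀ → ψ s = 1) :
    ∃ (a : P.H →* Matrix (Fin (finrank k Y)) (Fin (finrank k Y)) k)
      (_ : ∀ s : P.H, (s : G) ∈ P.H₀ → a s = 1), Nonempty (Y ≅ twistRep A a) :=
  ⟨twistMatrix ψ Y (Module.finBasis k Y),
    fun s hs => twistMatrix_eq_one ψ Y _ s (hψ₀ s hs) (hY s hs),
    ⟨twistIso A e ψ Y (Module.finBasis k Y) hψ⟩⟩

/-- the same, for the coinduced modules -/
theorem exists_small_twist_iso (A : Rep.{u} k P.H) (e : A ≃ₗ[k] k) (ψ : P.H →* kˣ)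
    (hψ : ∀ (h : P.H) (y : A), A.ρ h y = (ψ h : k) • y) (Y : Rep.{u} k P.H)
    [FiniteDimensional k Y] (hY : ∀ s : P.H, (s : G) ∈ P.H₀ → Y.ρ s = 1)
    (hψ₀ : ∀ s : P.H, (s : G) ∈ P.H₀ → ψ s = 1) :
    ∃ (a : P.H →* Matrix (Fin (finrank k Y)) (Fin (finrank k Y)) k)
      (_ : ∀ s : P.H, (s : G) ∈ P.H₀ → a s = 1),
      Nonempty (Y ≅ twistRep A a) ∧ Nonempty (P.small Y ≅ P.small (twistRep A a)) := by
  obtain ⟨a, ha, ⟨φ⟩⟩ := exists_twist_iso A e ψ hψ Y hY hψ₀
  exact ⟨a, ha, ⟨φ⟩, ⟨(Rep.coindFunctor k P.H.subtype).mapIso φ⟩⟩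

end NormPair

end Fermat.Agent.GP.GW.E3
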