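/-
GATE-P / S56 [P-GW] ROUTE-R glue (helper9): **the unit count for modules with ONE operator**.

`R := ℤ[X]` acting through Mathlib's `Module.AEval'` (`X` acts as the operator).  An additive map
commuting with the operators is `ℤ[X]`-linear (`aevalMap`), so the RANK TRICK output
(`f : U × N →+ P`, `f ∘ (u × ν) = π ∘ f`, finite kernel, `m • P ⊆ range f`) feeds `Unit.phi_unit`:
  `φ (Red p (AEval' u)) + φ (Red p (AEval' ν)) = φ (pTors p (AEval' u)) + φ (Red p (AEval' π))`
for every additive function `φ` on finite `p`-killed `ℤ[X]`-modules (`LatticeRed.IsAddFun`), e.g.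
`φ = multiplicity of an irreducible in the characteristic polynomial of X`.
-/
import Fermat.Agent.GP.GW.E3.Unit

set_option autoImplicit false

namespace Fermat.Agent.GP.GW.E3.UnitPairs

open Polynomial Module Function Fermat.Agent.GP.GW.LatticeRed Fermat.Agent.GP.GW.TorsionQuot
  Fermat.Agent.GP.GW.E3.Unit

universe u w

section Maps

variable {A B C : Type*} [AddCommGroup A] [AddCommGroup B] [AddCommGroup C]
  (a : A →ₗ[ℤ] A) (b : B →ₗ[ℤ] B) (c : C →ₗ[ℤ] C)

/-- an additive map commuting with the operators is `ℤ[X]`-linear -/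
noncomputable def aevalMap (f : A →+ B) (hf : ∀ x, f (a x) = b (f x)) :
    AEval' a →ₗ[ℤ[X]] AEval' b :=
  LinearMap.ofAEval a ((AEval'.of b).toLinearMap ∘ₗ f.toIntLinearMap) (by
    intro m
    rw [LinearMap.comp_apply, LinearMap.comp_apply, LinearEquiv.coe_coe, AEval'.X_smul_of]
    congr 1
    exact hf m)

@[simp] theorem aevalMap_of (f : A →+ B) (hf : ∀ x, f (a x) = b (f x)) (x : A) :
    aevalMap a b f hf (AEval'.of a x) = AEval'.of b (f x) := rfl

theorem aevalMap_apply (f : A →+ B) (hf : ∀ x, f (a x) = b (f x)) (x : AEval' a) :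
    aevalMap a b f hf x = AEval'.of b (f ((AEval'.of a).symm x)) := rfl

instance fg_aeval [AddGroup.FG A] : AddGroup.FG (AEval' a) :=
  AddGroup.fg_of_surjective (f := ((AEval'.of a).toLinearMap : A →ₗ[ℤ] AEval' a).toAddMonoidHom)
    (AEval'.of a).surjective

theorem torsionFree_aeval {p : ℕ} (h : ∀ x : A, p • x = 0 → x = 0) :
    ∀ x : AEval' a, p • x = 0 → x = 0 := by
  intro x hx
  have : (AEval'.of a).symm x = 0 := h _ (by rw [← map_nsmul, hx, map_zero])
  simpa using this

end Maps

section Main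

variable {p : ℕ} {Z : Type w} [AddCommGroup Z]
  {φ : ∀ (M : Type u) [AddCommGroup M] [Module ℤ[X] M], Z}

/-- **the unit count in operator-pair form** (input = RANK TRICK output verbatim). -/
theorem phi_unit_pairs (hφ : IsAddFun (R := ℤ[X]) p φ) (hp : 0 < p)
    {U N P : Type u} [AddCommGroup U] [AddCommGroup N] [AddCommGroup P]
    [AddGroup.FG U] [AddGroup.FG N] [AddGroup.FG P]
    (υ : U →ₗ[ℤ] U) (ν : N →ₗ[ℤ] N) (π : P →ₗ[ℤ] P)
    (htfN : ∀ x : N, p • x = 0 → x = 0) (htfP : ∀ x : P, p • x = 0 → x = 0)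
    (f : U × N →+ P) (hf : ∀ x : U × N, f (υ x.1, ν x.2) = π (f x))
    (hker : Finite f.ker) (m : ℕ) (hm : 0 < m) (h : ∀ y : P, m • y ∈ f.range) :
    φ (Red (R := ℤ[X]) p (AEval' υ)) + φ (Red (R := ℤ[X]) p (AEval' ν)) =
      φ (pTors (R := ℤ[X]) p (AEval' υ)) + φ (Red (R := ℤ[X]) p (AEval' π)) := by
  have h1 : ∀ x : U, (f.comp (AddMonoidHom.inl U N)) (υ x) = π ((f.comp (AddMonoidHom.inl U N)) x) := by
    intro x
    have := hf (x, 0)
    simpa using this
  have h2 : ∀ y : N, (f.comp (AddMonoidHom.inr U N)) (ν y) = π ((f.comp (AddMonoidHom.inr U N)) y) := by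
    intro y
    have := hf (0, y)
    simpa using this
  let F : (AEval' υ × AEval' ν) →ₗ[ℤ[X]] AEval' π :=
    (aevalMap υ π _ h1).coprod (aevalMap ν π _ h2)
  have hF : ∀ z : AEval' υ × AEval' ν,
      F z = AEval'.of π (f ((AEval'.of υ).symm z.1, (AEval'.of ν).symm z.2)) := by
    intro z
    show aevalMap υ π _ h1 z.1 + aevalMap ν π _ h2 z.2 = _
    rw [aevalMap_apply, aevalMap_apply, ← map_add]
    congr 1
    simp only [AddMonoidHom.comp_apply, AddMonoidHom.inl_apply, AddMonoidHom.inr_apply]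
    rw [← map_add]
    simp
  have hkerF : Finite (LinearMap.ker F) := by
    have hmem : ∀ z : LinearMap.ker F,
        ((AEval'.of υ).symm z.1.1, (AEval'.of ν).symm z.1.2) ∈ f.ker := by
      intro z
      have hz : F z.1 = 0 := z.2
      rw [hF] at hz
      rw [AddMonoidHom.mem_ker]
      simpa using hz
    refine Finite.of_injective (fun z : LinearMap.ker F => (⟨_, hmem z⟩ : f.ker)) ?_
    intro z z' hzz'
    have := congrArg Subtype.val hzz'
    simp only [Prod.mk.injEq, EmbeddingLike.apply_eq_iff_eq] at this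
    exact Subtype.ext (Prod.ext this.1 this.2)
  have hrange : ∀ y : AEval' π, ∃ x, F x = m • y := by
    intro y
    obtain ⟨x, hx⟩ := h ((AEval'.of π).symm y)
    refine ⟨(AEval'.of υ x.1, AEval'.of ν x.2), ?_⟩
    rw [hF]
    simp only [LinearEquiv.symm_apply_apply, Prod.mk.eta]
    rw [hx, map_nsmul, LinearEquiv.apply_symm_apply]
  exact phi_unit hφ hp (torsionFree_aeval ν htfN) (torsionFree_aeval π htfP) F hkerF m hm hrange

end Main

end Fermat.Agent.GP.GW.E3.UnitPairs
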