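/-
GATE-P / S56 [P-GW] ROUTE-R glue, part 2 (helper9): **model-independent form of the unit count.**

Over `R = ℤ[X]` (one operator, `Module.AEval'`):
* `aevalEquiv`      : an additive equivalence commuting with the operators is a `ℤ[X]`-isomorphism;
* `redAEvalEquiv`   : for ANY model `q : U →+ Ubar` of `U/pU` (surjective, kernel `= pU`) with induced
                      operator `ῡ`:  `Red p (AEval' υ) ≃ₗ[ℤ[X]] AEval' ῡ`;
* `torsAEvalEquiv`  : for ANY model `j : T →+ U` of `U[p]` (injective, range `= U[p]`) with operator `τ`: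
                      `AEval' τ ≃ₗ[ℤ[X]] pTors p (AEval' υ)`;
* `phi_unit_models` : the unit count with all four terms in such models:
      `φ (AEval' ῡ) + φ (AEval' ν̄) = φ (AEval' τ) + φ (AEval' π̄)`.
-/
import Fermat.Agent.GP.GW.E3.UnitPairs

set_option autoImplicit false

namespace Fermat.Agent.GP.GW.E3.UnitPairs

open Polynomial Module Function Fermat.Agent.GP.GW.LatticeRed Fermat.Agent.GP.GW.TorsionQuot
  Fermat.Agent.GP.GW.E3.Unit

universe u w

section Equiv

variable {A B : Type*} [AddCommGroup A] [AddCommGroup B] (a : A →ₗ[ℤ] A) (b : B →ₗ[ℤ] B)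

/-- an additive equivalence commuting with the operators is a `ℤ[X]`-linear equivalence -/
noncomputable def aevalEquiv (e : A ≃+ B) (he : ∀ x, e (a x) = b (e x)) :
    AEval' a ≃ₗ[ℤ[X]] AEval' b :=
  LinearEquiv.ofBijective (aevalMap a b e.toAddMonoidHom he) (by
    constructor
    · intro x y hxy
      rw [aevalMap_apply, aevalMap_apply] at hxy
      have := (AEval'.of b).injective hxy
      exact (AEval'.of a).symm.injective (e.injective this)
    · intro y
      refine ⟨AEval'.of a (e.symm ((AEval'.of b).symm y)), ?_⟩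
      rw [aevalMap_of]
      simp)

@[simp] theorem aevalEquiv_of (e : A ≃+ B) (he : ∀ x, e (a x) = b (e x)) (x : A) :
    aevalEquiv a b e he (AEval'.of a x) = AEval'.of b (e x) := rfl

end Equiv

section Red

variable {p : ℕ} {U Ubar : Type*} [AddCommGroup U] [AddCommGroup Ubar]
  (υ : U →ₗ[ℤ] U) (υbar : Ubar →ₗ[ℤ] Ubar)

/-- `Red p (AEval' υ) → AEval' ῡ` for a model `q : U → Ubar` of `U/pU` -/
noncomputable def redAEvalMap (q : U →+ Ubar) (hq : ∀ x, q (υ x) = υbar (q x))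
    (hker : ∀ x, q x = 0 ↔ ∃ y, p • y = x) :
    Red (R := ℤ[X]) p (AEval' υ) →ₗ[ℤ[X]] AEval' υbar :=
  Submodule.liftQ _ (aevalMap υ υbar q hq) (by
    intro x hx
    obtain ⟨y, rfl⟩ := (mem_pSub p).1 hx
    rw [LinearMap.mem_ker, aevalMap_apply, map_nsmul, map_nsmul]
    have : q (p • (AEval'.of υ).symm y) = 0 := (hker _).2 ⟨_, rfl⟩
    rw [map_nsmul] at this
    rw [this, map_zero])

theorem redAEvalMap_mk (q : U →+ Ubar) (hq : ∀ x, q (υ x) = υbar (q x))
    (hker : ∀ x, q x = 0 ↔ ∃ y, p • y = x) (x : AEval' υ) :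
    redAEvalMap υ υbar q hq hker (Submodule.Quotient.mk x) =
      AEval'.of υbar (q ((AEval'.of υ).symm x)) := rfl

/-- **`Red p (AEval' υ) ≃ AEval' ῡ`** for any model of `U/pU`. -/
noncomputable def redAEvalEquiv (q : U →+ Ubar) (hq : ∀ x, q (υ x) = υbar (q x))
    (hsurj : Surjective q) (hker : ∀ x, q x = 0 ↔ ∃ y, p • y = x) :
    Red (R := ℤ[X]) p (AEval' υ) ≃ₗ[ℤ[X]] AEval' υbar :=
  LinearEquiv.ofBijective (redAEvalMap υ υbar q hq hker) (by
    constructor
    · rw [injective_iff_map_eq_zero]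
      intro x hx
      obtain ⟨x, rfl⟩ := Submodule.Quotient.mk_surjective _ x
      rw [redAEvalMap_mk] at hx
      have h0 : q ((AEval'.of υ).symm x) = 0 := by
        have := congrArg (AEval'.of υbar).symm hx
        simpa using this
      obtain ⟨y, hy⟩ := (hker _).1 h0
      rw [Submodule.Quotient.mk_eq_zero]
      refine (mem_pSub p).2 ⟨AEval'.of υ y, ?_⟩
      rw [← map_nsmul, hy]
      simp
    · intro y
      obtain ⟨x, hx⟩ := hsurj ((AEval'.of υbar).symm y)
      refine ⟨Submodule.Quotient.mk (AEval'.of υ x), ?_⟩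
      rw [redAEvalMap_mk]
      simp [hx])

end Red

section Tors

variable {p : ℕ} {U T : Type*} [AddCommGroup U] [AddCommGroup T]
  (υ : U →ₗ[ℤ] U) (τ : T →ₗ[ℤ] T)

/-- **`AEval' τ ≃ pTors p (AEval' υ)`** for any model `j : T → U` of `U[p]`. -/
noncomputable def torsAEvalEquiv (j : T →+ U) (hj : ∀ x, j (τ x) = υ (j x))
    (hinj : Injective j) (hrange : ∀ x : U, p • x = 0 ↔ ∃ t, j t = x) :
    AEval' τ ≃ₗ[ℤ[X]] pTors (R := ℤ[X]) p (AEval' υ) :=
  LinearEquiv.ofBijective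
    ((aevalMap τ υ j hj).codRestrict (pTors (R := ℤ[X]) p (AEval' υ)) (by
      intro x
      rw [mem_pTors, aevalMap_apply, ← map_nsmul]
      have : p • j ((AEval'.of τ).symm x) = 0 := (hrange _).2 ⟨_, rfl⟩
      rw [this, map_zero])) (by
    constructor
    · intro x y hxy
      have h1 := congrArg Subtype.val hxy
      simp only [LinearMap.codRestrict_apply] at h1
      rw [aevalMap_apply, aevalMap_apply] at h1
      exact (AEval'.of τ).symm.injective (hinj ((AEval'.of υ).injective h1))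
    · intro y
      have hy : p • (AEval'.of υ).symm (y : AEval' υ) = 0 := by
        rw [← map_nsmul, (mem_pTors p).1 y.2, map_zero]
      obtain ⟨t, ht⟩ := (hrange _).1 hy
      refine ⟨AEval'.of τ t, Subtype.ext ?_⟩
      simp only [LinearMap.codRestrict_apply]
      rw [aevalMap_of, ht]
      simp)

end Tors

section Main

variable {p : ℕ} {Z : Type w} [AddCommGroup Z]
  {φ : ∀ (M : Type u) [AddCommGroup M] [Module ℤ[X] M], Z}

/-- **the unit count, all terms in arbitrary models** of `U/pU`, `N/pN`, `U[p]`, `P/pP`. -/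
theorem phi_unit_models (hφ : IsAddFun (R := ℤ[X]) p φ) (hp : 0 < p)
    {U N P Ubar Nbar Pbar T : Type u} [AddCommGroup U] [AddCommGroup N] [AddCommGroup P]
    [AddCommGroup Ubar] [AddCommGroup Nbar] [AddCommGroup Pbar] [AddCommGroup T]
    [AddGroup.FG U] [AddGroup.FG N] [AddGroup.FG P]
    (υ : U →ₗ[ℤ] U) (ν : N →ₗ[ℤ] N) (π : P →ₗ[ℤ] P)
    (htfN : ∀ x : N, p • x = 0 → x = 0) (htfP : ∀ x : P, p • x = 0 → x = 0)
    (f : U × N →+ P) (hf : ∀ x : U × N, f (υ x.1, ν x.2) = π (f x))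
    (hker : Finite f.ker) (m : ℕ) (hm : 0 < m) (h : ∀ y : P, m • y ∈ f.range)
    -- models
    (υbar : Ubar →ₗ[ℤ] Ubar) (qU : U →+ Ubar) (hqU : ∀ x, qU (υ x) = υbar (qU x))
    (hsU : Surjective qU) (hkU : ∀ x, qU x = 0 ↔ ∃ y, p • y = x)
    (νbar : Nbar →ₗ[ℤ] Nbar) (qN : N →+ Nbar) (hqN : ∀ x, qN (ν x) = νbar (qN x))
    (hsN : Surjective qN) (hkN : ∀ x, qN x = 0 ↔ ∃ y, p • y = x)
    (πbar : Pbar →ₗ[ℤ] Pbar) (qP : P →+ Pbar) (hqP : ∀ x, qP (π x) = πbar (qP x))
    (hsP : Surjective qP) (hkP : ∀ x, qP x = 0 ↔ ∃ y, p • y = x)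
    (τ : T →ₗ[ℤ] T) (j : T →+ U) (hj : ∀ x, j (τ x) = υ (j x))
    (hinj : Injective j) (hrange : ∀ x : U, p • x = 0 ↔ ∃ t, j t = x) :
    φ (AEval' υbar) + φ (AEval' νbar) = φ (AEval' τ) + φ (AEval' πbar) := by
  have h0 := phi_unit_pairs hφ hp υ ν π htfN htfP f hf hker m hm h
  rw [hφ.iso _ _ (redAEvalEquiv υ υbar qU hqU hsU hkU),
    hφ.iso _ _ (redAEvalEquiv ν νbar qN hqN hsN hkN),
    hφ.iso _ _ (redAEvalEquiv π πbar qP hqP hsP hkP),
    ← hφ.iso _ _ (torsAEvalEquiv υ τ j hj hinj hrange)] at h0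
  exact h0

end Main

end Fermat.Agent.GP.GW.E3.UnitPairs
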