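/-
GATE-P / S56 [P-GW] ROUTE-R assembly (helper69), FILE 1: the permutation lattice of the places.

`G` a group, `U ⊴ G` of finite index, `D i ≤ G` (`i : ι`, finite) the decomposition groups.
`X := Σ i, D i \ G / U` is the set of places of the fixed field of `U` (over the places `i`), and
`x : G` acts on `X` by `[s] ↦ [s x⁻¹]` (helper83's `MackeyAbs.dcMulAction`).  On the lattice
`X → ℤ` the operator `permOp x : f ↦ f ∘ (x • ·)` satisfies

  `rank_ℤ ker (permOp x - 1) = Σ_i #(D i \ G / (U ⊔ ⟨x⟩))`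

(functions invariant under `x` factor through `D i \ G / (U ⊔ ⟨x⟩)`).  Also: `finrank` is additive
on products of finite modules over a domain (no freeness), and the kernel of
`(a × id)^e - 1`.  Mathlib + `MackeyAbs` only.
-/
import Mathlib
import Fermat.Agent.GP.GW.E3.MackeyAbs

set_option autoImplicit false
set_option linter.unusedSectionVars false

noncomputable section

namespace Fermat.Agent.GP.GW.E3.UnitR

open Module Fermat.Agent.GP.GW.E3.Mackey

/-! ### `finrank` of a product over a domain -/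

section Prod

variable {R : Type*} [CommRing R] [IsDomain R] {M N : Type*} [AddCommGroup M] [Module R M]
  [AddCommGroup N] [Module R N]

theorem finrank_prod_of_isDomain [Module.Finite R M] [Module.Finite R N] :
    finrank R (M × N) = finrank R M + finrank R N := by
  have h := (LinearMap.ker (LinearMap.snd R M N)).finrank_quotient_add_finrank
  rw [((LinearMap.snd R M N).quotKerEquivOfSurjective LinearMap.snd_surjective).finrank_eq,
    LinearMap.ker_snd] at h
  have e : M ≃ₗ[R] LinearMap.range (LinearMap.inl R M N) :=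
    LinearEquiv.ofInjective (LinearMap.inl R M N) LinearMap.inl_injective
  rw [← h, ← e.finrank_eq, add_comm]

end Prod

/-! ### the kernel of `(a × id)^e - 1` -/

section ProdKer

variable {A : Type*} [AddCommGroup A]

theorem prodMap_id_pow (a : Module.End ℤ A) (e : ℕ) :
    (a.prodMap (LinearMap.id : ℤ →ₗ[ℤ] ℤ)) ^ e = (a ^ e).prodMap (LinearMap.id : ℤ →ₗ[ℤ] ℤ) := by
  induction e with
  | zero =>
    rw [pow_zero, pow_zero]
    exact LinearMap.prodMap_one.symm
  | succ e ih =>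
    rw [pow_succ, pow_succ, ih]
    apply LinearMap.ext
    rintro ⟨x, y⟩
    rfl

/-- `ker ((a × id)^e - 1) ≃ ker (a^e - 1) × ℤ`. -/
def kerProdEquiv (a : Module.End ℤ A) (e : ℕ) :
    LinearMap.ker ((a.prodMap (LinearMap.id : ℤ →ₗ[ℤ] ℤ)) ^ e - 1) ≃ₗ[ℤ]
      (LinearMap.ker (a ^ e - 1) × ℤ) where
  toFun z := (⟨z.1.1, by
    have hz : ((a.prodMap (LinearMap.id : ℤ →ₗ[ℤ] ℤ)) ^ e - 1) z.1 = 0 := z.2
    have hz' : ((a ^ e).prodMap (LinearMap.id : ℤ →ₗ[ℤ] ℤ) - 1) z.1 = 0 := by
      rw [← prodMap_id_pow]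
      exact hz
    rw [LinearMap.mem_ker]
    exact congrArg Prod.fst hz'⟩, z.1.2)
  invFun w := ⟨(w.1.1, w.2), by
    have hw := w.1.2
    rw [LinearMap.mem_ker] at hw
    rw [LinearMap.mem_ker, prodMap_id_pow]
    show ((a ^ e) w.1.1 - w.1.1, w.2 - w.2) = 0
    rw [sub_self]
    exact Prod.ext hw rfl⟩
  map_add' _ _ := rfl
  map_smul' _ _ := rfl
  left_inv _ := rfl
  right_inv _ := rfl

theorem finrank_ker_prodMap [Module.Finite ℤ A] (a : Module.End ℤ A) (e : ℕ) :
    finrank ℤ (LinearMap.ker ((a.prodMap (LinearMap.id : ℤ →ₗ[ℤ] ℤ)) ^ e - 1)) =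
      finrank ℤ (LinearMap.ker (a ^ e - 1)) + 1 := by
  have : IsNoetherian ℤ A := isNoetherian_of_isNoetherianRing_of_finite ℤ A
  rw [(kerProdEquiv a e).finrank_eq, finrank_prod_of_isDomain, finrank_self]

end ProdKer

/-! ### the permutation lattice -/

section Perm

variable {G : Type*} [Group G] (U : Subgroup G) [hU : U.Normal] {ι : Type*} (D : ι → Subgroup G)

/-- `U ⊴ U ⊔ K`. -/
instance normalIn_sup (K : Subgroup G) : NormalIn U (U ⊔ K) :=
  ⟨le_sup_left, fun n _ u hu => hU.conj_mem u hu n⟩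

/-- The places: `Σ i, D i \ G / H`. -/
abbrev PlaceSet (H : Subgroup G) : Type _ := Σ i : ι, DC (D i) H

/-- The action of `x : G` on the places of the fixed field of `U`: `[s] ↦ [s x⁻¹]`. -/
def tr (x : G) : PlaceSet D U → PlaceSet D U :=
  fun w => ⟨w.1, (⟨x, Subgroup.mem_top x⟩ : (⊤ : Subgroup G)) • w.2⟩

theorem tr_mk (x : G) (i : ι) (s : G) :
    tr U D x ⟨i, dcMk (D i) U s⟩ = ⟨i, dcMk (D i) U (s * x⁻¹)⟩ := rfl

theorem tr_one (w : PlaceSet D U) : tr U D 1 w = w := by
  obtain ⟨i, w⟩ := w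
  show (⟨i, (1 : (⊤ : Subgroup G)) • w⟩ : PlaceSet D U) = ⟨i, w⟩
  rw [one_smul]

theorem tr_mul (x y : G) (w : PlaceSet D U) : tr U D (x * y) w = tr U D x (tr U D y w) := by
  obtain ⟨i, w⟩ := w
  obtain ⟨s, rfl⟩ := dcMk_surjective (D i) U w
  rw [tr_mk, tr_mk, tr_mk, mul_inv_rev, mul_assoc]

theorem tr_of_mem {u : G} (hu : u ∈ U) (w : PlaceSet D U) : tr U D u w = w := by
  obtain ⟨i, w⟩ := w
  show (⟨i, _ • w⟩ : PlaceSet D U) = ⟨i, w⟩
  rw [smul_dc_of_mem (D i) U ⊤ ⟨u, Subgroup.mem_top u⟩ hu w]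

/-- The permutation operator `f ↦ f ∘ (x • ·)` on the lattice `X → ℤ`. -/
def permOp (x : G) : Module.End ℤ (PlaceSet D U → ℤ) := LinearMap.funLeft ℤ ℤ (tr U D x)

theorem permOp_apply (x : G) (f : PlaceSet D U → ℤ) (w : PlaceSet D U) :
    permOp U D x f w = f (tr U D x w) := rfl

theorem permOp_one : permOp U D (1 : G) = 1 := by
  apply LinearMap.ext
  intro f
  funext w
  rw [permOp_apply, tr_one]
  rfl

theorem permOp_of_mem {u : G} (hu : u ∈ U) : permOp U D u = 1 := by
  apply LinearMap.ext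
  intro f
  funext w
  rw [permOp_apply, tr_of_mem U D hu]
  rfl

theorem permOp_pow (x : G) (e : ℕ) : permOp U D x ^ e = permOp U D (x ^ e) := by
  induction e with
  | zero => rw [pow_zero, pow_zero, permOp_one]
  | succ e ih =>
    rw [pow_succ, pow_succ, ih]
    apply LinearMap.ext
    intro f
    funext w
    show f (tr U D x (tr U D (x ^ e) w)) = f (tr U D (x ^ e * x) w)
    rw [← pow_succ, pow_succ', tr_mul]

/-- The elements of `G` whose translation fixes `f`. -/
def fixer (f : PlaceSet D U → ℤ) : Subgroup G where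
  carrier := {x | ∀ w, f (tr U D x w) = f w}
  one_mem' w := by rw [tr_one]
  mul_mem' {x y} hx hy w := by rw [tr_mul, hx, hy]
  inv_mem' {x} hx w := by
    have h := hx (tr U D x⁻¹ w)
    rw [← tr_mul, mul_inv_cancel, tr_one] at h
    exact h.symm

theorem le_fixer (f : PlaceSet D U → ℤ) : U ≤ fixer U D f := fun u hu w => by
  rw [tr_of_mem U D hu]

/-- The forgetful map on places. -/
def proj (K : Subgroup G) : PlaceSet D U → PlaceSet D (U ⊔ K) :=
  fun w => ⟨w.1, dcProj (D w.1) U (U ⊔ K) w.2⟩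

theorem proj_surjective (K : Subgroup G) : Function.Surjective (proj U D K) := by
  rintro ⟨i, w⟩
  obtain ⟨s, rfl⟩ := dcMk_surjective (D i) (U ⊔ K) w
  exact ⟨⟨i, dcMk (D i) U s⟩, rfl⟩

theorem proj_eq_iff (K : Subgroup G) (w w' : PlaceSet D U) :
    proj U D K w = proj U D K w' ↔ ∃ n ∈ U ⊔ K, tr U D n w = w' := by
  obtain ⟨i, w⟩ := w
  obtain ⟨j, w'⟩ := w'
  constructor
  · intro h
    have hij : i = j := congrArg Sigma.fst h
    subst hij
    have h2 : dcProj (D i) U (U ⊔ K) w = dcProj (D i) U (U ⊔ K) w' := eq_of_heq (Sigma.mk.inj h).2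
    obtain ⟨n, hn⟩ := (dcProj_eq_iff (D i) U (U ⊔ K) w w').1 h2
    refine ⟨n.1, n.2, ?_⟩
    obtain ⟨s, rfl⟩ := dcMk_surjective (D i) U w
    rw [← hn]
    rfl
  · rintro ⟨n, hn, h⟩
    have hij : i = j := congrArg Sigma.fst h
    subst hij
    have h2 : (⟨n, Subgroup.mem_top n⟩ : (⊤ : Subgroup G)) • w = w' := eq_of_heq (Sigma.mk.inj h).2
    show (⟨i, dcProj (D i) U (U ⊔ K) w⟩ : PlaceSet D (U ⊔ K)) = ⟨i, dcProj (D i) U (U ⊔ K) w'⟩
    congr 1
    rw [dcProj_eq_iff]
    refine ⟨⟨n, hn⟩, ?_⟩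
    obtain ⟨s, rfl⟩ := dcMk_surjective (D i) U w
    rw [← h2]
    rfl

/-- Pull-back of functions along the forgetful map. -/
def pull (K : Subgroup G) : (PlaceSet D (U ⊔ K) → ℤ) →ₗ[ℤ] (PlaceSet D U → ℤ) :=
  LinearMap.funLeft ℤ ℤ (proj U D K)

theorem pull_injective (K : Subgroup G) : Function.Injective (pull U D K) :=
  LinearMap.funLeft_injective_of_surjective ℤ ℤ _ (proj_surjective U D K)

theorem range_pull (x : G) :
    LinearMap.range (pull U D (Subgroup.zpowers x)) = LinearMap.ker (permOp U D x - 1) := by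
  ext f
  rw [LinearMap.mem_range, LinearMap.mem_ker, LinearMap.sub_apply, sub_eq_zero]
  constructor
  · rintro ⟨f', rfl⟩
    funext w
    show f' (proj U D _ (tr U D x w)) = f' (proj U D _ w)
    congr 1
    rw [eq_comm, proj_eq_iff]
    exact ⟨x, Subgroup.mem_sup_right (Subgroup.mem_zpowers x), rfl⟩
  · intro hf
    have hx : x ∈ fixer U D f := fun w => congrFun hf w
    have hle : U ⊔ Subgroup.zpowers x ≤ fixer U D f :=
      sup_le (le_fixer U D f) ((Subgroup.zpowers_le).2 hx)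
    refine ⟨fun w' => f (Function.surjInv (proj_surjective U D (Subgroup.zpowers x)) w'), ?_⟩
    funext w
    show f (Function.surjInv (proj_surjective U D (Subgroup.zpowers x)) (proj U D _ w)) = f w
    have h1 := Function.surjInv_eq (proj_surjective U D (Subgroup.zpowers x)) (proj U D _ w)
    obtain ⟨n, hn, h2⟩ := (proj_eq_iff U D _ _ _).1 h1
    exact (hle hn _).symm.trans (congrArg f h2)

/-- `ker (permOp x - 1) ≃ (Σ i, D i \ G / (U ⊔ ⟨x⟩) → ℤ)`. -/
def kerPermEquiv (x : G) :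
    (PlaceSet D (U ⊔ Subgroup.zpowers x) → ℤ) ≃ₗ[ℤ] LinearMap.ker (permOp U D x - 1) :=
  (LinearEquiv.ofInjective (pull U D (Subgroup.zpowers x)) (pull_injective U D _)).trans
    (LinearEquiv.ofEq _ _ (range_pull U D x))

variable [Fintype ι] [U.FiniteIndex]

instance finiteIndex_sup (K : Subgroup G) : (U ⊔ K).FiniteIndex :=
  Subgroup.finiteIndex_of_le (le_sup_left : U ≤ U ⊔ K)

/-- **The rank of the `x`-invariants of the place lattice.** -/
theorem finrank_ker_permOp (x : G) :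
    finrank ℤ (LinearMap.ker (permOp U D x - 1)) =
      ∑ i : ι, Nat.card (DC (D i) (U ⊔ Subgroup.zpowers x)) := by
  rw [← (kerPermEquiv U D x).finrank_eq]
  have : Fintype (PlaceSet D (U ⊔ Subgroup.zpowers x)) := Fintype.ofFinite _
  rw [Module.finrank_fintype_fun_eq_card, ← Nat.card_eq_fintype_card, Nat.card_sigma]

theorem finrank_ker_permOp_pow (x : G) (e : ℕ) :
    finrank ℤ (LinearMap.ker (permOp U D x ^ e - 1)) =
      ∑ i : ι, Nat.card (DC (D i) (U ⊔ Subgroup.zpowers (x ^ e))) := by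
  rw [permOp_pow, finrank_ker_permOp]

theorem permOp_pow_eq_one (x : G) {n : ℕ} (hn : x ^ n ∈ U) : permOp U D x ^ n = 1 := by
  rw [permOp_pow, permOp_of_mem U D hn]

instance fg_placeLattice : AddGroup.FG (PlaceSet D U → ℤ) :=
  Module.Finite.iff_addGroup_fg.1 inferInstance

theorem placeLattice_torsionFree (n : ℕ) (y : PlaceSet D U → ℤ) (hn : 0 < n) (h : n • y = 0) :
    y = 0 := by
  funext w
  have h1 := congrFun h w
  simp only [Pi.smul_apply, Pi.zero_apply, nsmul_eq_mul] at h1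
  rcases mul_eq_zero.1 h1 with h2 | h2
  · exact absurd (by exact_mod_cast h2) hn.ne'
  · exact h2

end Perm

end Fermat.Agent.GP.GW.E3.UnitR
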