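/-
GATE-P / S56 [P-GW] ROUTE-R assembly (helper69), FILE 2: the unit count by the RANK TRICK,
entirely in GC objects (no dictionary to Mathlib's `𝓞 F`).

`F ⊂ ℚ_S` finite Galois over `ℚ`, `U = G_F`, `g ∈ G_ℚ`.
* `A := (O_S^×)^U = (sUnitsK S F).ρ.invariants` with `υ := actInvHom (sUnitsS S) hg` (helper12);
  `ker (υ^e - 1) = (O_S^×)^{U⟨g^e⟩}`, of rank `Σ_{v ∈ S ∪ ∞} #(D_v \ G_ℚ / U⟨g^e⟩) - 1`
  (helper74's `Ranks.finrank_invariants_add_one` at the fixed field of `U⟨g^e⟩`);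
* `P := (Σ_{v ∈ S ∪ ∞} D_v \ G_ℚ / U → ℤ)` with `π := permOp g` (`UnitRPerm`), same ranks;
* helper17's `RankTrickZ.exists_equivariant_map` + helper9's `UnitPairs.phi_unit_pairs` give, for
  EVERY additive function `φ` on finite `p`-killed `ℤ[X]`-modules,

  `φ(A/p) + φ(ℤ/p, X = 1) = φ(A[p]) + φ(P/p)`.
-/
import Fermat.Agent.GP.GW.E3.UnitRPerm
import Fermat.Agent.GP.GW.E3.Ranks
import Fermat.Agent.GP.GW.E3.RankTrickZ
import Fermat.Agent.GP.GW.E3.UnitPairs
import Fermat.Agent.GP.GW.Euler.KumQuot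
import Fermat.Agent.GC.PT.OpenGK

set_option autoImplicit false
set_option linter.unusedSectionVars false
set_option linter.style.haveILetI false

open Polynomial Module

noncomputable section

namespace Fermat.Agent.GP.GW.E3.UnitR

open Fermat.Agent.GC.Prof Fermat.Agent.GC.C0 Fermat.Agent.GC.Places Fermat.Agent.GC.KumH
  Fermat.Agent.GP.GW.E3.Mackey Fermat.Agent.GP.GW.Euler.StarRes Fermat.Agent.GP.GW.Euler.PhiKum
  Fermat.Agent.GP.GW.Euler.KumQuot Fermat.Agent.GP.GW.LatticeRed Fermat.Agent.GP.GW.TorsionQuot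

local notation "Qb" => AlgebraicClosure ℚ
local notation "GQ" => (AlgebraicClosure ℚ ≃ₐ[ℚ] AlgebraicClosure ℚ)

local instance factPrimes_ur (q : Nat.Primes) : Fact (q : ℕ).Prime := ⟨q.2⟩

/-! ### `phi_unit_pairs` for a `ℤ`-linear `f` (abstract types: keeps unification cheap) -/

section Generic

universe u w

theorem phi_unit_pairs_lin {p : ℕ} {Z : Type w} [AddCommGroup Z]
    {φ : ∀ (M : Type u) [AddCommGroup M] [Module ℤ[X] M], Z}
    (hφ : IsAddFun (R := ℤ[X]) p φ) (hp : 0 < p)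
    {U N P : Type u} [AddCommGroup U] [AddCommGroup N] [AddCommGroup P]
    [AddGroup.FG U] [AddGroup.FG N] [AddGroup.FG P]
    (υ : U →ₗ[ℤ] U) (ν : N →ₗ[ℤ] N) (π : P →ₗ[ℤ] P)
    (htfN : ∀ x : N, p • x = 0 → x = 0) (htfP : ∀ x : P, p • x = 0 → x = 0)
    (f : U × N →ₗ[ℤ] P) (hf : ∀ x : U × N, f (υ x.1, ν x.2) = π (f x))
    (hker : Finite (LinearMap.ker f)) (m : ℕ) (hm : 0 < m) (h : ∀ y : P, ∃ x, f x = m • y) :
    φ (Red (R := ℤ[X]) p (AEval' υ)) + φ (Red (R := ℤ[X]) p (AEval' ν)) =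
      φ (pTors (R := ℤ[X]) p (AEval' υ)) + φ (Red (R := ℤ[X]) p (AEval' π)) := by
  have hmem : ∀ x : f.toAddMonoidHom.ker, (x.1 : U × N) ∈ LinearMap.ker f := by
    intro x
    rw [LinearMap.mem_ker]
    exact (AddMonoidHom.mem_ker).1 x.2
  have hinj : Function.Injective
      (fun x : f.toAddMonoidHom.ker => (⟨x.1, hmem x⟩ : LinearMap.ker f)) := by
    intro x y hxy
    apply Subtype.ext
    exact congrArg (fun z : LinearMap.ker f => z.1) hxy
  have hker' : Finite f.toAddMonoidHom.ker := Finite.of_injective _ hinj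
  exact Fermat.Agent.GP.GW.E3.UnitPairs.phi_unit_pairs hφ hp υ ν π htfN htfP f.toAddMonoidHom
    (fun x => hf x) hker' m hm (fun y => by
      obtain ⟨x, hx⟩ := h y
      exact ⟨x, hx⟩)

end Generic

variable (S : Finset Nat.Primes)

/-! ### the decomposition groups at `S ∪ {∞}` -/

/-- The decomposition group at `v ∈ S ∪ {∞}` (`none = ∞`). -/
def decAt : Option ↥S → Subgroup GQ
  | none => Subgroup.zpowers complexConjugation
  | some q => ((padicPlace ((q : Nat.Primes) : ℕ)).decompositionSubgroup ℚ : Subgroup GQ)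

/-! ### elements of `O_S^×` fixed by a subgroup -/

/-- The elements of `O_S^×` fixed by a subgroup `H` of `G_ℚ`. -/
def fixedBy (H : Subgroup GQ) : Submodule ℤ (sUnitsS S) where
  carrier := {a | ∀ h ∈ H, (sUnitsS S).ρ h a = a}
  add_mem' := by
    intro a b ha hb h hh
    rw [map_add, ha h hh, hb h hh]
  zero_mem' := by
    intro h _
    exact map_zero _
  smul_mem' := by
    intro c a ha h hh
    rw [map_smul, ha h hh]

theorem mem_fixedBy {H : Subgroup GQ} (a : sUnitsS S) :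
    a ∈ fixedBy S H ↔ ∀ h ∈ H, (sUnitsS S).ρ h a = a := Iff.rfl

/-- The stabiliser of an element of `O_S^×`. -/
def stab (a : sUnitsS S) : Subgroup GQ where
  carrier := {h | (sUnitsS S).ρ h a = a}
  one_mem' := by
    show (sUnitsS S).ρ 1 a = a
    rw [map_one]
    rfl
  mul_mem' := by
    intro x y hx hy
    show (sUnitsS S).ρ (x * y) a = a
    rw [map_mul, Module.End.mul_apply, hy, hx]
  inv_mem' := by
    intro x hx
    show (sUnitsS S).ρ x⁻¹ a = a
    have h1 : (sUnitsS S).ρ x⁻¹ ((sUnitsS S).ρ x a) = a := by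
      rw [← Module.End.mul_apply, ← map_mul, inv_mul_cancel, map_one]
      rfl
    rwa [hx] at h1

/-- `(O_S^×)^{G_K}` in the two spellings. -/
def fixedByEquiv (K : IntermediateField ℚ Qb) :
    fixedBy S K.fixingSubgroup ≃ₗ[ℤ] (sUnitsK S K).ρ.invariants where
  toFun a := ⟨a.1, fun h => a.2 h.1 h.2⟩
  invFun a := ⟨a.1, fun h hh => a.2 ⟨h, hh⟩⟩
  map_add' _ _ := rfl
  map_smul' _ _ := rfl
  left_inv _ := rfl
  right_inv _ := rfl

/-- **RANKS in subgroup form**: for every subgroup `H ⊇ G_F`, `F ⊂ ℚ_S` finite,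
`rank (O_S^×)^H + 1 = Σ_{v ∈ S ∪ ∞} #(D_v \ G_ℚ / H)`. -/
theorem finrank_fixedBy_add_one {F : IntermediateField ℚ Qb} (hF : F.IsUnramifiedOutside S)
    (H : Subgroup GQ) (hle : F.fixingSubgroup ≤ H) :
    finrank ℤ (fixedBy S H) + 1 = ∑ v : Option ↥S, Nat.card (DC (decAt S v) H) := by
  obtain ⟨K, hK, rfl⟩ := Fermat.Agent.GC.PT.OpenGK.exists_field_eq_fixingSubgroup S H
    ⟨F.fixingSubgroup, ⟨F, hF, rfl⟩, hle⟩
  haveI : FiniteDimensional ℚ K := hK.1
  haveI : NumberField K := ⟨⟩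
  rw [Fintype.sum_option, (fixedByEquiv S K).finrank_eq, Ranks.finrank_invariants_add_one hK,
    add_comm]
  rfl

/-! ### the unit operator -/

variable {S} {F : IntermediateField ℚ Qb}

theorem norm_pow {g : GQ} (hg : Norm F.fixingSubgroup g) (e : ℕ) :
    Norm F.fixingSubgroup (g ^ e) := by
  induction e with
  | zero =>
    rw [pow_zero]
    exact Norm.one _
  | succ e ih =>
    rw [pow_succ]
    exact ih.mul hg

/-- The action of `g` on `(O_S^×)^{G_F}` (helper12's `actInvHom`). -/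
abbrev unitOp {g : GQ} (hg : Norm F.fixingSubgroup g) :
    Module.End ℤ (sUnitsK S F).ρ.invariants :=
  actInvHom (sUnitsS S) hg

theorem coe_unitOp {g : GQ} (hg : Norm F.fixingSubgroup g) (a : (sUnitsK S F).ρ.invariants) :
    ((unitOp hg a : (sUnitsK S F).ρ.invariants) : sUnitsS S) = (sUnitsS S).ρ g (a.1 : sUnitsS S) :=
  rfl

theorem unitOp_pow {g : GQ} (hg : Norm F.fixingSubgroup g) (e : ℕ) :
    unitOp (S := S) hg ^ e = unitOp (norm_pow hg e) := by
  induction e with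
  | zero =>
    apply LinearMap.ext
    intro a
    apply Subtype.ext
    rw [pow_zero, coe_unitOp]
    show (a.1 : sUnitsS S) = (sUnitsS S).ρ (g ^ 0) (a.1 : sUnitsS S)
    rw [pow_zero, map_one]
    rfl
  | succ e ih =>
    apply LinearMap.ext
    intro a
    apply Subtype.ext
    rw [pow_succ, Module.End.mul_apply, ih, coe_unitOp, coe_unitOp, coe_unitOp]
    rw [pow_succ, map_mul, Module.End.mul_apply]

theorem unitOp_of_mem {u : GQ} (hu : u ∈ F.fixingSubgroup) (hn : Norm F.fixingSubgroup u) :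
    unitOp (S := S) hn = 1 := by
  apply LinearMap.ext
  intro a
  apply Subtype.ext
  rw [coe_unitOp]
  exact a.2 ⟨u, hu⟩

/-- `ker (υ^e - 1) = (O_S^×)^{G_F ⟨g^e⟩}`. -/
def kerUnitEquiv {g : GQ} (hg : Norm F.fixingSubgroup g) (e : ℕ) :
    LinearMap.ker (unitOp (S := S) hg ^ e - 1) ≃ₗ[ℤ]
      fixedBy S (F.fixingSubgroup ⊔ Subgroup.zpowers (g ^ e)) where
  toFun a := ⟨(a.1.1 : sUnitsS S), by
    have hk : (unitOp (S := S) (norm_pow hg e) - 1) a.1 = 0 := by
      rw [← unitOp_pow]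
      exact a.2
    rw [LinearMap.sub_apply, sub_eq_zero] at hk
    have hk' : (sUnitsS S).ρ (g ^ e) (a.1.1 : sUnitsS S) = (a.1.1 : sUnitsS S) :=
      congrArg Subtype.val hk
    have h1 : F.fixingSubgroup ≤ stab S (a.1.1 : sUnitsS S) := fun u hu => a.1.2 ⟨u, hu⟩
    have h2 : Subgroup.zpowers (g ^ e) ≤ stab S (a.1.1 : sUnitsS S) :=
      (Subgroup.zpowers_le).2 hk'
    exact fun h hh => (sup_le h1 h2) hh⟩
  invFun b := ⟨⟨b.1, fun u => b.2 u.1 (Subgroup.mem_sup_left u.2)⟩, by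
    rw [LinearMap.mem_ker, unitOp_pow, LinearMap.sub_apply, sub_eq_zero]
    apply Subtype.ext
    exact b.2 _ (Subgroup.mem_sup_right (Subgroup.mem_zpowers _))⟩
  map_add' _ _ := rfl
  map_smul' _ _ := rfl
  left_inv _ := rfl
  right_inv _ := rfl

theorem finrank_ker_unitOp_pow (hF : F.IsUnramifiedOutside S) {g : GQ}
    (hg : Norm F.fixingSubgroup g) (e : ℕ) :
    finrank ℤ (LinearMap.ker (unitOp (S := S) hg ^ e - 1)) + 1 =
      ∑ v : Option ↥S, Nat.card (DC (decAt S v) (F.fixingSubgroup ⊔ Subgroup.zpowers (g ^ e))) := by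
  rw [(kerUnitEquiv hg e).finrank_eq, finrank_fixedBy_add_one S hF _ le_sup_left]

/-! ### finiteness -/

theorem finite_invariants (hF : F.IsUnramifiedOutside S) :
    Module.Finite ℤ (sUnitsK S F).ρ.invariants := by
  haveI : FiniteDimensional ℚ F := hF.1
  haveI : NumberField F := ⟨⟩
  have h1 : Module.Finite ℤ (Additive ((sPlaces S F).unit F)) := by
    have h := Fermat.Agent.GC.SUnitHQ.instFiniteUnitFinset (K := ↥F)
      (Fermat.Agent.GC.Global.Adapter.primesAbove ↥F S)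
    rw [← Fermat.Agent.GC.KumXF.sPlaces_eq_primesAbove] at h
    exact h
  exact Module.Finite.equiv (sUnitsEquiv hF).toIntLinearEquiv

theorem finiteIndex_fixingSubgroup (hF : F.IsUnramifiedOutside S) :
    F.fixingSubgroup.FiniteIndex := by
  haveI : FiniteDimensional ℚ F := hF.1
  haveI : IsGalois ℚ Qb := Fermat.Agent.GC.Local.KR.isGalois_Qb
  refine ⟨?_⟩
  rw [← IntermediateField.finrank_eq_fixingSubgroup_index]
  exact Module.finrank_pos.ne'

/-! ### the rank trick -/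

/-- **ROUTE-R, step (R4)**: an equivariant map `(O_S^×)^{G_F} × ℤ → ℤ[places of F over S ∪ ∞]`
with finite kernel and cokernel of finite exponent. -/
theorem exists_equivariant_map (hF : F.IsUnramifiedOutside S) [hN : F.fixingSubgroup.Normal]
    {g : GQ} (hg : Norm F.fixingSubgroup g) :
    ∃ (f : ((sUnitsK S F).ρ.invariants × ℤ) →ₗ[ℤ] (PlaceSet (decAt S) F.fixingSubgroup → ℤ))
      (m : ℕ), 0 < m ∧ Finite (LinearMap.ker f) ∧
      (∀ x, f (unitOp hg x.1, x.2) = permOp F.fixingSubgroup (decAt S) g (f x)) ∧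
      ∀ y, ∃ x, f x = m • y := by
  haveI := finite_invariants hF
  haveI := finiteIndex_fixingSubgroup hF
  haveI : AddGroup.FG ((sUnitsK S F).ρ.invariants × ℤ) :=
    Module.Finite.iff_addGroup_fg.1 inferInstance
  set n : ℕ := F.fixingSubgroup.index with hn
  have hn0 : 0 < n := Nat.pos_of_ne_zero Subgroup.FiniteIndex.index_ne_zero
  have hgn : g ^ n ∈ F.fixingSubgroup := Subgroup.pow_index_mem F.fixingSubgroup g
  have ha : ((unitOp (S := S) hg).prodMap (LinearMap.id : ℤ →ₗ[ℤ] ℤ)) ^ n = 1 := by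
    rw [prodMap_id_pow, unitOp_pow, unitOp_of_mem hgn]
    exact LinearMap.prodMap_one
  have hb : permOp F.fixingSubgroup (decAt S) g ^ n = 1 :=
    permOp_pow_eq_one F.fixingSubgroup (decAt S) g hgn
  obtain ⟨f, m, hm, hfin, hcomm, hsurj⟩ :=
    Fermat.Agent.GP.GW.E3.RankTrickZ.exists_equivariant_map
      (placeLattice_torsionFree F.fixingSubgroup (decAt S))
      ((unitOp (S := S) hg).prodMap (LinearMap.id : ℤ →ₗ[ℤ] ℤ))
      (permOp F.fixingSubgroup (decAt S) g) n hn0 ha hb (fun e _ => by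
        rw [finrank_ker_prodMap, finrank_ker_unitOp_pow hF hg e, finrank_ker_permOp_pow])
  exact ⟨f, m, hm, hfin, fun x => hcomm x, hsurj⟩

/-- **ROUTE-R: the unit count**, for every additive function `φ` on finite `p`-killed
`ℤ[X]`-modules:  `φ(A/p) + φ(ℤ/p, X = 1) = φ(A[p]) + φ(P/p)`, `A = (O_S^×)^{G_F}` with `X = g`,
`P = ℤ[places of F over S ∪ ∞]` with `X =` the permutation by `g`. -/
theorem phi_unitR {p : ℕ} {Z : Type*} [AddCommGroup Z]
    {φ : ∀ (M : Type) [AddCommGroup M] [Module ℤ[X] M], Z}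
    (hφ : IsAddFun (R := ℤ[X]) p φ) (hp : 0 < p)
    (hF : F.IsUnramifiedOutside S) [hN : F.fixingSubgroup.Normal]
    {g : GQ} (hg : Norm F.fixingSubgroup g) :
    φ (Red (R := ℤ[X]) p (AEval' (unitOp (S := S) hg))) +
        φ (Red (R := ℤ[X]) p (AEval' (LinearMap.id : ℤ →ₗ[ℤ] ℤ))) =
      φ (pTors (R := ℤ[X]) p (AEval' (unitOp (S := S) hg))) +
        φ (Red (R := ℤ[X]) p (AEval' (permOp F.fixingSubgroup (decAt S) g))) := by
  haveI := finite_invariants hF
  haveI := finiteIndex_fixingSubgroup hF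
  haveI : AddGroup.FG (sUnitsK S F).ρ.invariants := Module.Finite.iff_addGroup_fg.1 inferInstance
  haveI : AddGroup.FG ℤ := Module.Finite.iff_addGroup_fg.1 inferInstance
  obtain ⟨f, m, hm, hfin, hcomm, hsurj⟩ := exists_equivariant_map hF hg
  refine phi_unit_pairs_lin hφ hp (unitOp (S := S) hg)
    (LinearMap.id : ℤ →ₗ[ℤ] ℤ) (permOp F.fixingSubgroup (decAt S) g) ?_ ?_ f
    (fun x => hcomm x) hfin m hm hsurj
  · intro x hx
    rw [nsmul_eq_mul] at hx
    rcases mul_eq_zero.1 hx with h | h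
    · exact absurd (by exact_mod_cast h) hp.ne'
    · exact h
  · exact fun x hx => placeLattice_torsionFree F.fixingSubgroup (decAt S) p x hp hx

end Fermat.Agent.GP.GW.E3.UnitR
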