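/-
GATE-P / S56 [P-GW] ROUTE-R assembly (helper69), FILE 3 (abstract): from additive functions on
`ℤ[X]`-modules to characteristic polynomials.

* `aevalEquiv` : an additive equivalence commuting with the operators is a `ℤ[X]`-linear
  equivalence of the `Module.AEval'` modules;
* `redEquiv` : `Red p (AEval' a) ≃ₗ[ℤ[X]] AEval' a'` for a surjection `q : M → M'` with kernel `pM`
  intertwining `a` and `a'`;
* `torsEquiv` : `pTors p (AEval' a) ≃ₗ[ℤ[X]] AEval' a'` for an injection `j : M' → M` with image
  `M[p]` intertwining `a'` and `a`;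
* `multVal_aeval` : helper51's `multVal X f` on `AEval' T'`, `T'` the `ℤ`-linear map underlying a
  `ZMod p`-linear `T` on a finite `ZMod p`-space, is the multiplicity of `f` in `charpoly T`;
* `charpoly_mul_eq_of_multiplicity` : `P₁ P₂ = P₃ P₄` for monic polynomials from the multiplicity
  identity at every monic irreducible `f`.
-/
import Mathlib
import Fermat.Agent.GP.GW.E3.UnitPairs
import Fermat.Agent.GP.GW.Euler.CharpolyAddFun

set_option autoImplicit false
set_option linter.unusedSectionVars false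
set_option linter.style.haveILetI false

open Polynomial Module

noncomputable section

namespace Fermat.Agent.GP.GW.E3.UnitR

open Fermat.Agent.GP.GW.LatticeRed Fermat.Agent.GP.GW.TorsionQuot
  Fermat.Agent.GP.GW.E3.UnitPairs Fermat.Agent.GP.GW.CharpolyAddFun Fermat.Agent.GP.GW.CharpolyCalc

universe u

/-! ### `ℤ[X]`-linear equivalences of `AEval'` modules -/

section Equivs

variable {M M' : Type u} [AddCommGroup M] [AddCommGroup M'] (a : M →ₗ[ℤ] M) (a' : M' →ₗ[ℤ] M')

/-- A bijective additive map commuting with the operators, as a `ℤ[X]`-linear equivalence. -/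
def aevalEquiv (q : M →+ M') (hq : Function.Bijective q) (hqa : ∀ x, q (a x) = a' (q x)) :
    AEval' a ≃ₗ[ℤ[X]] AEval' a' :=
  LinearEquiv.ofBijective (aevalMap a a' q hqa)
    ⟨by
      intro y y' h
      rw [aevalMap_apply, aevalMap_apply] at h
      exact (AEval'.of a).symm.injective (hq.1 ((AEval'.of a').injective h)),
    by
      intro y
      obtain ⟨x, hx⟩ := hq.2 ((AEval'.of a').symm y)
      refine ⟨AEval'.of a x, ?_⟩
      rw [aevalMap_of, hx, LinearEquiv.apply_symm_apply]⟩

variable (p : ℕ)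

/-- `Red p (AEval' a) ≃ AEval' a'` for a surjection `q : M → M'` with kernel `p M`,
`q ∘ a = a' ∘ q`. -/
def redEquiv (q : M →+ M') (hq : Function.Surjective q) (hqa : ∀ x, q (a x) = a' (q x))
    (hker : ∀ x, q x = 0 ↔ ∃ y, p • y = x) :
    Red (R := ℤ[X]) p (AEval' a) ≃ₗ[ℤ[X]] AEval' a' :=
  (Submodule.quotEquivOfEq _ _ (by
    ext x
    rw [mem_pSub, LinearMap.mem_ker, aevalMap_apply, map_eq_zero_iff _ (AEval'.of a').injective, hker]
    constructor
    · rintro ⟨y, hy⟩
      refine ⟨(AEval'.of a).symm y, ?_⟩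
      rw [← map_nsmul, hy]
    · rintro ⟨y, hy⟩
      refine ⟨AEval'.of a y, ?_⟩
      rw [← map_nsmul, hy, LinearEquiv.apply_symm_apply])).trans
    ((aevalMap a a' q hqa).quotKerEquivOfSurjective (by
      intro y
      obtain ⟨x, hx⟩ := hq ((AEval'.of a').symm y)
      refine ⟨AEval'.of a x, ?_⟩
      rw [aevalMap_of, hx, LinearEquiv.apply_symm_apply]))

/-- `pTors p (AEval' a) ≃ AEval' a'` for an injection `j : M' → M` onto `M[p]`,
`j ∘ a' = a ∘ j`. -/
def torsEquiv (j : M' →+ M) (hj : Function.Injective j) (hja : ∀ x, j (a' x) = a (j x))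
    (hrange : ∀ x, p • x = 0 ↔ ∃ y, j y = x) :
    AEval' a' ≃ₗ[ℤ[X]] pTors (R := ℤ[X]) p (AEval' a) :=
  LinearEquiv.ofBijective
    ((aevalMap a' a j hja).codRestrict (pTors (R := ℤ[X]) p (AEval' a)) (by
      intro y
      rw [mem_pTors, aevalMap_apply, ← map_nsmul]
      rw [map_eq_zero_iff _ (AEval'.of a).injective, hrange]
      exact ⟨_, rfl⟩))
    ⟨by
      intro y y' h
      have h1 : aevalMap a' a j hja y = aevalMap a' a j hja y' := congrArg Subtype.val h
      rw [aevalMap_apply, aevalMap_apply] at h1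
      exact (AEval'.of a').symm.injective (hj ((AEval'.of a).injective h1)),
    by
      rintro ⟨x, hx⟩
      rw [mem_pTors] at hx
      have hx' : p • (AEval'.of a).symm x = 0 := by rw [← map_nsmul, hx, map_zero]
      obtain ⟨y, hy⟩ := (hrange _).1 hx'
      refine ⟨AEval'.of a' y, Subtype.ext ?_⟩
      show aevalMap a' a j hja (AEval'.of a' y) = x
      rw [aevalMap_of, hy, LinearEquiv.apply_symm_apply]⟩

end Equivs

/-! ### `multVal` on `AEval'` of a `ZMod p`-linear operator -/

section MultVal

variable {p : ℕ} [Fact p.Prime] {V : Type u} [AddCommGroup V] [Module (ZMod p) V] [Finite V]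

/-- **`multVal X f` on `(V, T)`** is the multiplicity of `f` in the characteristic polynomial of
`T`. -/
theorem multVal_aeval (f : (ZMod p)[X]) (T : V →ₗ[ZMod p] V) (T' : V →ₗ[ℤ] V)
    (hT : ∀ x, T' x = T x) :
    multVal (R := ℤ[X]) (X : ℤ[X]) f (AEval' T') = (multiplicity f T.charpoly : ℤ) := by
  letI : Module (ZMod p) (AEval' T') := inferInstanceAs (Module (ZMod p) V)
  haveI : Finite (AEval' T') := inferInstanceAs (Finite V)
  rw [multVal_eq (X : ℤ[X]) f (AEval' T')]
  congr 1
  let e : V ≃ₗ[ZMod p] AEval' T' :=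
    { toFun := AEval'.of T'
      invFun := (AEval'.of T').symm
      map_add' := map_add _
      map_smul' := fun _ _ => rfl
      left_inv := (AEval'.of T').symm_apply_apply
      right_inv := (AEval'.of T').apply_symm_apply }
  have h : smulEnd p (X : ℤ[X]) (AEval' T') = e.conj T := by
    apply LinearMap.ext
    intro y
    obtain ⟨x, rfl⟩ := (AEval'.of T').surjective y
    rw [smulEnd_apply, AEval'.X_smul_of, LinearEquiv.conj_apply]
    show AEval'.of T' (T' x) = AEval'.of T' (T ((AEval'.of T').symm (AEval'.of T' x)))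
    rw [LinearEquiv.symm_apply_apply, hT]
  unfold multIn
  rw [h, LinearEquiv.charpoly_conj]

end MultVal

/-! ### products of monic polynomials from multiplicities -/

section Poly

variable {k : Type*} [Field k]

theorem charpoly_mul_eq_of_multiplicity {P₁ P₂ P₃ P₄ : k[X]} (h₁ : P₁.Monic) (h₂ : P₂.Monic)
    (h₃ : P₃.Monic) (h₄ : P₄.Monic)
    (h : ∀ f : k[X], f.Monic → Irreducible f →
      multiplicity f P₁ + multiplicity f P₂ = multiplicity f P₃ + multiplicity f P₄) :
    P₁ * P₂ = P₃ * P₄ := by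
  apply eq_of_multiplicity_eq (h₁.mul h₂) (h₃.mul h₄)
  intro f hfm hfi
  have hfin12 : FiniteMultiplicity f (P₁ * P₂) :=
    FiniteMultiplicity.of_not_isUnit hfi.not_isUnit (mul_ne_zero h₁.ne_zero h₂.ne_zero)
  have hfin34 : FiniteMultiplicity f (P₃ * P₄) :=
    FiniteMultiplicity.of_not_isUnit hfi.not_isUnit (mul_ne_zero h₃.ne_zero h₄.ne_zero)
  rw [multiplicity_mul hfi.prime hfin12, multiplicity_mul hfi.prime hfin34]
  exact h f hfm hfi

end Poly

end Fermat.Agent.GP.GW.E3.UnitR
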