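/-
GATE-P / S56 [P-GW] ROUTE-R assembly (helper69), FILE 4: the (UNIT) leaf in CHARACTERISTIC
POLYNOMIAL form, on GC's own objects.

`F ⊂ ℚ_S` finite Galois, `ζ_p ∈ F` (`χ_cyc|_{G_F} = 1`), `p ∈ S`, `g ∈ G_ℚ`, `ψ = χ_cyc(g)`:

  `charpoly (g | (O_S^×)^{G_F} / p) * (X - 1) = (X - C ψ) * charpoly (perm_g | 𝔽_p[places])`

with `(O_S^×)^{G_F}/p = (sUnitsK S F).ρ.invariants ⧸ pPow S F p` and `g` acting by helper12's
`actQuot S hg` (the module and operator of (K1), `KumQuot.kappaQuot_act`), and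
`places = Σ_{v ∈ S ∪ ∞} D_v \ G_ℚ / G_F` with the right translation by `g`.
-/
import Fermat.Agent.GP.GW.E3.UnitR
import Fermat.Agent.GP.GW.E3.UnitRAbs
import Fermat.Agent.GC.C0.ZetaMem

set_option autoImplicit false
set_option linter.unusedSectionVars false
set_option linter.style.haveILetI false

open Polynomial Module

noncomputable section

namespace Fermat.Agent.GP.GW.E3.UnitR

open Fermat.Agent.GC.Prof Fermat.Agent.GC.C0 Fermat.Agent.GC.Places Fermat.Agent.GC.KumH
  Fermat.Agent.GP.GW.E3.Mackey Fermat.Agent.GP.GW.Euler.StarRes Fermat.Agent.GP.GW.Euler.PhiKum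
  Fermat.Agent.GP.GW.Euler.KumQuot Fermat.Agent.GP.GW.LatticeRed Fermat.Agent.GP.GW.TorsionQuot
  Fermat.Agent.GP.GW.CharpolyAddFun ExtCitation

local notation "Qb" => AlgebraicClosure ℚ
local notation "GQ" => (AlgebraicClosure ℚ ≃ₐ[ℚ] AlgebraicClosure ℚ)

/-! ### linear algebra: a scalar on a line -/

section Line

variable {k V : Type*} [Field k] [AddCommGroup V] [Module k V] [FiniteDimensional k V]

theorem charpoly_of_finrank_one (h1 : finrank k V = 1) (T : V →ₗ[k] V) (c : k)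
    (hT : ∀ x, T x = c • x) : T.charpoly = X - C c := by
  have hmon := T.charpoly_monic
  have hdeg : T.charpoly.natDegree = 1 := by rw [LinearMap.charpoly_natDegree, h1]
  have h2 := hmon.eq_X_add_C hdeg
  obtain ⟨v, hv⟩ : ∃ v : V, v ≠ 0 := by
    rw [← Module.finrank_pos_iff_exists_ne_zero (R := k), h1]
    exact one_pos
  have hCH := LinearMap.aeval_self_charpoly T
  rw [h2, map_add, aeval_X, aeval_C] at hCH
  have h3 := congrArg (fun L : V →ₗ[k] V => L v) hCH
  simp only [LinearMap.add_apply, LinearMap.zero_apply, Module.algebraMap_end_apply, hT] at h3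
  rw [← add_smul] at h3
  have h4 : c + T.charpoly.coeff 0 = 0 := (smul_eq_zero.1 h3).resolve_right hv
  rw [h2, eq_neg_of_add_eq_zero_right h4, C_neg, sub_eq_add_neg]

end Line

/-! ### the four reductions -/

section Reductions

variable (p : ℕ) [hp : Fact p.Prime]

/-- `ℤ/p` with `X = 1`. -/
theorem multVal_red_int (f : (ZMod p)[X]) :
    multVal (R := ℤ[X]) (X : ℤ[X]) f
        (Red (R := ℤ[X]) p (AEval' (LinearMap.id : ℤ →ₗ[ℤ] ℤ))) =
      (multiplicity f (X - 1 : (ZMod p)[X]) : ℤ) := by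
  have hker : ∀ x : ℤ, Int.castAddHom (ZMod p) x = 0 ↔ ∃ y : ℤ, p • y = x := by
    intro x
    rw [Int.coe_castAddHom, ZMod.intCast_zmod_eq_zero_iff_dvd]
    constructor
    · rintro ⟨y, rfl⟩
      exact ⟨y, by rw [nsmul_eq_mul]⟩
    · rintro ⟨y, rfl⟩
      exact ⟨y, by rw [nsmul_eq_mul]⟩
  rw [multVal_iso (X : ℤ[X]) f (redEquiv (LinearMap.id : ℤ →ₗ[ℤ] ℤ)
    (LinearMap.id : ZMod p →ₗ[ℤ] ZMod p) p (Int.castAddHom (ZMod p))
    ZMod.intCast_surjective (fun _ => rfl) hker),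
    multVal_aeval f (LinearMap.id : ZMod p →ₗ[ZMod p] ZMod p) LinearMap.id (fun _ => rfl),
    charpoly_of_finrank_one (Module.finrank_self (ZMod p)) LinearMap.id 1
      (fun x => (one_smul _ x).symm), C_1]

/-- The lattice of functions on a finite set with a self-map, mod `p`. -/
theorem multVal_red_fun {Y : Type} [Finite Y] (τ : Y → Y) (f : (ZMod p)[X]) :
    multVal (R := ℤ[X]) (X : ℤ[X]) f
        (Red (R := ℤ[X]) p (AEval' (LinearMap.funLeft ℤ ℤ τ))) =
      (multiplicity f (LinearMap.funLeft (ZMod p) (ZMod p) τ).charpoly : ℤ) := by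
  have hq : Function.Surjective ((Int.castAddHom (ZMod p)).compLeft Y) := by
    intro h
    choose h' hh' using fun y => ZMod.intCast_surjective (h y)
    exact ⟨h', funext hh'⟩
  have hker : ∀ x : Y → ℤ, (Int.castAddHom (ZMod p)).compLeft Y x = 0 ↔
      ∃ y : Y → ℤ, p • y = x := by
    intro x
    constructor
    · intro h
      have h1 : ∀ y : Y, ∃ z : ℤ, (p : ℤ) * z = x y := by
        intro y
        have h2 : ((x y : ℤ) : ZMod p) = 0 := congrFun h y
        rw [ZMod.intCast_zmod_eq_zero_iff_dvd] at h2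
        obtain ⟨z, hz⟩ := h2
        exact ⟨z, hz.symm⟩
      choose z hz using h1
      refine ⟨z, funext fun y => ?_⟩
      rw [Pi.smul_apply, nsmul_eq_mul, hz]
    · rintro ⟨y, rfl⟩
      funext w
      show (((p • y) w : ℤ) : ZMod p) = 0
      rw [Pi.smul_apply, nsmul_eq_mul, Int.cast_mul, Int.cast_natCast, ZMod.natCast_self, zero_mul]
  haveI : Finite (Y → ZMod p) := Pi.finite
  rw [multVal_iso (X : ℤ[X]) f (redEquiv (LinearMap.funLeft ℤ ℤ τ)
    (LinearMap.funLeft ℤ (ZMod p) τ) p ((Int.castAddHom (ZMod p)).compLeft Y) hq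
    (fun _ => rfl) hker),
    multVal_aeval f (LinearMap.funLeft (ZMod p) (ZMod p) τ) (LinearMap.funLeft ℤ (ZMod p) τ)
      (fun _ => rfl)]

end Reductions

/-! ### the unit module mod `p` -/

section UnitQuot

variable {p : ℕ} [hp : Fact p.Prime] {S : Finset Nat.Primes} {F : IntermediateField ℚ Qb}

theorem nsmul_mk_unitQuot (a : (sUnitsK S F).ρ.invariants) :
    p • (QuotientAddGroup.mk a : (sUnitsK S F).ρ.invariants ⧸ pPow S F p) = 0 := by
  rw [← QuotientAddGroup.mk_nsmul, QuotientAddGroup.eq_zero_iff, mem_pPow]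
  exact ⟨a, natCast_zsmul a p⟩

theorem finite_unitQuot (hF : F.IsUnramifiedOutside S) :
    Finite ((sUnitsK S F).ρ.invariants ⧸ pPow S F p) := by
  haveI := finite_invariants hF
  haveI : AddGroup.FG (sUnitsK S F).ρ.invariants := Module.Finite.iff_addGroup_fg.1 inferInstance
  haveI : AddGroup.FG ((sUnitsK S F).ρ.invariants ⧸ pPow S F p) :=
    AddGroup.fg_of_surjective (f := QuotientAddGroup.mk' (pPow S F p))
      (QuotientAddGroup.mk'_surjective _)
  apply Fermat.Agent.GP.GW.E3.RankTrickZ.finite_of_fg_of_forall_torsion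
  intro x
  obtain ⟨a, rfl⟩ := QuotientAddGroup.mk_surjective x
  exact ⟨p, hp.1.pos, nsmul_mk_unitQuot a⟩

/-- `(O_S^×)^{G_F}/p` with `X = g`: helper12's `actQuot`. -/
theorem multVal_red_unit (hF : F.IsUnramifiedOutside S) {g : GQ} (hg : Norm F.fixingSubgroup g)
    [Module (ZMod p) ((sUnitsK S F).ρ.invariants ⧸ pPow S F p)] (f : (ZMod p)[X]) :
    haveI := finite_unitQuot (p := p) hF
    multVal (R := ℤ[X]) (X : ℤ[X]) f (Red (R := ℤ[X]) p (AEval' (unitOp (S := S) hg))) =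
      (multiplicity f ((actQuot S (p := p) hg).toZModLinearMap p).charpoly : ℤ) := by
  haveI := finite_unitQuot (p := p) hF
  have hker : ∀ x : (sUnitsK S F).ρ.invariants,
      QuotientAddGroup.mk' (pPow S F p) x = 0 ↔ ∃ y : (sUnitsK S F).ρ.invariants, p • y = x := by
    intro x
    rw [QuotientAddGroup.mk'_apply, QuotientAddGroup.eq_zero_iff, mem_pPow]
    constructor
    · rintro ⟨b, hb⟩
      exact ⟨b, by rw [← hb, natCast_zsmul]⟩
    · rintro ⟨b, hb⟩
      exact ⟨b, by rw [← hb, natCast_zsmul]⟩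
  rw [multVal_iso (X : ℤ[X]) f (redEquiv (unitOp (S := S) hg)
    (actQuot S (p := p) hg).toIntLinearMap p (QuotientAddGroup.mk' (pPow S F p))
    (QuotientAddGroup.mk'_surjective _) (fun _ => rfl) hker),
    multVal_aeval f ((actQuot S (p := p) hg).toZModLinearMap p)
      (actQuot S (p := p) hg).toIntLinearMap (fun _ => rfl)]

end UnitQuot

/-! ### the `p`-torsion of the unit module -/

section UnitTors

variable {p : ℕ} [hp : Fact p.Prime] {S : Finset Nat.Primes} {F : IntermediateField ℚ Qb}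
  {ζ : Qbˣ} (hζ : IsPrimitiveRoot ζ p) (hζS : ζ ∈ sUnitsQS S) (hζF : ((ζ : Qbˣ) : Qb) ∈ F)

/-- `μ_p → (O_S^×)^{G_F}` (`ζ_p ∈ F`). -/
def muInv : ZMod p →+ (sUnitsK S F).ρ.invariants where
  toFun a := ⟨muAdd hζ hζS a, fun u => smul_muAdd F hζ hζS hζF u a⟩
  map_zero' := Subtype.ext (map_zero _)
  map_add' a b := Subtype.ext (map_add _ a b)

theorem coe_muInv (a : ZMod p) :
    ((muInv hζ hζS hζF a : (sUnitsK S F).ρ.invariants) : sUnitsS S) = muAdd hζ hζS a := rfl

theorem muInv_injective : Function.Injective (muInv (F := F) hζ hζS hζF) := by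
  intro a b h
  exact muAdd_injective hζ hζS (congrArg Subtype.val h)

theorem muInv_range (x : (sUnitsK S F).ρ.invariants) :
    p • x = 0 ↔ ∃ y, muInv hζ hζS hζF y = x := by
  constructor
  · intro hx
    have h1 : sUnitsS.unit S (x.1 : sUnitsS S) ^ p = 1 := by
      rw [← sUnitsS.unit_nsmul]
      have h2 : p • (x.1 : sUnitsS S) = 0 := congrArg Subtype.val hx
      rw [h2]
      rfl
    obtain ⟨y, hy⟩ := exists_muAdd_eq hζ hζS (x.1 : sUnitsS S) h1
    exact ⟨y, Subtype.ext hy⟩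
  · rintro ⟨y, rfl⟩
    apply Subtype.ext
    show p • muAdd hζ hζS y = 0
    rw [← natCast_zsmul]
    exact p_smul_muAdd hζ hζS y

/-- `g` acts on `μ_p` through the cyclotomic character. -/
theorem unitOp_muInv {g : GQ} (hg : Norm F.fixingSubgroup g) (a : ZMod p) :
    unitOp (S := S) hg (muInv hζ hζS hζF a) =
      muInv hζ hζS hζF (((cycloChar p g : (ZMod p)ˣ) : ZMod p) * a) := by
  haveI : NeZero p := ⟨hp.1.ne_zero⟩
  obtain ⟨i, rfl⟩ : ∃ i : ℕ, (i : ZMod p) = a := ⟨a.val, ZMod.natCast_zmod_val a⟩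
  apply Subtype.ext
  apply sUnitsS.unit_injective
  rw [coe_unitOp, coe_muInv, coe_muInv, sUnitsS.unit_ρ, unit_muAdd_natCast]
  have h1 : (((cycloChar p g : (ZMod p)ˣ) : ZMod p) * (i : ZMod p)) =
      ((((cycloChar p g : (ZMod p)ˣ) : ZMod p).val * i : ℕ) : ZMod p) := by
    rw [Nat.cast_mul, ZMod.natCast_zmod_val]
  rw [h1, unit_muAdd_natCast, smul_pow', pow_mul]
  congr 1
  apply Units.ext
  exact Fermat.Agent.GC.Places.cycloChar_spec p g hζ.pow_eq_one

include hζ hζS hζF in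
/-- `(O_S^×)^{G_F}[p] = μ_p` with `X = g` acting by `ψ = χ_cyc(g)`. -/
theorem multVal_tors_unit {g : GQ} (hg : Norm F.fixingSubgroup g) (f : (ZMod p)[X]) :
    multVal (R := ℤ[X]) (X : ℤ[X]) f
        (pTors (R := ℤ[X]) p (AEval' (unitOp (S := S) hg))) =
      (multiplicity f (X - C ((cycloChar p g : (ZMod p)ˣ) : ZMod p)) : ℤ) := by
  have hja : ∀ x : ZMod p, muInv (F := F) hζ hζS hζF
      (((((cycloChar p g : (ZMod p)ˣ) : ZMod p) • (LinearMap.id : ZMod p →ₗ[ZMod p] ZMod p)).restrictScalars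
        ℤ) x) = unitOp (S := S) hg (muInv hζ hζS hζF x) :=
    fun x => (unitOp_muInv hζ hζS hζF hg x).symm
  have e := torsEquiv (unitOp (S := S) hg)
    (((((cycloChar p g : (ZMod p)ˣ) : ZMod p) • (LinearMap.id : ZMod p →ₗ[ZMod p] ZMod p)).restrictScalars
      ℤ)) p (muInv hζ hζS hζF) (muInv_injective hζ hζS hζF) hja (muInv_range hζ hζS hζF)
  have h1 := multVal_iso (X : ℤ[X]) f e
  have h2 := multVal_aeval f
    (((cycloChar p g : (ZMod p)ˣ) : ZMod p) • (LinearMap.id : ZMod p →ₗ[ZMod p] ZMod p))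
    (((((cycloChar p g : (ZMod p)ˣ) : ZMod p) • (LinearMap.id : ZMod p →ₗ[ZMod p] ZMod p)).restrictScalars
      ℤ)) (fun _ => rfl)
  have h3 := charpoly_of_finrank_one (Module.finrank_self (ZMod p))
    (((cycloChar p g : (ZMod p)ˣ) : ZMod p) • (LinearMap.id : ZMod p →ₗ[ZMod p] ZMod p))
    ((cycloChar p g : (ZMod p)ˣ) : ZMod p) (fun x => rfl)
  rw [← h1, h2, h3]

end UnitTors

/-! ### the (UNIT) leaf -/

section Main

variable {p : ℕ} [hp : Fact p.Prime] {S : Finset Nat.Primes} {F : IntermediateField ℚ Qb}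

/-- **(UNIT), characteristic polynomial form, by ROUTE-R** (rank trick), on GC's own objects:
`charpoly (g | (O_S^×)^{G_F}/p) * (X - 1) = (X - C χ_cyc(g)) * charpoly (perm_g | 𝔽_p[places])`. -/
theorem unit_charpoly (hpS : (⟨p, hp.1⟩ : Nat.Primes) ∈ S) (hF : F.IsUnramifiedOutside S)
    [hN : F.fixingSubgroup.Normal] (hχ : ∀ s ∈ F.fixingSubgroup, cycloChar p s = 1)
    {g : GQ} (hg : Norm F.fixingSubgroup g)
    [Module (ZMod p) ((sUnitsK S F).ρ.invariants ⧸ pPow S F p)] :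
    haveI := finite_unitQuot (p := p) hF
    haveI := finiteIndex_fixingSubgroup hF
    ((actQuot S (p := p) hg).toZModLinearMap p).charpoly * (X - 1) =
      (X - C ((cycloChar p g : (ZMod p)ˣ) : ZMod p)) *
        (LinearMap.funLeft (ZMod p) (ZMod p) (tr F.fixingSubgroup (decAt S) g)).charpoly := by
  haveI := finite_unitQuot (p := p) hF
  haveI := finiteIndex_fixingSubgroup hF
  obtain ⟨ζ, hζ, hζF⟩ :=
    Fermat.Agent.GC.C0.exists_primitiveRoot_units_mem_of_cycloChar_eq_one (p := p) F hχ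
  have hζS : ζ ∈ sUnitsQS S := mem_sUnitsQS_of_pow_eq_one hp.1 hpS ζ hζ.pow_eq_one
  refine charpoly_mul_eq_of_multiplicity (LinearMap.charpoly_monic _)
    (by
      have := monic_X_sub_C (1 : ZMod p)
      rwa [C_1] at this)
    (monic_X_sub_C _) (LinearMap.charpoly_monic _) ?_
  intro f _ hfi
  have h := phi_unitR (S := S) (F := F)
    (multVal_isAddFun.{0} ℤ[X] (X : ℤ[X]) p f hfi) hp.1.pos hF hg
  have h4 : multVal (R := ℤ[X]) (X : ℤ[X]) f
      (Red (R := ℤ[X]) p (AEval' (permOp F.fixingSubgroup (decAt S) g))) =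
      (multiplicity f (LinearMap.funLeft (ZMod p) (ZMod p)
        (tr F.fixingSubgroup (decAt S) g)).charpoly : ℤ) :=
    multVal_red_fun p (tr F.fixingSubgroup (decAt S) g) f
  have h1 := multVal_red_unit (p := p) hF hg f
  have h2 := multVal_red_int p f
  have h3 := multVal_tors_unit hζ hζS hζF hg f
  have key := (congrArg₂ (· + ·) h1 h2).symm.trans (h.trans (congrArg₂ (· + ·) h3 h4))
  apply Nat.cast_injective (R := ℤ)
  rw [Nat.cast_add, Nat.cast_add]
  exact key

end Main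

end Fermat.Agent.GP.GW.E3.UnitR
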