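/-
GATE-P (S56) / [P-GW] R1 line, (UNITq) by ROUTE-R, LHS transport (helper66):
helper69's `UnitR.unit_charpoly` (a polynomial identity for the action of `n` on `(O_T^×)^{G_F}/p`,
GC's own objects) transported along helper12's Kummer isomorphism `kappaStar`
(`StarBridge.kappaStar_act`) to the `𝔽_p[C]`-module `hlcStarRep (levelS T) A 1` of (KEY-CP):

  `cp([n] | Hlc¹(W_A)) * (X - 1) = (X - C χ_cyc(n)) * cp(f ↦ f ∘ tr n)`,

`tr n` the right translation on the double cosets `Σ_{v : Option T} D_v \ G_ℚ / G_F`.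
No `NumberField` / `Normal ℚ F` / `ζ` bookkeeping on this route.
-/
import Fermat.Agent.GP.GW.E3.UnitRCharpoly
import Fermat.Agent.GP.GW.Euler.StarBridge
import Fermat.Agent.GP.GW.E3.BaseQ

set_option autoImplicit false

open CategoryTheory Polynomial Module

noncomputable section

namespace Fermat.Agent.GP.GW.E3.UnitRLhs

open Fermat.Agent.GC.Prof Fermat.Agent.GC.C0 Fermat.Agent.GC.Places Fermat.Agent.GC.KumH
  Fermat.Agent.GP.GW.E3 Fermat.Agent.GP.GW.E3.NormPair Fermat.Agent.GP.GW.E3.Mackey
  Fermat.Agent.GP.GW.E3.UnitR Fermat.Agent.GP.GW.Euler.StarRes Fermat.Agent.GP.GW.Euler.KumQuot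
  Fermat.Agent.GP.GW.Euler.StarBridge ExtCitation

local notation "Qb" => AlgebraicClosure ℚ
local notation "GQ" => (AlgebraicClosure ℚ ≃ₐ[ℚ] AlgebraicClosure ℚ)

/-! ### Linear algebra: conjugation along an additive equivalence -/

/-- an additive endomorphism of a `ZMod p`-module has the characteristic polynomial of any
`ZMod p`-linear endomorphism conjugate to it along an ADDITIVE equivalence -/
theorem charpoly_toZModLinearMap_of_addEquiv {p : ℕ} [Fact p.Prime] {V W : Type*}
    [AddCommGroup V] [Module (ZMod p) V] [AddCommGroup W] [Module (ZMod p) W]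
    [Module.Finite (ZMod p) V] [Module.Finite (ZMod p) W]
    (e : V ≃+ W) (f : V →+ V) (g : W →ₗ[ZMod p] W) (h : ∀ x, e (f x) = g (e x)) :
    (f.toZModLinearMap p).charpoly = g.charpoly := by
  let eL : V ≃ₗ[ZMod p] W :=
    { e with map_smul' := fun c x => ZMod.map_smul e.toAddMonoidHom c x }
  have hconj : eL.conj (f.toZModLinearMap p) = g := by
    apply LinearMap.ext
    intro w
    rw [LinearEquiv.conj_apply_apply]
    show e (f (eL.symm w)) = g w
    rw [h]
    congr 1
    exact eL.apply_symm_apply w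
  rw [← hconj, LinearEquiv.charpoly_conj]

/-! ### The transport -/

section Main

variable (T : Finset Nat.Primes) {p : ℕ} [hp : Fact p.Prime] (F : IntermediateField ℚ Qb)
  [F.fixingSubgroup.Normal] (hpT : (⟨p, hp.1⟩ : Nat.Primes) ∈ T)
  (hχ : ∀ g ∈ F.fixingSubgroup, cycloChar p g = 1) (hFT : F.IsUnramifiedOutside T)
  (hX : ∀ x : Hlc (levelK T F) (sUnitsK T F) 1, x = 0)
  (H : Subgroup GQ) (hUH : F.fixingSubgroup ≤ H)

/-- the `ZMod p`-module structure on `(O_T^×)^{G_F}/p` -/
abbrev unitQuotModule : Module (ZMod p) ((sUnitsK T F).ρ.invariants ⧸ pPow T F p) :=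
  AddCommGroup.zmodModule (n := p) (fun x => by
    obtain ⟨a, rfl⟩ := QuotientAddGroup.mk_surjective x
    exact nsmul_mk_unitQuot a)

include hpT hFT hX in
/-- **(K1) on the ROUTE-R object**: `[n]` on `Hlc¹(W_A)` and `n` on `(O_T^×)^{G_F}/p` have the same
characteristic polynomial. -/
theorem charpoly_hlcStar_one_actQuot (n : (normPairQ F.fixingSubgroup H hUH).H)
    [IsDiscrete (levelS T) ((normPairQ F.fixingSubgroup H hUH).big
      ((normPairQ F.fixingSubgroup H hUH).chiRes (cycloChar p)))]
    [FiniteDimensional (ZMod p) (hlcStarRep (levelS T)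
      ((normPairQ F.fixingSubgroup H hUH).chiRes (cycloChar p)) 1)]
    [Module (ZMod p) ((sUnitsK T F).ρ.invariants ⧸ pPow T F p)] :
    haveI := finite_unitQuot (p := p) hFT
    ((hlcStarRep (levelS T) ((normPairQ F.fixingSubgroup H hUH).chiRes (cycloChar p)) 1).ρ
        (QuotientGroup.mk n : (normPairQ F.fixingSubgroup H hUH).C)).charpoly =
      ((actQuot T (p := p) (norm_coe (normPairQ F.fixingSubgroup H hUH) n)).toZModLinearMap
        p).charpoly := by
  have := finite_unitQuot (p := p) hFT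
  have hcm := (normPairQ F.fixingSubgroup H hUH).conj_mem
  exact (charpoly_toZModLinearMap_of_addEquiv
    (W := hlcStarRep (levelS T) ((normPairQ F.fixingSubgroup H hUH).chiRes (cycloChar p)) 1)
    (kappaStar T F hpT hFT H hUH hcm hX)
    (actQuot T (p := p) (norm_coe (normPairQ F.fixingSubgroup H hUH) n))
    ((hlcStarRep (levelS T) ((normPairQ F.fixingSubgroup H hUH).chiRes (cycloChar p)) 1).ρ
        (QuotientGroup.mk n : (normPairQ F.fixingSubgroup H hUH).C))
    (fun x => kappaStar_act T F hpT hFT H hUH hcm hX n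
      (norm_coe (normPairQ F.fixingSubgroup H hUH) n) x)).symm

include hpT hχ hFT hX in
/-- **(UNITq) by ROUTE-R, LHS transported**:
`cp([n] | Hlc¹(W_A)) * (X - 1) = (X - C χ_cyc(n)) * cp(f ↦ f ∘ tr n)`. -/
theorem unitq_routeR (n : (normPairQ F.fixingSubgroup H hUH).H)
    [IsDiscrete (levelS T) ((normPairQ F.fixingSubgroup H hUH).big
      ((normPairQ F.fixingSubgroup H hUH).chiRes (cycloChar p)))]
    [FiniteDimensional (ZMod p) (hlcStarRep (levelS T)
      ((normPairQ F.fixingSubgroup H hUH).chiRes (cycloChar p)) 1)] :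
    haveI := finiteIndex_fixingSubgroup hFT
    ((hlcStarRep (levelS T) ((normPairQ F.fixingSubgroup H hUH).chiRes (cycloChar p)) 1).ρ
        (QuotientGroup.mk n : (normPairQ F.fixingSubgroup H hUH).C)).charpoly * (X - 1) =
      (X - C ((cycloChar p (n : GQ) : (ZMod p)ˣ) : ZMod p)) *
        (LinearMap.funLeft (ZMod p) (ZMod p)
          (tr F.fixingSubgroup (decAt T) (n : GQ))).charpoly := by
  let _ := unitQuotModule T (p := p) F
  rw [charpoly_hlcStar_one_actQuot T F hpT hFT hX H hUH n]
  exact unit_charpoly hpT hFT hχ (norm_coe (normPairQ F.fixingSubgroup H hUH) n)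

end Main

end Fermat.Agent.GP.GW.E3.UnitRLhs
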